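import Mathlib

/-!
# S05 helper: elementary facts about valuation subrings phrased with membership
-/

namespace Fermat.Agent.S05.K56

variable {K : Type*} [Field K] (A : ValuationSubring K)

lemma nonunits_mul_mem {t a : K} (ht : t ∈ A.nonunits) (ha : a ∈ A) : t * a ∈ A.nonunits := by
  rw [A.mem_nonunits_iff] at ht ⊢
  rw [map_mul]
  have h1 : A.valuation a ≤ 1 := (A.valuation_le_one_iff a).mpr ha
  calc A.valuation t * A.valuation a ≤ A.valuation t * 1 := by gcongr
    _ = A.valuation t := mul_one _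
    _ < 1 := ht

lemma mem_mul_nonunits {t a : K} (ha : a ∈ A) (ht : t ∈ A.nonunits) : a * t ∈ A.nonunits := by
  rw [mul_comm]; exact nonunits_mul_mem A ht ha

lemma mem_of_mem_nonunits {t : K} (ht : t ∈ A.nonunits) : t ∈ A := by
  rw [A.mem_nonunits_iff] at ht
  exact (A.valuation_le_one_iff t).mp ht.le

lemma nonunits_add_mem {s t : K} (hs : s ∈ A.nonunits) (ht : t ∈ A.nonunits) :
    s + t ∈ A.nonunits := by
  rw [A.mem_nonunits_iff] at hs ht ⊢
  exact lt_of_le_of_lt (A.valuation.map_add_le_max' s t) (max_lt hs ht)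

lemma nonunits_neg_mem {t : K} (ht : t ∈ A.nonunits) : -t ∈ A.nonunits := by
  rw [A.mem_nonunits_iff] at ht ⊢
  rwa [Valuation.map_neg]

lemma zero_mem_nonunits : (0 : K) ∈ A.nonunits := by
  rw [A.mem_nonunits_iff, map_zero]; exact zero_lt_one

lemma one_not_mem_nonunits : (1 : K) ∉ A.nonunits := by
  rw [A.mem_nonunits_iff, map_one]; exact lt_irrefl _

lemma nonunits_pow_mem {t : K} (ht : t ∈ A.nonunits) {n : ℕ} (hn : n ≠ 0) :
    t ^ n ∈ A.nonunits := by
  obtain ⟨m, rfl⟩ := Nat.exists_eq_succ_of_ne_zero hn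
  rw [pow_succ']
  exact nonunits_mul_mem A ht (pow_mem (mem_of_mem_nonunits A ht) m)

/-- `1 - m` is a unit of `A` for `m` in the maximal ideal. -/
lemma valuation_one_sub {m : K} (hm : m ∈ A.nonunits) : A.valuation (1 - m) = 1 := by
  rw [A.mem_nonunits_iff] at hm
  have := A.valuation.map_sub_eq_of_lt_left (x := 1) (y := m) (by rwa [map_one])
  rw [this, map_one]

lemma one_sub_ne_zero {m : K} (hm : m ∈ A.nonunits) : 1 - m ≠ 0 := by
  intro h
  have := valuation_one_sub A hm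
  rw [h, map_zero] at this
  exact zero_ne_one this

lemma inv_one_sub_mem {m : K} (hm : m ∈ A.nonunits) : (1 - m)⁻¹ ∈ A := by
  rw [← A.valuation_le_one_iff, map_inv₀, valuation_one_sub A hm, inv_one]

lemma one_sub_mem {m : K} (hm : m ∈ A.nonunits) : 1 - m ∈ A :=
  sub_mem (one_mem _) (mem_of_mem_nonunits A hm)

/-- If `x ∉ A` then `x⁻¹` lies in the maximal ideal. -/
lemma inv_mem_nonunits_of_not_mem {x : K} (hx : x ∉ A) : x⁻¹ ∈ A.nonunits := by
  rw [A.mem_nonunits_iff, map_inv₀]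
  rw [← A.valuation_le_one_iff, not_le] at hx
  exact inv_lt_one_of_one_lt₀ hx

lemma ne_zero_of_not_mem {x : K} (hx : x ∉ A) : x ≠ 0 := by
  rintro rfl; exact hx (zero_mem _)

/-- If `x⁻¹` lies in the maximal ideal and `x ≠ 0`, then `x ∉ A`. -/
lemma not_mem_of_inv_mem_nonunits {x : K} (h0 : x ≠ 0) (hx : x⁻¹ ∈ A.nonunits) : x ∉ A := by
  intro h
  have h1 := mem_mul_nonunits A h hx
  rw [mul_inv_cancel₀ h0] at h1
  exact one_not_mem_nonunits A h1

end Fermat.Agent.S05.K56
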