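import Mathlib

/-!
# S05 helper: three collinear points of a Weierstrass curve sum to zero

`Fermat.Agent.S05.add_eq_neg_of_collinear`: if two nonsingular affine points lie on the
non-vertical line `y = ℓ x + μ` and `x₃` is the third root of the restriction of the cubic to this
line (expressed by the two Vieta relations), then `P₁ + P₂ = -(x₃, ℓ x₃ + μ)`.
-/

namespace Fermat.Agent.S05.K56

open WeierstrassCurve WeierstrassCurve.Affine

variable {K : Type*} [Field K] [DecidableEq K]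

theorem add_eq_neg_of_collinear (W : Affine K) {x₁ y₁ x₂ y₂ x₃ ℓ μ : K}
    (h₁ : W.Nonsingular x₁ y₁) (h₂ : W.Nonsingular x₂ y₂)
    (hy₁ : y₁ = ℓ * x₁ + μ) (hy₂ : y₂ = ℓ * x₂ + μ)
    (hS1 : x₁ + x₂ + x₃ = ℓ ^ 2 + W.a₁ * ℓ - W.a₂)
    (hS2 : x₁ * x₂ + x₁ * x₃ + x₂ * x₃ = W.a₄ - 2 * ℓ * μ - W.a₁ * μ - W.a₃ * ℓ) :
    ∃ h₃ : W.Nonsingular x₃ (ℓ * x₃ + μ),
      Point.some x₁ y₁ h₁ + Point.some x₂ y₂ h₂ = -Point.some x₃ (ℓ * x₃ + μ) h₃ := by
  -- the slope of the line through the two points is `ℓ`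
  have hne : ¬(x₁ = x₂ ∧ y₁ = W.negY x₂ y₂) := by
    rintro ⟨hx, hy⟩
    subst hx
    have hyy : y₁ = y₂ := by rw [hy₁, hy₂]
    subst hyy
    -- the point is 2-torsion and the line is tangent: contradiction with nonsingularity
    have h2 : 2 * y₁ + W.a₁ * x₁ + W.a₃ = 0 := by
      simp only [negY] at hy
      linear_combination hy
    rw [nonsingular_iff] at h₁
    obtain ⟨-, h | h⟩ := h₁
    · apply h
      have hμ : μ = y₁ - ℓ * x₁ := by linear_combination -hy₁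
      subst hμ
      linear_combination hS2 - 2 * x₁ * hS1 - ℓ * h2
    · exact h (by linear_combination h2)
  have hslope : W.slope x₁ x₂ y₁ y₂ = ℓ := by
    by_cases hx : x₁ = x₂
    · subst hx
      have hyy : y₁ = y₂ := by rw [hy₁, hy₂]
      subst hyy
      have hy : y₁ ≠ W.negY x₁ y₁ := fun h => hne ⟨rfl, h⟩
      rw [slope_of_Y_ne rfl hy]
      have hd : y₁ - W.negY x₁ y₁ ≠ 0 := sub_ne_zero.mpr hy
      rw [div_eq_iff hd]
      simp only [negY]
      have hμ : μ = y₁ - ℓ * x₁ := by linear_combination -hy₁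
      subst hμ
      linear_combination -hS2 + 2 * x₁ * hS1
    · rw [slope_of_X_ne hx]
      have hd : x₁ - x₂ ≠ 0 := sub_ne_zero.mpr hx
      rw [div_eq_iff hd, hy₁, hy₂]
      ring
  have hX : W.addX x₁ x₂ (W.slope x₁ x₂ y₁ y₂) = x₃ := by
    rw [hslope, addX]
    linear_combination -hS1
  have hY : W.negAddY x₁ x₂ y₁ (W.slope x₁ x₂ y₁ y₂) = ℓ * x₃ + μ := by
    rw [negAddY, hX, hslope, hy₁]
    ring
  have h₃ := nonsingular_negAdd h₁ h₂ hne
  rw [hX, hY] at h₃
  refine ⟨h₃, ?_⟩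
  rw [Point.add_some hne, Point.neg_some]
  simp only [Point.some.injEq]
  refine ⟨hX, ?_⟩
  rw [addY, hX, hY]

end Fermat.Agent.S05.K56
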