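import Mathlib
import Fermat.Agent.S05.K56Collinear

/-!
# S05 helper: the group law of a Weierstrass curve in the `(z, w) = (-x/y, -1/y)` chart

Pure field identities (no valuations).
-/

namespace Fermat.Agent.S05.K56

open WeierstrassCurve WeierstrassCurve.Affine

variable {K : Type*} [Field K]

/-- The right hand side of the Weierstrass equation `w = f(z, w)` in the chart at infinity. -/
def fzw (W : Affine K) (z w : K) : K :=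
  z ^ 3 + W.a₁ * z * w + W.a₂ * z ^ 2 * w + W.a₃ * w ^ 2 + W.a₄ * z * w ^ 2 + W.a₆ * w ^ 3

/-- Coefficients of the cubic `f(Z, Λ Z + ν) - (Λ Z + ν) = c₃ Z³ + c₂ Z² + c₁ Z + c₀`. -/
def zc3 (W : Affine K) (Λ : K) : K := 1 + W.a₂ * Λ + W.a₄ * Λ ^ 2 + W.a₆ * Λ ^ 3

def zc2 (W : Affine K) (Λ ν : K) : K :=
  W.a₁ * Λ + W.a₂ * ν + W.a₃ * Λ ^ 2 + 2 * W.a₄ * Λ * ν + 3 * W.a₆ * Λ ^ 2 * ν

def zc1 (W : Affine K) (Λ ν : K) : K :=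
  W.a₁ * ν + 2 * W.a₃ * Λ * ν + W.a₄ * ν ^ 2 + 3 * W.a₆ * Λ * ν ^ 2 - Λ

def zc0 (W : Affine K) (ν : K) : K := W.a₃ * ν ^ 2 + W.a₆ * ν ^ 3 - ν

/-- Numerator of the slope of the chord/tangent in the `(z, w)`-chart. -/
def zg1 (W : Affine K) (z₁ z₂ w₂ : K) : K :=
  z₂ ^ 2 + z₁ * z₂ + z₁ ^ 2 + W.a₁ * w₂ + W.a₂ * (z₂ + z₁) * w₂ + W.a₄ * w₂ ^ 2

/-- One minus the denominator of the slope of the chord/tangent in the `(z, w)`-chart. -/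
def zg2 (W : Affine K) (z₁ w₁ w₂ : K) : K :=
  W.a₁ * z₁ + W.a₂ * z₁ ^ 2 + W.a₃ * (w₂ + w₁) + W.a₄ * z₁ * (w₂ + w₁) +
    W.a₆ * (w₂ ^ 2 + w₂ * w₁ + w₁ ^ 2)

lemma fzw_sub (W : Affine K) (z₁ w₁ z₂ w₂ : K) :
    fzw W z₂ w₂ - fzw W z₁ w₁ = (z₂ - z₁) * zg1 W z₁ z₂ w₂ + (w₂ - w₁) * zg2 W z₁ w₁ w₂ := by
  simp only [fzw, zg1, zg2]; ring

lemma chord_eq (W : Affine K) {z₁ w₁ z₂ w₂ : K} (E₁ : w₁ = fzw W z₁ w₁) (E₂ : w₂ = fzw W z₂ w₂) :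
    (w₂ - w₁) * (1 - zg2 W z₁ w₁ w₂) = (z₂ - z₁) * zg1 W z₁ z₂ w₂ := by
  have := fzw_sub W z₁ w₁ z₂ w₂
  linear_combination this + E₂ - E₁

/-- The cubic restricted to the line, expanded. -/
lemma cubic_expand (W : Affine K) (Λ ν Z : K) :
    fzw W Z (Λ * Z + ν) - (Λ * Z + ν) =
      zc3 W Λ * Z ^ 3 + zc2 W Λ ν * Z ^ 2 + zc1 W Λ ν * Z + zc0 W ν := by
  simp only [fzw, zc3, zc2, zc1, zc0]; ring

/-- Synthetic division of the cubic by `Z - z₁`, evaluated at `z₂`, in terms of the slope data. -/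
lemma quot_eq (W : Affine K) (Λ ν z₁ z₂ : K) :
    zc3 W Λ * (z₂ ^ 2 + z₂ * z₁ + z₁ ^ 2) + zc2 W Λ ν * (z₂ + z₁) + zc1 W Λ ν =
      zg1 W z₁ z₂ (Λ * z₂ + ν) + Λ * zg2 W z₁ (Λ * z₁ + ν) (Λ * z₂ + ν) - Λ := by
  simp only [zc3, zc2, zc1, zg1, zg2]; ring

section vieta

variable (W : Affine K) {z₁ w₁ z₂ w₂ Λ ν z₃ : K}

/-- Second Vieta relation. -/
lemma vieta2 (hw₁ : w₁ = Λ * z₁ + ν) (hw₂ : w₂ = Λ * z₂ + ν)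
    (hΛ : Λ * (1 - zg2 W z₁ w₁ w₂) = zg1 W z₁ z₂ w₂)
    (hV1 : zc3 W Λ * (z₁ + z₂ + z₃) = -zc2 W Λ ν) :
    zc3 W Λ * (z₁ * z₂ + z₁ * z₃ + z₂ * z₃) = zc1 W Λ ν := by
  have hq := quot_eq W Λ ν z₁ z₂
  rw [← hw₁, ← hw₂] at hq
  linear_combination (z₁ + z₂) * hV1 - hq + hΛ

/-- Third Vieta relation. -/
lemma vieta3 (E₁ : w₁ = fzw W z₁ w₁) (hw₁ : w₁ = Λ * z₁ + ν) (hw₂ : w₂ = Λ * z₂ + ν)
    (hΛ : Λ * (1 - zg2 W z₁ w₁ w₂) = zg1 W z₁ z₂ w₂)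
    (hV1 : zc3 W Λ * (z₁ + z₂ + z₃) = -zc2 W Λ ν) :
    zc3 W Λ * (z₁ * z₂ * z₃) = -zc0 W ν := by
  have hV2 := vieta2 W hw₁ hw₂ hΛ hV1
  have hc := cubic_expand W Λ ν z₁
  rw [← hw₁] at hc
  linear_combination -(z₁ ^ 2 * hV1) + z₁ * hV2 - hc - E₁

/-- Product formula `c₃ w₁ w₂ w₃ = ν³`. -/
lemma prod_w (hV1 : zc3 W Λ * (z₁ + z₂ + z₃) = -zc2 W Λ ν)
    (hV2 : zc3 W Λ * (z₁ * z₂ + z₁ * z₃ + z₂ * z₃) = zc1 W Λ ν)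
    (hV3 : zc3 W Λ * (z₁ * z₂ * z₃) = -zc0 W ν) :
    zc3 W Λ * ((Λ * z₁ + ν) * (Λ * z₂ + ν) * (Λ * z₃ + ν)) = ν ^ 3 := by
  simp only [zc3, zc2, zc1, zc0] at *
  linear_combination Λ ^ 3 * hV3 + Λ ^ 2 * ν * hV2 + Λ * ν ^ 2 * hV1

/-- The third root lies on the curve. -/
lemma third_on_curve (hV1 : zc3 W Λ * (z₁ + z₂ + z₃) = -zc2 W Λ ν)
    (hV2 : zc3 W Λ * (z₁ * z₂ + z₁ * z₃ + z₂ * z₃) = zc1 W Λ ν)
    (hV3 : zc3 W Λ * (z₁ * z₂ * z₃) = -zc0 W ν) :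
    Λ * z₃ + ν = fzw W z₃ (Λ * z₃ + ν) := by
  have hc := cubic_expand W Λ ν z₃
  linear_combination -hc - z₃ ^ 2 * hV1 + z₃ * hV2 - hV3

/-- Polynomial form of the first Vieta relation in the `(x, y)`-chart. -/
lemma sum_x_poly (hV1 : zc3 W Λ * (z₁ + z₂ + z₃) = -zc2 W Λ ν)
    (hV2 : zc3 W Λ * (z₁ * z₂ + z₁ * z₃ + z₂ * z₃) = zc1 W Λ ν)
    (hV3 : zc3 W Λ * (z₁ * z₂ * z₃) = -zc0 W ν) :
    zc3 W Λ * (z₁ * (Λ * z₂ + ν) * (Λ * z₃ + ν) + z₂ * (Λ * z₁ + ν) * (Λ * z₃ + ν) +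
        z₃ * (Λ * z₁ + ν) * (Λ * z₂ + ν)) = ν * (Λ ^ 2 + W.a₁ * Λ * ν - W.a₂ * ν ^ 2) := by
  simp only [zc3, zc2, zc1, zc0] at *
  linear_combination 3 * Λ ^ 2 * hV3 + 2 * Λ * ν * hV2 + ν ^ 2 * hV1

/-- Polynomial form of the second Vieta relation in the `(x, y)`-chart. -/
lemma sum_xx_poly (hV2 : zc3 W Λ * (z₁ * z₂ + z₁ * z₃ + z₂ * z₃) = zc1 W Λ ν)
    (hV3 : zc3 W Λ * (z₁ * z₂ * z₃) = -zc0 W ν) :
    zc3 W Λ * (z₁ * z₂ * (Λ * z₃ + ν) + z₁ * z₃ * (Λ * z₂ + ν) + z₂ * z₃ * (Λ * z₁ + ν)) =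
      ν * (2 * Λ + W.a₁ * ν - W.a₃ * Λ * ν + W.a₄ * ν ^ 2) := by
  simp only [zc3, zc1, zc0] at *
  linear_combination 3 * Λ * hV3 + ν * hV2

end vieta

section point

variable (W : Affine K)

/-- The Weierstrass equation in the chart `(z, w) = (-x / y, -1 / y)`. -/
lemma fzw_of_equation {z w : K} (hw : w ≠ 0) (h : W.Equation (z / w) (-1 / w)) :
    w = fzw W z w := by
  rw [equation_iff] at h
  simp only [fzw]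
  field_simp at h
  linear_combination h

/-- Converse of `fzw_of_equation`. -/
lemma equation_of_fzw {z w : K} (hw : w ≠ 0) (h : w = fzw W z w) :
    W.Equation (z / w) (-1 / w) := by
  rw [equation_iff]
  simp only [fzw] at h
  field_simp
  linear_combination h

/-- **Chord-tangent law in the chart at infinity, generic case.**  If two affine points have
`(z, w)`-coordinates on the line `w = Λ z + ν` with `ν ≠ 0` (and `Λ` is the chord/tangent slope),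
then their sum is the negative of the point whose `z`-coordinate is the third root `z₃`. -/
theorem add_eq_neg_third [DecidableEq K] {x₁ y₁ x₂ y₂ z₁ w₁ z₂ w₂ Λ ν z₃ : K}
    (h₁ : W.Nonsingular x₁ y₁) (h₂ : W.Nonsingular x₂ y₂)
    (hw₁0 : w₁ ≠ 0) (hw₂0 : w₂ ≠ 0)
    (hx₁ : x₁ = z₁ / w₁) (hy₁ : y₁ = -1 / w₁) (hx₂ : x₂ = z₂ / w₂) (hy₂ : y₂ = -1 / w₂)
    (hw₁ : w₁ = Λ * z₁ + ν) (hw₂ : w₂ = Λ * z₂ + ν)
    (hΛ : Λ * (1 - zg2 W z₁ w₁ w₂) = zg1 W z₁ z₂ w₂)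
    (hν : ν ≠ 0)
    (hV1 : zc3 W Λ * (z₁ + z₂ + z₃) = -zc2 W Λ ν) :
    Λ * z₃ + ν ≠ 0 ∧ Λ * z₃ + ν = fzw W z₃ (Λ * z₃ + ν) ∧
    ∃ (x₃ y₃ : K) (h₃ : W.Nonsingular x₃ y₃), x₃ = z₃ / (Λ * z₃ + ν) ∧ y₃ = -1 / (Λ * z₃ + ν) ∧
      Point.some x₁ y₁ h₁ + Point.some x₂ y₂ h₂ = -Point.some x₃ y₃ h₃ := by
  have E₁ : w₁ = fzw W z₁ w₁ := fzw_of_equation W hw₁0 (by rw [← hx₁, ← hy₁]; exact h₁.1)
  have hV2 := vieta2 W hw₁ hw₂ hΛ hV1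
  have hV3 := vieta3 W E₁ hw₁ hw₂ hΛ hV1
  have hprod := prod_w W hV1 hV2 hV3
  have hw₃0 : Λ * z₃ + ν ≠ 0 := by
    intro h0
    rw [h0, mul_zero, mul_zero] at hprod
    exact pow_ne_zero 3 hν hprod.symm
  refine ⟨hw₃0, third_on_curve W hV1 hV2 hV3, ?_⟩
  have hS1p := sum_x_poly W hV1 hV2 hV3
  have hS2p := sum_xx_poly W hV2 hV3
  rw [← hw₁, ← hw₂] at hS1p hS2p hprod
  obtain ⟨w₃, hw₃⟩ : ∃ w₃, w₃ = Λ * z₃ + ν := ⟨_, rfl⟩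
  rw [← hw₃] at hS1p hS2p hprod hw₃0 ⊢
  have hl₁ : y₁ = Λ / ν * x₁ + -1 / ν := by
    rw [hx₁, hy₁]; field_simp; linear_combination hw₁
  have hl₂ : y₂ = Λ / ν * x₂ + -1 / ν := by
    rw [hx₂, hy₂]; field_simp; linear_combination hw₂
  have hν3 : ν ^ 3 ≠ 0 := pow_ne_zero 3 hν
  have e₁ : z₁ / w₁ = zc3 W Λ * (z₁ * w₂ * w₃) / ν ^ 3 := by
    rw [div_eq_div_iff hw₁0 hν3]; linear_combination (-z₁) * hprod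
  have e₂ : z₂ / w₂ = zc3 W Λ * (z₂ * w₁ * w₃) / ν ^ 3 := by
    rw [div_eq_div_iff hw₂0 hν3]; linear_combination (-z₂) * hprod
  have e₃ : z₃ / w₃ = zc3 W Λ * (z₃ * w₁ * w₂) / ν ^ 3 := by
    rw [div_eq_div_iff hw₃0 hν3]; linear_combination (-z₃) * hprod
  have f₁₂ : z₁ / w₁ * (z₂ / w₂) = zc3 W Λ * (z₁ * z₂ * w₃) / ν ^ 3 := by
    rw [div_mul_div_comm, div_eq_div_iff (mul_ne_zero hw₁0 hw₂0) hν3]
    linear_combination (-(z₁ * z₂)) * hprod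
  have f₁₃ : z₁ / w₁ * (z₃ / w₃) = zc3 W Λ * (z₁ * z₃ * w₂) / ν ^ 3 := by
    rw [div_mul_div_comm, div_eq_div_iff (mul_ne_zero hw₁0 hw₃0) hν3]
    linear_combination (-(z₁ * z₃)) * hprod
  have f₂₃ : z₂ / w₂ * (z₃ / w₃) = zc3 W Λ * (z₂ * z₃ * w₁) / ν ^ 3 := by
    rw [div_mul_div_comm, div_eq_div_iff (mul_ne_zero hw₂0 hw₃0) hν3]
    linear_combination (-(z₂ * z₃)) * hprod
  have hS1 : x₁ + x₂ + z₃ / w₃ = (Λ / ν) ^ 2 + W.a₁ * (Λ / ν) - W.a₂ := by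
    rw [hx₁, hx₂, e₁, e₂, e₃, ← add_div, ← add_div, ← mul_add, ← mul_add, hS1p]
    field_simp
  have hS2 : x₁ * x₂ + x₁ * (z₃ / w₃) + x₂ * (z₃ / w₃) =
      W.a₄ - 2 * (Λ / ν) * (-1 / ν) - W.a₁ * (-1 / ν) - W.a₃ * (Λ / ν) := by
    rw [hx₁, hx₂, f₁₂, f₁₃, f₂₃, ← add_div, ← add_div, ← mul_add, ← mul_add, hS2p]
    field_simp
    ring
  obtain ⟨h₃, hadd⟩ := add_eq_neg_of_collinear W h₁ h₂ hl₁ hl₂ hS1 hS2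
  refine ⟨z₃ / w₃, Λ / ν * (z₃ / w₃) + -1 / ν, h₃, rfl, ?_, hadd⟩
  field_simp
  linear_combination -hw₃

/-- **Chord-tangent law in the chart at infinity, vertical case.**  If two affine points have
`(z, w)`-coordinates on a line `w = Λ z` through the origin, then they are opposite. -/
theorem add_eq_zero_of_line_through_origin [DecidableEq K] {x₁ y₁ x₂ y₂ z₁ w₁ z₂ w₂ Λ : K}
    (h₁ : W.Nonsingular x₁ y₁) (h₂ : W.Nonsingular x₂ y₂)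
    (hw₁0 : w₁ ≠ 0) (hw₂0 : w₂ ≠ 0)
    (hx₁ : x₁ = z₁ / w₁) (hy₁ : y₁ = -1 / w₁) (hx₂ : x₂ = z₂ / w₂) (hy₂ : y₂ = -1 / w₂)
    (hw₁ : w₁ = Λ * z₁) (hw₂ : w₂ = Λ * z₂)
    (hΛ : Λ * (1 - zg2 W z₁ w₁ w₂) = zg1 W z₁ z₂ w₂) :
    zc3 W Λ * (z₁ + z₂) = -zc2 W Λ 0 ∧
      Point.some x₁ y₁ h₁ + Point.some x₂ y₂ h₂ = 0 := by
  have E₁ : w₁ = fzw W z₁ w₁ := fzw_of_equation W hw₁0 (by rw [← hx₁, ← hy₁]; exact h₁.1)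
  have hΛ0 : Λ ≠ 0 := by rintro rfl; rw [zero_mul] at hw₁; exact hw₁0 hw₁
  have hz₁ : z₁ ≠ 0 := by rintro rfl; rw [mul_zero] at hw₁; exact hw₁0 hw₁
  have hz₂ : z₂ ≠ 0 := by rintro rfl; rw [mul_zero] at hw₂; exact hw₂0 hw₂
  have hq := quot_eq W Λ 0 z₁ z₂
  have hc := cubic_expand W Λ 0 z₁
  simp only [add_zero] at hq hc
  rw [← hw₁, ← hw₂] at hq
  rw [← hw₁] at hc
  have hc0 : zc0 W 0 = 0 := by simp [zc0]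
  have hA : zc3 W Λ * z₁ ^ 2 + zc2 W Λ 0 * z₁ + zc1 W Λ 0 = 0 := by
    apply mul_left_cancel₀ hz₁
    linear_combination -hc - E₁ - hc0
  have hV1 : zc3 W Λ * (z₁ + z₂) = -zc2 W Λ 0 := by
    apply mul_left_cancel₀ hz₂
    linear_combination hq - hΛ - hA
  refine ⟨hV1, ?_⟩
  have hV2 : zc3 W Λ * (z₁ * z₂) = zc1 W Λ 0 := by
    linear_combination z₁ * hV1 - hA
  have hc1 : zc1 W Λ 0 = -Λ := by simp [zc1]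
  have hc2 : zc2 W Λ 0 = W.a₁ * Λ + W.a₃ * Λ ^ 2 := by simp [zc2]
  rw [hc1] at hV2
  rw [hc2] at hV1
  have hc3 : zc3 W Λ ≠ 0 := by
    intro h0; rw [h0, zero_mul] at hV2; exact hΛ0 (by linear_combination hV2)
  have hxx : x₁ = x₂ := by
    rw [hx₁, hx₂, hw₁, hw₂]; field_simp
  apply Point.add_of_Y_eq hxx
  rw [negY, hy₁, hy₂, hx₂, hw₁, hw₂]
  field_simp
  apply mul_left_cancel₀ hc3
  linear_combination -hV1 + (W.a₁ + W.a₃ * Λ) * hV2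

end point

end Fermat.Agent.S05.K56
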