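import Mathlib
import Fermat.Agent.S05.K56ValBasic
import Fermat.Agent.S05.K56ZW

/-!
# S05 helper: the kernel of reduction of an integral Weierstrass model has no torsion of
order a unit

For a valuation subring `A` of a field `K` and a Weierstrass curve `W` over `K` with
coefficients in `A`, the set `E₁ = {O} ∪ {(x, y) : x ∉ A}` is a subgroup of `W.Point`
(`inE1_zero`, `inE1_neg`, `inE1_add`) and has no nonzero point killed by a natural number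
which is a unit of `A` (`eq_zero_of_nsmul_eq_zero_of_inE1`).

The proof is the classical one through the chart `(z, w) = (-x / y, -1 / y)` at infinity, made
completely explicit: `z(P₁ + P₂) ≡ z(P₁) + z(P₂)` modulo `t ^ 2` whenever `z(P₁), z(P₂) ∈ t A`.
-/

namespace Fermat.Agent.S05

open WeierstrassCurve WeierstrassCurve.Affine

variable {K : Type*} [Field K]

namespace K56

section formal

variable (A : ValuationSubring K) (W : Affine K)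

/-- A point of `W` with non-integral `x`-coordinate has `z = -x / y` and `w = -1 / y` in the
maximal ideal. -/
lemma formal_coords_of_not_mem (ha₁ : W.a₁ ∈ A) (ha₂ : W.a₂ ∈ A) (ha₃ : W.a₃ ∈ A)
    (ha₄ : W.a₄ ∈ A) (ha₆ : W.a₆ ∈ A) {x y : K} (h : W.Equation x y) (hx : x ∉ A) :
    y ≠ 0 ∧ -x / y ∈ A.nonunits ∧ -1 / y ∈ A.nonunits := by
  have hx0 : x ≠ 0 := ne_zero_of_not_mem A hx
  have hs : x⁻¹ ∈ A.nonunits := inv_mem_nonunits_of_not_mem A hx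
  have hsA : x⁻¹ ∈ A := mem_of_mem_nonunits A hs
  have hr : y / x ∉ A := by
    intro hr
    rw [equation_iff] at h
    have key : (1 : K) = x⁻¹ * ((y / x) ^ 2 + W.a₁ * (y / x) + W.a₃ * (y / x) * x⁻¹ - W.a₂
        - W.a₄ * x⁻¹ - W.a₆ * x⁻¹ ^ 2) := by
      field_simp
      linear_combination -h
    apply one_not_mem_nonunits A
    rw [key]
    apply nonunits_mul_mem A hs
    exact sub_mem (sub_mem (sub_mem (add_mem (add_mem (pow_mem hr 2) (mul_mem ha₁ hr))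
      (mul_mem (mul_mem ha₃ hr) hsA)) ha₂) (mul_mem ha₄ hsA)) (mul_mem ha₆ (pow_mem hsA 2))
  have hy0 : y ≠ 0 := by
    rintro rfl; exact hr (by rw [zero_div]; exact zero_mem _)
  have hxy : x / y ∈ A.nonunits := by
    have := inv_mem_nonunits_of_not_mem A hr
    rwa [inv_div] at this
  refine ⟨hy0, ?_, ?_⟩
  · rw [neg_div]; exact nonunits_neg_mem A hxy
  · have : -1 / y = -(x / y) * x⁻¹ := by field_simp
    rw [this]
    exact nonunits_mul_mem A (nonunits_neg_mem A hxy) hsA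

/-- In the formal chart, `w` is `z ^ 3` times an element of `A`. -/
lemma w_eq_z_cube_mul (ha₁ : W.a₁ ∈ A) (ha₂ : W.a₂ ∈ A) (ha₃ : W.a₃ ∈ A)
    (ha₄ : W.a₄ ∈ A) (ha₆ : W.a₆ ∈ A) {z w : K} (hz : z ∈ A.nonunits) (hw : w ∈ A.nonunits)
    (h : w = fzw W z w) : ∃ d ∈ A, w = z ^ 3 * d := by
  have hzA := mem_of_mem_nonunits A hz
  have hwA := mem_of_mem_nonunits A hw
  have hm : W.a₁ * z + W.a₂ * z ^ 2 + W.a₃ * w + W.a₄ * z * w + W.a₆ * w ^ 2 ∈ A.nonunits := by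
    refine nonunits_add_mem A (nonunits_add_mem A (nonunits_add_mem A (nonunits_add_mem A ?_ ?_)
      ?_) ?_) ?_
    · exact mem_mul_nonunits A ha₁ hz
    · exact mem_mul_nonunits A ha₂ (nonunits_pow_mem A hz two_ne_zero)
    · exact mem_mul_nonunits A ha₃ hw
    · exact mem_mul_nonunits A (mul_mem ha₄ hzA) hw
    · exact mem_mul_nonunits A ha₆ (nonunits_pow_mem A hw two_ne_zero)
  refine ⟨_, inv_one_sub_mem A hm, ?_⟩
  have hne := one_sub_ne_zero A hm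
  rw [eq_mul_inv_iff_mul_eq₀ hne]
  simp only [fzw] at h
  linear_combination h

/-- **Addition in the kernel of reduction, affine case.**  If two affine points with
non-integral `x`-coordinates have chart coordinates `z₁ = t ζ₁`, `z₂ = t ζ₂` with `t` in the
maximal ideal and `ζ₁, ζ₂ ∈ A`, then their sum is either the origin, or again an affine point
with non-integral `x`-coordinate; in both cases `z(P₁ + P₂) = z₁ + z₂ + t² c` with `c ∈ A`. -/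
theorem formal_add_affine [DecidableEq K] (ha₁ : W.a₁ ∈ A) (ha₂ : W.a₂ ∈ A) (ha₃ : W.a₃ ∈ A)
    (ha₄ : W.a₄ ∈ A) (ha₆ : W.a₆ ∈ A) {t ζ₁ ζ₂ : K} (ht : t ∈ A.nonunits) (hζ₁ : ζ₁ ∈ A)
    (hζ₂ : ζ₂ ∈ A) {x₁ y₁ x₂ y₂ : K} (h₁ : W.Nonsingular x₁ y₁) (h₂ : W.Nonsingular x₂ y₂)
    (hx₁ : x₁ ∉ A) (hx₂ : x₂ ∉ A) (hz₁ : -x₁ / y₁ = t * ζ₁) (hz₂ : -x₂ / y₂ = t * ζ₂) :
    (Point.some x₁ y₁ h₁ + Point.some x₂ y₂ h₂ = 0 ∧
        ∃ c ∈ A, 0 = t * ζ₁ + t * ζ₂ + t ^ 2 * c) ∨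
      ∃ (x₃ y₃ : K) (h₃ : W.Nonsingular x₃ y₃),
        Point.some x₁ y₁ h₁ + Point.some x₂ y₂ h₂ = Point.some x₃ y₃ h₃ ∧ x₃ ∉ A ∧
          ∃ c ∈ A, -x₃ / y₃ = t * ζ₁ + t * ζ₂ + t ^ 2 * c := by
  have htA : t ∈ A := mem_of_mem_nonunits A ht
  have h2A : (2 : K) ∈ A := ofNat_mem A 2
  have h3A : (3 : K) ∈ A := ofNat_mem A 3
  obtain ⟨hy₁0, hzm₁, hwm₁⟩ := formal_coords_of_not_mem A W ha₁ ha₂ ha₃ ha₄ ha₆ h₁.1 hx₁
  obtain ⟨hy₂0, hzm₂, hwm₂⟩ := formal_coords_of_not_mem A W ha₁ ha₂ ha₃ ha₄ ha₆ h₂.1 hx₂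
  -- chart coordinates
  obtain ⟨w₁, hw₁def⟩ : ∃ w₁, w₁ = -1 / y₁ := ⟨_, rfl⟩
  obtain ⟨w₂, hw₂def⟩ : ∃ w₂, w₂ = -1 / y₂ := ⟨_, rfl⟩
  rw [← hw₁def] at hwm₁
  rw [← hw₂def] at hwm₂
  rw [hz₁] at hzm₁
  rw [hz₂] at hzm₂
  have hw₁0 : w₁ ≠ 0 := by rw [hw₁def]; exact div_ne_zero (neg_ne_zero.2 one_ne_zero) hy₁0
  have hw₂0 : w₂ ≠ 0 := by rw [hw₂def]; exact div_ne_zero (neg_ne_zero.2 one_ne_zero) hy₂0
  have hye₁ : y₁ = -1 / w₁ := by rw [hw₁def]; field_simp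
  have hye₂ : y₂ = -1 / w₂ := by rw [hw₂def]; field_simp
  have hxe₁ : x₁ = t * ζ₁ / w₁ := by rw [← hz₁, hw₁def]; field_simp
  have hxe₂ : x₂ = t * ζ₂ / w₂ := by rw [← hz₂, hw₂def]; field_simp
  have E₁ : w₁ = fzw W (t * ζ₁) w₁ :=
    fzw_of_equation W hw₁0 (by rw [← hxe₁, ← hye₁]; exact h₁.1)
  have E₂ : w₂ = fzw W (t * ζ₂) w₂ :=
    fzw_of_equation W hw₂0 (by rw [← hxe₂, ← hye₂]; exact h₂.1)
  obtain ⟨d₁, hd₁, hwd₁⟩ := w_eq_z_cube_mul A W ha₁ ha₂ ha₃ ha₄ ha₆ hzm₁ hwm₁ E₁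
  obtain ⟨d₂, hd₂, hwd₂⟩ := w_eq_z_cube_mul A W ha₁ ha₂ ha₃ ha₄ ha₆ hzm₂ hwm₂ E₂
  obtain ⟨ω₁, hω₁def⟩ : ∃ ω₁, ω₁ = ζ₁ ^ 3 * d₁ := ⟨_, rfl⟩
  obtain ⟨ω₂, hω₂def⟩ : ∃ ω₂, ω₂ = ζ₂ ^ 3 * d₂ := ⟨_, rfl⟩
  have hω₁ : ω₁ ∈ A := by rw [hω₁def]; exact mul_mem (pow_mem hζ₁ 3) hd₁
  have hω₂ : ω₂ ∈ A := by rw [hω₂def]; exact mul_mem (pow_mem hζ₂ 3) hd₂
  have hwω₁ : w₁ = t ^ 3 * ω₁ := by rw [hwd₁, hω₁def]; ring
  have hwω₂ : w₂ = t ^ 3 * ω₂ := by rw [hwd₂, hω₂def]; ring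
  -- the slope
  obtain ⟨γ₁, hγ₁def⟩ : ∃ γ₁, γ₁ = ζ₂ ^ 2 + ζ₁ * ζ₂ + ζ₁ ^ 2 + W.a₁ * t * ω₂ +
      W.a₂ * (ζ₂ + ζ₁) * t ^ 2 * ω₂ + W.a₄ * t ^ 4 * ω₂ ^ 2 := ⟨_, rfl⟩
  have hγ₁ : γ₁ ∈ A := by
    rw [hγ₁def]
    repeat' (first | assumption | apply add_mem | apply sub_mem | apply mul_mem | apply neg_mem | apply pow_mem)
  have hg₁ : zg1 W (t * ζ₁) (t * ζ₂) w₂ = t ^ 2 * γ₁ := by
    simp only [zg1]; rw [hwω₂, hγ₁def]; ring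
  obtain ⟨g₂, hg₂def⟩ : ∃ g₂, g₂ = zg2 W (t * ζ₁) w₁ w₂ := ⟨_, rfl⟩
  have hg₂ : g₂ ∈ A.nonunits := by
    have : g₂ = t * (W.a₁ * ζ₁ + W.a₂ * t * ζ₁ ^ 2 + W.a₃ * t ^ 2 * (ω₂ + ω₁) +
        W.a₄ * t ^ 3 * ζ₁ * (ω₂ + ω₁) + W.a₆ * t ^ 5 * (ω₂ ^ 2 + ω₂ * ω₁ + ω₁ ^ 2)) := by
      rw [hg₂def]; simp only [zg2]; rw [hwω₁, hwω₂]; ring
    rw [this]; exact nonunits_mul_mem A ht
      (by repeat' (first | assumption | apply add_mem | apply sub_mem | apply mul_mem | apply neg_mem | apply pow_mem))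
  obtain ⟨u, hudef⟩ : ∃ u, u = (1 - g₂)⁻¹ := ⟨_, rfl⟩
  have hu : u ∈ A := by rw [hudef]; exact inv_one_sub_mem A hg₂
  have hu1 : (1 - g₂) * u = 1 := by
    rw [hudef]; exact mul_inv_cancel₀ (one_sub_ne_zero A hg₂)
  obtain ⟨lam, hlamdef⟩ : ∃ lam, lam = γ₁ * u := ⟨_, rfl⟩
  have hlam : lam ∈ A := by rw [hlamdef]; exact mul_mem hγ₁ hu
  obtain ⟨Λ, hΛdef⟩ : ∃ Λ, Λ = t ^ 2 * lam := ⟨_, rfl⟩
  have hΛ : Λ * (1 - zg2 W (t * ζ₁) w₁ w₂) = zg1 W (t * ζ₁) (t * ζ₂) w₂ := by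
    rw [← hg₂def, hg₁, hΛdef, hlamdef]; linear_combination t ^ 2 * γ₁ * hu1
  obtain ⟨ν', hν'def⟩ : ∃ ν', ν' = ω₁ - lam * ζ₁ := ⟨_, rfl⟩
  have hν' : ν' ∈ A := by rw [hν'def]; exact sub_mem hω₁ (mul_mem hlam hζ₁)
  obtain ⟨ν, hνdef⟩ : ∃ ν, ν = t ^ 3 * ν' := ⟨_, rfl⟩
  have hw₁ : w₁ = Λ * (t * ζ₁) + ν := by rw [hνdef, hν'def, hΛdef, hwω₁]; ring
  have hw₂ : w₂ = Λ * (t * ζ₂) + ν := by
    have hch := chord_eq W E₁ E₂
    rw [← hg₂def, hg₁] at hch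
    have : w₂ - w₁ = (t * ζ₂ - t * ζ₁) * Λ := by
      rw [hΛdef, hlamdef]; linear_combination u * hch - (w₂ - w₁) * hu1
    linear_combination this + hw₁
  have hΛm : Λ ∈ A.nonunits := by
    have : Λ = t * (t * lam) := by rw [hΛdef]; ring
    rw [this]; exact nonunits_mul_mem A ht (mul_mem htA hlam)
  have hΛA := mem_of_mem_nonunits A hΛm
  -- the leading coefficient is a unit
  obtain ⟨s₃, hs₃def⟩ : ∃ s₃, s₃ = -(Λ * (W.a₂ + W.a₄ * Λ + W.a₆ * Λ ^ 2)) := ⟨_, rfl⟩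
  have hs₃ : s₃ ∈ A.nonunits := by
    rw [hs₃def]; exact nonunits_neg_mem A (nonunits_mul_mem A hΛm
      (by repeat' (first | assumption | apply add_mem | apply sub_mem | apply mul_mem | apply neg_mem | apply pow_mem)))
  have hc₃ : zc3 W Λ = 1 - s₃ := by simp only [zc3]; rw [hs₃def]; ring
  obtain ⟨e, hedef⟩ : ∃ e, e = (1 - s₃)⁻¹ := ⟨_, rfl⟩
  have he : e ∈ A := by rw [hedef]; exact inv_one_sub_mem A hs₃
  have he1 : zc3 W Λ * e = 1 := by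
    rw [hc₃, hedef]; exact mul_inv_cancel₀ (one_sub_ne_zero A hs₃)
  -- the quadratic coefficient
  obtain ⟨c₂', hc₂'def⟩ : ∃ c₂', c₂' = W.a₁ * lam + W.a₂ * t * ν' + W.a₃ * t ^ 2 * lam ^ 2 +
      2 * W.a₄ * t ^ 3 * lam * ν' + 3 * W.a₆ * t ^ 5 * lam ^ 2 * ν' := ⟨_, rfl⟩
  have hc₂' : c₂' ∈ A := by
    rw [hc₂'def]
    repeat' (first | assumption | apply add_mem | apply sub_mem | apply mul_mem | apply neg_mem | apply pow_mem)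
  have hc₂ : zc2 W Λ ν = t ^ 2 * c₂' := by
    simp only [zc2]; rw [hΛdef, hνdef, hc₂'def]; ring
  -- the third root
  obtain ⟨ζ₃, hζ₃def⟩ : ∃ ζ₃, ζ₃ = -(t * c₂' * e) - ζ₁ - ζ₂ := ⟨_, rfl⟩
  have hζ₃ : ζ₃ ∈ A := by
    rw [hζ₃def]
    repeat' (first | assumption | apply add_mem | apply sub_mem | apply mul_mem | apply neg_mem)
  have hV1 : zc3 W Λ * (t * ζ₁ + t * ζ₂ + t * ζ₃) = -zc2 W Λ ν := by
    rw [hc₂, hζ₃def]; linear_combination (-(t ^ 2 * c₂')) * he1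
  by_cases hν : ν = 0
  · left
    rw [hν, add_zero] at hw₁ hw₂
    obtain ⟨hV1', hadd⟩ := add_eq_zero_of_line_through_origin W h₁ h₂ hw₁0 hw₂0 hxe₁ hye₁
      hxe₂ hye₂ hw₁ hw₂ hΛ
    refine ⟨hadd, c₂' * e, mul_mem hc₂' he, ?_⟩
    rw [hν] at hc₂
    rw [hc₂] at hV1'
    linear_combination (-e) * hV1' + (t * ζ₁ + t * ζ₂) * he1
  · right
    obtain ⟨hw₃0, E₃, x₃, y₃, h₃, hx₃, hy₃, hadd⟩ := add_eq_neg_third W h₁ h₂ hw₁0 hw₂0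
      hxe₁ hye₁ hxe₂ hye₂ hw₁ hw₂ hΛ hν hV1
    obtain ⟨ω₃, hω₃def⟩ : ∃ ω₃, ω₃ = lam * ζ₃ + ν' := ⟨_, rfl⟩
    have hω₃ : ω₃ ∈ A := by rw [hω₃def]; exact add_mem (mul_mem hlam hζ₃) hν'
    obtain ⟨w₃, hw₃def⟩ : ∃ w₃, w₃ = Λ * (t * ζ₃) + ν := ⟨_, rfl⟩
    rw [← hw₃def] at hw₃0 E₃ hx₃ hy₃
    have hwω₃ : w₃ = t ^ 3 * ω₃ := by rw [hw₃def, hΛdef, hνdef, hω₃def]; ring
    have hzm₃ : t * ζ₃ ∈ A.nonunits := nonunits_mul_mem A ht hζ₃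
    have hwm₃ : w₃ ∈ A.nonunits := by
      have : w₃ = t * (t ^ 2 * ω₃) := by rw [hwω₃]; ring
      rw [this]; exact nonunits_mul_mem A ht (mul_mem (pow_mem htA 2) hω₃)
    obtain ⟨d₃, hd₃, hwd₃⟩ := w_eq_z_cube_mul A W ha₁ ha₂ ha₃ ha₄ ha₆ hzm₃ hwm₃ E₃
    have hz₃0 : t * ζ₃ ≠ 0 := by
      intro h0; rw [h0] at hwd₃; apply hw₃0; rw [hwd₃]; ring
    have hx₃0 : x₃ ≠ 0 := by rw [hx₃]; exact div_ne_zero hz₃0 hw₃0
    have hx₃A : x₃ ∉ A := by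
      apply not_mem_of_inv_mem_nonunits A hx₃0
      have : x₃⁻¹ = (t * ζ₃) * ((t * ζ₃) * d₃) := by
        rw [hx₃, inv_div, hwd₃]; field_simp
      rw [this]
      exact nonunits_mul_mem A hzm₃ (mul_mem (mem_of_mem_nonunits A hzm₃) hd₃)
    obtain ⟨s, hsdef⟩ : ∃ s, s = W.a₁ * (t * ζ₃) + W.a₃ * w₃ := ⟨_, rfl⟩
    have hs : s ∈ A.nonunits := by
      rw [hsdef]
      exact nonunits_add_mem A (mem_mul_nonunits A ha₁ hzm₃) (mem_mul_nonunits A ha₃ hwm₃)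
    obtain ⟨f, hfdef⟩ : ∃ f, f = (1 - s)⁻¹ := ⟨_, rfl⟩
    have hf : f ∈ A := by rw [hfdef]; exact inv_one_sub_mem A hs
    have hs0 := one_sub_ne_zero A hs
    have hf1 : (1 - s) * f = 1 := by rw [hfdef]; exact mul_inv_cancel₀ hs0
    refine ⟨x₃, W.negY x₃ y₃, (nonsingular_neg ..).mpr h₃, ?_, hx₃A,
      c₂' * e - ζ₃ * (W.a₁ * ζ₃ + W.a₃ * t ^ 2 * ω₃) * f, ?_, ?_⟩
    · rw [hadd, Point.neg_some]
    · exact sub_mem (mul_mem hc₂' he) (mul_mem (mul_mem hζ₃ (add_mem (mul_mem ha₁ hζ₃)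
        (mul_mem (mul_mem ha₃ (pow_mem htA 2)) hω₃))) hf)
    · have hneg : W.negY x₃ y₃ = (1 - s) / w₃ := by
        rw [negY, hx₃, hy₃, hsdef]; field_simp; ring
      have hq : -x₃ / W.negY x₃ y₃ = -(t * ζ₃) * f := by
        rw [hneg, hx₃, hfdef]; field_simp
      rw [hq]
      rw [hsdef, hwω₃] at hf1
      linear_combination (-(t * ζ₃)) * hf1 - t * hζ₃def

end formal

/-- The chart coordinate `z = -x / y` of a point (`0` at the origin). -/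
def zcoord {W : Affine K} : W.Point → K
  | .zero => 0
  | .some x y _ => -x / y

lemma zcoord_zero {W : Affine K} : zcoord (0 : W.Point) = 0 := rfl

lemma zcoord_some {W : Affine K} {x y : K} (h : W.Nonsingular x y) :
    zcoord (Point.some x y h) = -x / y := rfl

end K56

/-- The kernel of reduction of the Weierstrass model `W` at the valuation subring `A`: the
origin together with the affine points whose `x`-coordinate is not integral. -/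
def InE1 (A : ValuationSubring K) {W : Affine K} (P : W.Point) : Prop :=
  P = 0 ∨ ∃ (x y : K) (h : W.Nonsingular x y), P = Point.some x y h ∧ x ∉ A

lemma inE1_iff (A : ValuationSubring K) {W : Affine K} (P : W.Point) :
    InE1 A P ↔ P = 0 ∨ ∃ (x y : K) (h : W.Nonsingular x y), P = Point.some x y h ∧ x ∉ A :=
  Iff.rfl

lemma inE1_zero (A : ValuationSubring K) {W : Affine K} : InE1 A (0 : W.Point) := Or.inl rfl

lemma inE1_some (A : ValuationSubring K) {W : Affine K} {x y : K} (h : W.Nonsingular x y) :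
    InE1 A (Point.some x y h) ↔ x ∉ A := by
  constructor
  · rintro (h0 | ⟨x', y', h', he, hx'⟩)
    · exact absurd h0 (Point.some_ne_zero h)
    · rw [Point.some.injEq] at he
      rw [he.1]; exact hx'
  · intro hx
    exact Or.inr ⟨x, y, h, rfl, hx⟩

lemma inE1_neg (A : ValuationSubring K) {W : Affine K} {P : W.Point} (hP : InE1 A P) :
    InE1 A (-P) := by
  rcases hP with rfl | ⟨x, y, h, rfl, hx⟩
  · rw [Point.neg_zero]; exact inE1_zero A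
  · rw [Point.neg_some]; exact (inE1_some A _).2 hx

namespace K56

variable (A : ValuationSubring K) (W : Affine K)

lemma zcoord_mem_nonunits (ha₁ : W.a₁ ∈ A) (ha₂ : W.a₂ ∈ A) (ha₃ : W.a₃ ∈ A)
    (ha₄ : W.a₄ ∈ A) (ha₆ : W.a₆ ∈ A) {P : W.Point} (hP : InE1 A P) :
    zcoord P ∈ A.nonunits := by
  rcases hP with rfl | ⟨x, y, h, rfl, hx⟩
  · rw [zcoord_zero]; exact zero_mem_nonunits A
  · rw [zcoord_some]
    exact (formal_coords_of_not_mem A W ha₁ ha₂ ha₃ ha₄ ha₆ h.1 hx).2.1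

lemma zcoord_ne_zero (ha₁ : W.a₁ ∈ A) (ha₂ : W.a₂ ∈ A) (ha₃ : W.a₃ ∈ A)
    (ha₄ : W.a₄ ∈ A) (ha₆ : W.a₆ ∈ A) {P : W.Point} (hP : InE1 A P) (hP0 : P ≠ 0) :
    zcoord P ≠ 0 := by
  rcases hP with rfl | ⟨x, y, h, rfl, hx⟩
  · exact absurd rfl hP0
  · rw [zcoord_some]
    have hy := (formal_coords_of_not_mem A W ha₁ ha₂ ha₃ ha₄ ha₆ h.1 hx).1
    exact div_ne_zero (neg_ne_zero.2 (ne_zero_of_not_mem A hx)) hy

/-- **Addition in the kernel of reduction.**  If `z(P₁) = t ζ₁` and `z(P₂) = t ζ₂` with `t` in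
the maximal ideal and `ζ₁, ζ₂ ∈ A`, then `P₁ + P₂` is in the kernel of reduction and
`z(P₁ + P₂) = z(P₁) + z(P₂) + t² c` with `c ∈ A`. -/
theorem formal_add [DecidableEq K] (ha₁ : W.a₁ ∈ A) (ha₂ : W.a₂ ∈ A) (ha₃ : W.a₃ ∈ A)
    (ha₄ : W.a₄ ∈ A) (ha₆ : W.a₆ ∈ A) {t ζ₁ ζ₂ : K} (ht : t ∈ A.nonunits) (hζ₁ : ζ₁ ∈ A)
    (hζ₂ : ζ₂ ∈ A) {P₁ P₂ : W.Point} (hP₁ : InE1 A P₁) (hP₂ : InE1 A P₂)
    (hz₁ : zcoord P₁ = t * ζ₁) (hz₂ : zcoord P₂ = t * ζ₂) :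
    InE1 A (P₁ + P₂) ∧ ∃ c ∈ A, zcoord (P₁ + P₂) = t * ζ₁ + t * ζ₂ + t ^ 2 * c := by
  rcases hP₁ with rfl | ⟨x₁, y₁, h₁, rfl, hx₁⟩
  · rw [zero_add]
    rw [zcoord_zero] at hz₁
    exact ⟨hP₂, 0, zero_mem _, by rw [hz₂, ← hz₁]; ring⟩
  rcases hP₂ with rfl | ⟨x₂, y₂, h₂, rfl, hx₂⟩
  · rw [add_zero]
    rw [zcoord_zero] at hz₂
    exact ⟨(inE1_some A h₁).2 hx₁, 0, zero_mem _, by rw [hz₁, ← hz₂]; ring⟩
  rw [zcoord_some] at hz₁ hz₂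
  rcases formal_add_affine A W ha₁ ha₂ ha₃ ha₄ ha₆ ht hζ₁ hζ₂ h₁ h₂ hx₁ hx₂ hz₁ hz₂ with
    ⟨hadd, c, hc, hceq⟩ | ⟨x₃, y₃, h₃, hadd, hx₃, c, hc, hceq⟩
  · rw [hadd]
    exact ⟨inE1_zero A, c, hc, by rw [zcoord_zero]; exact hceq⟩
  · rw [hadd]
    exact ⟨(inE1_some A h₃).2 hx₃, c, hc, by rw [zcoord_some]; exact hceq⟩

/-- Multiples in the kernel of reduction: `z(k P) = k z(P) + z(P)² c` with `c ∈ A`. -/
theorem formal_nsmul [DecidableEq K] (ha₁ : W.a₁ ∈ A) (ha₂ : W.a₂ ∈ A) (ha₃ : W.a₃ ∈ A)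
    (ha₄ : W.a₄ ∈ A) (ha₆ : W.a₆ ∈ A) {P : W.Point} (hP : InE1 A P) (k : ℕ) :
    InE1 A (k • P) ∧ ∃ c ∈ A, zcoord (k • P) = k * zcoord P + zcoord P ^ 2 * c := by
  have ht : zcoord P ∈ A.nonunits := zcoord_mem_nonunits A W ha₁ ha₂ ha₃ ha₄ ha₆ hP
  have htA : zcoord P ∈ A := mem_of_mem_nonunits A ht
  induction k with
  | zero =>
    rw [zero_nsmul]
    exact ⟨inE1_zero A, 0, zero_mem _, by rw [zcoord_zero]; simp⟩
  | succ k ih =>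
    obtain ⟨hk, c, hc, hceq⟩ := ih
    have h1 : zcoord (k • P) = zcoord P * ((k : K) + zcoord P * c) := by rw [hceq]; ring
    have h2 : zcoord P = zcoord P * 1 := (mul_one _).symm
    obtain ⟨hE, c', hc', hceq'⟩ := formal_add A W ha₁ ha₂ ha₃ ha₄ ha₆ ht
      (add_mem (natCast_mem A k) (mul_mem htA hc)) (one_mem _) hk hP h1 h2
    rw [succ_nsmul]
    refine ⟨hE, c + c', add_mem hc hc', ?_⟩
    rw [hceq']; push_cast; ring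

end K56

section main

variable [DecidableEq K] (A : ValuationSubring K) {W : Affine K}

/-- **Part (II) of S05: the kernel of reduction has no torsion of unit order.**  If the
Weierstrass model `W` has coefficients in the valuation subring `A` and the natural number `n`
is a unit of `A`, then a point `P` of the kernel of reduction with `n • P = 0` is zero. -/
theorem eq_zero_of_nsmul_eq_zero_of_inE1 (ha₁ : W.a₁ ∈ A) (ha₂ : W.a₂ ∈ A) (ha₃ : W.a₃ ∈ A)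
    (ha₄ : W.a₄ ∈ A) (ha₆ : W.a₆ ∈ A) {n : ℕ} (hn : (n : K) ∉ A.nonunits) {P : W.Point}
    (hP : InE1 A P) (h : n • P = 0) : P = 0 := by
  obtain ⟨-, c, hc, hceq⟩ := K56.formal_nsmul A W ha₁ ha₂ ha₃ ha₄ ha₆ hP n
  rw [h, K56.zcoord_zero] at hceq
  by_contra hP0
  have ht : K56.zcoord P ∈ A.nonunits := K56.zcoord_mem_nonunits A W ha₁ ha₂ ha₃ ha₄ ha₆ hP
  have ht0 : K56.zcoord P ≠ 0 := K56.zcoord_ne_zero A W ha₁ ha₂ ha₃ ha₄ ha₆ hP hP0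
  have hprod : K56.zcoord P * ((n : K) + K56.zcoord P * c) = 0 := by
    linear_combination -hceq
  have hn' : (n : K) = -(K56.zcoord P * c) := by
    rcases mul_eq_zero.1 hprod with h0 | h0
    · exact absurd h0 ht0
    · linear_combination h0
  apply hn
  rw [hn']
  exact K56.nonunits_neg_mem A (K56.nonunits_mul_mem A ht hc)

/-- Variant of `eq_zero_of_nsmul_eq_zero_of_inE1` with the unit hypothesis phrased through the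
valuation. -/
theorem eq_zero_of_nsmul_eq_zero_of_inE1' (ha₁ : W.a₁ ∈ A) (ha₂ : W.a₂ ∈ A) (ha₃ : W.a₃ ∈ A)
    (ha₄ : W.a₄ ∈ A) (ha₆ : W.a₆ ∈ A) {n : ℕ} (hn : A.valuation (n : K) = 1) {P : W.Point}
    (hP : InE1 A P) (h : n • P = 0) : P = 0 := by
  refine eq_zero_of_nsmul_eq_zero_of_inE1 A ha₁ ha₂ ha₃ ha₄ ha₆ ?_ hP h
  rw [A.mem_nonunits_iff, hn]
  exact lt_irrefl _

/-- The statement in the unfolded form used by the good-reduction glue. -/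
theorem kernelTorsionFree (ha₁ : W.a₁ ∈ A) (ha₂ : W.a₂ ∈ A) (ha₃ : W.a₃ ∈ A)
    (ha₄ : W.a₄ ∈ A) (ha₆ : W.a₆ ∈ A) {n : ℕ} (hn : (n : K) ∉ A.nonunits) :
    ∀ P : W.Point,
      (P = 0 ∨ ∃ (x y : K) (h : W.Nonsingular x y), P = Affine.Point.some x y h ∧ x ∉ A) →
        n • P = 0 → P = 0 :=
  fun _ hP h => eq_zero_of_nsmul_eq_zero_of_inE1 A ha₁ ha₂ ha₃ ha₄ ha₆ hn hP h

/-- The kernel of reduction is closed under addition. -/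
theorem inE1_add (ha₁ : W.a₁ ∈ A) (ha₂ : W.a₂ ∈ A) (ha₃ : W.a₃ ∈ A)
    (ha₄ : W.a₄ ∈ A) (ha₆ : W.a₆ ∈ A) {P Q : W.Point} (hP : InE1 A P) (hQ : InE1 A Q) :
    InE1 A (P + Q) := by
  by_cases hP0 : P = 0
  · rw [hP0, zero_add]; exact hQ
  by_cases hQ0 : Q = 0
  · rw [hQ0, add_zero]; exact hP
  have hzP := K56.zcoord_mem_nonunits A W ha₁ ha₂ ha₃ ha₄ ha₆ hP
  have hzQ := K56.zcoord_mem_nonunits A W ha₁ ha₂ ha₃ ha₄ ha₆ hQ
  have hzP0 := K56.zcoord_ne_zero A W ha₁ ha₂ ha₃ ha₄ ha₆ hP hP0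
  have hzQ0 := K56.zcoord_ne_zero A W ha₁ ha₂ ha₃ ha₄ ha₆ hQ hQ0
  rcases A.mem_or_inv_mem (K56.zcoord Q / K56.zcoord P) with hr | hr
  · exact (K56.formal_add A W ha₁ ha₂ ha₃ ha₄ ha₆ hzP (one_mem _) hr hP hQ
      (mul_one _).symm (by field_simp)).1
  · rw [inv_div] at hr
    exact (K56.formal_add A W ha₁ ha₂ ha₃ ha₄ ha₆ hzQ hr (one_mem _) hP hQ
      (by field_simp) (mul_one _).symm).1

/-- The kernel of reduction is closed under subtraction. -/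
theorem inE1_sub (ha₁ : W.a₁ ∈ A) (ha₂ : W.a₂ ∈ A) (ha₃ : W.a₃ ∈ A)
    (ha₄ : W.a₄ ∈ A) (ha₆ : W.a₆ ∈ A) {P Q : W.Point} (hP : InE1 A P) (hQ : InE1 A Q) :
    InE1 A (P - Q) := by
  rw [sub_eq_add_neg]
  exact inE1_add A ha₁ ha₂ ha₃ ha₄ ha₆ hP (inE1_neg A hQ)

/-- The kernel of reduction is closed under natural multiples. -/
theorem inE1_nsmul (ha₁ : W.a₁ ∈ A) (ha₂ : W.a₂ ∈ A) (ha₃ : W.a₃ ∈ A)
    (ha₄ : W.a₄ ∈ A) (ha₆ : W.a₆ ∈ A) {P : W.Point} (hP : InE1 A P) (k : ℕ) :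
    InE1 A (k • P) :=
  (K56.formal_nsmul A W ha₁ ha₂ ha₃ ha₄ ha₆ hP k).1

/-- The kernel of reduction, as a subgroup of the group of points. -/
def kernelOfReduction (ha₁ : W.a₁ ∈ A) (ha₂ : W.a₂ ∈ A) (ha₃ : W.a₃ ∈ A)
    (ha₄ : W.a₄ ∈ A) (ha₆ : W.a₆ ∈ A) : AddSubgroup W.Point where
  carrier := {P | InE1 A P}
  zero_mem' := inE1_zero A
  add_mem' := fun hP hQ => inE1_add A ha₁ ha₂ ha₃ ha₄ ha₆ hP hQ
  neg_mem' := fun hP => inE1_neg A hP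

end main

end Fermat.Agent.S05
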