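import Mathlib.AlgebraicGeometry.EllipticCurve.Affine.Point
import Mathlib.AlgebraicGeometry.EllipticCurve.VariableChange

/-!
# Variable changes act on points (helper81, for S05)

For a Weierstrass curve `W` over a field `F` and a variable change `C = (u, r, s, t)`, the map
`(x, y) ↦ (u² x + r, u³ y + u² s x + t)` is an injective additive group homomorphism
`(C • W).toAffine.Point →+ W.toAffine.Point`.
-/

set_option autoImplicit false
set_option linter.unusedSectionVars false

namespace Fermat.Agent.S05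

open WeierstrassCurve

variable {F : Type*} [Field F] (W : WeierstrassCurve F) (C : VariableChange F)

/-- The `x`-coordinate of the image of a point under a variable change. -/
def vcX (x : F) : F := (C.u : F) ^ 2 * x + C.r

/-- The `y`-coordinate of the image of a point under a variable change. -/
def vcY (x y : F) : F := (C.u : F) ^ 3 * y + (C.u : F) ^ 2 * C.s * x + C.t

lemma vc_u_ne_zero : (C.u : F) ≠ 0 := C.u.ne_zero

lemma vc_inv_u : ((C.u⁻¹ : Fˣ) : F) = (C.u : F)⁻¹ := by simp

lemma vc_equation_iff (x y : F) :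
    (C • W).toAffine.Equation x y ↔ W.toAffine.Equation (vcX C x) (vcY C x y) := by
  have hu := vc_u_ne_zero C
  rw [Affine.equation_iff, Affine.equation_iff]
  simp only [variableChange_a₁, variableChange_a₂, variableChange_a₃, variableChange_a₄,
    variableChange_a₆, vc_inv_u, vcX, vcY]
  constructor
  · intro h
    field_simp at h
    linear_combination h
  · intro h
    field_simp
    linear_combination h

lemma vc_negY (x y : F) :
    W.toAffine.negY (vcX C x) (vcY C x y) = vcY C x ((C • W).toAffine.negY x y) := by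
  have hu := vc_u_ne_zero C
  simp only [Affine.negY, variableChange_a₁, variableChange_a₃, vc_inv_u, vcX, vcY]
  field_simp
  ring

lemma vc_nonsingular_iff (x y : F) :
    (C • W).toAffine.Nonsingular x y ↔ W.toAffine.Nonsingular (vcX C x) (vcY C x y) := by
  have hu := vc_u_ne_zero C
  rw [Affine.nonsingular_iff', Affine.nonsingular_iff', vc_equation_iff]
  refine and_congr_right fun _ => ?_
  simp only [variableChange_a₁, variableChange_a₂, variableChange_a₃, variableChange_a₄,
    vc_inv_u, vcX, vcY]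
  have e1 : (C.u : F)⁻¹ * (W.a₁ + 2 * C.s) * y -
      (3 * x ^ 2 + 2 * ((C.u : F)⁻¹ ^ 2 * (W.a₂ - C.s * W.a₁ + 3 * C.r - C.s ^ 2)) * x +
        (C.u : F)⁻¹ ^ 4 * (W.a₄ - C.s * W.a₃ + 2 * C.r * W.a₂ - (C.t + C.r * C.s) * W.a₁ +
          3 * C.r ^ 2 - 2 * C.s * C.t)) =
      (C.u : F)⁻¹ ^ 4 * ((W.a₁ * ((C.u : F) ^ 3 * y + (C.u : F) ^ 2 * C.s * x + C.t) -
        (3 * ((C.u : F) ^ 2 * x + C.r) ^ 2 + 2 * W.a₂ * ((C.u : F) ^ 2 * x + C.r) + W.a₄)) +
        C.s * (2 * ((C.u : F) ^ 3 * y + (C.u : F) ^ 2 * C.s * x + C.t) +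
          W.a₁ * ((C.u : F) ^ 2 * x + C.r) + W.a₃)) := by
    field_simp
    ring
  have e2 : 2 * y + (C.u : F)⁻¹ * (W.a₁ + 2 * C.s) * x +
      (C.u : F)⁻¹ ^ 3 * (W.a₃ + C.r * W.a₁ + 2 * C.t) =
      (C.u : F)⁻¹ ^ 3 * (2 * ((C.u : F) ^ 3 * y + (C.u : F) ^ 2 * C.s * x + C.t) +
          W.a₁ * ((C.u : F) ^ 2 * x + C.r) + W.a₃) := by
    field_simp
    ring
  rw [e1, e2]
  have hu4 : (C.u : F)⁻¹ ^ 4 ≠ 0 := pow_ne_zero _ (inv_ne_zero hu)
  have hu3 : (C.u : F)⁻¹ ^ 3 ≠ 0 := pow_ne_zero _ (inv_ne_zero hu)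
  set P := W.a₁ * ((C.u : F) ^ 3 * y + (C.u : F) ^ 2 * C.s * x + C.t) -
        (3 * ((C.u : F) ^ 2 * x + C.r) ^ 2 + 2 * W.a₂ * ((C.u : F) ^ 2 * x + C.r) + W.a₄) with hP
  set Q := 2 * ((C.u : F) ^ 3 * y + (C.u : F) ^ 2 * C.s * x + C.t) +
          W.a₁ * ((C.u : F) ^ 2 * x + C.r) + W.a₃ with hQ
  constructor
  · rintro (h | h)
    · by_cases hQ0 : Q = 0
      · left
        intro hP0
        apply h
        rw [hP0, hQ0]
        ring
      · right; exact hQ0
    · right
      intro hQ0
      apply h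
      rw [hQ0]; ring
  · rintro (h | h)
    · by_cases hQ0 : Q = 0
      · left
        rw [hQ0, mul_zero, add_zero]
        exact mul_ne_zero hu4 h
      · right; exact mul_ne_zero hu3 hQ0
    · right; exact mul_ne_zero hu3 h


lemma vcX_injective : Function.Injective (vcX C) := by
  intro x x' h
  have hu := vc_u_ne_zero C
  simp only [vcX] at h
  have h2 : (C.u : F) ^ 2 * x = (C.u : F) ^ 2 * x' := by linear_combination h
  exact mul_left_cancel₀ (pow_ne_zero 2 hu) h2

lemma vcY_injective (x : F) : Function.Injective (vcY C x) := by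
  intro y y' h
  have hu := vc_u_ne_zero C
  simp only [vcY] at h
  have h2 : (C.u : F) ^ 3 * y = (C.u : F) ^ 3 * y' := by linear_combination h
  exact mul_left_cancel₀ (pow_ne_zero 3 hu) h2

variable [DecidableEq F]

lemma vc_slope {x₁ x₂ y₁ y₂ : F} (h₁ : (C • W).toAffine.Equation x₁ y₁)
    (h₂ : (C • W).toAffine.Equation x₂ y₂)
    (hxy : ¬(x₁ = x₂ ∧ y₁ = (C • W).toAffine.negY x₂ y₂)) :
    W.toAffine.slope (vcX C x₁) (vcX C x₂) (vcY C x₁ y₁) (vcY C x₂ y₂) =
      (C.u : F) * (C • W).toAffine.slope x₁ x₂ y₁ y₂ + C.s := by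
  have hu := vc_u_ne_zero C
  by_cases hx : x₁ = x₂
  · subst hx
    have hy : y₁ ≠ (C • W).toAffine.negY x₁ y₂ := fun h => hxy ⟨rfl, h⟩
    have hyy : y₁ = y₂ := Affine.Y_eq_of_Y_ne h₁ h₂ rfl hy
    subst hyy
    have hy' : vcY C x₁ y₁ ≠ W.toAffine.negY (vcX C x₁) (vcY C x₁ y₁) := by
      rw [vc_negY]
      exact fun h => hy (vcY_injective C x₁ h)
    rw [Affine.slope_of_Y_ne rfl hy, Affine.slope_of_Y_ne rfl hy']
    have hd : y₁ - (C • W).toAffine.negY x₁ y₁ ≠ 0 := sub_ne_zero.mpr hy
    have hd' : vcY C x₁ y₁ - W.toAffine.negY (vcX C x₁) (vcY C x₁ y₁) ≠ 0 := sub_ne_zero.mpr hy'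
    have key : vcY C x₁ y₁ - W.toAffine.negY (vcX C x₁) (vcY C x₁ y₁) =
        (C.u : F) ^ 3 * (y₁ - (C • W).toAffine.negY x₁ y₁) := by
      rw [vc_negY]; simp only [vcY]; ring
    have hN : 3 * vcX C x₁ ^ 2 + 2 * W.toAffine.a₂ * vcX C x₁ + W.toAffine.a₄ -
          W.toAffine.a₁ * vcY C x₁ y₁ =
        (C.u : F) ^ 4 * (3 * x₁ ^ 2 + 2 * (C • W).toAffine.a₂ * x₁ + (C • W).toAffine.a₄ -
          (C • W).toAffine.a₁ * y₁) +
        C.s * ((C.u : F) ^ 3 * (y₁ - (C • W).toAffine.negY x₁ y₁)) := by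
      simp only [Affine.negY, variableChange_a₁, variableChange_a₂, variableChange_a₃,
        variableChange_a₄, vc_inv_u, vcX, vcY]
      field_simp
      ring
    rw [hN, key]
    field_simp
  · have hx' : vcX C x₁ ≠ vcX C x₂ := fun h => hx (vcX_injective C h)
    rw [Affine.slope_of_X_ne hx, Affine.slope_of_X_ne hx']
    have h1 : x₁ - x₂ ≠ 0 := sub_ne_zero.mpr hx
    have h2 : vcX C x₁ - vcX C x₂ ≠ 0 := sub_ne_zero.mpr hx'
    simp only [vcX, vcY] at h2 ⊢
    field_simp
    ring

lemma vc_addX (x₁ x₂ ℓ : F) :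
    W.toAffine.addX (vcX C x₁) (vcX C x₂) ((C.u : F) * ℓ + C.s) =
      vcX C ((C • W).toAffine.addX x₁ x₂ ℓ) := by
  have hu := vc_u_ne_zero C
  simp only [Affine.addX, variableChange_a₁, variableChange_a₂, vc_inv_u, vcX]
  field_simp
  ring

lemma vc_negAddY (x₁ x₂ y₁ ℓ : F) :
    W.toAffine.negAddY (vcX C x₁) (vcX C x₂) (vcY C x₁ y₁) ((C.u : F) * ℓ + C.s) =
      vcY C ((C • W).toAffine.addX x₁ x₂ ℓ) ((C • W).toAffine.negAddY x₁ x₂ y₁ ℓ) := by
  have hu := vc_u_ne_zero C
  simp only [Affine.negAddY, vc_addX]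
  simp only [vcX, vcY]
  ring

lemma vc_addY (x₁ x₂ y₁ ℓ : F) :
    W.toAffine.addY (vcX C x₁) (vcX C x₂) (vcY C x₁ y₁) ((C.u : F) * ℓ + C.s) =
      vcY C ((C • W).toAffine.addX x₁ x₂ ℓ) ((C • W).toAffine.addY x₁ x₂ y₁ ℓ) := by
  simp only [Affine.addY, vc_negAddY, vc_addX, vc_negY]

/-- The map on points induced by a variable change, as a function. -/
def vcPointFun : (C • W).toAffine.Point → W.toAffine.Point
  | .zero => .zero
  | .some x y h => .some (vcX C x) (vcY C x y) ((vc_nonsingular_iff W C x y).mp h)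

@[simp] lemma vcPointFun_zero : vcPointFun W C (0 : (C • W).toAffine.Point) = 0 := rfl

@[simp] lemma vcPointFun_some {x y : F} (h : (C • W).toAffine.Nonsingular x y) :
    vcPointFun W C (.some x y h) =
      .some (vcX C x) (vcY C x y) ((vc_nonsingular_iff W C x y).mp h) := rfl

lemma vcPointFun_add (P Q : (C • W).toAffine.Point) :
    vcPointFun W C (P + Q) = vcPointFun W C P + vcPointFun W C Q := by
  rcases P with _ | ⟨x₁, y₁, h₁⟩
  · change vcPointFun W C (0 + Q) = 0 + vcPointFun W C Q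
    rw [zero_add, zero_add]
  rcases Q with _ | ⟨x₂, y₂, h₂⟩
  · change vcPointFun W C (_ + 0) = _ + 0
    rw [add_zero, add_zero]
  by_cases hxy : x₁ = x₂ ∧ y₁ = (C • W).toAffine.negY x₂ y₂
  · rw [Affine.Point.add_of_Y_eq hxy.1 hxy.2]
    simp only [vcPointFun_some, vcPointFun_zero]
    rw [Affine.Point.add_of_Y_eq (congrArg _ hxy.1)]
    rw [vc_negY, hxy.2, hxy.1]
  · rw [Affine.Point.add_some hxy]
    simp only [vcPointFun_some]
    have hxy' : ¬(vcX C x₁ = vcX C x₂ ∧
        vcY C x₁ y₁ = W.toAffine.negY (vcX C x₂) (vcY C x₂ y₂)) := by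
      rintro ⟨hx, hy⟩
      have hx0 := vcX_injective C hx
      subst hx0
      rw [vc_negY] at hy
      exact hxy ⟨rfl, vcY_injective C x₁ hy⟩
    rw [Affine.Point.add_some hxy']
    have hs := vc_slope W C h₁.1 h₂.1 hxy
    congr 1
    · rw [hs, vc_addX]
    · rw [hs, vc_addY]

/-- The additive group homomorphism on points induced by a variable change:
`(x, y) ↦ (u² x + r, u³ y + u² s x + t)`. -/
noncomputable def vcPoint : (C • W).toAffine.Point →+ W.toAffine.Point where
  toFun := vcPointFun W C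
  map_zero' := rfl
  map_add' := vcPointFun_add W C

@[simp] lemma vcPoint_zero : vcPoint W C 0 = 0 := rfl

@[simp] lemma vcPoint_some {x y : F} (h : (C • W).toAffine.Nonsingular x y) :
    vcPoint W C (.some x y h) =
      .some (vcX C x) (vcY C x y) ((vc_nonsingular_iff W C x y).mp h) := rfl

lemma vcPoint_injective : Function.Injective (vcPoint W C) := by
  rintro (_ | ⟨x₁, y₁, h₁⟩) (_ | ⟨x₂, y₂, h₂⟩) h
  · rfl
  · exact absurd h.symm (Affine.Point.some_ne_zero _)
  · exact absurd h (Affine.Point.some_ne_zero _)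
  · simp only [vcPoint_some, Affine.Point.some.injEq] at h
    obtain ⟨hx, hy⟩ := h
    have hx0 := vcX_injective C hx
    subst hx0
    have hy0 := vcY_injective C x₁ hy
    subst hy0
    rfl


section BaseChange

variable {F₀ K : Type*} [Field F₀] [Field K] [Algebra F₀ K] [DecidableEq K]
  (W₀ : WeierstrassCurve F₀) (C₀ : VariableChange F₀)

/-- Transport of points along an equality of Weierstrass curves. -/
def pointCast {W₁ W₂ : WeierstrassCurve K} (h : W₁ = W₂) :
    W₁.toAffine.Point →+ W₂.toAffine.Point where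
  toFun P := match P with
    | .zero => .zero
    | .some x y hxy => .some x y (h ▸ hxy)
  map_zero' := rfl
  map_add' := by
    subst h
    intro P Q
    have : ∀ R : W₁.toAffine.Point, (match R with
        | .zero => (.zero : W₁.toAffine.Point)
        | .some x y hxy => .some x y hxy) = R := by
      intro R; cases R <;> rfl
    simp only [this]

@[simp] lemma pointCast_zero {W₁ W₂ : WeierstrassCurve K} (h : W₁ = W₂) :
    pointCast h (0 : W₁.toAffine.Point) = 0 := rfl

@[simp] lemma pointCast_some {W₁ W₂ : WeierstrassCurve K} (h : W₁ = W₂) {x y : K}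
    (hxy : W₁.toAffine.Nonsingular x y) :
    pointCast h (.some x y hxy) = .some x y (h ▸ hxy) := rfl

lemma pointCast_injective {W₁ W₂ : WeierstrassCurve K} (h : W₁ = W₂) :
    Function.Injective (pointCast h) := by
  subst h
  rintro (_ | ⟨x₁, y₁, h₁⟩) (_ | ⟨x₂, y₂, h₂⟩) h
  · rfl
  · exact absurd h.symm (Affine.Point.some_ne_zero _)
  · exact absurd h (Affine.Point.some_ne_zero _)
  · simpa using h

/-- The additive group homomorphism on points of the base changes induced by a variable change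
defined over the base field: `(x, y) ↦ (u² x + r, u³ y + u² s x + t)`. -/
noncomputable def vcPointBC :
    ((C₀ • W₀).baseChange K).toAffine.Point →+ (W₀.baseChange K).toAffine.Point :=
  (vcPoint (W₀.baseChange K) (C₀.baseChange K)).comp
    (pointCast (map_variableChange W₀ C₀ (algebraMap F₀ K)).symm)

lemma vcPointBC_injective : Function.Injective (vcPointBC (K := K) W₀ C₀) := by
  unfold vcPointBC
  rw [AddMonoidHom.coe_comp]
  exact (vcPoint_injective _ _).comp (pointCast_injective _)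

lemma vcPointBC_zero : vcPointBC (K := K) W₀ C₀ 0 = 0 := map_zero _

lemma vcPointBC_some {x y : K} (h : ((C₀ • W₀).baseChange K).toAffine.Nonsingular x y) :
    ∃ h', vcPointBC (K := K) W₀ C₀ (.some x y h) =
      .some (vcX (C₀.baseChange K) x) (vcY (C₀.baseChange K) x y) h' :=
  ⟨_, rfl⟩

lemma vcX_map (f : K →ₐ[F₀] K) (x : K) :
    vcX (C₀.baseChange K) (f x) = f (vcX (C₀.baseChange K) x) := by
  simp only [vcX, VariableChange.baseChange, VariableChange.map, Units.coe_map,
    MonoidHom.coe_coe, map_add, map_mul, map_pow, AlgHom.commutes]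

lemma vcY_map (f : K →ₐ[F₀] K) (x y : K) :
    vcY (C₀.baseChange K) (f x) (f y) = f (vcY (C₀.baseChange K) x y) := by
  simp only [vcY, VariableChange.baseChange, VariableChange.map, Units.coe_map,
    MonoidHom.coe_coe, map_add, map_mul, map_pow, AlgHom.commutes]

/-- The point map induced by a variable change over the base field commutes with the action
of `F₀`-algebra endomorphisms of `K` on points. -/
lemma vcPointBC_map (f : K →ₐ[F₀] K) (P : ((C₀ • W₀).baseChange K).toAffine.Point) :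
    vcPointBC W₀ C₀ (Affine.Point.map (W' := (C₀ • W₀)) f P) =
      Affine.Point.map (W' := W₀) f (vcPointBC W₀ C₀ P) := by
  rcases P with _ | ⟨x, y, h⟩
  · rfl
  · change vcPointBC W₀ C₀ (Affine.Point.map (W' := (C₀ • W₀)) f (.some x y h)) =
      Affine.Point.map (W' := W₀) f (vcPointBC W₀ C₀ (.some x y h))
    rw [Affine.Point.map_some]
    obtain ⟨h1, e1⟩ := vcPointBC_some W₀ C₀ h
    obtain ⟨h2, e2⟩ := vcPointBC_some W₀ C₀
      ((WeierstrassCurve.Affine.baseChange_nonsingular (C₀ • W₀) f.injective x y).mpr h)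
    rw [e1, e2, Affine.Point.map_some]
    simp only [Affine.Point.some.injEq]
    exact ⟨vcX_map C₀ f x, vcY_map C₀ f x y⟩

/-- Transfer of "fixed by `f`" for `n`-torsion points from a model `W''` to `W = C' • W''`. -/
theorem map_eq_self_of_model {W W'' : WeierstrassCurve F₀} (C' : VariableChange F₀)
    (hW : W = C' • W'') (f : K →ₐ[F₀] K) (n : ℤ)
    (h : ∀ Q : (W''.baseChange K).toAffine.Point, n • Q = 0 →
      Affine.Point.map (W' := W'') f Q = Q)
    (P : (W.baseChange K).toAffine.Point) (hP : n • P = 0) :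
    Affine.Point.map (W' := W) f P = P := by
  subst hW
  apply vcPointBC_injective W'' C'
  rw [vcPointBC_map]
  apply h
  rw [← map_zsmul, hP, map_zero]

end BaseChange

end Fermat.Agent.S05
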