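import Mathlib
import Fermat.Prelude.Def_FLTPrelim_Ramification
import Fermat.Agent.S05.VarChange

/-!
# Frey arithmetic at an odd prime `q ≠ p` (helper81, for S05)
-/

set_option autoImplicit false
set_option linter.unusedSectionVars false

namespace Fermat.Agent.S05

open WeierstrassCurve

section ValuationBasics

variable {K : Type*} [Field K] (A : ValuationSubring K)

/-- `x` is a unit of the valuation subring `A` (i.e. has valuation `1`). -/
def IsUnitOf (x : K) : Prop := A.valuation x = 1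

lemma isUnitOf_iff_valuation {x : K} : IsUnitOf A x ↔ A.valuation x = 1 := Iff.rfl

lemma IsUnitOf.mem {x : K} (h : IsUnitOf A x) : x ∈ A :=
  (A.valuation_le_one_iff x).mp (le_of_eq h)

lemma IsUnitOf.inv_mem {x : K} (h : IsUnitOf A x) : x⁻¹ ∈ A := by
  rw [← A.valuation_le_one_iff, map_inv₀, (isUnitOf_iff_valuation A).mp h, inv_one]

lemma isUnitOf_iff_mem {x : K} : IsUnitOf A x ↔ x ≠ 0 ∧ x ∈ A ∧ x⁻¹ ∈ A := by
  constructor
  · intro h
    refine ⟨?_, h.mem A, h.inv_mem A⟩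
    rintro rfl
    rw [isUnitOf_iff_valuation] at h
    simp at h
  · rintro ⟨h0, h1, h2⟩
    rw [← A.valuation_le_one_iff] at h1 h2
    rw [map_inv₀] at h2
    have hv0 : A.valuation x ≠ 0 := (Valuation.ne_zero_iff _).mpr h0
    have h3 : 1 ≤ A.valuation x := (inv_le_one₀ (zero_lt_iff.mpr hv0)).mp h2
    exact le_antisymm h1 h3

lemma IsUnitOf.ne_zero {x : K} (h : IsUnitOf A x) : x ≠ 0 := by
  rintro rfl
  rw [isUnitOf_iff_valuation] at h
  simp at h

lemma IsUnitOf.mul {x y : K} (hx : IsUnitOf A x) (hy : IsUnitOf A y) : IsUnitOf A (x * y) := by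
  rw [isUnitOf_iff_valuation] at *
  rw [map_mul, hx, hy, one_mul]

lemma IsUnitOf.inv {x : K} (hx : IsUnitOf A x) : IsUnitOf A x⁻¹ := by
  rw [isUnitOf_iff_valuation] at *
  rw [map_inv₀, hx, inv_one]

lemma IsUnitOf.pow {x : K} (hx : IsUnitOf A x) (n : ℕ) : IsUnitOf A (x ^ n) := by
  rw [isUnitOf_iff_valuation] at *
  rw [map_pow, hx, one_pow]

lemma IsUnitOf.neg {x : K} (hx : IsUnitOf A x) : IsUnitOf A (-x) := by
  rw [isUnitOf_iff_valuation] at *
  rw [Valuation.map_neg, hx]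

lemma IsUnitOf.div {x y : K} (hx : IsUnitOf A x) (hy : IsUnitOf A y) : IsUnitOf A (x / y) := by
  rw [div_eq_mul_inv]; exact hx.mul A (hy.inv A)

lemma isUnitOf_one : IsUnitOf A (1 : K) := by
  rw [isUnitOf_iff_valuation]; simp

lemma intCast_mem (n : ℤ) : (n : K) ∈ A := by
  have : (n : K) = ((n : A) : K) := by simp
  rw [this]; exact SetLike.coe_mem _

lemma natCast_mem (n : ℕ) : (n : K) ∈ A := by
  have : (n : K) = ((n : A) : K) := by simp
  rw [this]; exact SetLike.coe_mem _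

/-- A unit plus a nonunit is a unit. -/
lemma IsUnitOf.add_nonunit {x y : K} (hx : IsUnitOf A x) (hy : y ∈ A.nonunits) :
    IsUnitOf A (x + y) := by
  rw [isUnitOf_iff_valuation] at *
  rw [ValuationSubring.mem_nonunits_iff] at hy
  rw [← hx] at hy
  rw [Valuation.map_add_eq_of_lt_left _ hy, hx]

lemma nonunit_mul_mem {x y : K} (hx : x ∈ A.nonunits) (hy : y ∈ A) : x * y ∈ A.nonunits := by
  rw [ValuationSubring.mem_nonunits_iff] at *
  rw [← A.valuation_le_one_iff] at hy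
  rw [map_mul]
  exact mul_lt_one_of_lt_of_le hx hy

lemma mem_mul_nonunit {x y : K} (hx : x ∈ A) (hy : y ∈ A.nonunits) : x * y ∈ A.nonunits := by
  rw [mul_comm]; exact nonunit_mul_mem A hy hx

lemma nonunit_pow {x : K} (hx : x ∈ A.nonunits) {n : ℕ} (hn : n ≠ 0) : x ^ n ∈ A.nonunits := by
  rw [ValuationSubring.mem_nonunits_iff] at *
  rw [map_pow]
  exact pow_lt_one₀ zero_le hx hn

lemma nonunit_mem {x : K} (hx : x ∈ A.nonunits) : x ∈ A := by
  rw [ValuationSubring.mem_nonunits_iff] at hx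
  exact (A.valuation_le_one_iff x).mp hx.le

lemma IsUnitOf.not_nonunit {x : K} (hx : IsUnitOf A x) : x ∉ A.nonunits := by
  rw [isUnitOf_iff_valuation] at hx
  rw [ValuationSubring.mem_nonunits_iff, hx]
  exact lt_irrefl _

variable {A} in
/-- An integer divisible by `q` is a nonunit of a valuation subring lying over `q`. -/
lemma intCast_nonunit_of_dvd {q : ℕ} (hq : (q : K) ∈ A.nonunits) {n : ℤ} (h : (q : ℤ) ∣ n) :
    (n : K) ∈ A.nonunits := by
  obtain ⟨m, rfl⟩ := h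
  push_cast
  exact nonunit_mul_mem A hq (intCast_mem A m)

variable {A} in
/-- An integer prime to `q` is a unit of a valuation subring lying over the prime `q`. -/
lemma intCast_isUnitOf_of_not_dvd {q : ℕ} (hqp : q.Prime) (hq : (q : K) ∈ A.nonunits) {n : ℤ}
    (h : ¬ (q : ℤ) ∣ n) : IsUnitOf A (n : K) := by
  have hcop : IsCoprime n (q : ℤ) := by
    have hq' : Prime (q : ℤ) := Nat.prime_iff_prime_int.mp hqp
    exact (hq'.coprime_iff_not_dvd.mpr h).symm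
  obtain ⟨x, y, hxy⟩ := hcop
  have h1 : (x : K) * (n : K) = 1 + (-(y : K)) * (q : K) := by
    have := congrArg (fun z : ℤ => (z : K)) hxy
    simp only [Int.cast_add, Int.cast_mul, Int.cast_natCast, Int.cast_one] at this
    linear_combination this
  have h2 : IsUnitOf A ((x : K) * (n : K)) := by
    rw [h1]
    apply (isUnitOf_one A).add_nonunit A
    exact mem_mul_nonunit A (by simpa using intCast_mem A (-y)) hq
  rw [isUnitOf_iff_valuation] at h2 ⊢
  rw [map_mul] at h2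
  have hx : A.valuation (x : K) ≤ 1 := (A.valuation_le_one_iff _).mpr (intCast_mem A x)
  have hn : A.valuation (n : K) ≤ 1 := (A.valuation_le_one_iff _).mpr (intCast_mem A n)
  refine le_antisymm hn ?_
  by_contra hlt
  push Not at hlt
  have : A.valuation (x : K) * A.valuation (n : K) < 1 := by
    calc A.valuation (x : K) * A.valuation (n : K) ≤ 1 * A.valuation (n : K) := by gcongr
    _ = A.valuation (n : K) := one_mul _
    _ < 1 := hlt
  rw [h2] at this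
  exact lt_irrefl _ this

end ValuationBasics

section Frey

variable (P : FreyPackage)

/-- The short model `Y² = X³ + (b^p - a^p) X² - (ab)^p X` of the Frey curve
(`= X (X - a^p) (X + b^p)`). -/
def freyShort : WeierstrassCurve ℚ :=
  ⟨0, (P.b : ℚ) ^ P.p - (P.a : ℚ) ^ P.p, 0, -((P.a : ℚ) ^ P.p * (P.b : ℚ) ^ P.p), 0⟩

/-- The short model of the Frey curve translated to the 2-torsion point `X = a^p`:
`Y² = X³ + (a^p + c^p) X² + (ac)^p X` (`= X (X + a^p) (X + c^p)`). -/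
def freyShortC : WeierstrassCurve ℚ :=
  ⟨0, (P.a : ℚ) ^ P.p + (P.c : ℚ) ^ P.p, 0, (P.a : ℚ) ^ P.p * (P.c : ℚ) ^ P.p, 0⟩

/-- The variable change `(x, y) ↦ (4x, 8y + 4x)`. -/
def freyVC : VariableChange ℚ := ⟨Units.mk0 2 two_ne_zero, 0, 1, 0⟩

/-- The variable change `(x, y) ↦ (4x - a^p, 8y + 4x)`. -/
def freyVCC : VariableChange ℚ := ⟨Units.mk0 2 two_ne_zero, -(P.a : ℚ) ^ P.p, 1, 0⟩

lemma hFLT_rat : (P.a : ℚ) ^ P.p + (P.b : ℚ) ^ P.p = (P.c : ℚ) ^ P.p := by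
  exact_mod_cast P.hFLT

lemma freyCurve_eq_smul_short : P.freyCurve = freyVC • freyShort P := by
  ext
  all_goals
    simp only [FreyPackage.freyCurve, freyVC, freyShort, variableChange_a₁, variableChange_a₂,
      variableChange_a₃, variableChange_a₄, variableChange_a₆, Units.val_inv_eq_inv_val,
      Units.val_mk0]
    try ring

lemma freyCurve_eq_smul_shortC : P.freyCurve = freyVCC P • freyShortC P := by
  have h := hFLT_rat P
  ext
  all_goals
    simp only [FreyPackage.freyCurve, freyVCC, freyShortC, variableChange_a₁, variableChange_a₂,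
      variableChange_a₃, variableChange_a₄, variableChange_a₆, Units.val_inv_eq_inv_val,
      Units.val_mk0]
    try rw [← h]
    try ring

lemma not_dvd_b_of_dvd_a {q : ℕ} (hq : q.Prime) (h : (q : ℤ) ∣ P.a) : ¬ (q : ℤ) ∣ P.b := by
  intro hb
  have h1 : (q : ℤ) ∣ gcd P.a P.b := dvd_gcd h hb
  rw [P.hgcdab] at h1
  exact (Nat.prime_iff_prime_int.mp hq).not_dvd_one h1

lemma not_dvd_c_of_dvd_a {q : ℕ} (hq : q.Prime) (h : (q : ℤ) ∣ P.a) : ¬ (q : ℤ) ∣ P.c := by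
  intro hb
  have h1 : (q : ℤ) ∣ gcd P.a P.c := dvd_gcd h hb
  rw [P.hgcdac] at h1
  exact (Nat.prime_iff_prime_int.mp hq).not_dvd_one h1

lemma not_dvd_c_of_dvd_b {q : ℕ} (hq : q.Prime) (h : (q : ℤ) ∣ P.b) : ¬ (q : ℤ) ∣ P.c := by
  intro hb
  have h1 : (q : ℤ) ∣ gcd P.b P.c := dvd_gcd h hb
  rw [P.hgcdbc] at h1
  exact (Nat.prime_iff_prime_int.mp hq).not_dvd_one h1

lemma not_dvd_a_of_dvd_b {q : ℕ} (hq : q.Prime) (h : (q : ℤ) ∣ P.b) : ¬ (q : ℤ) ∣ P.a :=
  fun ha => not_dvd_b_of_dvd_a P hq ha h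

lemma not_dvd_a_of_dvd_c {q : ℕ} (hq : q.Prime) (h : (q : ℤ) ∣ P.c) : ¬ (q : ℤ) ∣ P.a :=
  fun ha => not_dvd_c_of_dvd_a P hq ha h

lemma not_dvd_b_of_dvd_c {q : ℕ} (hq : q.Prime) (h : (q : ℤ) ∣ P.c) : ¬ (q : ℤ) ∣ P.b :=
  fun hb => not_dvd_c_of_dvd_b P hq hb h

variable {K : Type*} [Field K] [Algebra ℚ K] (A : ValuationSubring K)

/-- The short nodal shape at `A`: `Y² = X³ + A₂ X² + A₄ X` with `A₂` a unit of `A` and
`A₄ = u π^p`, `u` a unit of `A`, `π` a rational nonunit. -/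
structure IsShortNodal (p : ℕ) (W : WeierstrassCurve ℚ) : Prop where
  a₁ : W.a₁ = 0
  a₃ : W.a₃ = 0
  a₆ : W.a₆ = 0
  a₂_unit : IsUnitOf A (algebraMap ℚ K W.a₂)
  a₄ : ∃ π u : ℚ, W.a₄ = u * π ^ p ∧ algebraMap ℚ K π ∈ A.nonunits ∧ π ≠ 0 ∧
    IsUnitOf A (algebraMap ℚ K u)

/-- The good shape at `A`: integral coefficients and unit discriminant. -/
structure IsGoodModel (W : WeierstrassCurve ℚ) : Prop where
  a₁ : algebraMap ℚ K W.a₁ ∈ A
  a₂ : algebraMap ℚ K W.a₂ ∈ A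
  a₃ : algebraMap ℚ K W.a₃ ∈ A
  a₄ : algebraMap ℚ K W.a₄ ∈ A
  a₆ : algebraMap ℚ K W.a₆ ∈ A
  Δ_unit : IsUnitOf A (algebraMap ℚ K W.Δ)

variable {A}

lemma two_isUnitOf {q : ℕ} (hqp : q.Prime) (hq : (q : K) ∈ A.nonunits) (hq2 : q ≠ 2) :
    IsUnitOf A (2 : K) := by
  have h : ¬ (q : ℤ) ∣ (2 : ℤ) := by
    intro h
    have h' : q ∣ 2 := by exact_mod_cast h
    exact hq2 ((Nat.prime_dvd_prime_iff_eq hqp Nat.prime_two).mp h')
  simpa using intCast_isUnitOf_of_not_dvd hqp hq h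

lemma prime_isUnitOf {q p : ℕ} (hqp : q.Prime) (hq : (q : K) ∈ A.nonunits) (hp : p.Prime)
    (hne : q ≠ p) : IsUnitOf A (p : K) := by
  have h : ¬ (q : ℤ) ∣ (p : ℤ) := by
    intro h
    have h' : q ∣ p := by exact_mod_cast h
    exact hne ((Nat.prime_dvd_prime_iff_eq hqp hp).mp h')
  simpa using intCast_isUnitOf_of_not_dvd hqp hq h

lemma algebraMap_intCast (n : ℤ) : algebraMap ℚ K (n : ℚ) = (n : K) := map_intCast _ n

lemma isUnitOf_intPow {q : ℕ} (hqp : q.Prime) (hq : (q : K) ∈ A.nonunits) {n : ℤ}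
    (h : ¬ (q : ℤ) ∣ n) (m : ℕ) : IsUnitOf A (algebraMap ℚ K ((n : ℚ) ^ m)) := by
  rw [map_pow, algebraMap_intCast]
  exact (intCast_isUnitOf_of_not_dvd hqp hq h).pow A m

lemma nonunit_intPow {q : ℕ} (hq : (q : K) ∈ A.nonunits) {n : ℤ}
    (h : (q : ℤ) ∣ n) {m : ℕ} (hm : m ≠ 0) : algebraMap ℚ K ((n : ℚ) ^ m) ∈ A.nonunits := by
  rw [map_pow, algebraMap_intCast]
  exact nonunit_pow A (intCast_nonunit_of_dvd hq h) hm

lemma freyShort_isShortNodal_of_dvd_a {q : ℕ} (hqp : q.Prime) (hq : (q : K) ∈ A.nonunits)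
    (h : (q : ℤ) ∣ P.a) : IsShortNodal A P.p (freyShort P) where
  a₁ := rfl
  a₃ := rfl
  a₆ := rfl
  a₂_unit := by
    have hb := not_dvd_b_of_dvd_a P hqp h
    change IsUnitOf A (algebraMap ℚ K ((P.b : ℚ) ^ P.p - (P.a : ℚ) ^ P.p))
    rw [sub_eq_add_neg, map_add, map_neg]
    apply (isUnitOf_intPow hqp hq hb P.p).add_nonunit A
    exact neg_mem (nonunit_intPow hq h P.hp0)
  a₄ := by
    have hb := not_dvd_b_of_dvd_a P hqp h
    refine ⟨(P.a : ℚ), -(P.b : ℚ) ^ P.p, ?_, ?_, ?_, ?_⟩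
    · change -((P.a : ℚ) ^ P.p * (P.b : ℚ) ^ P.p) = _
      ring
    · rw [algebraMap_intCast]; exact intCast_nonunit_of_dvd hq h
    · exact_mod_cast P.ha0
    · rw [map_neg]; exact (isUnitOf_intPow hqp hq hb P.p).neg A

lemma freyShort_isShortNodal_of_dvd_b {q : ℕ} (hqp : q.Prime) (hq : (q : K) ∈ A.nonunits)
    (h : (q : ℤ) ∣ P.b) : IsShortNodal A P.p (freyShort P) where
  a₁ := rfl
  a₃ := rfl
  a₆ := rfl
  a₂_unit := by
    have ha := not_dvd_a_of_dvd_b P hqp h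
    change IsUnitOf A (algebraMap ℚ K ((P.b : ℚ) ^ P.p - (P.a : ℚ) ^ P.p))
    have e : (P.b : ℚ) ^ P.p - (P.a : ℚ) ^ P.p = -(P.a : ℚ) ^ P.p + (P.b : ℚ) ^ P.p := by ring
    rw [e, map_add, map_neg]
    exact ((isUnitOf_intPow hqp hq ha P.p).neg A).add_nonunit A (nonunit_intPow hq h P.hp0)
  a₄ := by
    have ha := not_dvd_a_of_dvd_b P hqp h
    refine ⟨(P.b : ℚ), -(P.a : ℚ) ^ P.p, ?_, ?_, ?_, ?_⟩
    · change -((P.a : ℚ) ^ P.p * (P.b : ℚ) ^ P.p) = _
      ring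
    · rw [algebraMap_intCast]; exact intCast_nonunit_of_dvd hq h
    · exact_mod_cast P.hb0
    · rw [map_neg]; exact (isUnitOf_intPow hqp hq ha P.p).neg A

lemma freyShortC_isShortNodal_of_dvd_c {q : ℕ} (hqp : q.Prime) (hq : (q : K) ∈ A.nonunits)
    (h : (q : ℤ) ∣ P.c) : IsShortNodal A P.p (freyShortC P) where
  a₁ := rfl
  a₃ := rfl
  a₆ := rfl
  a₂_unit := by
    have ha := not_dvd_a_of_dvd_c P hqp h
    change IsUnitOf A (algebraMap ℚ K ((P.a : ℚ) ^ P.p + (P.c : ℚ) ^ P.p))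
    rw [map_add]
    exact (isUnitOf_intPow hqp hq ha P.p).add_nonunit A (nonunit_intPow hq h P.hp0)
  a₄ := by
    have ha := not_dvd_a_of_dvd_c P hqp h
    refine ⟨(P.c : ℚ), (P.a : ℚ) ^ P.p, ?_, ?_, ?_, ?_⟩
    · rfl
    · rw [algebraMap_intCast]; exact intCast_nonunit_of_dvd hq h
    · exact_mod_cast P.hc0
    · exact isUnitOf_intPow hqp hq ha P.p

lemma freyShort_Δ : (freyShort P).Δ =
    16 * (((P.a : ℚ) ^ P.p) * ((P.b : ℚ) ^ P.p) * ((P.c : ℚ) ^ P.p)) ^ 2 := by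
  rw [← hFLT_rat P]
  simp only [WeierstrassCurve.Δ, WeierstrassCurve.b₂, WeierstrassCurve.b₄, WeierstrassCurve.b₆,
    WeierstrassCurve.b₈, freyShort]
  ring

lemma freyShort_isGoodModel {q : ℕ} (hqp : q.Prime) (hq : (q : K) ∈ A.nonunits) (hq2 : q ≠ 2)
    (ha : ¬ (q : ℤ) ∣ P.a) (hb : ¬ (q : ℤ) ∣ P.b) (hc : ¬ (q : ℤ) ∣ P.c) :
    IsGoodModel A (freyShort P) where
  a₁ := by change algebraMap ℚ K 0 ∈ A; rw [map_zero]; exact A.zero_mem
  a₂ := by
    change algebraMap ℚ K ((P.b : ℚ) ^ P.p - (P.a : ℚ) ^ P.p) ∈ A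
    rw [map_sub]
    exact A.sub_mem ((isUnitOf_intPow hqp hq hb P.p).mem A) ((isUnitOf_intPow hqp hq ha P.p).mem A)
  a₃ := by change algebraMap ℚ K 0 ∈ A; rw [map_zero]; exact A.zero_mem
  a₄ := by
    change algebraMap ℚ K (-((P.a : ℚ) ^ P.p * (P.b : ℚ) ^ P.p)) ∈ A
    rw [map_neg, map_mul]
    exact A.neg_mem _
      (A.mul_mem _ _ ((isUnitOf_intPow hqp hq ha P.p).mem A) ((isUnitOf_intPow hqp hq hb P.p).mem A))
  a₆ := by change algebraMap ℚ K 0 ∈ A; rw [map_zero]; exact A.zero_mem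
  Δ_unit := by
    rw [freyShort_Δ, map_mul, map_pow, map_mul, map_mul]
    have h16 : IsUnitOf A (algebraMap ℚ K 16) := by
      have : (algebraMap ℚ K 16) = (2 : K) ^ 4 := by
        rw [show (16 : ℚ) = 2 ^ 4 by norm_num, map_pow, map_ofNat]
      rw [this]
      exact (two_isUnitOf hqp hq hq2).pow A 4
    exact h16.mul A ((((isUnitOf_intPow hqp hq ha P.p).mul A
      (isUnitOf_intPow hqp hq hb P.p)).mul A (isUnitOf_intPow hqp hq hc P.p)).pow A 2)

end Frey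

end Fermat.Agent.S05
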