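import Mathlib.AlgebraicGeometry.EllipticCurve.Affine.Point
import Mathlib.Tactic

/-!
# S05 helper: x-coordinate identities for `P₁ ± P₂` and `2P` on a general Weierstrass curve

(helper10's identities (I1), (I2), (I3)), stated for Mathlib's `WeierstrassCurve.Affine.Point`.
-/

set_option linter.unusedSectionVars false

namespace Fermat.Agent.S05.XId

open WeierstrassCurve WeierstrassCurve.Affine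

variable {K : Type*} [Field K] (W : WeierstrassCurve K)

theorem I2_poly {x₁ x₂ y₁ y₂ : K}
    (h₁ : y₁ ^ 2 + W.a₁ * x₁ * y₁ + W.a₃ * y₁ = x₁ ^ 3 + W.a₂ * x₁ ^ 2 + W.a₄ * x₁ + W.a₆)
    (h₂ : y₂ ^ 2 + W.a₁ * x₂ * y₂ + W.a₃ * y₂ = x₂ ^ 3 + W.a₂ * x₂ ^ 2 + W.a₄ * x₂ + W.a₆) :
    ((y₁ - y₂) ^ 2 + W.a₁ * (x₁ - x₂) * (y₁ - y₂) - (W.a₂ + x₁ + x₂) * (x₁ - x₂) ^ 2) +
    ((y₁ + y₂ + W.a₁ * x₂ + W.a₃) ^ 2 + W.a₁ * (x₁ - x₂) * (y₁ + y₂ + W.a₁ * x₂ + W.a₃)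
        - (W.a₂ + x₁ + x₂) * (x₁ - x₂) ^ 2)
      = 2 * (x₁ + x₂) * (x₁ * x₂) + W.b₂ * (x₁ * x₂) + W.b₄ * (x₁ + x₂) + W.b₆ := by
  simp only [WeierstrassCurve.b₂, WeierstrassCurve.b₄, WeierstrassCurve.b₆]
  linear_combination 2 * h₁ + 2 * h₂

theorem I1_poly {x₁ x₂ y₁ y₂ : K}
    (h₁ : y₁ ^ 2 + W.a₁ * x₁ * y₁ + W.a₃ * y₁ = x₁ ^ 3 + W.a₂ * x₁ ^ 2 + W.a₄ * x₁ + W.a₆)
    (h₂ : y₂ ^ 2 + W.a₁ * x₂ * y₂ + W.a₃ * y₂ = x₂ ^ 3 + W.a₂ * x₂ ^ 2 + W.a₄ * x₂ + W.a₆) :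
    ((y₁ - y₂) ^ 2 + W.a₁ * (x₁ - x₂) * (y₁ - y₂) - (W.a₂ + x₁ + x₂) * (x₁ - x₂) ^ 2) *
    ((y₁ + y₂ + W.a₁ * x₂ + W.a₃) ^ 2 + W.a₁ * (x₁ - x₂) * (y₁ + y₂ + W.a₁ * x₂ + W.a₃)
        - (W.a₂ + x₁ + x₂) * (x₁ - x₂) ^ 2)
      = (x₁ - x₂) ^ 2 * ((x₁ * x₂) ^ 2 - W.b₄ * (x₁ * x₂) - W.b₆ * (x₁ + x₂) - W.b₈) := by
  simp only [WeierstrassCurve.b₄, WeierstrassCurve.b₆, WeierstrassCurve.b₈]
  grind

theorem I3_poly {x y : K}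
    (h : y ^ 2 + W.a₁ * x * y + W.a₃ * y = x ^ 3 + W.a₂ * x ^ 2 + W.a₄ * x + W.a₆) :
    (3 * x ^ 2 + 2 * W.a₂ * x + W.a₄ - W.a₁ * y) ^ 2
      + W.a₁ * (3 * x ^ 2 + 2 * W.a₂ * x + W.a₄ - W.a₁ * y) * (2 * y + W.a₁ * x + W.a₃)
      - (W.a₂ + 2 * x) * (2 * y + W.a₁ * x + W.a₃) ^ 2
      = x ^ 4 - W.b₄ * x ^ 2 - 2 * W.b₆ * x - W.b₈ := by
  simp only [WeierstrassCurve.b₄, WeierstrassCurve.b₆, WeierstrassCurve.b₈]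
  grind

/-- `(2y + a₁x + a₃)² = 4x³ + b₂x² + 2b₄x + b₆` on the curve. -/
theorem twoY_sq {x y : K} (h : W.toAffine.Equation x y) :
    (2 * y + W.a₁ * x + W.a₃) ^ 2 = 4 * x ^ 3 + W.b₂ * x ^ 2 + 2 * W.b₄ * x + W.b₆ := by
  rw [Affine.equation_iff] at h
  simp only [WeierstrassCurve.b₂, WeierstrassCurve.b₄, WeierstrassCurve.b₆]
  linear_combination 4 * h

variable [DecidableEq K]

/-- `x(P₁+P₂) · (x₁-x₂)²` in polynomial form. -/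
theorem addX_mul_sq {x₁ x₂ y₁ y₂ : K} (hx : x₁ ≠ x₂) :
    W.toAffine.addX x₁ x₂ (W.toAffine.slope x₁ x₂ y₁ y₂) * (x₁ - x₂) ^ 2 =
      (y₁ - y₂) ^ 2 + W.a₁ * (x₁ - x₂) * (y₁ - y₂) - (W.a₂ + x₁ + x₂) * (x₁ - x₂) ^ 2 := by
  have hne : x₁ - x₂ ≠ 0 := sub_ne_zero.mpr hx
  rw [Affine.slope_of_X_ne hx, Affine.addX]
  field_simp
  ring

/-- **(I1)** `x(P₁+P₂) · x(P₁-P₂) · (x₁-x₂)² = s² - b₄ s - b₆ t - b₈`, `s = x₁x₂`, `t = x₁+x₂`. -/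
theorem I1 {x₁ x₂ y₁ y₂ : K} (h₁ : W.toAffine.Equation x₁ y₁) (h₂ : W.toAffine.Equation x₂ y₂)
    (hx : x₁ ≠ x₂) :
    W.toAffine.addX x₁ x₂ (W.toAffine.slope x₁ x₂ y₁ y₂) *
      W.toAffine.addX x₁ x₂ (W.toAffine.slope x₁ x₂ y₁ (W.toAffine.negY x₂ y₂)) * (x₁ - x₂) ^ 2 =
      (x₁ * x₂) ^ 2 - W.b₄ * (x₁ * x₂) - W.b₆ * (x₁ + x₂) - W.b₈ := by
  have hne : x₁ - x₂ ≠ 0 := sub_ne_zero.mpr hx
  have hp := addX_mul_sq W (y₁ := y₁) (y₂ := y₂) hx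
  have hm := addX_mul_sq W (y₁ := y₁) (y₂ := W.toAffine.negY x₂ y₂) hx
  rw [Affine.equation_iff] at h₁ h₂
  have key := I1_poly W h₁ h₂
  have hm' : W.toAffine.addX x₁ x₂ (W.toAffine.slope x₁ x₂ y₁ (W.toAffine.negY x₂ y₂)) *
      (x₁ - x₂) ^ 2 = (y₁ + y₂ + W.a₁ * x₂ + W.a₃) ^ 2 +
        W.a₁ * (x₁ - x₂) * (y₁ + y₂ + W.a₁ * x₂ + W.a₃) - (W.a₂ + x₁ + x₂) * (x₁ - x₂) ^ 2 := by
    rw [hm, Affine.negY]; ring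
  apply mul_left_cancel₀ (pow_ne_zero 2 hne)
  rw [← key, ← hp, ← hm']
  ring

/-- **(I2)** `(x(P₁+P₂) + x(P₁-P₂)) · (x₁-x₂)² = 2ts + b₂ s + b₄ t + b₆`. -/
theorem I2 {x₁ x₂ y₁ y₂ : K} (h₁ : W.toAffine.Equation x₁ y₁) (h₂ : W.toAffine.Equation x₂ y₂)
    (hx : x₁ ≠ x₂) :
    (W.toAffine.addX x₁ x₂ (W.toAffine.slope x₁ x₂ y₁ y₂) +
      W.toAffine.addX x₁ x₂ (W.toAffine.slope x₁ x₂ y₁ (W.toAffine.negY x₂ y₂))) * (x₁ - x₂) ^ 2 =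
      2 * (x₁ + x₂) * (x₁ * x₂) + W.b₂ * (x₁ * x₂) + W.b₄ * (x₁ + x₂) + W.b₆ := by
  have hp := addX_mul_sq W (y₁ := y₁) (y₂ := y₂) hx
  have hm := addX_mul_sq W (y₁ := y₁) (y₂ := W.toAffine.negY x₂ y₂) hx
  rw [Affine.equation_iff] at h₁ h₂
  have key := I2_poly W h₁ h₂
  have hm' : W.toAffine.addX x₁ x₂ (W.toAffine.slope x₁ x₂ y₁ (W.toAffine.negY x₂ y₂)) *
      (x₁ - x₂) ^ 2 = (y₁ + y₂ + W.a₁ * x₂ + W.a₃) ^ 2 +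
        W.a₁ * (x₁ - x₂) * (y₁ + y₂ + W.a₁ * x₂ + W.a₃) - (W.a₂ + x₁ + x₂) * (x₁ - x₂) ^ 2 := by
    rw [hm, Affine.negY]; ring
  rw [← key, ← hp, ← hm']
  ring

/-- **(I3)** duplication: `x(2P) · (2y + a₁x + a₃)² = x⁴ - b₄x² - 2b₆x - b₈`. -/
theorem I3 {x y : K} (h : W.toAffine.Equation x y) (hy : y ≠ W.toAffine.negY x y) :
    W.toAffine.addX x x (W.toAffine.slope x x y y) * (2 * y + W.a₁ * x + W.a₃) ^ 2 =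
      x ^ 4 - W.b₄ * x ^ 2 - 2 * W.b₆ * x - W.b₈ := by
  have hd : y - W.toAffine.negY x y ≠ 0 := sub_ne_zero.mpr hy
  have hd' : y - W.toAffine.negY x y = 2 * y + W.a₁ * x + W.a₃ := by
    rw [Affine.negY]; ring
  have hℓ : W.toAffine.slope x x y y * (2 * y + W.a₁ * x + W.a₃) =
      3 * x ^ 2 + 2 * W.a₂ * x + W.a₄ - W.a₁ * y := by
    rw [Affine.slope_of_Y_ne rfl hy, hd']
    rw [hd'] at hd
    exact div_mul_cancel₀ _ hd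
  rw [Affine.equation_iff] at h
  have key := I3_poly W h
  rw [← key, ← hℓ, Affine.addX]
  ring

/-! ### Point-level forms -/

/-- Point-level (I1)+(I2): for `x₁ ≠ x₂` both `P₁ + P₂` and `P₁ - P₂` are affine and their
`x`-coordinates `x₊, x₋` satisfy (I1) and (I2). -/
theorem exists_add_sub {x₁ x₂ y₁ y₂ : K} (h₁ : W.toAffine.Nonsingular x₁ y₁)
    (h₂ : W.toAffine.Nonsingular x₂ y₂) (hx : x₁ ≠ x₂) :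
    ∃ (xp yp xm ym : K) (hp : W.toAffine.Nonsingular xp yp) (hm : W.toAffine.Nonsingular xm ym),
      Affine.Point.some x₁ y₁ h₁ + Affine.Point.some x₂ y₂ h₂ = Affine.Point.some xp yp hp ∧
      Affine.Point.some x₁ y₁ h₁ - Affine.Point.some x₂ y₂ h₂ = Affine.Point.some xm ym hm ∧
      xp * xm * (x₁ - x₂) ^ 2 = (x₁ * x₂) ^ 2 - W.b₄ * (x₁ * x₂) - W.b₆ * (x₁ + x₂) - W.b₈ ∧
      (xp + xm) * (x₁ - x₂) ^ 2 =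
        2 * (x₁ + x₂) * (x₁ * x₂) + W.b₂ * (x₁ * x₂) + W.b₄ * (x₁ + x₂) + W.b₆ := by
  have h₂' : W.toAffine.Nonsingular x₂ (W.toAffine.negY x₂ y₂) :=
    (Affine.nonsingular_neg ..).mpr h₂
  refine ⟨W.toAffine.addX x₁ x₂ (W.toAffine.slope x₁ x₂ y₁ y₂),
    W.toAffine.addY x₁ x₂ y₁ (W.toAffine.slope x₁ x₂ y₁ y₂),
    W.toAffine.addX x₁ x₂ (W.toAffine.slope x₁ x₂ y₁ (W.toAffine.negY x₂ y₂)),
    W.toAffine.addY x₁ x₂ y₁ (W.toAffine.slope x₁ x₂ y₁ (W.toAffine.negY x₂ y₂)),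
    Affine.nonsingular_add h₁ h₂ (fun hxy => hx hxy.1),
    Affine.nonsingular_add h₁ h₂' (fun hxy => hx hxy.1),
    Affine.Point.add_of_X_ne hx, ?_, I1 W h₁.1 h₂.1 hx, I2 W h₁.1 h₂.1 hx⟩
  rw [sub_eq_add_neg, Affine.Point.neg_some, Affine.Point.add_of_X_ne hx]

/-- Point-level (I3): if `2P ≠ 0` then `2P` is affine with `x(2P)·Y'² = x⁴ - b₄x² - 2b₆x - b₈`. -/
theorem exists_double {x y : K} (h : W.toAffine.Nonsingular x y)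
    (hy : y ≠ W.toAffine.negY x y) :
    ∃ (xd yd : K) (hd : W.toAffine.Nonsingular xd yd),
      Affine.Point.some x y h + Affine.Point.some x y h = Affine.Point.some xd yd hd ∧
      xd * (2 * y + W.a₁ * x + W.a₃) ^ 2 = x ^ 4 - W.b₄ * x ^ 2 - 2 * W.b₆ * x - W.b₈ :=
  ⟨_, _, _, Affine.Point.add_self_of_Y_ne hy, I3 W h.1 hy⟩

end Fermat.Agent.S05.XId
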