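import Mathlib.AlgebraicGeometry.EllipticCurve.Affine.Point
import Mathlib.RingTheory.Valuation.ValuationSubring
import Mathlib.RingTheory.Valuation.RamificationGroup

/-!
# S05 helper (helper86): points with the same nonsingular reduction differ by a point of `E₁`

General Weierstrass model `W` over a field `K`, `A` a valuation subring of `K` containing the
coefficients of `W`.

Main results (namespace `Fermat.Agent.S05`):
* `y_mem_of_x_mem` : a point with integral `x` has integral `y`.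
* `addX_not_mem` : if the slope is not integral, the `x`-coordinate of the sum is not integral.
* `sub_inE1_of_same_reduction` : two integral points with the same reduction, nonsingular on the
  reduced curve, differ by a point in the kernel of reduction.
-/

set_option autoImplicit false

namespace Fermat.Agent.S05.H86

open WeierstrassCurve

variable {K : Type*} [Field K] (A : ValuationSubring K)

/-- An element of `K` outside `A` has valuation `> 1`. -/
theorem one_lt_valuation_of_not_mem {x : K} (hx : x ∉ A) : 1 < A.valuation x := by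
  rw [← not_le, A.valuation_le_one_iff]; exact hx

theorem not_mem_of_one_lt_valuation {x : K} (hx : 1 < A.valuation x) : x ∉ A := by
  rw [← A.valuation_le_one_iff, not_le]; exact hx

/-- A unit of `A` (element of `A` not in `A.nonunits`) has valuation `1`. -/
theorem valuation_eq_one_of_mem_of_not_mem_nonunits {x : K} (hx : x ∈ A)
    (hx' : x ∉ A.nonunits) : A.valuation x = 1 := by
  have h1 : A.valuation x ≤ 1 := (A.valuation_le_one_iff x).2 hx
  have h2 : ¬ A.valuation x < 1 := fun h => hx' ((A.mem_nonunits_iff).2 h)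
  exact le_antisymm h1 (not_lt.1 h2)

/-- unit plus nonunit is not a nonunit. -/
theorem add_not_mem_nonunits {u m : K} (hu : u ∈ A) (hu' : u ∉ A.nonunits)
    (hm : m ∈ A.nonunits) : u + m ∉ A.nonunits := by
  intro h
  have hvm : A.valuation m < 1 := (A.mem_nonunits_iff).1 hm
  have hvu : A.valuation u = 1 := valuation_eq_one_of_mem_of_not_mem_nonunits A hu hu'
  have h1 : A.valuation (u + m) = A.valuation u :=
    A.valuation.map_add_eq_of_lt_left (by rw [hvu]; exact hvm)
  have h2 : A.valuation (u + m) < 1 := (A.mem_nonunits_iff).1 h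
  rw [h1, hvu] at h2
  exact lt_irrefl _ h2

/-- `a ∈ A`, `m ∈ A.nonunits` gives `a * m ∈ A.nonunits`. -/
theorem mul_mem_nonunits_of_mem {a m : K} (ha : a ∈ A) (hm : m ∈ A.nonunits) :
    a * m ∈ A.nonunits := by
  rw [A.mem_nonunits_iff] at hm ⊢
  have h1 : A.valuation a ≤ 1 := (A.valuation_le_one_iff a).2 ha
  rw [map_mul]
  calc A.valuation a * A.valuation m ≤ 1 * A.valuation m := by gcongr
    _ = A.valuation m := one_mul _
    _ < 1 := hm

/-- quotient of a unit by a nonzero nonunit is not in `A`. -/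
theorem div_not_mem {u d : K} (hu : u ∈ A) (hu' : u ∉ A.nonunits) (hd : d ∈ A.nonunits)
    (hd0 : d ≠ 0) : u / d ∉ A := by
  apply not_mem_of_one_lt_valuation
  have hvu : A.valuation u = 1 := valuation_eq_one_of_mem_of_not_mem_nonunits A hu hu'
  have hvd : A.valuation d < 1 := (A.mem_nonunits_iff).1 hd
  have hvd0 : A.valuation d ≠ 0 := (A.valuation.ne_zero_iff).2 hd0
  rw [map_div₀, hvu, one_div]
  exact (one_lt_inv₀ (zero_lt_iff.2 hvd0)).2 hvd

/-- The product of two elements outside `A` is outside `A`. -/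
theorem mul_not_mem {x y : K} (hx : x ∉ A) (hy : y ∉ A) : x * y ∉ A := by
  apply not_mem_of_one_lt_valuation
  rw [map_mul]
  exact one_lt_mul'' (one_lt_valuation_of_not_mem A hx) (one_lt_valuation_of_not_mem A hy)

/-- `m ∈ A.nonunits`, `a ∈ A` gives `m * a ∈ A.nonunits`. -/
theorem mul_mem_nonunits_of_mem' {a m : K} (hm : m ∈ A.nonunits) (ha : a ∈ A) :
    m * a ∈ A.nonunits := by
  rw [mul_comm]; exact mul_mem_nonunits_of_mem A ha hm

theorem two_mem : (2 : K) ∈ A := by
  have : (2 : K) = 1 + 1 := by norm_num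
  rw [this]; exact add_mem (one_mem A) (one_mem A)

theorem natCast_mem (n : ℕ) : (n : K) ∈ A := by
  induction n with
  | zero => simp
  | succ n ih => rw [Nat.cast_succ]; exact add_mem ih (one_mem A)

/-- If the origin is a singular point of the reduction (i.e. `a₃, a₄, a₆` are nonunits), then the
discriminant is a nonunit. -/
theorem Δ_mem_nonunits_of_singular_origin (W : WeierstrassCurve K) (h₁ : W.a₁ ∈ A)
    (h₂ : W.a₂ ∈ A) (h₃ : W.a₃ ∈ A.nonunits) (h₄ : W.a₄ ∈ A.nonunits)
    (h₆ : W.a₆ ∈ A.nonunits) : W.Δ ∈ A.nonunits := by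
  have h3A : W.a₃ ∈ A := A.nonunits_subset h₃
  have h4A : W.a₄ ∈ A := A.nonunits_subset h₄
  have h6A : W.a₆ ∈ A := A.nonunits_subset h₆
  have hb₂ : W.b₂ ∈ A := by
    simp only [WeierstrassCurve.b₂]
    exact add_mem (pow_mem h₁ 2) (mul_mem (natCast_mem A 4) h₂)
  have hb₄ : W.b₄ ∈ A.nonunits := by
    simp only [WeierstrassCurve.b₄]
    exact add_mem (mul_mem_nonunits_of_mem A (natCast_mem A 2) h₄)
      (mul_mem_nonunits_of_mem A h₁ h₃)
  have hb₆ : W.b₆ ∈ A.nonunits := by
    simp only [WeierstrassCurve.b₆]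
    exact add_mem (by rw [pow_two]; exact mul_mem_nonunits_of_mem A h3A h₃)
      (mul_mem_nonunits_of_mem A (natCast_mem A 4) h₆)
  have hb₈ : W.b₈ ∈ A.nonunits := by
    simp only [WeierstrassCurve.b₈]
    refine sub_mem (add_mem (sub_mem (add_mem ?_ ?_) ?_) ?_) ?_
    · exact mul_mem_nonunits_of_mem A (pow_mem h₁ 2) h₆
    · exact mul_mem_nonunits_of_mem A (mul_mem (natCast_mem A 4) h₂) h₆
    · exact mul_mem_nonunits_of_mem A (mul_mem h₁ h3A) h₄
    · exact mul_mem_nonunits_of_mem A h₂ (by rw [pow_two]; exact mul_mem_nonunits_of_mem A h3A h₃)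
    · rw [pow_two]; exact mul_mem_nonunits_of_mem A h4A h₄
  have hb4A : W.b₄ ∈ A := A.nonunits_subset hb₄
  have hb6A : W.b₆ ∈ A := A.nonunits_subset hb₆
  simp only [WeierstrassCurve.Δ]
  refine add_mem (sub_mem (sub_mem ?_ ?_) ?_) ?_
  · have : -W.b₂ ^ 2 * W.b₈ = (-W.b₂ ^ 2) * W.b₈ := by ring
    rw [this]
    exact mul_mem_nonunits_of_mem A (neg_mem (pow_mem hb₂ 2)) hb₈
  · have : 8 * W.b₄ ^ 3 = (8 * W.b₄ ^ 2) * W.b₄ := by ring
    rw [this]
    exact mul_mem_nonunits_of_mem A (mul_mem (natCast_mem A 8) (pow_mem hb4A 2)) hb₄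
  · have : 27 * W.b₆ ^ 2 = (27 * W.b₆) * W.b₆ := by ring
    rw [this]
    exact mul_mem_nonunits_of_mem A (mul_mem (natCast_mem A 27) hb6A) hb₆
  · exact mul_mem_nonunits_of_mem A (mul_mem (mul_mem (natCast_mem A 9) hb₂) hb4A) hb₆

section Curve

variable {A} {W : Affine K}

/-- A point with integral `x`-coordinate has integral `y`-coordinate. -/
theorem y_mem_of_x_mem (ha₁ : W.a₁ ∈ A) (ha₂ : W.a₂ ∈ A) (ha₃ : W.a₃ ∈ A) (ha₄ : W.a₄ ∈ A)
    (ha₆ : W.a₆ ∈ A) {x y : K} (h : W.Equation x y) (hx : x ∈ A) : y ∈ A := by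
  by_contra hy
  rw [Affine.equation_iff] at h
  have hc : W.a₁ * x + W.a₃ ∈ A := add_mem (mul_mem ha₁ hx) ha₃
  have hyc : y + (W.a₁ * x + W.a₃) ∉ A := fun hh => hy (by
    have := sub_mem hh hc
    simpa using this)
  have hR : x ^ 3 + W.a₂ * x ^ 2 + W.a₄ * x + W.a₆ ∈ A :=
    add_mem (add_mem (add_mem (pow_mem hx 3) (mul_mem ha₂ (pow_mem hx 2)))
      (mul_mem ha₄ hx)) ha₆
  have hprod : y * (y + (W.a₁ * x + W.a₃)) ∉ A := mul_not_mem A hy hyc
  apply hprod
  have : y * (y + (W.a₁ * x + W.a₃)) = x ^ 3 + W.a₂ * x ^ 2 + W.a₄ * x + W.a₆ := by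
    rw [← h]; ring
  rw [this]; exact hR

/-- If the slope is not integral, the `x`-coordinate of the sum is not integral. -/
theorem addX_not_mem (ha₁ : W.a₁ ∈ A) (ha₂ : W.a₂ ∈ A) {x₁ x₂ ℓ : K} (hx₁ : x₁ ∈ A)
    (hx₂ : x₂ ∈ A) (hℓ : ℓ ∉ A) : W.addX x₁ x₂ ℓ ∉ A := by
  intro h
  have hℓ' : ℓ + W.a₁ ∉ A := fun hh => hℓ (by
    have := sub_mem hh ha₁
    simpa using this)
  apply mul_not_mem A hℓ hℓ'
  have : ℓ * (ℓ + W.a₁) = W.addX x₁ x₂ ℓ + W.a₂ + x₁ + x₂ := by
    simp only [Affine.addX]; ring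
  rw [this]
  exact add_mem (add_mem (add_mem h ha₂) hx₁) hx₂

/-- **(N)** If the discriminant is a unit of `A`, every integral point reduces to a nonsingular
point: the two partial derivatives are not both nonunits. -/
theorem partials_not_both_nonunits {W : WeierstrassCurve K} (ha₁ : W.a₁ ∈ A) (ha₂ : W.a₂ ∈ A)
    (hΔ : W.Δ ∉ A.nonunits) {x y : K} (h : W.toAffine.Equation x y) (hx : x ∈ A) :
    W.a₁ * y - (3 * x ^ 2 + 2 * W.a₂ * x + W.a₄) ∉ A.nonunits ∨
      2 * y + W.a₁ * x + W.a₃ ∉ A.nonunits := by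
  by_contra hcon
  push Not at hcon
  obtain ⟨hX, hY⟩ := hcon
  apply hΔ
  have hΔeq : (VariableChange.mk 1 x 0 y • W).Δ = W.Δ := by
    rw [WeierstrassCurve.variableChange_Δ]; simp
  rw [← hΔeq]
  apply Δ_mem_nonunits_of_singular_origin A
  · rw [WeierstrassCurve.variableChange_a₁]; simpa using ha₁
  · rw [WeierstrassCurve.variableChange_a₂]
    simp only [inv_one, Units.val_one, one_pow, one_mul, zero_mul, sub_zero, ne_eq,
      OfNat.ofNat_ne_zero, not_false_eq_true, zero_pow]
    exact add_mem ha₂ (mul_mem (natCast_mem A 3) hx)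
  · rw [WeierstrassCurve.variableChange_a₃]
    simp only [inv_one, Units.val_one, one_pow, one_mul]
    have : W.a₃ + x * W.a₁ + 2 * y = 2 * y + W.a₁ * x + W.a₃ := by ring
    rw [this]; exact hY
  · rw [WeierstrassCurve.variableChange_a₄]
    simp only [inv_one, Units.val_one, one_pow, one_mul, zero_mul, sub_zero, mul_zero, add_zero]
    have : W.a₄ + 2 * x * W.a₂ - y * W.a₁ + 3 * x ^ 2 =
        -(W.a₁ * y - (3 * x ^ 2 + 2 * W.a₂ * x + W.a₄)) := by ring
    rw [this]; exact neg_mem hX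
  · rw [WeierstrassCurve.variableChange_a₆]
    simp only [inv_one, Units.val_one, one_pow, one_mul]
    have e := (Affine.equation_iff' x y).1 h
    have : W.a₆ + x * W.a₄ + x ^ 2 * W.a₂ + x ^ 3 - y * W.a₃ - y ^ 2 - x * y * W.a₁ = 0 := by
      linear_combination -e
    rw [this]; exact zero_mem A.nonunits

variable [DecidableEq K]

/-- **(III)** Two integral points with the same reduction, which is a nonsingular point of the
reduced curve, differ by a point of the kernel of reduction `E₁`. -/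
theorem sub_inE1_of_same_reduction (ha₁ : W.a₁ ∈ A) (ha₂ : W.a₂ ∈ A) (ha₃ : W.a₃ ∈ A)
    (ha₄ : W.a₄ ∈ A) {x₁ y₁ x₂ y₂ : K} (h₁ : W.Nonsingular x₁ y₁) (h₂ : W.Nonsingular x₂ y₂)
    (hx₁ : x₁ ∈ A) (hy₁ : y₁ ∈ A) (hx₂ : x₂ ∈ A) (hy₂ : y₂ ∈ A)
    (hx : x₁ - x₂ ∈ A.nonunits) (hy : y₁ - y₂ ∈ A.nonunits)
    (hns : W.a₁ * y₁ - (3 * x₁ ^ 2 + 2 * W.a₂ * x₁ + W.a₄) ∉ A.nonunits ∨
      2 * y₁ + W.a₁ * x₁ + W.a₃ ∉ A.nonunits) :
    Affine.Point.some x₁ y₁ h₁ - Affine.Point.some x₂ y₂ h₂ = 0 ∨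
      ∃ (x y : K) (h : W.Nonsingular x y),
        Affine.Point.some x₁ y₁ h₁ - Affine.Point.some x₂ y₂ h₂ = Affine.Point.some x y h ∧
          x ∉ A := by
  -- membership facts
  have h2A : (2 : K) ∈ A := by
    have : (2 : K) = 1 + 1 := by norm_num
    rw [this]; exact add_mem (one_mem A) (one_mem A)
  have h3A : (3 : K) ∈ A := by
    have : (3 : K) = 1 + 1 + 1 := by norm_num
    rw [this]; exact add_mem (add_mem (one_mem A) (one_mem A)) (one_mem A)
  have hdX : W.a₁ * y₁ - (3 * x₁ ^ 2 + 2 * W.a₂ * x₁ + W.a₄) ∈ A :=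
    sub_mem (mul_mem ha₁ hy₁) (add_mem (add_mem (mul_mem h3A (pow_mem hx₁ 2))
      (mul_mem (mul_mem h2A ha₂) hx₁)) ha₄)
  have hdY : 2 * y₁ + W.a₁ * x₁ + W.a₃ ∈ A :=
    add_mem (add_mem (mul_mem h2A hy₁) (mul_mem ha₁ hx₁)) ha₃
  rw [sub_eq_add_neg, Affine.Point.neg_some]
  by_cases hxx : x₁ = x₂
  · subst hxx
    rcases Affine.Y_eq_of_X_eq h₁.1 h₂.1 rfl with hyy | hyy
    · -- P₁ = P₂
      subst hyy
      left
      have := add_neg_cancel (Affine.Point.some x₁ y₁ h₁)
      rwa [Affine.Point.neg_some] at this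
    · by_cases hyy' : y₁ = y₂
      · subst hyy'
        left
        have := add_neg_cancel (Affine.Point.some x₁ y₁ h₁)
        rwa [Affine.Point.neg_some] at this
      · -- P₁ = -P₂, the difference is 2 P₁
        right
        have hneg : W.negY x₁ y₁ = y₂ := by
          rw [hyy]; simp only [Affine.negY]; ring
        have hne : y₁ ≠ W.negY x₁ (W.negY x₁ y₂) := by
          rw [Affine.negY_negY]; exact hyy'
        rw [Affine.Point.add_of_Y_ne hne]
        refine ⟨_, _, _, rfl, ?_⟩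
        apply addX_not_mem ha₁ ha₂ hx₁ hx₁
        rw [Affine.slope_of_Y_ne rfl hne, hneg]
        -- the denominator y₁ - y₂ is a nonzero nonunit, equal to the Y-partial
        have hdYeq : 2 * y₁ + W.a₁ * x₁ + W.a₃ = y₁ - y₂ := by
          rw [← hneg]; simp only [Affine.negY]; ring
        have hdYm : 2 * y₁ + W.a₁ * x₁ + W.a₃ ∈ A.nonunits := by rw [hdYeq]; exact hy
        have hdXu : W.a₁ * y₁ - (3 * x₁ ^ 2 + 2 * W.a₂ * x₁ + W.a₄) ∉ A.nonunits := by
          rcases hns with h | h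
          · exact h
          · exact absurd hdYm h
        have hnum : 3 * x₁ ^ 2 + 2 * W.a₂ * x₁ + W.a₄ - W.a₁ * y₁ =
            -(W.a₁ * y₁ - (3 * x₁ ^ 2 + 2 * W.a₂ * x₁ + W.a₄)) := by ring
        rw [hnum]
        apply div_not_mem A (neg_mem hdX) _ hy (sub_ne_zero.2 hyy')
        intro hh
        apply hdXu
        have := neg_mem hh
        simpa using this
  · right
    rw [Affine.Point.add_of_X_ne hxx]
    refine ⟨_, _, _, rfl, ?_⟩
    apply addX_not_mem ha₁ ha₂ hx₁ hx₂
    rw [Affine.slope_of_X_ne hxx]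
    have hxne : x₁ - x₂ ≠ 0 := sub_ne_zero.2 hxx
    -- numerator
    have hNeq : y₁ - W.negY x₂ y₂ =
        (2 * y₁ + W.a₁ * x₁ + W.a₃) + (-(y₁ - y₂) + -(W.a₁ * (x₁ - x₂))) := by
      simp only [Affine.negY]; ring
    by_cases hdYu : 2 * y₁ + W.a₁ * x₁ + W.a₃ ∈ A.nonunits
    · -- the X-partial is a unit; use the curve equations
      have hdXu : W.a₁ * y₁ - (3 * x₁ ^ 2 + 2 * W.a₂ * x₁ + W.a₄) ∉ A.nonunits := by
        rcases hns with h | h
        · exact h
        · exact absurd hdYu h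
      have e₁ := (Affine.equation_iff x₁ y₁).1 h₁.1
      have e₂ := (Affine.equation_iff x₂ y₂).1 h₂.1
      set M : K := x₁ ^ 2 + x₁ * x₂ + x₂ ^ 2 + W.a₂ * (x₁ + x₂) + W.a₄ - W.a₁ * y₁ with hM
      have hkey : (y₁ - y₂) * (y₁ - W.negY x₂ y₂) = (x₁ - x₂) * M := by
        simp only [Affine.negY, hM]
        linear_combination e₁ - e₂
      have hMeq : M = -(W.a₁ * y₁ - (3 * x₁ ^ 2 + 2 * W.a₂ * x₁ + W.a₄)) +
          (-(x₂ + 2 * x₁ + W.a₂)) * (x₁ - x₂) := by
        simp only [hM]; ring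
      have hMA : M ∈ A := by
        rw [hMeq]
        exact add_mem (neg_mem hdX) (mul_mem (neg_mem (add_mem (add_mem hx₂
          (mul_mem h2A hx₁)) ha₂)) (A.nonunits_subset hx))
      have hMu : M ∉ A.nonunits := by
        rw [hMeq]
        apply add_not_mem_nonunits A (neg_mem hdX)
        · intro hh
          apply hdXu
          have := neg_mem hh
          simpa using this
        · exact mul_mem_nonunits_of_mem A (neg_mem (add_mem (add_mem hx₂
            (mul_mem h2A hx₁)) ha₂)) hx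
      have hM0 : M ≠ 0 := fun h0 => hMu (by rw [h0]; exact (zero_mem A.nonunits))
      have hyne : y₁ - y₂ ≠ 0 := by
        intro h0
        rw [h0, zero_mul] at hkey
        exact (mul_ne_zero hxne hM0) hkey.symm
      have hslope : (y₁ - W.negY x₂ y₂) / (x₁ - x₂) = M / (y₁ - y₂) := by
        rw [div_eq_div_iff hxne hyne]
        linear_combination hkey
      rw [hslope]
      exact div_not_mem A hMA hMu hy hyne
    · -- the Y-partial is a unit
      apply div_not_mem A _ _ hx hxne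
      · rw [hNeq]
        exact add_mem hdY (add_mem (neg_mem (A.nonunits_subset hy))
          (neg_mem (mul_mem ha₁ (A.nonunits_subset hx))))
      · rw [hNeq]
        apply add_not_mem_nonunits A hdY hdYu
        exact add_mem (neg_mem hy)
          (neg_mem (mul_mem_nonunits_of_mem A ha₁ hx))

end Curve

end Fermat.Agent.S05.H86
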