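import Fermat.Agent.S05.H86SameRed
import Fermat.Prelude.Def_FLTPrelim_Ramification
import Fermat.Prelude.Def_FLTPrelim_GaloisRep

/-!
# S05 helper (helper86): inertia basics and the good-reduction case
-/

set_option autoImplicit false

namespace Fermat.Agent.S05.H86

open WeierstrassCurve

section Inertia

variable {k L : Type*} [Field k] [Field L] [Algebra k L] (A : ValuationSubring L)

/-- **(I)** An element of the inertia group maps `A` into `A` and acts trivially modulo the
maximal ideal. -/
theorem inertia_apply_mem {σ : L ≃ₐ[k] L} (hσ : σ ∈ A.inertiaSubgroupIn k) {z : L}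
    (hz : z ∈ A) : σ z ∈ A ∧ σ z - z ∈ A.nonunits := by
  obtain ⟨τ, hτ, rfl⟩ := hσ
  have hmem : (τ : L ≃ₐ[k] L) z ∈ A := ((τ • (⟨z, hz⟩ : A) : A)).2
  refine ⟨hmem, ?_⟩
  have hker : MulSemiringAction.toRingAut (A.decompositionSubgroup k)
      (IsLocalRing.ResidueField A) τ = 1 := hτ
  have h1 : τ • IsLocalRing.residue A ⟨z, hz⟩ = IsLocalRing.residue A ⟨z, hz⟩ := by
    have := congrArg (fun e : RingAut (IsLocalRing.ResidueField A) =>
      e (IsLocalRing.residue A ⟨z, hz⟩)) hker
    simpa using this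
  rw [← IsLocalRing.ResidueField.residue_smul] at h1
  have h2 : IsLocalRing.residue A (τ • (⟨z, hz⟩ : A) - ⟨z, hz⟩) = 0 := by
    rw [map_sub, h1, sub_self]
  rw [IsLocalRing.residue_eq_zero_iff] at h2
  rw [ValuationSubring.mem_nonunits_iff_exists_mem_maximalIdeal]
  exact ⟨sub_mem hmem hz, h2⟩

end Inertia

section Good

open scoped WeierstrassCurve.Affine

variable {R : Type*} {S : Type*} {K : Type*} [CommRing R] [Field S] [Field K]
  [DecidableEq K] [Algebra R S] [Algebra R K] [Algebra S K] [IsScalarTower R S K]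

/-- **(G), pointwise form.** Good reduction: if the coefficients of `W'⁄K` lie in the valuation
subring `A`, the discriminant is a unit of `A`, and the kernel of reduction has no `n`-torsion
(hypothesis `hII`, provided by part (II)), then every element of the inertia group of `A` fixes
every point killed by `n`. -/
theorem inertia_smul_eq_of_good (W' : Affine R) (A : ValuationSubring K)
    (ha₁ : (W'⁄K).a₁ ∈ A) (ha₂ : (W'⁄K).a₂ ∈ A) (ha₃ : (W'⁄K).a₃ ∈ A) (ha₄ : (W'⁄K).a₄ ∈ A)
    (ha₆ : (W'⁄K).a₆ ∈ A) (hΔ : (W'⁄K).Δ ∉ A.nonunits) (n : ℕ)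
    (hII : ∀ P : (W'⁄K).Point,
      (P = 0 ∨ ∃ (x y : K) (h : (W'⁄K).Nonsingular x y),
        P = Affine.Point.some x y h ∧ x ∉ A) → n • P = 0 → P = 0)
    {σ : K ≃ₐ[S] K} (hσ : σ ∈ A.inertiaSubgroupIn S) (P : (W'⁄K).Point) (hP : n • P = 0) :
    σ • P = P := by
  rcases P with _ | ⟨x, y, h⟩
  · exact smul_zero σ
  · -- `x` is integral
    have hx : x ∈ A := by
      by_contra hx
      have h0 := hII (Affine.Point.some x y h) (Or.inr ⟨x, y, h, rfl, hx⟩) hP
      exact Affine.Point.some_ne_zero h h0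
    have hy : y ∈ A := y_mem_of_x_mem ha₁ ha₂ ha₃ ha₄ ha₆ h.1 hx
    obtain ⟨hσx, hσx'⟩ := inertia_apply_mem A hσ hx
    obtain ⟨hσy, hσy'⟩ := inertia_apply_mem A hσ hy
    have hsmul : σ • (Affine.Point.some x y h : (W'⁄K).Point) =
        Affine.Point.map (W' := W') σ.toAlgHom (Affine.Point.some x y h) := rfl
    have hmap := Affine.Point.map_some (W' := W') (f := σ.toAlgHom) h
    have hns := partials_not_both_nonunits (A := A) (W := W'⁄K) ha₁ ha₂ hΔ h.1 hx
    have hnsσ : (W'⁄K).Nonsingular (σ x) (σ y) := by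
      have := (Affine.baseChange_nonsingular (W := W') σ.toAlgHom.injective x y).2 h
      simpa using this
    have hsmul' : σ • (Affine.Point.some x y h : (W'⁄K).Point) =
        Affine.Point.some (σ x) (σ y) hnsσ := by
      rw [hsmul, hmap]; rfl
    have hxm : x - σ x ∈ A.nonunits := by
      have := neg_mem hσx'
      simpa using this
    have hym : y - σ y ∈ A.nonunits := by
      have := neg_mem hσy'
      simpa using this
    have hIII := sub_inE1_of_same_reduction (A := A) (W := W'⁄K) ha₁ ha₂ ha₃ ha₄ h hnsσ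
      hx hy hσx hσy hxm hym hns
    have hn0 : n • (Affine.Point.some x y h - Affine.Point.some (σ x) (σ y) hnsσ :
        (W'⁄K).Point) = 0 := by
      rw [smul_sub, hP, ← hsmul', ← smul_comm, hP, smul_zero, sub_zero]
    have := hII _ hIII hn0
    rw [hsmul']
    exact (sub_eq_zero.1 this).symm

end Good

end Fermat.Agent.S05.H86
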