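import Mathlib

/-!
# Real-valued additive valuations (abstract interface) and Newton-polygon lemmas for a quadratic

`RealOrd K` is a real-valued additive valuation on a field `K`; the value at `0` is junk.
`v.ge c x` means "`ord x ≥ c`, or `x = 0`"; `v.gt c x` means "`ord x > c`, or `x = 0`".
-/

set_option autoImplicit false

namespace Fermat.Agent.S05

/-- A real-valued additive valuation on a field (value at `0` is junk). -/
structure RealOrd (K : Type*) [Field K] where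
  ord : K → ℝ
  ord_mul' : ∀ x y : K, x ≠ 0 → y ≠ 0 → ord (x * y) = ord x + ord y
  ord_add' : ∀ x y : K, x ≠ 0 → y ≠ 0 → x + y ≠ 0 → min (ord x) (ord y) ≤ ord (x + y)

namespace RealOrd

variable {K : Type*} [Field K] (v : RealOrd K)

lemma ord_mul {x y : K} (hx : x ≠ 0) (hy : y ≠ 0) : v.ord (x * y) = v.ord x + v.ord y :=
  v.ord_mul' x y hx hy

lemma ord_one : v.ord (1 : K) = 0 := by
  have h := v.ord_mul (one_ne_zero (α := K)) (one_ne_zero (α := K))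
  rw [mul_one] at h
  linarith

lemma ord_neg_one : v.ord (-1 : K) = 0 := by
  have h1 : (-1 : K) ≠ 0 := neg_ne_zero.mpr one_ne_zero
  have h := v.ord_mul h1 h1
  rw [neg_one_mul, neg_neg, v.ord_one] at h
  linarith

lemma ord_neg (x : K) : v.ord (-x) = v.ord x := by
  by_cases hx : x = 0
  · simp [hx]
  · have h1 : (-1 : K) ≠ 0 := neg_ne_zero.mpr one_ne_zero
    have h := v.ord_mul h1 hx
    rw [neg_one_mul, v.ord_neg_one] at h
    linarith

lemma ord_inv {x : K} (hx : x ≠ 0) : v.ord x⁻¹ = - v.ord x := by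
  have h := v.ord_mul hx (inv_ne_zero hx)
  rw [mul_inv_cancel₀ hx, v.ord_one] at h
  linarith

lemma ord_div {x y : K} (hx : x ≠ 0) (hy : y ≠ 0) : v.ord (x / y) = v.ord x - v.ord y := by
  rw [div_eq_mul_inv, v.ord_mul hx (inv_ne_zero hy), v.ord_inv hy]
  ring

lemma ord_pow {x : K} (hx : x ≠ 0) (n : ℕ) : v.ord (x ^ n) = n * v.ord x := by
  induction n with
  | zero => simp [v.ord_one]
  | succ n ih =>
    rw [pow_succ, v.ord_mul (pow_ne_zero n hx) hx, ih]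
    push_cast
    ring

lemma ord_sq {x : K} (hx : x ≠ 0) : v.ord (x ^ 2) = 2 * v.ord x := by
  have := v.ord_pow hx 2
  simpa using this

lemma ord_add {x y : K} (hx : x ≠ 0) (hy : y ≠ 0) (hxy : x + y ≠ 0) :
    min (v.ord x) (v.ord y) ≤ v.ord (x + y) :=
  v.ord_add' x y hx hy hxy

lemma ord_sub {x y : K} (hx : x ≠ 0) (hy : y ≠ 0) (hxy : x - y ≠ 0) :
    min (v.ord x) (v.ord y) ≤ v.ord (x - y) := by
  have h := v.ord_add hx (neg_ne_zero.mpr hy) (by rwa [← sub_eq_add_neg])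
  rwa [v.ord_neg, ← sub_eq_add_neg] at h

/-- If `ord x < ord y` then `x + y ≠ 0` and `ord (x + y) = ord x`. -/
lemma ord_add_eq_of_lt {x y : K} (hx : x ≠ 0) (hy : y ≠ 0) (h : v.ord x < v.ord y) :
    x + y ≠ 0 ∧ v.ord (x + y) = v.ord x := by
  have hne : x + y ≠ 0 := by
    intro h0
    have : x = -y := eq_neg_of_add_eq_zero_left h0
    rw [this, v.ord_neg] at h
    exact lt_irrefl _ h
  refine ⟨hne, le_antisymm ?_ ?_⟩
  · by_contra hlt
    rw [not_le] at hlt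
    have h1 := v.ord_sub hne hy (by simpa using hx)
    rw [add_sub_cancel_right] at h1
    have : v.ord x < min (v.ord (x + y)) (v.ord y) := lt_min hlt h
    linarith
  · have := v.ord_add hx hy hne
    rwa [min_eq_left h.le] at this

/-- `ord x ≥ c` or `x = 0`. -/
def ge (c : ℝ) (x : K) : Prop := x ≠ 0 → c ≤ v.ord x

/-- `ord x > c` or `x = 0`. -/
def gt (c : ℝ) (x : K) : Prop := x ≠ 0 → c < v.ord x

variable {v}

lemma ge_zero (c : ℝ) : v.ge c (0 : K) := fun h => absurd rfl h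

lemma gt_zero (c : ℝ) : v.gt c (0 : K) := fun h => absurd rfl h

lemma ge_of_ord {c : ℝ} {x : K} (h : c ≤ v.ord x) : v.ge c x := fun _ => h

lemma gt_of_ord {c : ℝ} {x : K} (h : c < v.ord x) : v.gt c x := fun _ => h

lemma gt.ge {c : ℝ} {x : K} (h : v.gt c x) : v.ge c x := fun hx => (h hx).le

lemma ge.mono {c c' : ℝ} {x : K} (h : v.ge c x) (hc : c' ≤ c) : v.ge c' x :=
  fun hx => hc.trans (h hx)

lemma gt.mono {c c' : ℝ} {x : K} (h : v.gt c x) (hc : c' ≤ c) : v.gt c' x :=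
  fun hx => lt_of_le_of_lt hc (h hx)

lemma ge.gt_of_lt {c c' : ℝ} {x : K} (h : v.ge c x) (hc : c' < c) : v.gt c' x :=
  fun hx => lt_of_lt_of_le hc (h hx)

lemma ge.add {c : ℝ} {x y : K} (hx : v.ge c x) (hy : v.ge c y) : v.ge c (x + y) := by
  intro hxy
  by_cases hx0 : x = 0
  · rw [hx0, zero_add] at hxy ⊢
    exact hy hxy
  by_cases hy0 : y = 0
  · rw [hy0, add_zero] at hxy ⊢
    exact hx hxy
  exact (le_min (hx hx0) (hy hy0)).trans (v.ord_add hx0 hy0 hxy)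

lemma gt.add {c : ℝ} {x y : K} (hx : v.gt c x) (hy : v.gt c y) : v.gt c (x + y) := by
  intro hxy
  by_cases hx0 : x = 0
  · rw [hx0, zero_add] at hxy ⊢
    exact hy hxy
  by_cases hy0 : y = 0
  · rw [hy0, add_zero] at hxy ⊢
    exact hx hxy
  exact (lt_min (hx hx0) (hy hy0)).trans_le (v.ord_add hx0 hy0 hxy)

lemma ge.neg {c : ℝ} {x : K} (hx : v.ge c x) : v.ge c (-x) := by
  intro h
  rw [v.ord_neg]
  exact hx (neg_ne_zero.mp h)

lemma gt.neg {c : ℝ} {x : K} (hx : v.gt c x) : v.gt c (-x) := by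
  intro h
  rw [v.ord_neg]
  exact hx (neg_ne_zero.mp h)

lemma ge.sub {c : ℝ} {x y : K} (hx : v.ge c x) (hy : v.ge c y) : v.ge c (x - y) := by
  rw [sub_eq_add_neg]
  exact hx.add hy.neg

lemma gt.sub {c : ℝ} {x y : K} (hx : v.gt c x) (hy : v.gt c y) : v.gt c (x - y) := by
  rw [sub_eq_add_neg]
  exact hx.add hy.neg

lemma ge.mul {c d : ℝ} {x y : K} (hx : v.ge c x) (hy : v.ge d y) : v.ge (c + d) (x * y) := by
  intro hxy
  have hx0 : x ≠ 0 := left_ne_zero_of_mul hxy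
  have hy0 : y ≠ 0 := right_ne_zero_of_mul hxy
  rw [v.ord_mul hx0 hy0]
  exact add_le_add (hx hx0) (hy hy0)

lemma gt.mul_ge {c d : ℝ} {x y : K} (hx : v.gt c x) (hy : v.ge d y) : v.gt (c + d) (x * y) := by
  intro hxy
  have hx0 : x ≠ 0 := left_ne_zero_of_mul hxy
  have hy0 : y ≠ 0 := right_ne_zero_of_mul hxy
  rw [v.ord_mul hx0 hy0]
  exact add_lt_add_of_lt_of_le (hx hx0) (hy hy0)

lemma ge.mul_gt {c d : ℝ} {x y : K} (hx : v.ge c x) (hy : v.gt d y) : v.gt (c + d) (x * y) := by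
  rw [mul_comm, add_comm]
  exact hy.mul_ge hx

lemma ge.pow {c : ℝ} {x : K} (hx : v.ge c x) (n : ℕ) : v.ge (n * c) (x ^ n) := by
  intro h
  by_cases hn : n = 0
  · subst hn
    rw [pow_zero, v.ord_one]
    simp
  have hx0 : x ≠ 0 := by
    rintro rfl
    exact h (zero_pow hn)
  rw [v.ord_pow hx0]
  exact mul_le_mul_of_nonneg_left (hx hx0) (Nat.cast_nonneg n)

/-- exact order plus strictly larger order. -/
lemma add_eq_of_gt {x y : K} (hx : x ≠ 0) (hy : v.gt (v.ord x) y) :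
    x + y ≠ 0 ∧ v.ord (x + y) = v.ord x := by
  by_cases hy0 : y = 0
  · subst hy0
    simpa using hx
  · exact v.ord_add_eq_of_lt hx hy0 (hy hy0)

lemma sub_eq_of_gt {x y : K} (hx : x ≠ 0) (hy : v.gt (v.ord x) y) :
    x - y ≠ 0 ∧ v.ord (x - y) = v.ord x := by
  rw [sub_eq_add_neg]
  exact add_eq_of_gt hx hy.neg

lemma add_eq_of_gt' {x y : K} (hy : y ≠ 0) (hx : v.gt (v.ord y) x) :
    x + y ≠ 0 ∧ v.ord (x + y) = v.ord y := by
  rw [add_comm]
  exact add_eq_of_gt hy hx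

lemma sub_eq_of_gt' {x y : K} (hy : y ≠ 0) (hx : v.gt (v.ord y) x) :
    x - y ≠ 0 ∧ v.ord (x - y) = v.ord y := by
  have h := add_eq_of_gt (x := -y) (y := x) (neg_ne_zero.mpr hy) (by rwa [v.ord_neg])
  rw [v.ord_neg, neg_add_eq_sub] at h
  exact h

/-! ### Newton polygon of `Z² - S Z + Π` with roots `z₁`, `z₂` -/

/-- (N1) If `ord S ≥ c` and `ord Π ≥ 2c` then both roots have `ord ≥ c`. -/
lemma newton_ge {c : ℝ} {z₁ z₂ : K} (hS : v.ge c (z₁ + z₂)) (hP : v.ge (2 * c) (z₁ * z₂)) :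
    v.ge c z₁ ∧ v.ge c z₂ := by
  have key : ∀ a b : K, v.ge c (a + b) → v.ge (2 * c) (a * b) → v.ge c a := by
    intro a b hS hP ha
    by_contra hlt
    rw [not_le] at hlt
    by_cases hb : b = 0
    · rw [hb, add_zero] at hS
      exact absurd (hS ha) (not_le.mpr hlt)
    · have hab : a * b ≠ 0 := mul_ne_zero ha hb
      have h1 := hP hab
      rw [v.ord_mul ha hb] at h1
      have h2 : v.ord a < v.ord b := by linarith
      obtain ⟨hne, heq⟩ := v.ord_add_eq_of_lt ha hb h2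
      have := hS hne
      linarith
  refine ⟨key z₁ z₂ hS hP, key z₂ z₁ ?_ ?_⟩
  · rwa [add_comm]
  · rwa [mul_comm z₂ z₁]

/-- (N1') If moreover `ord Π = 2c` exactly then both roots have `ord = c`. -/
lemma newton_eq {c : ℝ} {z₁ z₂ : K} (hS : v.ge c (z₁ + z₂)) (hP0 : z₁ * z₂ ≠ 0)
    (hP : v.ord (z₁ * z₂) = 2 * c) :
    (z₁ ≠ 0 ∧ v.ord z₁ = c) ∧ (z₂ ≠ 0 ∧ v.ord z₂ = c) := by
  have h1 : z₁ ≠ 0 := left_ne_zero_of_mul hP0
  have h2 : z₂ ≠ 0 := right_ne_zero_of_mul hP0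
  obtain ⟨g1, g2⟩ := newton_ge hS (ge_of_ord hP.ge)
  have e := v.ord_mul h1 h2
  have := g1 h1
  have := g2 h2
  refine ⟨⟨h1, ?_⟩, ⟨h2, ?_⟩⟩ <;> linarith

/-- (N2) If `S ≠ 0` and `ord Π > 2 ord S` (or `Π = 0`) then one root has order `ord S`
and the other is zero or has order `ord Π - ord S`. -/
lemma newton_split {z₁ z₂ : K} (hS : z₁ + z₂ ≠ 0)
    (hP : v.gt (2 * v.ord (z₁ + z₂)) (z₁ * z₂)) :
    ((z₁ ≠ 0 ∧ v.ord z₁ = v.ord (z₁ + z₂)) ∧
        (z₂ ≠ 0 → v.ord z₂ = v.ord (z₁ * z₂) - v.ord (z₁ + z₂))) ∨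
    ((z₂ ≠ 0 ∧ v.ord z₂ = v.ord (z₁ + z₂)) ∧
        (z₁ ≠ 0 → v.ord z₁ = v.ord (z₁ * z₂) - v.ord (z₁ + z₂))) := by
  by_cases h1 : z₁ = 0
  · right
    refine ⟨⟨?_, ?_⟩, fun h => absurd h1 h⟩
    · rintro rfl
      exact hS (by rw [h1, add_zero])
    · rw [h1, zero_add]
  by_cases h2 : z₂ = 0
  · left
    refine ⟨⟨h1, ?_⟩, fun h => absurd h2 h⟩
    rw [h2, add_zero]
  have hP' := hP (mul_ne_zero h1 h2)
  have e := v.ord_mul h1 h2
  have hadd := v.ord_add h1 h2 hS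
  rcases lt_trichotomy (v.ord z₁) (v.ord z₂) with hlt | heq | hgt
  · left
    obtain ⟨_, h⟩ := v.ord_add_eq_of_lt h1 h2 hlt
    refine ⟨⟨h1, h.symm⟩, fun _ => ?_⟩
    rw [e, h]; ring
  · exfalso
    rw [heq, min_self] at hadd
    rw [e, heq] at hP'
    linarith
  · right
    obtain ⟨_, h⟩ := v.ord_add_eq_of_lt h2 h1 hgt
    rw [add_comm] at h
    refine ⟨⟨h2, h.symm⟩, fun _ => ?_⟩
    rw [e, h]; ring

/-- (N3) If `Π ≠ 0`, `ord Π ≤ 0` and `ord S ≥ ord Π` (or `S = 0`), both roots have `ord ≤ 0`. -/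
lemma newton_le_zero {z₁ z₂ : K} (hP0 : z₁ * z₂ ≠ 0) (hP : v.ord (z₁ * z₂) ≤ 0)
    (hS : v.ge (v.ord (z₁ * z₂)) (z₁ + z₂)) :
    v.ord z₁ ≤ 0 ∧ v.ord z₂ ≤ 0 := by
  have key : ∀ a b : K, a * b ≠ 0 → v.ord (a * b) ≤ 0 → v.ge (v.ord (a * b)) (a + b) →
      v.ord a ≤ 0 := by
    intro a b hP0 hP hS
    have ha : a ≠ 0 := left_ne_zero_of_mul hP0
    have hb : b ≠ 0 := right_ne_zero_of_mul hP0
    have e := v.ord_mul ha hb
    by_contra hlt
    rw [not_le] at hlt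
    have h2 : v.ord b < v.ord a := by linarith
    obtain ⟨hne, heq⟩ := v.ord_add_eq_of_lt hb ha h2
    rw [add_comm] at hne heq
    have := hS hne
    linarith
  refine ⟨key z₁ z₂ hP0 hP hS, key z₂ z₁ ?_ ?_ ?_⟩
  · rwa [mul_comm z₂ z₁]
  · rwa [mul_comm z₂ z₁]
  · rwa [mul_comm z₂ z₁, add_comm z₂ z₁]

/-- (N3') If `Π ≠ 0`, `ord Π < 0` and `ord S > ord Π` (or `S = 0`), both roots have `ord < 0`. -/
lemma newton_lt_zero {z₁ z₂ : K} (hP0 : z₁ * z₂ ≠ 0) (hP : v.ord (z₁ * z₂) < 0)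
    (hS : v.gt (v.ord (z₁ * z₂)) (z₁ + z₂)) :
    v.ord z₁ < 0 ∧ v.ord z₂ < 0 := by
  have key : ∀ a b : K, a * b ≠ 0 → v.ord (a * b) < 0 → v.gt (v.ord (a * b)) (a + b) →
      v.ord a < 0 := by
    intro a b hP0 hP hS
    have ha : a ≠ 0 := left_ne_zero_of_mul hP0
    have hb : b ≠ 0 := right_ne_zero_of_mul hP0
    have e := v.ord_mul ha hb
    by_contra hlt
    rw [not_lt] at hlt
    have h2 : v.ord b < v.ord a := by linarith
    obtain ⟨hne, heq⟩ := v.ord_add_eq_of_lt hb ha h2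
    rw [add_comm] at hne heq
    have := hS hne
    linarith
  refine ⟨key z₁ z₂ hP0 hP hS, key z₂ z₁ ?_ ?_ ?_⟩
  · rwa [mul_comm z₂ z₁]
  · rwa [mul_comm z₂ z₁]
  · rwa [mul_comm z₂ z₁, add_comm z₂ z₁]

end RealOrd

end Fermat.Agent.S05
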