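import Mathlib
import Fermat.Agent.S05.FreyArith

/-!
# Real-valued `ord` attached to a valuation subring of an algebraic extension of `ℚ` (helper81)

Let `K` be a field of characteristic zero, algebraic over `ℤ` (e.g. `AlgebraicClosure ℚ`), and
`A` a valuation subring with `(q : K) ∈ A.nonunits` for a prime `q`.  Then the value group of `A`
is Archimedean, hence embeds into `ℝ`; we normalise by `ord q = 1`.
-/

set_option autoImplicit false
set_option linter.unusedSectionVars false

namespace Fermat.Agent.S05.RO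

open Polynomial

variable {K : Type*} [Field K] (A : ValuationSubring K)

lemma val_intCast_le_one (n : ℤ) : A.valuation (n : K) ≤ 1 :=
  (A.valuation_le_one_iff _).mpr (intCast_mem A n)

lemma val_zsmul_le (n : ℤ) (x : K) : A.valuation (n • x) ≤ A.valuation x := by
  rw [zsmul_eq_mul, map_mul]
  exact mul_le_of_le_one_left zero_le (val_intCast_le_one A n)

variable {A}

/-- The valuation of a nonzero integer is a power of the valuation of `q`. -/
lemma val_intCast_eq_pow {q : ℕ} (hq : q.Prime) (hA : (q : K) ∈ A.nonunits) {c : ℤ}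
    (hc : c ≠ 0) : ∃ k : ℕ, A.valuation (c : K) = A.valuation (q : K) ^ k := by
  obtain ⟨e, n', hn', he⟩ := Nat.exists_eq_pow_mul_and_not_dvd (Int.natAbs_ne_zero.mpr hc) q
    hq.ne_one
  refine ⟨e, ?_⟩
  have h1 : A.valuation (c : K) = A.valuation ((c.natAbs : ℤ) : K) := by
    rcases Int.natAbs_eq c with h | h
    · rw [← h]
    · conv_lhs => rw [h]
      rw [Int.cast_neg, Valuation.map_neg]
  rw [h1, he]
  push_cast
  rw [map_mul, map_pow]
  have h2 : IsUnitOf A ((n' : ℤ) : K) :=
    intCast_isUnitOf_of_not_dvd hq hA (by exact_mod_cast hn')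
  rw [isUnitOf_iff_valuation] at h2
  have h3 : A.valuation ((n' : ℤ) : K) = A.valuation (n' : K) := by simp
  rw [← h3, h2, mul_one]

/-- (S1) Every nonzero algebraic element of `A` has valuation at least a power of `v(q)`. -/
lemma exists_pow_le_val {q : ℕ} (hq : q.Prime) (hA : (q : K) ∈ A.nonunits) {x : K}
    (hx : IsAlgebraic ℤ x) (hx0 : x ≠ 0) (hxA : x ∈ A) :
    ∃ k : ℕ, A.valuation (q : K) ^ k ≤ A.valuation x := by
  obtain ⟨P, hc0, hPx⟩ := hx.exists_nonzero_coeff_and_aeval_eq_zero
    (mem_nonZeroDivisors_of_ne_zero hx0)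
  obtain ⟨k, hk⟩ := val_intCast_eq_pow hq hA hc0
  refine ⟨k, ?_⟩
  rw [← hk]
  rw [aeval_eq_sum_range, Finset.sum_range_succ'] at hPx
  have h1 : ((P.coeff 0 : ℤ) : K) = -∑ i ∈ Finset.range P.natDegree, P.coeff (i + 1) • x ^ (i + 1) := by
    have : P.coeff 0 • x ^ 0 = ((P.coeff 0 : ℤ) : K) := by simp
    rw [this] at hPx
    linear_combination hPx
  rw [h1, Valuation.map_neg]
  apply Valuation.map_sum_le
  intro i _
  refine (val_zsmul_le A _ _).trans ?_
  rw [map_pow, pow_succ]
  have hx1 : A.valuation x ≤ 1 := (A.valuation_le_one_iff _).mpr hxA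
  exact mul_le_of_le_one_left zero_le (pow_le_one₀ zero_le hx1)

/-- (S2) Every algebraic nonunit of `A` has a power of valuation at most `v(q)`. -/
lemma exists_val_pow_le [CharZero K] {q : ℕ} (hq : q.Prime) (hA : (q : K) ∈ A.nonunits) {x : K}
    (hx : IsAlgebraic ℤ x) (hxA : x ∈ A.nonunits) :
    ∃ r : ℕ, r ≠ 0 ∧ A.valuation x ^ r ≤ A.valuation (q : K) := by
  by_cases hx0 : x = 0
  · exact ⟨1, one_ne_zero, by simp [hx0]⟩
  have hvx0 : A.valuation x ≠ 0 := (Valuation.ne_zero_iff _).mpr hx0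
  have hvx1 : A.valuation x < 1 := (A.mem_nonunits_iff).mp hxA
  have hvq1 : A.valuation (q : K) < 1 := (A.mem_nonunits_iff).mp hA
  obtain ⟨P₀, hP₀, hP₀x⟩ := hx
  have hPx : aeval x P₀.primPart = 0 := aeval_primPart_eq_zero hP₀ hP₀x
  have hprim : P₀.primPart.IsPrimitive := isPrimitive_primPart P₀
  set P := P₀.primPart with hPdef
  -- some coefficient is not divisible by q
  have hex : ∃ i, ¬ (q : ℤ) ∣ P.coeff i := by
    by_contra hcon
    simp only [not_exists, not_not] at hcon
    have h1 : C (q : ℤ) ∣ P := (C_dvd_iff_dvd_coeff _ _).mpr hcon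
    have h2 : IsUnit (q : ℤ) := hprim _ h1
    rw [Int.isUnit_iff] at h2
    rcases h2 with h2 | h2
    · have : q = 1 := by exact_mod_cast h2
      exact hq.ne_one this
    · have : (0 : ℤ) ≤ q := Int.natCast_nonneg q
      omega
  classical
  let r := Nat.find hex
  have hr : ¬ (q : ℤ) ∣ P.coeff r := Nat.find_spec hex
  have hlt : ∀ i, i < r → (q : ℤ) ∣ P.coeff i := fun i hi => by
    by_contra h
    exact Nat.find_min hex hi h
  have hrdeg : r ≤ P.natDegree := by
    apply le_natDegree_of_ne_zero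
    intro h0
    rw [h0] at hr
    exact hr (dvd_zero _)
  have hcr : A.valuation ((P.coeff r : ℤ) : K) = 1 := intCast_isUnitOf_of_not_dvd hq hA hr
  have key : A.valuation x ^ r ≤ A.valuation (q : K) := by
    by_contra hcon
    rw [not_le] at hcon
    rw [aeval_eq_sum_range] at hPx
    have hmem : r ∈ Finset.range (P.natDegree + 1) := Finset.mem_range.mpr (by omega)
    rw [← Finset.add_sum_erase _ _ hmem] at hPx
    have h1 : P.coeff r • x ^ r
        = -∑ i ∈ (Finset.range (P.natDegree + 1)).erase r, P.coeff i • x ^ i := by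
      linear_combination hPx
    have h2 : A.valuation (P.coeff r • x ^ r) = A.valuation x ^ r := by
      rw [zsmul_eq_mul, map_mul, hcr, one_mul, map_pow]
    have h3 : A.valuation (∑ i ∈ (Finset.range (P.natDegree + 1)).erase r, P.coeff i • x ^ i)
        < A.valuation x ^ r := by
      apply Valuation.map_sum_lt _ (pow_ne_zero _ hvx0)
      intro i hi
      rw [Finset.mem_erase] at hi
      rcases lt_or_gt_of_ne hi.1 with hir | hir
      · -- i < r : coefficient divisible by q
        obtain ⟨m, hm⟩ := hlt i hir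
        rw [zsmul_eq_mul, map_mul, map_pow, hm]
        push_cast
        rw [map_mul]
        calc A.valuation (q : K) * A.valuation (m : K) * A.valuation x ^ i
            ≤ A.valuation (q : K) * 1 * 1 := by
              gcongr
              · exact val_intCast_le_one A m
              · exact pow_le_one₀ zero_le hvx1.le
          _ = A.valuation (q : K) := by simp
          _ < A.valuation x ^ r := hcon
      · -- r < i
        rw [zsmul_eq_mul, map_mul, map_pow]
        calc A.valuation ((P.coeff i : ℤ) : K) * A.valuation x ^ i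
            ≤ 1 * A.valuation x ^ i := by
              gcongr
              exact val_intCast_le_one A _
          _ = A.valuation x ^ i := one_mul _
          _ < A.valuation x ^ r :=
              pow_lt_pow_right_of_lt_one₀ (zero_lt_iff.mpr hvx0) hvx1 hir
    rw [h1, Valuation.map_neg] at h2
    rw [h2] at h3
    exact lt_irrefl _ h3
  refine ⟨r, ?_, key⟩
  intro h0
  rw [h0, pow_zero] at key
  exact absurd hvq1 (not_lt.mpr key)


/-- The value group of a valuation subring of an algebraic extension of `ℚ` lying over a prime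
is Archimedean. -/
theorem mulArchimedean_valueGroup [CharZero K] [Algebra.IsAlgebraic ℤ K] {q : ℕ} (hq : q.Prime)
    (hA : (q : K) ∈ A.nonunits) : MulArchimedean A.ValueGroup := by
  constructor
  intro γ δ hδ
  have hvq1 : A.valuation (q : K) < 1 := (A.mem_nonunits_iff).mp hA
  have hq0 : (q : K) ≠ 0 := by
    intro h
    have := A.mem_nonunits_iff.mp hA
    rw [h] at hA
    exact hq.ne_zero (by exact_mod_cast h)
  have hvq0 : A.valuation (q : K) ≠ 0 := (Valuation.ne_zero_iff _).mpr hq0
  obtain ⟨y, rfl⟩ := A.valuation_surjective δ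
  obtain ⟨z, rfl⟩ := A.valuation_surjective γ
  have hy0 : y ≠ 0 := by
    rintro rfl
    simp at hδ
  -- `y⁻¹` is a nonunit
  have hyinv : y⁻¹ ∈ A.nonunits := by
    rw [A.mem_nonunits_iff, map_inv₀]
    exact inv_lt_one_of_one_lt₀ hδ
  obtain ⟨r, hr0, hr⟩ := exists_val_pow_le hq hA (Algebra.IsAlgebraic.isAlgebraic y⁻¹) hyinv
  -- so `v(q)⁻¹ ≤ v(y)^r`
  have hr' : (A.valuation (q : K))⁻¹ ≤ A.valuation y ^ r := by
    rw [map_inv₀, inv_pow] at hr
    exact (inv_le_comm₀ (zero_lt_iff.mpr (pow_ne_zero _ ((Valuation.ne_zero_iff _).mpr hy0)))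
      (zero_lt_iff.mpr hvq0)).mp hr
  by_cases hz : A.valuation z ≤ 1
  · exact ⟨0, by simpa using hz⟩
  rw [not_le] at hz
  have hz0 : z ≠ 0 := by
    rintro rfl
    simp at hz
  have hzinv : z⁻¹ ∈ A := by
    rw [← A.valuation_le_one_iff, map_inv₀]
    exact (inv_lt_one_of_one_lt₀ hz).le
  obtain ⟨k, hk⟩ := exists_pow_le_val hq hA (Algebra.IsAlgebraic.isAlgebraic z⁻¹)
    (inv_ne_zero hz0) hzinv
  refine ⟨r * k, ?_⟩
  have hk' : A.valuation z ≤ ((A.valuation (q : K))⁻¹) ^ k := by
    rw [map_inv₀] at hk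
    rw [inv_pow]
    exact (le_inv_comm₀ (zero_lt_iff.mpr (pow_ne_zero _ hvq0))
      (zero_lt_iff.mpr ((Valuation.ne_zero_iff _).mpr hz0))).mp hk
  calc A.valuation z ≤ ((A.valuation (q : K))⁻¹) ^ k := hk'
    _ ≤ (A.valuation y ^ r) ^ k := pow_le_pow_left₀ zero_le hr' k
    _ = A.valuation y ^ (r * k) := (pow_mul _ _ _).symm


/-- `IsOrd A q ord` : the function `ord : K → ℝ` is an additive real-valued valuation whose
valuation ring is `A`, normalised by `ord q = 1`, with the junk value `ord 0 = 0`. -/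
structure IsOrd (A : ValuationSubring K) (q : ℕ) (ord : K → ℝ) : Prop where
  map_zero : ord 0 = 0
  map_q : ord (q : K) = 1
  map_mul : ∀ {x y : K}, x ≠ 0 → y ≠ 0 → ord (x * y) = ord x + ord y
  le_iff : ∀ {x y : K}, x ≠ 0 → y ≠ 0 → (ord x ≤ ord y ↔ A.valuation y ≤ A.valuation x)

/-- Existence of the real-valued `ord`. -/
theorem exists_isOrd [CharZero K] [Algebra.IsAlgebraic ℤ K] {q : ℕ} (hq : q.Prime)
    (hA : (q : K) ∈ A.nonunits) : ∃ ord : K → ℝ, IsOrd A q ord := by
  classical
  have := mulArchimedean_valueGroup hq hA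
  obtain ⟨f, hf⟩ := Archimedean.exists_orderAddMonoidHom_real_injective (Additive A.ValueGroupˣ)
  have hfm : StrictMono f := f.monotone'.strictMono_of_injective hf
  have hq0 : (q : K) ≠ 0 := by
    intro h
    exact hq.ne_zero (by exact_mod_cast h)
  have hv0 : ∀ {x : K}, x ≠ 0 → A.valuation x ≠ 0 := fun hx => (Valuation.ne_zero_iff _).mpr hx
  let g : K → ℝ := fun x =>
    if hx : x = 0 then 0 else f (Additive.ofMul (Units.mk0 (A.valuation x) (hv0 hx)))
  have hg : ∀ {x : K} (hx : x ≠ 0),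
      g x = f (Additive.ofMul (Units.mk0 (A.valuation x) (hv0 hx))) := fun hx => dif_neg hx
  have hgmul : ∀ {x y : K}, x ≠ 0 → y ≠ 0 → g (x * y) = g x + g y := by
    intro x y hx hy
    rw [hg hx, hg hy, hg (mul_ne_zero hx hy), ← map_add, ← ofMul_mul]
    congr 2
    ext
    simp
  have hgle : ∀ {x y : K}, x ≠ 0 → y ≠ 0 → (g x ≤ g y ↔ A.valuation x ≤ A.valuation y) := by
    intro x y hx hy
    rw [hg hx, hg hy, hfm.le_iff_le, Additive.ofMul_le, ← Units.val_le_val]
    simp
  have hg1 : g 1 = 0 := by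
    have := hgmul (one_ne_zero (α := K)) one_ne_zero
    rw [mul_one] at this
    linarith
  have hc : g (q : K) < 0 := by
    rw [← hg1]
    apply lt_of_le_of_ne
    · rw [hgle hq0 one_ne_zero, map_one]
      exact (A.mem_nonunits_iff.mp hA).le
    · intro h
      have h1 : g 1 ≤ g (q : K) := h.ge
      rw [hgle one_ne_zero hq0, map_one] at h1
      exact absurd (A.mem_nonunits_iff.mp hA) (not_lt.mpr h1)
  refine ⟨fun x => g x / g (q : K), ?_, ?_, ?_, ?_⟩
  · simp [g]
  · exact div_self hc.ne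
  · intro x y hx hy
    rw [hgmul hx hy, add_div]
  · intro x y hx hy
    rw [div_le_div_right_of_neg hc, hgle hy hx]


namespace IsOrd

variable {q : ℕ} {ord : K → ℝ} (h : IsOrd A q ord)
include h

lemma map_one : ord 1 = 0 := by
  have := h.map_mul (one_ne_zero (α := K)) one_ne_zero
  rw [mul_one] at this
  linarith

lemma q_ne_zero : (q : K) ≠ 0 := by
  intro h0
  have := h.map_q
  rw [h0, h.map_zero] at this
  exact zero_ne_one this

lemma map_inv (x : K) : ord x⁻¹ = -ord x := by
  by_cases hx : x = 0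
  · simp [hx, h.map_zero]
  have := h.map_mul hx (inv_ne_zero hx)
  rw [mul_inv_cancel₀ hx, h.map_one] at this
  linarith

lemma map_div {x y : K} (hx : x ≠ 0) (hy : y ≠ 0) : ord (x / y) = ord x - ord y := by
  rw [div_eq_mul_inv, h.map_mul hx (inv_ne_zero hy), h.map_inv]
  ring

lemma map_pow (x : K) (n : ℕ) : ord (x ^ n) = n * ord x := by
  by_cases hx : x = 0
  · rcases Nat.eq_zero_or_pos n with rfl | hn
    · simp [h.map_one]
    · simp [hx, zero_pow hn.ne', h.map_zero]
  induction n with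
  | zero => simp [h.map_one]
  | succ n ih =>
    rw [pow_succ, h.map_mul (pow_ne_zero _ hx) hx, ih]
    push_cast
    ring

lemma map_zpow (x : K) (n : ℤ) : ord (x ^ n) = n * ord x := by
  rcases n with n | n
  · simp [h.map_pow]
  · rw [Int.negSucc_eq, zpow_neg, h.map_inv]
    have : x ^ ((n : ℤ) + 1) = x ^ (n + 1) := by
      rw [← zpow_natCast]
      push_cast
      rfl
    rw [this, h.map_pow]
    push_cast
    ring

lemma map_neg (x : K) : ord (-x) = ord x := by
  by_cases hx : x = 0
  · simp [hx]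
  apply le_antisymm
  · rw [h.le_iff (neg_ne_zero.mpr hx) hx, Valuation.map_neg]
  · rw [h.le_iff hx (neg_ne_zero.mpr hx), Valuation.map_neg]

lemma map_sub_comm (x y : K) : ord (x - y) = ord (y - x) := by
  rw [← neg_sub, h.map_neg]

lemma lt_iff {x y : K} (hx : x ≠ 0) (hy : y ≠ 0) :
    ord x < ord y ↔ A.valuation y < A.valuation x := by
  rw [← not_le, ← not_le, h.le_iff hy hx]

lemma eq_iff {x y : K} (hx : x ≠ 0) (hy : y ≠ 0) :
    ord x = ord y ↔ A.valuation x = A.valuation y := by
  rw [le_antisymm_iff, le_antisymm_iff, h.le_iff hx hy, h.le_iff hy hx, and_comm]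

lemma nonneg_iff {x : K} (hx : x ≠ 0) : 0 ≤ ord x ↔ x ∈ A := by
  rw [← h.map_one, h.le_iff one_ne_zero hx, _root_.map_one, A.valuation_le_one_iff]

lemma pos_iff {x : K} (hx : x ≠ 0) : 0 < ord x ↔ x ∈ A.nonunits := by
  rw [← h.map_one, h.lt_iff one_ne_zero hx, _root_.map_one, A.mem_nonunits_iff]

lemma eq_zero_iff {x : K} (hx : x ≠ 0) : ord x = 0 ↔ IsUnitOf A x := by
  rw [← h.map_one, h.eq_iff hx one_ne_zero, _root_.map_one]
  rfl

lemma neg_iff {x : K} (hx : x ≠ 0) : ord x < 0 ↔ x ∉ A := by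
  rw [← not_le, h.nonneg_iff hx]

lemma nonneg_of_mem {x : K} (hx : x ∈ A) : 0 ≤ ord x := by
  by_cases hx0 : x = 0
  · simp [hx0, h.map_zero]
  · exact (h.nonneg_iff hx0).mpr hx

lemma pos_of_nonunit {x : K} (hx0 : x ≠ 0) (hx : x ∈ A.nonunits) : 0 < ord x :=
  (h.pos_iff hx0).mpr hx

lemma mem_of_pos {x : K} (hx : 0 < ord x) : x ∈ A.nonunits := by
  have hx0 : x ≠ 0 := by
    rintro rfl
    rw [h.map_zero] at hx
    exact lt_irrefl _ hx
  exact (h.pos_iff hx0).mp hx

lemma mem_of_nonneg {x : K} (hx : 0 ≤ ord x) : x ∈ A := by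
  by_cases hx0 : x = 0
  · rw [hx0]; exact A.zero_mem
  · exact (h.nonneg_iff hx0).mp hx

/-- The ultrametric inequality. -/
lemma min_le_add {x y : K} (hxy : x + y ≠ 0) : min (ord x) (ord y) ≤ ord (x + y) := by
  by_cases hx : x = 0
  · simp [hx]
  by_cases hy : y = 0
  · simp [hy]
  rcases le_total (A.valuation x) (A.valuation y) with hle | hle
  · -- v(x+y) ≤ v(y), so ord y ≤ ord (x+y)
    have : A.valuation (x + y) ≤ A.valuation y :=
      (A.valuation.map_add x y).trans (max_le hle le_rfl)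
    exact (min_le_right _ _).trans ((h.le_iff hy hxy).mpr this)
  · have : A.valuation (x + y) ≤ A.valuation x :=
      (A.valuation.map_add x y).trans (max_le le_rfl hle)
    exact (min_le_left _ _).trans ((h.le_iff hx hxy).mpr this)

lemma min_le_sub {x y : K} (hxy : x - y ≠ 0) : min (ord x) (ord y) ≤ ord (x - y) := by
  have := h.min_le_add (x := x) (y := -y) (by rwa [← sub_eq_add_neg])
  rwa [h.map_neg, ← sub_eq_add_neg] at this

/-- If `c ≤ ord x` and `c ≤ ord y` with `c ≤ 0` (so that the junk value at `0` is harmless),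
then `c ≤ ord (x + y)`. -/
lemma le_add {x y : K} {c : ℝ} (hc : c ≤ 0) (hx : c ≤ ord x) (hy : c ≤ ord y) :
    c ≤ ord (x + y) := by
  by_cases hxy : x + y = 0
  · rw [hxy, h.map_zero]; exact hc
  · exact (le_min hx hy).trans (h.min_le_add hxy)

/-- If `x ≠ 0` and `ord x < ord y` or `y = 0`, then `ord (x + y) = ord x`. -/
lemma add_eq_left {x y : K} (hx : x ≠ 0) (hy : y ≠ 0) (hlt : ord x < ord y) :
    ord (x + y) = ord x := by
  have hv : A.valuation y < A.valuation x := (h.lt_iff hx hy).mp hlt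
  have h1 : A.valuation (x + y) = A.valuation x := Valuation.map_add_eq_of_lt_left _ hv
  have hxy : x + y ≠ 0 := by
    intro h0
    rw [h0, _root_.map_zero] at h1
    exact (Valuation.ne_zero_iff _).mpr hx h1.symm
  exact (h.eq_iff hxy hx).mpr h1

lemma add_eq_right {x y : K} (hx : x ≠ 0) (hy : y ≠ 0) (hlt : ord y < ord x) :
    ord (x + y) = ord y := by
  rw [add_comm]; exact h.add_eq_left hy hx hlt

lemma add_ne_zero_of_lt {x y : K} (hlt : ord x < ord y) : x + y ≠ 0 := by
  intro h0
  have : y = -x := by linear_combination h0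
  rw [this, h.map_neg] at hlt
  exact lt_irrefl _ hlt

/-- If `x + y = 0` then `ord x = ord y`. -/
lemma eq_of_add_eq_zero {x y : K} (h0 : x + y = 0) : ord x = ord y := by
  have : y = -x := by linear_combination h0
  rw [this, h.map_neg]

/-- Two nonzero elements with `x / y ≡ 1` modulo the maximal ideal have the same `ord`. -/
lemma eq_of_sub_pos {x y : K} (hx : x ≠ 0) (hxy : ord x < ord (x - y)) :
    ord y = ord x := by
  by_cases hd : x - y = 0
  · have : x = y := by linear_combination hd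
    rw [this]
  have hy' : y = x + -(x - y) := by ring
  have := h.add_eq_left hx (neg_ne_zero.mpr hd) (by rwa [h.map_neg])
  rw [← hy'] at this
  exact this


lemma q_nonunit : (q : K) ∈ A.nonunits :=
  h.mem_of_pos (by rw [h.map_q]; exact one_pos)

lemma map_q_zpow (k : ℤ) : ord ((q : K) ^ k) = k := by
  rw [h.map_zpow, h.map_q, mul_one]

lemma map_q_pow (k : ℕ) : ord ((q : K) ^ k) = k := by
  rw [h.map_pow, h.map_q, mul_one]

/-- An element whose `ord` is an integer `k` is `q ^ k` times a unit. -/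
lemma isUnitOf_div_zpow {x : K} (hx : x ≠ 0) {k : ℤ} (hk : ord x = k) :
    IsUnitOf A (x / (q : K) ^ k) := by
  have hq0 := h.q_ne_zero
  rw [← h.eq_zero_iff (div_ne_zero hx (zpow_ne_zero _ hq0)),
    h.map_div hx (zpow_ne_zero _ hq0), h.map_q_zpow, hk, sub_self]

/-- Uniqueness of the normalised real-valued `ord`. -/
theorem unique {ord' : K → ℝ} (h' : IsOrd A q ord') : ord = ord' := by
  have key : ∀ {o₁ o₂ : K → ℝ}, IsOrd A q o₁ → IsOrd A q o₂ → ∀ x : K, x ≠ 0 → ¬ o₁ x < o₂ x := by
    intro o₁ o₂ h₁ h₂ x hx hlt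
    obtain ⟨r, hr1, hr2⟩ := exists_rat_btwn hlt
    have hden : (0 : ℝ) < r.den := by exact_mod_cast r.den_pos
    have hr : (r : ℝ) = (r.num : ℝ) / (r.den : ℝ) := by
      exact_mod_cast (Rat.num_div_den r).symm
    rw [hr] at hr1 hr2
    rw [lt_div_iff₀ hden] at hr1
    rw [div_lt_iff₀ hden] at hr2
    have hq0 := h₁.q_ne_zero
    have hxn : x ^ r.den ≠ 0 := pow_ne_zero _ hx
    have hqm : (q : K) ^ r.num ≠ 0 := zpow_ne_zero _ hq0
    have e1 : o₁ (x ^ r.den) < o₁ ((q : K) ^ r.num) := by
      rw [h₁.map_pow, h₁.map_q_zpow]; linarith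
    have e2 : o₂ ((q : K) ^ r.num) < o₂ (x ^ r.den) := by
      rw [h₂.map_pow, h₂.map_q_zpow]; linarith
    rw [h₁.lt_iff hxn hqm] at e1
    rw [h₂.lt_iff hqm hxn] at e2
    exact lt_asymm e1 e2
  funext x
  by_cases hx : x = 0
  · rw [hx, h.map_zero, h'.map_zero]
  · exact le_antisymm (not_lt.mp (key h' h x hx)) (not_lt.mp (key h h' x hx))

/-- `ord` is invariant under every field automorphism preserving `A`. -/
theorem map_ringEquiv (σ : K ≃+* K) (hσ : ∀ z : K, σ z ∈ A ↔ z ∈ A) (x : K) :
    ord (σ x) = ord x := by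
  have hval : ∀ {x y : K}, x ≠ 0 → (A.valuation y ≤ A.valuation x ↔ y / x ∈ A) := by
    intro x y hx
    rw [← A.valuation_le_one_iff, map_div₀,
      div_le_one₀ (zero_lt_iff.mpr ((Valuation.ne_zero_iff _).mpr hx))]
  have h' : IsOrd A q (fun x => ord (σ x)) := by
    refine ⟨?_, ?_, ?_, ?_⟩
    · simp only [_root_.map_zero, h.map_zero]
    · simp only [map_natCast, h.map_q]
    · intro x y hx hy
      simp only [_root_.map_mul]
      exact h.map_mul ((map_ne_zero σ).mpr hx) ((map_ne_zero σ).mpr hy)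
    · intro x y hx hy
      rw [h.le_iff ((map_ne_zero σ).mpr hx) ((map_ne_zero σ).mpr hy),
        hval ((map_ne_zero σ).mpr hx), hval hx, ← map_div₀, hσ]
  exact (congrFun (h.unique h') x).symm

/-- The valuation attached to `A` is invariant under every field automorphism preserving `A`
(for fields algebraic over `ℚ`, via the real-valued `ord`). -/
theorem valuation_ringEquiv (σ : K ≃+* K) (hσ : ∀ z : K, σ z ∈ A ↔ z ∈ A) (x : K) :
    A.valuation (σ x) = A.valuation x := by
  by_cases hx : x = 0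
  · simp [hx]
  exact (h.eq_iff ((map_ne_zero σ).mpr hx) hx).mp (h.map_ringEquiv σ hσ x)

end IsOrd

end Fermat.Agent.S05.RO
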