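import Mathlib
import Fermat.Agent.S05.Ord
import Fermat.Agent.S05.RealOrd

/-!
# Existence of a `RealOrd` on `AlgebraicClosure ℚ` attached to a valuation subring over `q`
(helper81, WP1 of the x-only route for S05)
-/

set_option autoImplicit false

namespace Fermat.Agent.S05

/-- `AlgebraicClosure ℚ` is algebraic over `ℤ`. -/
theorem RO.isAlgebraic_int_Qbar :
    @Algebra.IsAlgebraic ℤ (AlgebraicClosure ℚ) _ _ (Ring.toIntAlgebra _) := by
  let _ : Algebra ℤ (AlgebraicClosure ℚ) := Ring.toIntAlgebra _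
  constructor
  intro x
  have h2 : IsAlgebraic ℚ x := (AlgebraicClosure.isAlgebraic ℚ).isAlgebraic x
  obtain ⟨P, hP0, hP⟩ := h2
  exact (IsFractionRing.isAlgebraic_iff ℤ ℚ (AlgebraicClosure ℚ) (x := x)).2 ⟨P, hP0, hP⟩

/-- The `RealOrd` structure underlying an `IsOrd` function. -/
noncomputable def RO.IsOrd.toRealOrd {K : Type*} [Field K] {A : ValuationSubring K} {q : ℕ}
    {ord : K → ℝ} (h : RO.IsOrd A q ord) : RealOrd K where
  ord := ord
  ord_mul' := fun _ _ hx hy => h.map_mul hx hy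
  ord_add' := fun _ _ _ _ hxy => h.min_le_add hxy

/-- General form: on a characteristic zero field algebraic over `ℤ`, a valuation subring lying
over a prime `q` has an attached normalised real-valued `ord`. -/
theorem RO.exists_realOrd_full {K : Type*} [Field K] [CharZero K] [Algebra.IsAlgebraic ℤ K]
    (A : ValuationSubring K) {q : ℕ} (hq : q.Prime) (hA : ((q : ℕ) : K) ∈ A.nonunits) :
    ∃ v : RealOrd K, RO.IsOrd A q v.ord :=
  let ⟨_, h⟩ := RO.exists_isOrd hq hA
  ⟨h.toRealOrd, h⟩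

/-- **WP1.** A valuation subring `A` of `AlgebraicClosure ℚ` lying over a prime `q` is the
valuation ring of a real-valued additive valuation. -/
theorem exists_realOrd (A : ValuationSubring (AlgebraicClosure ℚ)) {q : ℕ} (hq : q.Prime)
    (hA : ((q : ℕ) : AlgebraicClosure ℚ) ∈ A.nonunits) :
    ∃ v : RealOrd (AlgebraicClosure ℚ),
      ∀ x : AlgebraicClosure ℚ, x ≠ 0 → (x ∈ A ↔ 0 ≤ v.ord x) := by
  obtain ⟨v, h⟩ := @RO.exists_realOrd_full _ _ _ RO.isAlgebraic_int_Qbar A q hq hA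
  exact ⟨v, fun x hx => (h.nonneg_iff hx).symm⟩

/-- **WP1, full form.** Same as `exists_realOrd`, with all the normalisations:
`ord q = 1`, `ord x > 0 ↔ x ∈ A.nonunits`, and comparison with `A.valuation`. -/
theorem exists_realOrd' (A : ValuationSubring (AlgebraicClosure ℚ)) {q : ℕ} (hq : q.Prime)
    (hA : ((q : ℕ) : AlgebraicClosure ℚ) ∈ A.nonunits) :
    ∃ v : RealOrd (AlgebraicClosure ℚ), v.ord ((q : ℕ) : AlgebraicClosure ℚ) = 1 ∧
      (∀ x : AlgebraicClosure ℚ, x ≠ 0 → (x ∈ A ↔ 0 ≤ v.ord x)) ∧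
      (∀ x : AlgebraicClosure ℚ, x ≠ 0 → (x ∈ A.nonunits ↔ 0 < v.ord x)) ∧
      (∀ x y : AlgebraicClosure ℚ, x ≠ 0 → y ≠ 0 →
        (v.ord x ≤ v.ord y ↔ A.valuation y ≤ A.valuation x)) := by
  obtain ⟨v, h⟩ := @RO.exists_realOrd_full _ _ _ RO.isAlgebraic_int_Qbar A q hq hA
  exact ⟨v, h.map_q, fun x hx => (h.nonneg_iff hx).symm, fun x hx => (h.pos_iff hx).symm,
    fun x y hx hy => h.le_iff hx hy⟩

end Fermat.Agent.S05
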