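import Mathlib.RingTheory.Valuation.ValuationSubring
import Mathlib.FieldTheory.IsAlgClosed.Basic
import Mathlib.Tactic

/-!
# S05 helper (helper97): roots of `T² + a₁T - a₂` in a valuation subring
-/

namespace Fermat.Agent.S05.H97

open Polynomial

/-- In a linearly ordered commutative group with zero, `x ^ 2 = 1` forces `x = 1`. -/
theorem eq_one_of_sq_eq_one {Γ : Type*} [LinearOrderedCommGroupWithZero Γ] {x : Γ}
    (h : x ^ 2 = 1) : x = 1 := by
  rcases lt_trichotomy x 1 with hlt | heq | hgt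
  · exfalso
    have : x ^ 2 < 1 := pow_lt_one₀ zero_le hlt two_ne_zero
    exact absurd h (ne_of_lt this)
  · exact heq
  · exfalso
    have : 1 < x ^ 2 := one_lt_pow₀ hgt two_ne_zero
    exact absurd h.symm (ne_of_lt this)

/-- A root of `T² + a₁T - a₂` with `a₁, a₂ ∈ A` lies in `A`. -/
theorem root_mem {K : Type*} [Field K] (A : ValuationSubring K) {a₁ a₂ r : K}
    (h1 : a₁ ∈ A) (h2 : a₂ ∈ A) (hr : r ^ 2 + a₁ * r - a₂ = 0) : r ∈ A := by
  rw [← A.valuation_le_one_iff]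
  by_contra hcon
  push Not at hcon
  set v := A.valuation
  have Va1 : v a₁ ≤ 1 := (A.valuation_le_one_iff _).mpr h1
  have Va2 : v a₂ ≤ 1 := (A.valuation_le_one_iff _).mpr h2
  have hpos : 0 < v r := lt_trans zero_lt_one hcon
  have hlt : v r < v r ^ 2 := by
    calc v r = v r * 1 := (mul_one _).symm
      _ < v r * v r := mul_lt_mul_of_pos_left hcon hpos
      _ = v r ^ 2 := (sq _).symm
  have h1' : v (a₁ * r) < v (r ^ 2) := by
    rw [map_mul, map_pow]
    calc v a₁ * v r ≤ 1 * v r := by gcongr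
      _ = v r := one_mul _
      _ < v r ^ 2 := hlt
  have h2' : v (r ^ 2 + a₁ * r) = v (r ^ 2) := Valuation.map_add_eq_of_lt_left v h1'
  have h3' : v a₂ < v (r ^ 2 + a₁ * r) := by
    rw [h2', map_pow]
    exact lt_of_le_of_lt Va2 (lt_trans hcon hlt)
  have h4' : v (r ^ 2 + a₁ * r - a₂) = v r ^ 2 := by
    rw [Valuation.map_sub_eq_of_lt_left v h3', h2', map_pow]
  rw [hr, map_zero] at h4'
  have : v r ^ 2 ≠ 0 := pow_ne_zero 2 (ne_of_gt hpos)
  exact this h4'.symm

/-- Over an algebraically closed field, the tangent directions at the node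
(roots of `T² + a₁T - a₂`) exist, are integral, and are distinct modulo the maximal ideal
when `b₂ = a₁² + 4a₂` is a unit. -/
theorem exists_nodal_roots {K : Type*} [Field K] [IsAlgClosed K] (A : ValuationSubring K)
    (a₁ a₂ : K) (h1 : a₁ ∈ A) (h2 : a₂ ∈ A) (hb : A.valuation (a₁ ^ 2 + 4 * a₂) = 1) :
    ∃ r₁ r₂ : K, r₁ ∈ A ∧ r₂ ∈ A ∧ a₁ = -(r₁ + r₂) ∧ a₂ = -(r₁ * r₂) ∧
      A.valuation (r₁ - r₂) = 1 := by
  have hdeg : (X ^ 2 + C a₁ * X - C a₂ : K[X]).degree ≠ 0 := by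
    have : (X ^ 2 + C a₁ * X - C a₂ : K[X]).degree = 2 := by
      compute_degree!
    rw [this]; norm_num
  obtain ⟨r₁, hr₁⟩ := IsAlgClosed.exists_root _ hdeg
  have hr : r₁ ^ 2 + a₁ * r₁ - a₂ = 0 := by
    simpa [IsRoot] using hr₁
  have hr₂ : (-a₁ - r₁) ^ 2 + a₁ * (-a₁ - r₁) - a₂ = 0 := by linear_combination hr
  refine ⟨r₁, -a₁ - r₁, root_mem A h1 h2 hr, root_mem A h1 h2 hr₂, by ring, ?_, ?_⟩
  · linear_combination -hr
  · apply eq_one_of_sq_eq_one
    rw [← map_pow, ← hb]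
    congr 1
    linear_combination 4 * hr

end Fermat.Agent.S05.H97
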