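import Mathlib.AlgebraicGeometry.EllipticCurve.Affine.Point
import Mathlib.Tactic

/-!
# Chord–tangent formulas on the nodal-shape model `y² + a₁xy = x³ + a₂x² + a₄x`

Pure field algebra (no valuations).
-/

set_option autoImplicit false

namespace Fermat.Agent.S05.H76

open WeierstrassCurve WeierstrassCurve.Affine

variable {F : Type*} [Field F] [DecidableEq F] {W : WeierstrassCurve.Affine F}

/-- Vieta relations for the chord/tangent line through two points. -/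
theorem vieta {x₁ x₂ y₁ y₂ : F} (h₁ : W.Equation x₁ y₁) (h₂ : W.Equation x₂ y₂)
    (hxy : ¬(x₁ = x₂ ∧ y₁ = W.negY x₂ y₂)) :
    (x₁ + x₂ + W.addX x₁ x₂ (W.slope x₁ x₂ y₁ y₂) =
      (W.slope x₁ x₂ y₁ y₂) ^ 2 + W.a₁ * (W.slope x₁ x₂ y₁ y₂) - W.a₂) ∧
    (x₁ * x₂ + x₁ * W.addX x₁ x₂ (W.slope x₁ x₂ y₁ y₂) + x₂ * W.addX x₁ x₂ (W.slope x₁ x₂ y₁ y₂) =
      2 * x₁ * (W.slope x₁ x₂ y₁ y₂) ^ 2 + (W.a₁ * x₁ - 2 * y₁ - W.a₃) * (W.slope x₁ x₂ y₁ y₂)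
        + (-W.a₁ * y₁ + W.a₄)) ∧
    (x₁ * x₂ * W.addX x₁ x₂ (W.slope x₁ x₂ y₁ y₂) =
      x₁ ^ 2 * (W.slope x₁ x₂ y₁ y₂) ^ 2 - (2 * x₁ * y₁ + W.a₃ * x₁) * (W.slope x₁ x₂ y₁ y₂)
        + (y₁ ^ 2 + W.a₃ * y₁ - W.a₆)) := by
  have h := addPolynomial_slope h₁ h₂ hxy
  rw [addPolynomial_eq, neg_inj, Cubic.prod_X_sub_C_eq, Cubic.toPoly_injective] at h
  have hc := congrArg Cubic.c h
  have hd := congrArg Cubic.d h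
  simp only at hc hd
  refine ⟨?_, ?_, ?_⟩
  · simp only [addX]; ring
  · linear_combination -hc
  · linear_combination hd

/-- The second point lies on the line through the first point with the Mathlib slope. -/
theorem line_snd {x₁ x₂ y₁ y₂ : F} (h₁ : W.Equation x₁ y₁) (h₂ : W.Equation x₂ y₂)
    (hxy : ¬(x₁ = x₂ ∧ y₁ = W.negY x₂ y₂)) :
    y₂ = W.slope x₁ x₂ y₁ y₂ * x₂ + (y₁ - W.slope x₁ x₂ y₁ y₂ * x₁) := by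
  by_cases hx : x₁ = x₂
  · have hy : y₁ ≠ W.negY x₂ y₂ := fun h => hxy ⟨hx, h⟩
    have := Y_eq_of_Y_ne h₁ h₂ hx hy
    subst hx; subst this; ring
  · rw [slope_of_X_ne hx]
    have : x₁ - x₂ ≠ 0 := sub_ne_zero.mpr hx
    field_simp
    ring

section Nodal

variable (h3 : W.a₃ = 0) (h6 : W.a₆ = 0)
include h3 h6

/-- `x₁ x₂ x₃ = ν²` where `ν` is the intercept of the line. -/
theorem nodal_vieta3 {x₁ x₂ y₁ y₂ : F} (h₁ : W.Equation x₁ y₁) (h₂ : W.Equation x₂ y₂)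
    (hxy : ¬(x₁ = x₂ ∧ y₁ = W.negY x₂ y₂)) :
    x₁ * x₂ * W.addX x₁ x₂ (W.slope x₁ x₂ y₁ y₂) = (y₁ - W.slope x₁ x₂ y₁ y₂ * x₁) ^ 2 := by
  have h := (vieta h₁ h₂ hxy).2.2
  rw [h, h3, h6]; ring

/-- `ν (x₂ y₁ + x₁ y₂ + a₁ x₁ x₂) = x₁ x₂ (a₄ - x₁ x₂)`. -/
theorem nodal_vieta2 {x₁ x₂ y₁ y₂ : F} (h₁ : W.Equation x₁ y₁) (h₂ : W.Equation x₂ y₂)
    (hxy : ¬(x₁ = x₂ ∧ y₁ = W.negY x₂ y₂)) :
    (y₁ - W.slope x₁ x₂ y₁ y₂ * x₁) * (x₂ * y₁ + x₁ * y₂ + W.a₁ * x₁ * x₂) =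
      x₁ * x₂ * (W.a₄ - x₁ * x₂) := by
  have hv := vieta h₁ h₂ hxy
  have hl := line_snd h₁ h₂ hxy
  have h2 := hv.2.1
  have h3' := nodal_vieta3 h3 h6 h₁ h₂ hxy
  rw [h3] at h2
  set ℓ := W.slope x₁ x₂ y₁ y₂
  set x₃ := W.addX x₁ x₂ ℓ
  rw [hl]
  linear_combination (-(x₁ + x₂)) * h3' + (x₁ * x₂) * h2

omit h3 h6 in
/-- The `y`-coordinate of the third intersection point. -/
theorem negAddY_eq_line {x₁ x₂ y₁ y₂ : F} :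
    W.negAddY x₁ x₂ y₁ (W.slope x₁ x₂ y₁ y₂) =
      W.slope x₁ x₂ y₁ y₂ * W.addX x₁ x₂ (W.slope x₁ x₂ y₁ y₂)
        + (y₁ - W.slope x₁ x₂ y₁ y₂ * x₁) := by
  simp only [negAddY]; ring

end Nodal

end Fermat.Agent.S05.H76
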