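import Fermat.Agent.S05.H76Core
import Fermat.Agent.S05.H76Nodal
import Mathlib.RingTheory.Valuation.ValuationSubring

/-!
# The component map on the nodal model

`W : y² + a₁xy = x³ + a₂x² + a₄x` with `a₁ = -(r₁+r₂)`, `a₂ = -r₁r₂`, i.e.
`(y - r₁x)(y - r₂x) = x³ + a₄ x`, over a valued field with `v a₄ < 1`, `v (r₁ - r₂) = 1`.
We define a height `ht : W.Point → Γ₀` and prove it is additive modulo `(v a₄)^(2ℤ)`.
-/

set_option autoImplicit false
set_option linter.unusedSectionVars false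

namespace Fermat.Agent.S05.H76

open WeierstrassCurve WeierstrassCurve.Affine

variable {K : Type*} [Field K] [DecidableEq K] {Γ₀ : Type*} [LinearOrderedCommGroupWithZero Γ₀]

/-- The Weierstrass curve has the nodal shape `(y - r₁x)(y - r₂x) = x³ + a₄x`. -/
structure NodalModel (W : WeierstrassCurve K) (r₁ r₂ : K) : Prop where
  a₁ : W.a₁ = -(r₁ + r₂)
  a₂ : W.a₂ = -(r₁ * r₂)
  a₃ : W.a₃ = 0
  a₆ : W.a₆ = 0

namespace NodalModel

variable {W : WeierstrassCurve K} {r₁ r₂ : K}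

theorem equation_iff (N : NodalModel W r₁ r₂) (x y : K) :
    W.toAffine.Equation x y ↔ (y - r₁ * x) * (y - r₂ * x) = x ^ 3 + W.a₄ * x := by
  rw [Affine.equation_iff, N.a₁, N.a₂, N.a₃, N.a₆]
  constructor <;> intro h <;> linear_combination h

theorem negY_eq (N : NodalModel W r₁ r₂) (x y : K) :
    W.toAffine.negY x y = -y + (r₁ + r₂) * x := by
  rw [Affine.negY, N.a₁, N.a₃]; ring

theorem line3 (N : NodalModel W r₁ r₂) {x₁ y₁ x₂ y₂ : K} (h₁ : W.toAffine.Equation x₁ y₁)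
    (h₂ : W.toAffine.Equation x₂ y₂) (hxy : ¬(x₁ = x₂ ∧ y₁ = W.toAffine.negY x₂ y₂)) :
    Line3 r₁ r₂ W.a₄ x₁ y₁ x₂ y₂
      (W.toAffine.addX x₁ x₂ (W.toAffine.slope x₁ x₂ y₁ y₂))
      (W.toAffine.addY x₁ x₂ y₁ (W.toAffine.slope x₁ x₂ y₁ y₂))
      (W.toAffine.slope x₁ x₂ y₁ y₂) (y₁ - W.toAffine.slope x₁ x₂ y₁ y₂ * x₁) := by
  have hv := vieta h₁ h₂ hxy
  have hl := line_snd h₁ h₂ hxy
  have h3' := nodal_vieta3 N.a₃ N.a₆ h₁ h₂ hxy
  obtain ⟨hv1, hv2, -⟩ := hv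
  rw [N.a₁, N.a₂] at hv1
  rw [N.a₁, N.a₃] at hv2
  refine ⟨by ring, hl, ?_, ?_, ?_, h3'⟩
  · simp only [Affine.addY, Affine.negY, Affine.negAddY, N.a₁, N.a₃]
    ring
  · linear_combination hv1
  · linear_combination hv2

end NodalModel

/-- The height of a point (value of the component map), as an element of the value group. -/
noncomputable def ht (v : Valuation K Γ₀) (W : WeierstrassCurve K) (r₁ : K) :
    W.toAffine.Point → Γ₀
  | .zero => 1
  | .some x y _ =>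
      if 1 ≤ v x then 1
      else if v x ≤ v W.a₄ then v W.a₄
      else if v (y - r₁ * x) < v x then v x
      else (v x)⁻¹

/-- The fundamental domain: identity component or the `r₁`-branch. -/
def InF0 (v : Valuation K Γ₀) (W : WeierstrassCurve K) (r₁ : K) : W.toAffine.Point → Prop
  | .zero => True
  | .some x y _ => 1 ≤ v x ∨ (v x < 1 ∧ v W.a₄ < v x ∧ v (y - r₁ * x) < v x)

section ht

variable (v : Valuation K Γ₀) (W : WeierstrassCurve K) (r₁ r₂ : K)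

@[simp] theorem ht_zero : ht v W r₁ (0 : W.toAffine.Point) = 1 := rfl

theorem ht_Z {x y : K} (h : W.toAffine.Nonsingular x y) (hx : 1 ≤ v x) :
    ht v W r₁ (.some x y h) = 1 := by
  simp only [ht, if_pos hx]

theorem ht_M {x y : K} (h : W.toAffine.Nonsingular x y) (hw : v W.a₄ < 1)
    (hx : v x ≤ v W.a₄) : ht v W r₁ (.some x y h) = v W.a₄ := by
  have h1 : ¬ (1 ≤ v x) := not_le.mpr (lt_of_le_of_lt hx hw)
  simp only [ht, if_neg h1, if_pos hx]

theorem ht_plus {x y : K} (h : W.toAffine.Nonsingular x y) (hx : v x < 1)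
    (hwx : v W.a₄ < v x) (ht1 : v (y - r₁ * x) < v x) :
    ht v W r₁ (.some x y h) = v x := by
  simp only [ht, if_neg (not_le.mpr hx), if_neg (not_le.mpr hwx), if_pos ht1]

theorem ht_minus {x y : K} (h : W.toAffine.Nonsingular x y) (hr : v (r₁ - r₂) = 1)
    (hx : v x < 1) (hwx : v W.a₄ < v x) (ht2 : v (y - r₂ * x) < v x) :
    ht v W r₁ (.some x y h) = (v x)⁻¹ := by
  have h3 : ¬ (v (y - r₁ * x) < v x) := fun h' => not_both_branches v hr h' ht2
  simp only [ht, if_neg (not_le.mpr hx), if_neg (not_le.mpr hwx), if_neg h3]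

end ht

/-- Equality modulo even powers of `g`. -/
def Rel (g a b : Γ₀) : Prop := ∃ j : ℤ, a = b * (g ^ 2) ^ j

namespace Rel

variable {g a b c d : Γ₀}

theorem refl (g a : Γ₀) : Rel g a a := ⟨0, by simp⟩

theorem of_eq (h : a = b) : Rel g a b := h ▸ refl g a

theorem symm (hg : g ≠ 0) (h : Rel g a b) : Rel g b a := by
  obtain ⟨j, rfl⟩ := h
  refine ⟨-j, ?_⟩
  rw [mul_assoc, ← zpow_add₀ (pow_ne_zero 2 hg), add_neg_cancel, zpow_zero, mul_one]

theorem trans (hg : g ≠ 0) (h : Rel g a b) (h' : Rel g b c) : Rel g a c := by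
  obtain ⟨j, rfl⟩ := h
  obtain ⟨k, rfl⟩ := h'
  refine ⟨k + j, ?_⟩
  rw [mul_assoc, ← zpow_add₀ (pow_ne_zero 2 hg)]

theorem mul (hg : g ≠ 0) (h : Rel g a b) (h' : Rel g c d) : Rel g (a * c) (b * d) := by
  obtain ⟨j, rfl⟩ := h
  obtain ⟨k, rfl⟩ := h'
  refine ⟨j + k, ?_⟩
  rw [zpow_add₀ (pow_ne_zero 2 hg)]
  ac_rfl

theorem mul_sq (a : Γ₀) : Rel g (a * g * g) a :=
  ⟨1, by rw [zpow_one, pow_two, mul_assoc]⟩

theorem sq_one (hg : g ≠ 0) : Rel g 1 (g * g) :=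
  ⟨-1, by rw [zpow_neg_one, ← pow_two, mul_inv_cancel₀ (pow_ne_zero 2 hg)]⟩

theorem pow (hg : g ≠ 0) (h : Rel g a b) (n : ℕ) : Rel g (a ^ n) (b ^ n) := by
  induction n with
  | zero => simpa using refl g 1
  | succ n ih => rw [pow_succ, pow_succ]; exact mul hg ih h

end Rel

/-- Valuation hypotheses on the nodal model. -/
structure NodalVal (v : Valuation K Γ₀) (W : WeierstrassCurve K) (r₁ r₂ : K) : Prop where
  model : NodalModel W r₁ r₂
  hr₁ : v r₁ ≤ 1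
  hr₂ : v r₂ ≤ 1
  hr : v (r₁ - r₂) = 1
  hw : v W.a₄ < 1
  hw0 : W.a₄ ≠ 0

section T0

variable {v : Valuation K Γ₀} {W : WeierstrassCurve K} {r₁ r₂ : K}

theorem core_T0 {x₁ y₁ x₃ y₃ ℓ ν w : K} (L : Line3 r₁ r₂ w x₁ y₁ 0 0 x₃ y₃ ℓ ν) :
    x₁ * x₃ = w ∧ x₁ * (y₃ - r₁ * x₃) = -(y₁ - r₂ * x₁) * x₃ := by
  have hν : ν = 0 := by linear_combination -L.l2
  have h2 := L.e2
  have h1 := L.l1
  have h3 := L.l3
  subst hν
  refine ⟨by linear_combination h2, ?_⟩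
  linear_combination x₁ * h3 + x₃ * h1

theorem nonsingular_T0 (hV : NodalVal v W r₁ r₂) : W.toAffine.Nonsingular 0 0 := by
  rw [Affine.nonsingular_zero]
  exact ⟨hV.model.a₆, Or.inr hV.hw0⟩

/-- The two-torsion point `(0,0)` (the point reducing to the node). -/
noncomputable def T0 (hV : NodalVal v W r₁ r₂) : W.toAffine.Point :=
  .some 0 0 (nonsingular_T0 hV)

theorem T0_add_T0 (hV : NodalVal v W r₁ r₂) : T0 hV + T0 hV = 0 := by
  unfold T0
  exact Point.add_self_of_Y_eq (by rw [hV.model.negY_eq]; ring)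

theorem add_T0_some (hV : NodalVal v W r₁ r₂) {x y : K} (h : W.toAffine.Nonsingular x y)
    (hx : x ≠ 0) :
    ∃ (x₃ y₃ : K) (h₃ : W.toAffine.Nonsingular x₃ y₃),
      Point.some x y h + T0 hV = Point.some x₃ y₃ h₃ ∧ x * x₃ = W.a₄ ∧
        x * (y₃ - r₁ * x₃) = -(y - r₂ * x) * x₃ := by
  have hxy : ¬(x = 0 ∧ y = W.toAffine.negY 0 0) := fun h' => hx h'.1
  have L := hV.model.line3 h.1 (nonsingular_T0 hV).1 hxy
  exact ⟨_, _, _, Point.add_some hxy, core_T0 L⟩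

theorem ht_add_T0 (hV : NodalVal v W r₁ r₂) (P : W.toAffine.Point) :
    Rel (v W.a₄) (ht v W r₁ (P + T0 hV)) (ht v W r₁ P * v W.a₄) ∧
      (InF0 v W r₁ P ∨ InF0 v W r₁ (P + T0 hV)) := by
  have hg : v W.a₄ ≠ 0 := (v.ne_zero_iff).mpr hV.hw0
  rcases P with _ | ⟨x, y, h⟩
  · refine ⟨?_, Or.inl trivial⟩
    change Rel _ (ht v W r₁ (0 + T0 hV)) (ht v W r₁ 0 * _)
    rw [zero_add, ht_zero, one_mul]
    apply Rel.of_eq
    exact ht_M v W r₁ _ hV.hw (by rw [map_zero]; exact zero_le)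
  · by_cases hx0 : x = 0
    · subst hx0
      have hy0 : y = 0 := by
        have h1 := (hV.model.equation_iff 0 y).mp h.1
        have h2 : y * y = 0 := by linear_combination h1
        exact mul_self_eq_zero.mp h2
      subst hy0
      have hsum : (Point.some 0 0 h + T0 hV) = 0 := T0_add_T0 hV
      rw [hsum]
      refine ⟨?_, Or.inr trivial⟩
      rw [ht_zero, ht_M v W r₁ h hV.hw (by rw [map_zero]; exact zero_le)]
      exact Rel.sq_one hg
    · obtain ⟨x₃, y₃, h₃, hsum, hx3, hy3⟩ := add_T0_some hV h hx0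
      rw [hsum]
      have hVx : v x ≠ 0 := (v.ne_zero_iff).mpr hx0
      have hpx : 0 < v x := zero_lt_iff.mpr hVx
      have hvx3 : v x * v x₃ = v W.a₄ := by rw [← map_mul, hx3]
      have hVx3 : v x₃ ≠ 0 := by
        intro h'
        rw [h', mul_zero] at hvx3
        exact hg hvx3.symm
      have hpx3 : 0 < v x₃ := zero_lt_iff.mpr hVx3
      have hvy3 : v x * v (y₃ - r₁ * x₃) = v (y - r₂ * x) * v x₃ := by
        rw [← map_mul, hy3, map_mul, Valuation.map_neg]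
      by_cases h1 : 1 ≤ v x
      · refine ⟨?_, Or.inl (Or.inl h1)⟩
        rw [ht_Z v W r₁ h h1, one_mul]
        apply Rel.of_eq
        apply ht_M v W r₁ h₃ hV.hw
        calc v x₃ = 1 * v x₃ := (one_mul _).symm
          _ ≤ v x * v x₃ := mul_le_mul_left h1 _
          _ = v W.a₄ := hvx3
      · push Not at h1
        by_cases h2 : v x ≤ v W.a₄
        · have h3 : 1 ≤ v x₃ := by
            have h4 : v x * 1 ≤ v x * v x₃ := by rw [mul_one, hvx3]; exact h2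
            exact le_of_mul_le_mul_left h4 hpx
          refine ⟨?_, Or.inr (Or.inl h3)⟩
          rw [ht_M v W r₁ h hV.hw h2, ht_Z v W r₁ h₃ h3]
          exact Rel.sq_one hg
        · push Not at h2
          have hx3lt : v x₃ < 1 := by
            have h4 : v x * v x₃ < v x * 1 := by rw [mul_one, hvx3]; exact h2
            exact lt_of_mul_lt_mul_left' h4
          have hwx3 : v W.a₄ < v x₃ := by
            rw [← hvx3]
            exact mul_lt_of_lt_one_left hpx3 h1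
          by_cases h3 : v (y - r₁ * x) < v x
          · refine ⟨?_, Or.inl (Or.inr ⟨h1, h2, h3⟩)⟩
            rw [ht_plus v W r₁ h h1 h2 h3]
            have hoth := v_other_branch v hV.hr h3
            have hy3' : v (y₃ - r₁ * x₃) = v x₃ := by
              rw [hoth] at hvy3; exact mul_left_cancel₀ hVx hvy3
            have hnlt : ¬ (v (y₃ - r₁ * x₃) < v x₃) := by rw [hy3']; exact lt_irrefl _
            have hht : ht v W r₁ (.some x₃ y₃ h₃) = (v x₃)⁻¹ := by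
              simp only [ht, if_neg (not_le.mpr hx3lt), if_neg (not_le.mpr hwx3), if_neg hnlt]
            rw [hht]
            refine ⟨-1, ?_⟩
            rw [zpow_neg_one, ← hvx3]
            field_simp
          · have h4 : v (y - r₂ * x) < v x :=
              (branch_cases v ((hV.model.equation_iff x y).mp h.1) h1 h2).resolve_left h3
            have hy3' : v (y₃ - r₁ * x₃) < v x₃ := by
              have h5 : v x * v (y₃ - r₁ * x₃) < v x * v x₃ := by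
                rw [hvy3]; exact mul_lt_mul_of_pos_right h4 hpx3
              exact lt_of_mul_lt_mul_left' h5
            refine ⟨?_, Or.inr (Or.inr ⟨hx3lt, hwx3, hy3'⟩)⟩
            rw [ht_minus v W r₁ r₂ h hV.hr h1 h2 h4, ht_plus v W r₁ h₃ hx3lt hwx3 hy3']
            apply Rel.of_eq
            rw [← hvx3]
            field_simp

end T0

section Additivity

variable {v : Valuation K Γ₀} {W : WeierstrassCurve K} {r₁ r₂ : K}

/-- Additivity of the height on the fundamental domain, for three points on a line. -/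
theorem ht_add_F0_aux (hV : NodalVal v W r₁ r₂) {x₁ y₁ x₂ y₂ x₃ y₃ ℓ ν : K}
    (hP₁ : W.toAffine.Nonsingular x₁ y₁) (hP₂ : W.toAffine.Nonsingular x₂ y₂)
    (hP₃ : W.toAffine.Nonsingular x₃ y₃) (L : Line3 r₁ r₂ W.a₄ x₁ y₁ x₂ y₂ x₃ y₃ ℓ ν)
    (h₁ : InF0 v W r₁ (.some x₁ y₁ hP₁)) (h₂ : InF0 v W r₁ (.some x₂ y₂ hP₂)) :
    Rel (v W.a₄) (ht v W r₁ (.some x₃ y₃ hP₃))
      (ht v W r₁ (.some x₁ y₁ hP₁) * ht v W r₁ (.some x₂ y₂ hP₂)) := by
  have hg : v W.a₄ ≠ 0 := (v.ne_zero_iff).mpr hV.hw0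
  have hpg : 0 < v W.a₄ := zero_lt_iff.mpr hg
  have hc₁ := (hV.model.equation_iff x₁ y₁).mp hP₁.1
  have hc₂ := (hV.model.equation_iff x₂ y₂).mp hP₂.1
  rcases h₁ with h₁ | ⟨h₁a, h₁b, h₁c⟩
  · rcases h₂ with h₂ | ⟨h₂a, h₂b, h₂c⟩
    · have h3 := core_ZZ v L hV.hr₁ hV.hr₂ hV.hw h₁ h₂
      rw [ht_Z v W r₁ hP₃ h3, ht_Z v W r₁ hP₁ h₁, ht_Z v W r₁ hP₂ h₂, one_mul]
      exact Rel.refl _ _
    · obtain ⟨hx3, hb3⟩ := core_Zp v L hV.hr hV.hw hc₁ h₁ h₂a h₂b h₂c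
      rw [ht_Z v W r₁ hP₁ h₁, ht_plus v W r₁ hP₂ h₂a h₂b h₂c, one_mul,
        ht_plus v W r₁ hP₃ (hx3 ▸ h₂a) (hx3 ▸ h₂b) hb3, hx3]
      exact Rel.refl _ _
  · have hV1 : v x₁ ≠ 0 := fun h => by rw [h] at h₁b; exact not_lt_zero h₁b
    have hp1 : 0 < v x₁ := zero_lt_iff.mpr hV1
    rcases h₂ with h₂ | ⟨h₂a, h₂b, h₂c⟩
    · obtain ⟨hx3, hb3⟩ := core_Zp v L.symm hV.hr hV.hw hc₂ h₂ h₁a h₁b h₁c
      rw [ht_Z v W r₁ hP₂ h₂, ht_plus v W r₁ hP₁ h₁a h₁b h₁c, mul_one,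
        ht_plus v W r₁ hP₃ (hx3 ▸ h₁a) (hx3 ▸ h₁b) hb3, hx3]
      exact Rel.refl _ _
    · have hV2 : v x₂ ≠ 0 := fun h => by rw [h] at h₂b; exact not_lt_zero h₂b
      have hp2 : 0 < v x₂ := zero_lt_iff.mpr hV2
      have hp12 : 0 < v x₁ * v x₂ := zero_lt_iff.mpr (mul_ne_zero hV1 hV2)
      obtain ⟨hC, hD, hE⟩ := core_pp v L hV.hr h₂a h₁b h₂b h₁c h₂c
      rw [ht_plus v W r₁ hP₁ h₁a h₁b h₁c, ht_plus v W r₁ hP₂ h₂a h₂b h₂c]
      rcases lt_trichotomy (v W.a₄) (v x₁ * v x₂) with h | h | h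
      · obtain ⟨hx3, hb3⟩ := hC h
        have h3lt : v x₃ < 1 := by
          rw [hx3]
          calc v x₁ * v x₂ < 1 * v x₂ := mul_lt_mul_of_pos_right h₁a hp2
            _ = v x₂ := one_mul _
            _ < 1 := h₂a
        rw [ht_plus v W r₁ hP₃ h3lt (hx3 ▸ h) hb3, hx3]
        exact Rel.refl _ _
      · have hx3 := hD h
        rw [ht_M v W r₁ hP₃ hV.hw hx3, h]
        exact Rel.refl _ _
      · obtain ⟨hx3, hb3⟩ := hE h
        have h3lt : v x₃ < 1 := by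
          have h4 : v x₃ * (v x₁ * v x₂) < 1 * (v x₁ * v x₂) := by
            rw [hx3, one_mul, pow_two]
            exact mul_lt_mul'' h₁b h₂b zero_le zero_le
          exact lt_of_mul_lt_mul_right' h4
        have hw3 : v W.a₄ < v x₃ := by
          have h4 : v W.a₄ * (v x₁ * v x₂) < v x₃ * (v x₁ * v x₂) := by
            rw [hx3, pow_two]
            exact mul_lt_mul_of_pos_left h hpg
          exact lt_of_mul_lt_mul_right' h4
        rw [ht_minus v W r₁ r₂ hP₃ hV.hr h3lt hw3 hb3]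
        refine ⟨-1, ?_⟩
        rw [zpow_neg_one, ← hx3]
        have hV3 : v x₃ ≠ 0 := fun h' => by rw [h'] at hw3; exact not_lt_zero hw3
        field_simp

/-- Additivity of the height on the fundamental domain. -/
theorem ht_add_F0 (hV : NodalVal v W r₁ r₂) (P₁ P₂ : W.toAffine.Point)
    (h₁ : InF0 v W r₁ P₁) (h₂ : InF0 v W r₁ P₂) :
    Rel (v W.a₄) (ht v W r₁ (P₁ + P₂)) (ht v W r₁ P₁ * ht v W r₁ P₂) := by
  rcases P₁ with _ | ⟨x₁, y₁, hP₁⟩
  · change Rel _ (ht v W r₁ (0 + P₂)) (ht v W r₁ 0 * _)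
    rw [zero_add, ht_zero, one_mul]; exact Rel.refl _ _
  rcases P₂ with _ | ⟨x₂, y₂, hP₂⟩
  · change Rel _ (ht v W r₁ (_ + 0)) (_ * ht v W r₁ 0)
    rw [add_zero, ht_zero, mul_one]; exact Rel.refl _ _
  by_cases hxy : x₁ = x₂ ∧ y₁ = W.toAffine.negY x₂ y₂
  · obtain ⟨hx, hy⟩ := hxy
    rw [Point.add_of_Y_eq hx hy, ht_zero]
    rcases h₁ with h₁ | ⟨h₁a, h₁b, h₁c⟩
    · have h₂' : 1 ≤ v x₂ := hx ▸ h₁
      rw [ht_Z v W r₁ hP₁ h₁, ht_Z v W r₁ hP₂ h₂', one_mul]; exact Rel.refl _ _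
    · exfalso
      rcases h₂ with h₂ | ⟨h₂a, h₂b, h₂c⟩
      · rw [hx] at h₁a; exact not_lt.mpr h₂ h₁a
      · have h5 : y₁ - r₁ * x₁ = -(y₂ - r₂ * x₂) := by
          rw [hy, hV.model.negY_eq, hx]; ring
        rw [h5, Valuation.map_neg, v_other_branch v hV.hr h₂c, hx] at h₁c
        exact lt_irrefl _ h₁c
  · have L := hV.model.line3 hP₁.1 hP₂.1 hxy
    rw [Point.add_some hxy]
    exact ht_add_F0_aux hV hP₁ hP₂ _ L h₁ h₂

/-- The height is additive modulo even powers of `v a₄`. -/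
theorem ht_add (hV : NodalVal v W r₁ r₂) (P₁ P₂ : W.toAffine.Point) :
    Rel (v W.a₄) (ht v W r₁ (P₁ + P₂)) (ht v W r₁ P₁ * ht v W r₁ P₂) := by
  have hg : v W.a₄ ≠ 0 := (v.ne_zero_iff).mpr hV.hw0
  -- first the case `P₂ ∈ F₀`
  have key : ∀ Q₁ Q₂ : W.toAffine.Point, InF0 v W r₁ Q₂ →
      Rel (v W.a₄) (ht v W r₁ (Q₁ + Q₂)) (ht v W r₁ Q₁ * ht v W r₁ Q₂) := by
    intro Q₁ Q₂ hQ₂
    obtain ⟨hT, hF⟩ := ht_add_T0 hV Q₁
    rcases hF with hF | hF
    · exact ht_add_F0 hV Q₁ Q₂ hF hQ₂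
    · have h1 := ht_add_F0 hV (Q₁ + T0 hV) Q₂ hF hQ₂
      have h2 := (ht_add_T0 hV (Q₁ + T0 hV + Q₂)).1
      have h3 : Q₁ + T0 hV + Q₂ + T0 hV = Q₁ + Q₂ := by
        have h4 : Q₁ + T0 hV + Q₂ + T0 hV = Q₁ + Q₂ + (T0 hV + T0 hV) := by abel
        rw [h4, T0_add_T0, add_zero]
      rw [h3] at h2
      -- ht (Q₁+Q₂) ~ ht (Q₁+T₀+Q₂) * g ~ ht (Q₁+T₀) * ht Q₂ * g ~ ht Q₁ * g * ht Q₂ * g
      have h5 : Rel (v W.a₄) (ht v W r₁ (Q₁ + T0 hV + Q₂) * v W.a₄)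
          (ht v W r₁ (Q₁ + T0 hV) * ht v W r₁ Q₂ * v W.a₄) :=
        Rel.mul hg h1 (Rel.refl _ _)
      have h6 : Rel (v W.a₄) (ht v W r₁ (Q₁ + T0 hV) * ht v W r₁ Q₂ * v W.a₄)
          (ht v W r₁ Q₁ * v W.a₄ * ht v W r₁ Q₂ * v W.a₄) :=
        Rel.mul hg (Rel.mul hg hT (Rel.refl _ _)) (Rel.refl _ _)
      have h7 : Rel (v W.a₄) (ht v W r₁ Q₁ * v W.a₄ * ht v W r₁ Q₂ * v W.a₄)
          (ht v W r₁ Q₁ * ht v W r₁ Q₂) := by
        have h8 : ht v W r₁ Q₁ * v W.a₄ * ht v W r₁ Q₂ * v W.a₄ =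
            ht v W r₁ Q₁ * ht v W r₁ Q₂ * v W.a₄ * v W.a₄ := by ac_rfl
        rw [h8]
        exact Rel.mul_sq _
      exact Rel.trans hg h2 (Rel.trans hg h5 (Rel.trans hg h6 h7))
  obtain ⟨hT, hF⟩ := ht_add_T0 hV P₂
  rcases hF with hF | hF
  · exact key P₁ P₂ hF
  · have h1 := key P₁ (P₂ + T0 hV) hF
    have h2 := (ht_add_T0 hV (P₁ + (P₂ + T0 hV))).1
    have h3 : P₁ + (P₂ + T0 hV) + T0 hV = P₁ + P₂ := by
      have h4 : P₁ + (P₂ + T0 hV) + T0 hV = P₁ + P₂ + (T0 hV + T0 hV) := by abel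
      rw [h4, T0_add_T0, add_zero]
    rw [h3] at h2
    have h5 : Rel (v W.a₄) (ht v W r₁ (P₁ + (P₂ + T0 hV)) * v W.a₄)
        (ht v W r₁ P₁ * ht v W r₁ (P₂ + T0 hV) * v W.a₄) :=
      Rel.mul hg h1 (Rel.refl _ _)
    have h6 : Rel (v W.a₄) (ht v W r₁ P₁ * ht v W r₁ (P₂ + T0 hV) * v W.a₄)
        (ht v W r₁ P₁ * (ht v W r₁ P₂ * v W.a₄) * v W.a₄) :=
      Rel.mul hg (Rel.mul hg (Rel.refl _ _) hT) (Rel.refl _ _)
    have h7 : Rel (v W.a₄) (ht v W r₁ P₁ * (ht v W r₁ P₂ * v W.a₄) * v W.a₄)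
        (ht v W r₁ P₁ * ht v W r₁ P₂) := by
      have h8 : ht v W r₁ P₁ * (ht v W r₁ P₂ * v W.a₄) * v W.a₄ =
          ht v W r₁ P₁ * ht v W r₁ P₂ * v W.a₄ * v W.a₄ := by ac_rfl
      rw [h8]
      exact Rel.mul_sq _
    exact Rel.trans hg h2 (Rel.trans hg h5 (Rel.trans hg h6 h7))

/-- Multiples. -/
theorem ht_nsmul (hV : NodalVal v W r₁ r₂) (P : W.toAffine.Point) (n : ℕ) :
    Rel (v W.a₄) (ht v W r₁ (n • P)) (ht v W r₁ P ^ n) := by
  have hg : v W.a₄ ≠ 0 := (v.ne_zero_iff).mpr hV.hw0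
  induction n with
  | zero => rw [zero_smul, pow_zero, ht_zero]; exact Rel.refl _ _
  | succ n ih =>
    rw [succ_nsmul, pow_succ]
    exact Rel.trans hg (ht_add hV (n • P) P) (Rel.mul hg ih (Rel.refl _ _))

/-- A torsion point of odd order `n` reducing to the node, when `a₄ = u π ^ n`: its
`x`-coordinate has the valuation of a power of `π`, and lies strictly between `a₄` and `1`. -/
theorem torsion_node_val (hV : NodalVal v W r₁ r₂) {π u : K} (hu : v u = 1) {n : ℕ}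
    (hn : Odd n) (h4 : W.a₄ = u * π ^ n) {x y : K} (h : W.toAffine.Nonsingular x y)
    (hP : n • (Point.some x y h) = 0) (hx : v x < 1) :
    v W.a₄ < v x ∧ ∃ j : ℤ, v x = v π ^ j := by
  have hg : v W.a₄ ≠ 0 := (v.ne_zero_iff).mpr hV.hw0
  have hgπ : v W.a₄ = v π ^ n := by rw [h4, map_mul, hu, one_mul, map_pow]
  have hπ0 : v π ≠ 0 := by
    intro h'
    rw [hgπ, h', zero_pow (Nat.ne_of_odd_add (by simpa using hn))] at hg
    exact hg rfl
  have hn0 : n ≠ 0 := by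
    rintro rfl
    exact absurd hn (by decide)
  obtain ⟨j, hj⟩ := ht_nsmul hV (Point.some x y h) n
  rw [hP, ht_zero] at hj
  by_cases h2 : v x ≤ v W.a₄
  · exfalso
    rw [ht_M v W r₁ h hV.hw h2, ← zpow_natCast, ← zpow_natCast, ← zpow_mul,
      ← zpow_add₀ hg] at hj
    have h5 := (zpow_eq_one_iff_right₀ zero_le (ne_of_lt hV.hw)).mp hj.symm
    obtain ⟨k, hk⟩ := hn
    omega
  · push Not at h2
    refine ⟨h2, ?_⟩
    by_cases h3 : v (y - r₁ * x) < v x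
    · rw [ht_plus v W r₁ h hx h2 h3, hgπ] at hj
      refine ⟨-(2 * j), ?_⟩
      have h5 : v x ^ n = (v π ^ (-(2 * j))) ^ n := by
        have h6 : v x ^ n * ((v π ^ n) ^ 2) ^ j * ((v π ^ (-(2 * j))) ^ n)
            = (v π ^ (-(2 * j))) ^ n := by
          rw [← hj, one_mul]
        rw [← h6]
        have h7 : ((v π ^ n) ^ 2) ^ j * (v π ^ (-(2 * j))) ^ n = 1 := by
          rw [← zpow_natCast, ← zpow_natCast (v π), ← zpow_natCast, ← zpow_mul, ← zpow_mul,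
            ← zpow_mul, ← zpow_add₀ hπ0]
          convert zpow_zero (v π) using 2
          push_cast; ring
        rw [mul_assoc, h7, mul_one]
      exact (pow_left_inj hn0).mp h5
    · have hht : ht v W r₁ (.some x y h) = (v x)⁻¹ := by
        simp only [ht, if_neg (not_le.mpr hx), if_neg (not_le.mpr h2), if_neg h3]
      rw [hht, hgπ] at hj
      have hVx : v x ≠ 0 := fun h' => by rw [h'] at h2; exact not_lt_zero h2
      refine ⟨2 * j, ?_⟩
      have h5 : v x ^ n = (v π ^ (2 * j)) ^ n := by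
        have h6 : v x ^ n * 1 = v x ^ n * ((v x)⁻¹ ^ n * ((v π ^ n) ^ 2) ^ j) := by rw [← hj]
        rw [mul_one, ← mul_assoc, ← mul_pow, mul_inv_cancel₀ hVx, one_pow, one_mul] at h6
        rw [h6, ← zpow_natCast, ← zpow_natCast (v π), ← zpow_natCast, ← zpow_mul, ← zpow_mul,
          ← zpow_mul]
        congr 1
        push_cast; ring
      exact (pow_left_inj hn0).mp h5

end Additivity

/-- **(IV-cor)** Interface form for a valuation subring: on the nodal model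
`(y - r₁x)(y - r₂x) = x³ + a₄x` with `a₄ = u π ^ n`, `u` a unit, `π` a nonzero nonunit, `n` odd,
a point killed by `n` whose `x`-coordinate is a nonunit satisfies `x ≠ 0`, `a₄ / x` is a nonunit
and `x` has the valuation of an integral power of `π`. -/
theorem torsion_node_valuation (A : ValuationSubring K) (W : WeierstrassCurve K)
    (h3 : W.a₃ = 0) (h6 : W.a₆ = 0) (r₁ r₂ : K) (hr₁ : r₁ ∈ A) (hr₂ : r₂ ∈ A)
    (ha₁ : W.a₁ = -(r₁ + r₂)) (ha₂ : W.a₂ = -(r₁ * r₂)) (hr : A.valuation (r₁ - r₂) = 1)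
    (π u : K) (hπ : π ∈ A.nonunits) (hπ0 : π ≠ 0) (hu : A.valuation u = 1)
    (n : ℕ) (hn : Odd n) (h4 : W.a₄ = u * π ^ n) {x y : K} (h : W.toAffine.Nonsingular x y)
    (hP : n • (WeierstrassCurve.Affine.Point.some x y h) = 0) (hx : x ∈ A.nonunits) :
    x ≠ 0 ∧ W.a₄ / x ∈ A.nonunits ∧ ∃ j : ℤ, A.valuation x = A.valuation π ^ j := by
  have hn0 : n ≠ 0 := by
    rintro rfl
    exact absurd hn (by decide)
  have hu0 : u ≠ 0 := by
    intro h'
    rw [h', map_zero] at hu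
    exact zero_ne_one hu
  have hV : NodalVal A.valuation W r₁ r₂ :=
    { model := ⟨ha₁, ha₂, h3, h6⟩
      hr₁ := (A.valuation_le_one_iff _).mpr hr₁
      hr₂ := (A.valuation_le_one_iff _).mpr hr₂
      hr := hr
      hw := by
        rw [h4, map_mul, hu, one_mul, map_pow]
        exact pow_lt_one₀ zero_le (A.mem_nonunits_iff.mp hπ) hn0
      hw0 := by
        rw [h4]
        exact mul_ne_zero hu0 (pow_ne_zero n hπ0) }
  obtain ⟨hwx, hj⟩ :=
    torsion_node_val hV hu hn h4 h hP (A.mem_nonunits_iff.mp hx)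
  have hx0 : x ≠ 0 := by
    rintro rfl
    rw [map_zero] at hwx
    exact not_lt_zero hwx
  refine ⟨hx0, ?_, hj⟩
  rw [A.mem_nonunits_iff, map_div₀]
  exact (div_lt_one₀ (zero_lt_iff.mpr ((A.valuation).ne_zero_iff.mpr hx0))).mpr hwx

end Fermat.Agent.S05.H76
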