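import Mathlib.AlgebraicGeometry.EllipticCurve.Affine.Point
import Mathlib.RingTheory.Valuation.ValuationSubring

/-!
# Refined reduction on a nodal Weierstrass model (helper4, piece (V) of S05)

Model: `y² + a₁xy = x³ + a₂x² + a₄x` (i.e. `a₃ = a₆ = 0`), over a field `K` with a valuation
subring `A`.  Writing `s = y / x` for a point with `x ≠ 0`, we prove the difference formula

  `X(P - P') = x x' (s + s' + a₁)² / (x - x')²`

and deduce: if `(x' - x) / x` is a non-unit of `A` and `s + s' + a₁` is a unit of `A`, then either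
`P = P'` or `P - P'` is an affine point whose `x`-coordinate does not lie in `A`
(i.e. `P - P'` lies in the kernel of reduction).
-/

set_option autoImplicit false

namespace Fermat.Agent.S05

open WeierstrassCurve

variable {K : Type*} [Field K]

/-- On the nodal model, `(2s + a₁)² = b₂ + 4x + 4a₄/x` for `s = y / x`. -/
theorem h4_two_s_add_sq (W : WeierstrassCurve K) (h₃ : W.a₃ = 0) (h₆ : W.a₆ = 0)
    {x y : K} (h : W.toAffine.Equation x y) (hx : x ≠ 0) :
    (2 * (y / x) + W.a₁) ^ 2 = W.b₂ + 4 * x + 4 * (W.a₄ / x) := by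
  rw [Affine.equation_iff] at h
  rw [h₃, h₆] at h
  simp only [WeierstrassCurve.b₂]
  field_simp
  linear_combination 4 * h

/-- If a point of the nodal model reduces to the node strictly inside the "annulus"
(`x` and `a₄ / x` non-units of `A`) and `b₂` is a unit, then `2s + a₁` is a unit. -/
theorem h4_valuation_two_s_add (A : ValuationSubring K) (W : WeierstrassCurve K)
    (h₃ : W.a₃ = 0) (h₆ : W.a₆ = 0) (hb₂ : A.valuation W.b₂ = 1)
    {x y : K} (h : W.toAffine.Equation x y) (hx : x ≠ 0)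
    (hxm : x ∈ A.nonunits) (hwx : W.a₄ / x ∈ A.nonunits) :
    A.valuation (2 * (y / x) + W.a₁) = 1 := by
  have h4 : (4 : K) ∈ A := by
    have : (4 : K) = ((4 : ℕ) : K) := by norm_num
    rw [this]; exact natCast_mem A 4
  have hm : 4 * x + 4 * (W.a₄ / x) ∈ A.nonunits := by
    have h1 : 4 * x ∈ A.nonunits := by
      rw [A.mem_nonunits_iff, map_mul]
      calc A.valuation 4 * A.valuation x ≤ 1 * A.valuation x := by
            gcongr; exact (A.valuation_le_one_iff 4).mpr h4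
        _ < 1 := by rw [one_mul]; exact A.mem_nonunits_iff.mp hxm
    have h2 : 4 * (W.a₄ / x) ∈ A.nonunits := by
      rw [A.mem_nonunits_iff, map_mul]
      calc A.valuation 4 * A.valuation (W.a₄ / x) ≤ 1 * A.valuation (W.a₄ / x) := by
            gcongr; exact (A.valuation_le_one_iff 4).mpr h4
        _ < 1 := by rw [one_mul]; exact A.mem_nonunits_iff.mp hwx
    exact A.nonunits.add_mem h1 h2
  have hsq : A.valuation (2 * (y / x) + W.a₁) ^ 2 = 1 := by
    rw [← map_pow, h4_two_s_add_sq W h₃ h₆ h hx, add_assoc]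
    rw [Valuation.map_add_eq_of_lt_left]
    · exact hb₂
    · rw [hb₂]; exact A.mem_nonunits_iff.mp hm
  exact (pow_eq_one_iff_of_nonneg zero_le two_ne_zero).mp hsq

variable [DecidableEq K]

/-- The chord through `(x₁, y₁)` and `(x₂, y₂)` on the nodal model meets the curve in a third
point with `x`-coordinate `(x₁ y₂ - x₂ y₁)² / (x₁ x₂ (x₁ - x₂)²)`. -/
theorem h4_addX_chord (W : WeierstrassCurve K) (h₃ : W.a₃ = 0) (h₆ : W.a₆ = 0)
    {x₁ y₁ x₂ y₂ : K} (h₁ : W.toAffine.Equation x₁ y₁) (h₂ : W.toAffine.Equation x₂ y₂)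
    (hx₁ : x₁ ≠ 0) (hx₂ : x₂ ≠ 0) (hne : x₁ ≠ x₂) :
    W.toAffine.addX x₁ x₂ (W.toAffine.slope x₁ x₂ y₁ y₂) =
      x₁ * x₂ * (y₁ / x₁ - y₂ / x₂) ^ 2 / (x₁ - x₂) ^ 2 := by
  rw [Affine.equation_iff] at h₁ h₂
  rw [h₃, h₆] at h₁ h₂
  have hd : x₁ - x₂ ≠ 0 := sub_ne_zero.mpr hne
  rw [Affine.slope_of_X_ne hne]
  simp only [Affine.addX]
  field_simp
  linear_combination (x₁ - x₂) * x₂ * h₁ - (x₁ - x₂) * x₁ * h₂

/-- Sum formula on the nodal model (`x₁ ≠ x₂`, both nonzero):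
`X(P₁ + P₂) = x₁ x₂ (s₁ - s₂)² / (x₁ - x₂)²`. -/
theorem h4_add_X (W : WeierstrassCurve K) (h₃ : W.a₃ = 0) (h₆ : W.a₆ = 0)
    {x₁ y₁ x₂ y₂ : K} (h₁ : W.toAffine.Nonsingular x₁ y₁) (h₂ : W.toAffine.Nonsingular x₂ y₂)
    (hx₁ : x₁ ≠ 0) (hx₂ : x₂ ≠ 0) (hne : x₁ ≠ x₂) :
    ∃ (x₃ y₃ : K) (h : W.toAffine.Nonsingular x₃ y₃),
      Affine.Point.some x₁ y₁ h₁ + Affine.Point.some x₂ y₂ h₂ = Affine.Point.some x₃ y₃ h ∧
      x₃ = x₁ * x₂ * (y₁ / x₁ - y₂ / x₂) ^ 2 / (x₁ - x₂) ^ 2 := by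
  refine ⟨_, _, _, Affine.Point.add_of_X_ne hne, ?_⟩
  exact h4_addX_chord W h₃ h₆ h₁.1 h₂.1 hx₁ hx₂ hne

/-- Difference formula on the nodal model (`x₁ ≠ x₂`, both nonzero):
`X(P₁ - P₂) = x₁ x₂ (s₁ + s₂ + a₁)² / (x₁ - x₂)²`. -/
theorem h4_sub_X (W : WeierstrassCurve K) (h₃ : W.a₃ = 0) (h₆ : W.a₆ = 0)
    {x₁ y₁ x₂ y₂ : K} (h₁ : W.toAffine.Nonsingular x₁ y₁) (h₂ : W.toAffine.Nonsingular x₂ y₂)
    (hx₁ : x₁ ≠ 0) (hx₂ : x₂ ≠ 0) (hne : x₁ ≠ x₂) :
    ∃ (x₃ y₃ : K) (h : W.toAffine.Nonsingular x₃ y₃),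
      Affine.Point.some x₁ y₁ h₁ - Affine.Point.some x₂ y₂ h₂ = Affine.Point.some x₃ y₃ h ∧
      x₃ = x₁ * x₂ * (y₁ / x₁ + y₂ / x₂ + W.a₁) ^ 2 / (x₁ - x₂) ^ 2 := by
  have h₂' : W.toAffine.Nonsingular x₂ (W.toAffine.negY x₂ y₂) :=
    (Affine.nonsingular_neg ..).mpr h₂
  obtain ⟨x₃, y₃, h, hP, hx⟩ := h4_add_X W h₃ h₆ h₁ h₂' hx₁ hx₂ hne
  refine ⟨x₃, y₃, h, ?_, ?_⟩
  · rw [sub_eq_add_neg, Affine.Point.neg_some, hP]
  · rw [hx]
    simp only [Affine.negY, h₃]
    field_simp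
    ring

/-- **Refined reduction (V)**, basic form.  On the nodal model `a₃ = a₆ = 0`, let `P = (x, y)` and
`P' = (x', y')` be nonsingular points with `x, x' ≠ 0` such that `(x' - x) / x` is a non-unit of
`A` and `e = y / x + y' / x' + a₁` is a unit of `A` (valuation one).  Then `P = P'`, or `P - P'` is
an affine point whose `x`-coordinate is not in `A`. -/
theorem h4_refined_reduction (A : ValuationSubring K) (W : WeierstrassCurve K)
    (h₃ : W.a₃ = 0) (h₆ : W.a₆ = 0)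
    {x y x' y' : K} (h : W.toAffine.Nonsingular x y) (h' : W.toAffine.Nonsingular x' y')
    (hx : x ≠ 0) (hx' : x' ≠ 0) (ht : (x' - x) / x ∈ A.nonunits)
    (he : A.valuation (y / x + y' / x' + W.a₁) = 1) :
    Affine.Point.some x y h = Affine.Point.some x' y' h' ∨
      ∃ (x₃ y₃ : K) (h₃' : W.toAffine.Nonsingular x₃ y₃),
        Affine.Point.some x y h - Affine.Point.some x' y' h' = Affine.Point.some x₃ y₃ h₃' ∧
        x₃ ∉ A := by
  by_cases hxx : x = x'
  · left
    subst hxx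
    rcases Affine.Y_eq_of_X_eq h.1 h'.1 rfl with hy | hy
    · subst hy; rfl
    · exfalso
      have h0 : y / x + y' / x + W.a₁ = 0 := by
        rw [hy]
        simp only [Affine.negY, h₃]
        field_simp
        ring
      rw [h0, map_zero] at he
      exact zero_ne_one he
  · right
    obtain ⟨x₃, y₃, hns, hP, hx₃⟩ := h4_sub_X W h₃ h₆ h h' hx hx' hxx
    refine ⟨x₃, y₃, hns, hP, fun hmem => ?_⟩
    have hd : x - x' ≠ 0 := sub_ne_zero.mpr hxx
    have key : x₃ * ((x' - x) / x) ^ 2 = (1 + (x' - x) / x) * (y / x + y' / x' + W.a₁) ^ 2 := by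
      rw [hx₃]
      field_simp
      ring
    have hvt : A.valuation ((x' - x) / x) < 1 := A.mem_nonunits_iff.mp ht
    have h1 : A.valuation (x₃ * ((x' - x) / x) ^ 2) < 1 := by
      rw [map_mul, map_pow]
      have hx₃le : A.valuation x₃ ≤ 1 := (A.valuation_le_one_iff x₃).mpr hmem
      have hsq : A.valuation ((x' - x) / x) ^ 2 < 1 := by
        calc A.valuation ((x' - x) / x) ^ 2
            = A.valuation ((x' - x) / x) * A.valuation ((x' - x) / x) := sq _
          _ ≤ A.valuation ((x' - x) / x) * 1 := by gcongr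
          _ < 1 := by rw [mul_one]; exact hvt
      calc A.valuation x₃ * A.valuation ((x' - x) / x) ^ 2
          ≤ 1 * A.valuation ((x' - x) / x) ^ 2 := by gcongr
        _ < 1 := by rw [one_mul]; exact hsq
    have h2 : A.valuation ((1 + (x' - x) / x) * (y / x + y' / x' + W.a₁) ^ 2) = 1 := by
      rw [map_mul, map_pow, he, one_pow, mul_one]
      exact Valuation.map_one_add_of_lt (v := A.valuation) hvt
    rw [key, h2] at h1
    exact lt_irrefl _ h1

/-- **Refined reduction (V)**, nodal form: the unit hypothesis on `s + s' + a₁` is automatic when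
`b₂` is a unit, `x` and `a₄ / x` are non-units and `s' - s` is a non-unit. -/
theorem h4_refined_reduction_nodal (A : ValuationSubring K) (W : WeierstrassCurve K)
    (h₃ : W.a₃ = 0) (h₆ : W.a₆ = 0) (hb₂ : A.valuation W.b₂ = 1)
    {x y x' y' : K} (h : W.toAffine.Nonsingular x y) (h' : W.toAffine.Nonsingular x' y')
    (hx : x ≠ 0) (hx' : x' ≠ 0) (hxm : x ∈ A.nonunits) (hwx : W.a₄ / x ∈ A.nonunits)
    (ht : (x' - x) / x ∈ A.nonunits) (hs : y' / x' - y / x ∈ A.nonunits) :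
    Affine.Point.some x y h = Affine.Point.some x' y' h' ∨
      ∃ (x₃ y₃ : K) (h₃' : W.toAffine.Nonsingular x₃ y₃),
        Affine.Point.some x y h - Affine.Point.some x' y' h' = Affine.Point.some x₃ y₃ h₃' ∧
        x₃ ∉ A := by
  refine h4_refined_reduction A W h₃ h₆ h h' hx hx' ht ?_
  have e : y / x + y' / x' + W.a₁ = (2 * (y / x) + W.a₁) + (y' / x' - y / x) := by ring
  rw [e, Valuation.map_add_eq_of_lt_left]
  · exact h4_valuation_two_s_add A W h₃ h₆ hb₂ h.1 hx hxm hwx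
  · rw [h4_valuation_two_s_add A W h₃ h₆ hb₂ h.1 hx hxm hwx]
    exact A.mem_nonunits_iff.mp hs

/-- Swapping the roles of the two points in the conclusion of the refined reduction. -/
theorem h4_refined_swap (A : ValuationSubring K) (W : WeierstrassCurve K)
    (P P' : W.toAffine.Point)
    (H : P = P' ∨ ∃ (x₃ y₃ : K) (h₃' : W.toAffine.Nonsingular x₃ y₃),
        P - P' = Affine.Point.some x₃ y₃ h₃' ∧ x₃ ∉ A) :
    P' = P ∨ ∃ (x₃ y₃ : K) (h₃' : W.toAffine.Nonsingular x₃ y₃),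
        P' - P = Affine.Point.some x₃ y₃ h₃' ∧ x₃ ∉ A := by
  rcases H with H | ⟨x₃, y₃, h₃', hP, hx₃⟩
  · exact Or.inl H.symm
  · refine Or.inr ⟨x₃, W.toAffine.negY x₃ y₃, (Affine.nonsingular_neg ..).mpr h₃', ?_, hx₃⟩
    rw [← neg_sub, hP, Affine.Point.neg_some]

/-- **Refined reduction (V)**, Galois form.  Let `σ` be a ring endomorphism of `K` acting trivially
on the residue field of `A` (`σ a - a` is a non-unit for all `a ∈ A`).  On the nodal model
(`a₃ = a₆ = 0`, `a₁ ∈ A`, `b₂` and `2` units of `A`), let `P = (x, y)` be a point with `x` and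
`a₄ / x` non-units (so `P` reduces to the node, strictly between the two "ends"), and assume
`x = c * ε` with `σ c = c` and `ε` a unit of `A`.  Then `σ P = P`, or `σ P - P` is an affine point
whose `x`-coordinate is not in `A`. -/
theorem h4_refined_galois (A : ValuationSubring K) (W : WeierstrassCurve K)
    (h₃ : W.a₃ = 0) (h₆ : W.a₆ = 0) (ha₁ : W.a₁ ∈ A) (hb₂ : A.valuation W.b₂ = 1)
    (h2 : A.valuation 2 = 1)
    (σ : K →+* K) (hσ : ∀ a ∈ A, σ a - a ∈ A.nonunits)
    {x y : K} (h : W.toAffine.Nonsingular x y) (h' : W.toAffine.Nonsingular (σ x) (σ y))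
    (hx : x ≠ 0) (hxm : x ∈ A.nonunits) (hwx : W.a₄ / x ∈ A.nonunits)
    {c ε : K} (hxc : x = c * ε) (hc : σ c = c) (hε : A.valuation ε = 1) :
    Affine.Point.some (σ x) (σ y) h' = Affine.Point.some x y h ∨
      ∃ (x₃ y₃ : K) (h₃' : W.toAffine.Nonsingular x₃ y₃),
        Affine.Point.some (σ x) (σ y) h' - Affine.Point.some x y h =
          Affine.Point.some x₃ y₃ h₃' ∧ x₃ ∉ A := by
  apply h4_refined_swap
  have hσx : σ x ≠ 0 := by
    rw [Ne, map_eq_zero]; exact hx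
  have hc0 : c ≠ 0 := by
    rintro rfl; exact hx (by rw [hxc, zero_mul])
  have hε0 : ε ≠ 0 := by
    rintro rfl; exact hx (by rw [hxc, mul_zero])
  have hεA : ε ∈ A := (A.valuation_le_one_iff ε).mp hε.le
  -- the `x`-coordinates are congruent multiplicatively
  have ht : (σ x - x) / x ∈ A.nonunits := by
    have e : (σ x - x) / x = (σ ε - ε) / ε := by
      rw [hxc, map_mul, hc]
      field_simp
    rw [e, A.mem_nonunits_iff, map_div₀, hε, div_one]
    exact A.mem_nonunits_iff.mp (hσ ε hεA)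
  -- `s = y / x` lies in `A`
  have hv := h4_valuation_two_s_add A W h₃ h₆ hb₂ h.1 hx hxm hwx
  have hsA : y / x ∈ A := by
    have h2s : 2 * (y / x) ∈ A := by
      have : 2 * (y / x) = (2 * (y / x) + W.a₁) - W.a₁ := by ring
      rw [this]
      exact A.sub_mem ((A.valuation_le_one_iff _).mp hv.le) ha₁
    rw [← A.valuation_le_one_iff] at h2s ⊢
    rwa [map_mul, h2, one_mul] at h2s
  have hs : σ y / σ x - y / x ∈ A.nonunits := by
    rw [← map_div₀]
    exact hσ _ hsA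
  exact h4_refined_reduction_nodal A W h₃ h₆ hb₂ h h' hx hσx hxm hwx ht hs

end Fermat.Agent.S05
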