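import Fermat.Agent.S05.Bridge81
import Fermat.Agent.S05.H86Good

/-!
# S05 helper (helper86): the good-reduction local statement `hgood` of `frey_unramified_of_local`

`inertiaFixesTorsion_of_isGoodModel` : for a good model `W` at `A`, the inertia group at `A`
fixes the `n`-torsion, provided the kernel of reduction has no `n`-torsion (part (II)).
-/

set_option autoImplicit false

namespace Fermat.Agent.S05.H86

open WeierstrassCurve

local notation "Qbar" => AlgebraicClosure ℚ

/-- The statement of part (II) for the curve `W` over `K` : the kernel of reduction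
`E₁ = {O} ∪ {x ∉ A}` has no nonzero point killed by `n`. -/
def KernelTorsionFree {K : Type*} [Field K] [DecidableEq K] (A : ValuationSubring K)
    (W : Affine K) (n : ℕ) : Prop :=
  ∀ P : W.Point,
    (P = 0 ∨ ∃ (x y : K) (h : W.Nonsingular x y), P = Affine.Point.some x y h ∧ x ∉ A) →
      n • P = 0 → P = 0

/-- **(G)** Good reduction: the inertia group at `A` fixes the `n`-torsion of a good model, as
soon as the kernel of reduction has no `n`-torsion. -/
theorem inertiaFixesTorsion_of_isGoodModel {A : ValuationSubring Qbar} {W : WeierstrassCurve ℚ}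
    {n : ℕ} (hII : KernelTorsionFree A (W.baseChange Qbar).toAffine n) (hW : IsGoodModel A W) :
    InertiaFixesTorsion A W n := by
  intro σ hσ Q hQ
  have hQ' : n • Q = 0 := by
    rw [← natCast_zsmul]; exact hQ
  have hΔ : ((W.baseChange Qbar).toAffine).Δ ∉ A.nonunits := by
    have h1 : ((W.baseChange Qbar).toAffine).Δ = algebraMap ℚ Qbar W.Δ := by
      simp [WeierstrassCurve.baseChange, WeierstrassCurve.map_Δ]
    rw [h1]
    exact hW.Δ_unit.not_nonunit A
  exact inertia_smul_eq_of_good (R := ℚ) (S := ℚ) (K := Qbar) W A hW.a₁ hW.a₂ hW.a₃ hW.a₄ hW.a₆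
    hΔ n hII hσ Q hQ'

end Fermat.Agent.S05.H86
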