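import Fermat.Agent.S05.Bridge81
import Fermat.Agent.S05.H86GoodGlue
import Fermat.Agent.S05.H4Refined

/-!
# S05: the multiplicative (nodal) local statement, assembly (helper4)

`h4_inertia_smul_eq_of_nodal` : on a short nodal model `y² = x³ + a₂x² + a₄x` (`a₂` a unit,
`a₄` a non-unit of `A`, `2` a unit), the inertia group at `A` fixes every point killed by `n`,
provided

* (II) the kernel of reduction has no `n`-torsion (`H86.KernelTorsionFree`), and
* (IV-cor) every point killed by `n` which reduces to the node has `x ≠ 0`, `a₄ / x` a non-unit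
  and `v(x) = v(π)^j` for a rational `π` (`h4_NodeTorsionValuation`).
-/

set_option autoImplicit false
set_option linter.unusedSectionVars false

namespace Fermat.Agent.S05

open WeierstrassCurve

section Core

open scoped WeierstrassCurve.Affine

variable {K : Type*} [Field K] [DecidableEq K]

/-- The statement of part (IV-cor) for the curve `W` over `K`: a point killed by `n` whose
`x`-coordinate is a non-unit of `A` has `x ≠ 0`, `a₄ / x` a non-unit, and the valuation of `x`
is an integral power of the valuation of `π`. -/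
def h4_NodeTorsionValuation (A : ValuationSubring K) (W : Affine K) (π : K) (n : ℕ) : Prop :=
  ∀ (x y : K) (h : W.Nonsingular x y), n • Affine.Point.some x y h = 0 → x ∈ A.nonunits →
    x ≠ 0 ∧ W.a₄ / x ∈ A.nonunits ∧ ∃ j : ℤ, A.valuation x = A.valuation π ^ j

/-- On the short nodal model, an integral point whose `x`-coordinate is a unit reduces to a
nonsingular point of the reduced curve. -/
theorem h4_partials_of_unit_x (A : ValuationSubring K) (W : WeierstrassCurve K)
    (h₁ : W.a₁ = 0) (h₃ : W.a₃ = 0) (h₆ : W.a₆ = 0) (ha₂ : A.valuation W.a₂ = 1)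
    (ha₄ : W.a₄ ∈ A.nonunits) (h2 : A.valuation (2 : K) = 1)
    {x y : K} (h : W.toAffine.Equation x y) (hx : A.valuation x = 1) (hy : y ∈ A) :
    W.a₁ * y - (3 * x ^ 2 + 2 * W.a₂ * x + W.a₄) ∉ A.nonunits ∨
      2 * y + W.a₁ * x + W.a₃ ∉ A.nonunits := by
  by_contra hcon
  push Not at hcon
  obtain ⟨hX, hY⟩ := hcon
  rw [h₁, h₃] at hY
  rw [h₁] at hX
  rw [Affine.equation_iff, h₁, h₃, h₆] at h
  have hxA : x ∈ A := (A.valuation_le_one_iff x).mp hx.le
  have ha₂A : W.a₂ ∈ A := (A.valuation_le_one_iff _).mp ha₂.le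
  -- `y` is a non-unit
  have hym : y ∈ A.nonunits := by
    have h2y : 2 * y ∈ A.nonunits := by simpa using hY
    rw [A.mem_nonunits_iff, map_mul, h2, one_mul] at h2y
    exact A.mem_nonunits_iff.mpr h2y
  -- `x + a₂` is a non-unit
  have hxa : x + W.a₂ ∈ A.nonunits := by
    have e : x ^ 2 * (x + W.a₂) = y * y + -(W.a₄ * x) := by linear_combination -h
    have hm : x ^ 2 * (x + W.a₂) ∈ A.nonunits := by
      rw [e]
      exact A.nonunits.add_mem (nonunit_mul_mem A hym hy)
        (A.nonunits.neg_mem (nonunit_mul_mem A ha₄ hxA))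
    rw [A.mem_nonunits_iff, map_mul, map_pow, hx, one_pow, one_mul] at hm
    exact A.mem_nonunits_iff.mpr hm
  -- hence `a₂ x` is a non-unit: contradiction
  have hbad : W.a₂ * x ∈ A.nonunits := by
    have e : W.a₂ * x = 3 * x * (x + W.a₂) + W.a₄ +
        (0 * y - (3 * x ^ 2 + 2 * W.a₂ * x + W.a₄)) := by ring
    rw [e]
    have h3x : 3 * x ∈ A := A.mul_mem _ _ (by
      have : (3 : K) = ((3 : ℕ) : K) := by norm_num
      rw [this]; exact natCast_mem A 3) hxA
    exact A.nonunits.add_mem (A.nonunits.add_mem (mem_mul_nonunit A h3x hxa) ha₄) hX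
  rw [A.mem_nonunits_iff, map_mul, ha₂, hx, one_mul] at hbad
  exact lt_irrefl _ hbad

variable [Algebra ℚ K]

/-- **(M), pointwise form.**  Multiplicative reduction on a short nodal model: if the kernel of
reduction has no `n`-torsion (part (II)) and the `n`-torsion points reducing to the node have
`x`-coordinates of rational valuation strictly inside the annulus (part (IV-cor)), then every
element of the inertia group of `A` fixes every point killed by `n`. -/
theorem h4_inertia_smul_eq_of_nodal (W' : WeierstrassCurve ℚ) (A : ValuationSubring K)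
    (h₁ : W'.a₁ = 0) (h₃ : W'.a₃ = 0) (h₆ : W'.a₆ = 0)
    (ha₂ : A.valuation (algebraMap ℚ K W'.a₂) = 1)
    (ha₄ : algebraMap ℚ K W'.a₄ ∈ A.nonunits) (h2 : A.valuation (2 : K) = 1)
    (π₀ : ℚ) (n : ℕ)
    (hII : H86.KernelTorsionFree A (W'⁄K) n)
    (hIV : h4_NodeTorsionValuation A (W'⁄K) (algebraMap ℚ K π₀) n)
    {σ : K ≃ₐ[ℚ] K} (hσ : σ ∈ A.inertiaSubgroupIn ℚ) (P : (W'⁄K).Point) (hP : n • P = 0) :
    σ • P = P := by
  -- coefficients of the base change
  have e₁ : (W'.baseChange K).a₁ = 0 := by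
    simp [WeierstrassCurve.baseChange, h₁]
  have e₂ : (W'.baseChange K).a₂ = algebraMap ℚ K W'.a₂ := by
    simp [WeierstrassCurve.baseChange]
  have e₃ : (W'.baseChange K).a₃ = 0 := by
    simp [WeierstrassCurve.baseChange, h₃]
  have e₄ : (W'.baseChange K).a₄ = algebraMap ℚ K W'.a₄ := by
    simp [WeierstrassCurve.baseChange]
  have e₆ : (W'.baseChange K).a₆ = 0 := by
    simp [WeierstrassCurve.baseChange, h₆]
  have hA₁ : (W'⁄K).a₁ ∈ A := by rw [e₁]; exact A.zero_mem
  have hA₂ : (W'⁄K).a₂ ∈ A := by rw [e₂]; exact (A.valuation_le_one_iff _).mp ha₂.le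
  have hA₃ : (W'⁄K).a₃ ∈ A := by rw [e₃]; exact A.zero_mem
  have hA₄ : (W'⁄K).a₄ ∈ A := by rw [e₄]; exact A.nonunits_le ha₄
  have hA₆ : (W'⁄K).a₆ ∈ A := by rw [e₆]; exact A.zero_mem
  rcases P with _ | ⟨x, y, h⟩
  · exact smul_zero (A := (W'⁄K).Point) σ
  · -- `x` is integral
    have hx : x ∈ A := by
      by_contra hx
      have h0 := hII (Affine.Point.some x y h) (Or.inr ⟨x, y, h, rfl, hx⟩) hP
      exact Affine.Point.some_ne_zero h h0
    have hy : y ∈ A := H86.y_mem_of_x_mem hA₁ hA₂ hA₃ hA₄ hA₆ h.1 hx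
    obtain ⟨hσx, hσx'⟩ := H86.inertia_apply_mem A hσ hx
    obtain ⟨hσy, hσy'⟩ := H86.inertia_apply_mem A hσ hy
    have hsmul : σ • (Affine.Point.some x y h : (W'⁄K).Point) =
        Affine.Point.map (W' := W') σ.toAlgHom (Affine.Point.some x y h) := rfl
    have hmap := Affine.Point.map_some (W' := W') (f := σ.toAlgHom) h
    have hnsσ : (W'⁄K).Nonsingular (σ x) (σ y) := by
      have := (Affine.baseChange_nonsingular (W := W') σ.toAlgHom.injective x y).2 h
      simpa using this
    have hsmul' : σ • (Affine.Point.some x y h : (W'⁄K).Point) =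
        Affine.Point.some (σ x) (σ y) hnsσ := by
      rw [hsmul, hmap]; rfl
    -- the difference `σ P - P` is killed by `n`
    have hn0 : n • (Affine.Point.some (σ x) (σ y) hnsσ - Affine.Point.some x y h :
        (W'⁄K).Point) = 0 := by
      rw [smul_sub, hP, sub_zero, ← hsmul', hsmul, ← map_nsmul, hP, map_zero]
    -- it suffices to show that `σ P = P` or `σ P - P` lies in the kernel of reduction
    suffices H : Affine.Point.some (σ x) (σ y) hnsσ = Affine.Point.some x y h ∨
        ∃ (x₃ y₃ : K) (h₃' : (W'⁄K).Nonsingular x₃ y₃),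
          Affine.Point.some (σ x) (σ y) hnsσ - Affine.Point.some x y h =
            Affine.Point.some x₃ y₃ h₃' ∧ x₃ ∉ A by
      rw [hsmul']
      rcases H with H | ⟨x₃, y₃, h₃', hd, hx₃⟩
      · exact H
      · have := hII _ (Or.inr ⟨x₃, y₃, h₃', hd, hx₃⟩) hn0
        exact sub_eq_zero.1 this
    by_cases hxm : x ∈ A.nonunits
    · -- `P` reduces to the node: use (IV-cor) and the refined reduction (V)
      obtain ⟨hx0, hwx, j, hj⟩ := hIV x y h hP hxm
      have hπ0 : algebraMap ℚ K π₀ ≠ 0 := by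
        intro h0
        rw [h0, map_zero] at hj
        rcases eq_or_ne j 0 with rfl | hj0
        · rw [zpow_zero] at hj
          rw [A.mem_nonunits_iff, hj] at hxm
          exact lt_irrefl _ hxm
        · rw [zero_zpow j hj0] at hj
          exact hx0 ((Valuation.zero_iff _).mp hj)
      have hc0 : (algebraMap ℚ K π₀) ^ j ≠ 0 := zpow_ne_zero j hπ0
      have hb₂ : A.valuation (W'.baseChange K).b₂ = 1 := by
        have : (W'.baseChange K).b₂ = 2 ^ 2 * algebraMap ℚ K W'.a₂ := by
          simp only [WeierstrassCurve.b₂, e₁, e₂]; ring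
        rw [this, map_mul, map_pow, h2, ha₂, one_pow, one_mul]
      have hε : A.valuation (x / (algebraMap ℚ K π₀) ^ j) = 1 := by
        rw [map_div₀, map_zpow₀, hj]
        exact div_self (by
          rw [← map_zpow₀]
          exact (Valuation.ne_zero_iff _).mpr hc0)
      have hσc : (σ : K ≃ₐ[ℚ] K).toRingEquiv.toRingHom ((algebraMap ℚ K π₀) ^ j) =
          (algebraMap ℚ K π₀) ^ j := by
        change σ ((algebraMap ℚ K π₀) ^ j) = _
        rw [map_zpow₀, AlgEquiv.commutes]
      have hxc : x = (algebraMap ℚ K π₀) ^ j * (x / (algebraMap ℚ K π₀) ^ j) := by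
        field_simp
      have hwx' : (W'.baseChange K).a₄ / x ∈ A.nonunits := hwx
      exact h4_refined_galois A (W'.baseChange K) e₃ e₆ hA₁ hb₂ h2
        ((σ : K ≃ₐ[ℚ] K).toRingEquiv.toRingHom)
        (fun a ha => (H86.inertia_apply_mem A hσ ha).2) h hnsσ hx0 hxm hwx' hxc hσc hε
    · -- `x` is a unit: `P` and `σ P` have the same nonsingular reduction
      have hxu : A.valuation x = 1 :=
        H86.valuation_eq_one_of_mem_of_not_mem_nonunits A hx hxm
      have hns := h4_partials_of_unit_x A (W'.baseChange K) e₁ e₃ e₆ (by rw [e₂]; exact ha₂)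
        (by rw [e₄]; exact ha₄) h2 h.1 hxu hy
      have hxm' : x - σ x ∈ A.nonunits := by
        have := neg_mem hσx'
        simpa using this
      have hym' : y - σ y ∈ A.nonunits := by
        have := neg_mem hσy'
        simpa using this
      have hIII := H86.sub_inE1_of_same_reduction (A := A) (W := W'⁄K) hA₁ hA₂ hA₃ hA₄ h hnsσ
        hx hy hσx hσy hxm' hym' hns
      apply h4_refined_swap
      rcases hIII with h0 | h0
      · exact Or.inl (sub_eq_zero.1 h0)
      · exact Or.inr h0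

end Core

section Glue

local notation "Qbar" => AlgebraicClosure ℚ

/-- **(M)** Multiplicative reduction: the inertia group at `A` fixes the `n`-torsion of a short
nodal model, as soon as the kernel of reduction has no `n`-torsion (part (II)) and the
`n`-torsion points reducing to the node have rational valuations (part (IV-cor)). -/
theorem h4_inertiaFixesTorsion_of_isShortNodal {A : ValuationSubring Qbar}
    {W : WeierstrassCurve ℚ} {n : ℕ} (hn : n ≠ 0) (h2 : IsUnitOf A (2 : Qbar))
    (hII : H86.KernelTorsionFree A (W.baseChange Qbar).toAffine n)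
    (hIV : ∀ π₀ u₀ : ℚ, W.a₄ = u₀ * π₀ ^ n → algebraMap ℚ Qbar π₀ ∈ A.nonunits → π₀ ≠ 0 →
      IsUnitOf A (algebraMap ℚ Qbar u₀) →
      h4_NodeTorsionValuation A (W.baseChange Qbar).toAffine (algebraMap ℚ Qbar π₀) n)
    (hW : IsShortNodal A n W) : InertiaFixesTorsion A W n := by
  intro σ hσ Q hQ
  have hQ' : n • Q = 0 := by
    rw [← natCast_zsmul]; exact hQ
  obtain ⟨π₀, u₀, h4, hπ, hπ0, hu⟩ := hW.a₄
  have ha₄ : algebraMap ℚ Qbar W.a₄ ∈ A.nonunits := by
    rw [h4, map_mul, map_pow]
    exact mem_mul_nonunit A (hu.mem A) (nonunit_pow A hπ hn)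
  exact h4_inertia_smul_eq_of_nodal W A hW.a₁ hW.a₃ hW.a₆ hW.a₂_unit ha₄ h2 π₀ n hII
    (hIV π₀ u₀ h4 hπ hπ0 hu) hσ Q hQ'

/-- The statement of helper76's `torsion_node_valuation` (part (IV-cor)) for a fixed valuation
subring `A` of a field `K`, on the general nodal model `(y - r₁ x)(y - r₂ x) = x³ + a₄ x`. -/
def h4_IVcorStatement {K : Type*} [Field K] [DecidableEq K] (A : ValuationSubring K) : Prop :=
  ∀ (W : WeierstrassCurve K) (_h3 : W.a₃ = 0) (_h6 : W.a₆ = 0) (r₁ r₂ : K) (_hr₁ : r₁ ∈ A)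
    (_hr₂ : r₂ ∈ A) (_ha₁ : W.a₁ = -(r₁ + r₂)) (_ha₂ : W.a₂ = -(r₁ * r₂))
    (_hr : A.valuation (r₁ - r₂) = 1) (π u : K) (_hπ : π ∈ A.nonunits) (_hπ0 : π ≠ 0)
    (_hu : A.valuation u = 1) (n : ℕ) (_hn : Odd n) (_h4 : W.a₄ = u * π ^ n) {x y : K}
    (h : W.toAffine.Nonsingular x y)
    (_hP : n • (WeierstrassCurve.Affine.Point.some x y h) = 0) (_hx : x ∈ A.nonunits),
    x ≠ 0 ∧ W.a₄ / x ∈ A.nonunits ∧ ∃ j : ℤ, A.valuation x = A.valuation π ^ j

/-- The statement of part (II) for a fixed valuation subring `A` of a field `K`: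
on an integral Weierstrass model, the kernel of reduction has no `n`-torsion when `n` is a unit
of `A`.  (The unit hypothesis is stated as `A.valuation n = 1`: the pair of conditions
`n ∈ A`, `n⁻¹ ∈ A` would also allow `n = 0` in `K`, for which the statement is false.) -/
def h4_IIStatement {K : Type*} [Field K] [DecidableEq K] (A : ValuationSubring K) : Prop :=
  ∀ (W : Affine K) (_ha₁ : W.a₁ ∈ A) (_ha₂ : W.a₂ ∈ A) (_ha₃ : W.a₃ ∈ A) (_ha₄ : W.a₄ ∈ A)
    (_ha₆ : W.a₆ ∈ A) (n : ℕ) (_hn : A.valuation (n : K) = 1),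
    H86.KernelTorsionFree A W n

/-- (IV-cor) in the shape needed by `h4_inertiaFixesTorsion_of_isShortNodal`, from the statement
of `torsion_node_valuation` (over the algebraically closed field `Qbar`, where the tangent
directions `± ρ`, `ρ² = a₂`, at the node exist). -/
theorem h4_nodeTorsionValuation_of_IVcor {A : ValuationSubring Qbar}
    {W : WeierstrassCurve ℚ} {n : ℕ} (hodd : Odd n) (h2 : IsUnitOf A (2 : Qbar))
    (hW : IsShortNodal A n W) (H : h4_IVcorStatement A)
    (π₀ u₀ : ℚ) (h4 : W.a₄ = u₀ * π₀ ^ n) (hπ : algebraMap ℚ Qbar π₀ ∈ A.nonunits)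
    (hπ0 : π₀ ≠ 0) (hu : IsUnitOf A (algebraMap ℚ Qbar u₀)) :
    h4_NodeTorsionValuation A (W.baseChange Qbar).toAffine (algebraMap ℚ Qbar π₀) n := by
  intro x y h hP hx
  obtain ⟨ρ, hρ⟩ := IsAlgClosed.exists_pow_nat_eq (algebraMap ℚ Qbar W.a₂) (n := 2) (by norm_num)
  have hρv : A.valuation ρ = 1 := by
    have : A.valuation ρ ^ 2 = 1 := by
      rw [← map_pow, hρ]; exact hW.a₂_unit
    exact (pow_eq_one_iff_of_nonneg zero_le two_ne_zero).mp this
  have hρA : ρ ∈ A := (A.valuation_le_one_iff ρ).mp hρv.le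
  have e₁ : (W.baseChange Qbar).a₁ = 0 := by
    simp [WeierstrassCurve.baseChange, hW.a₁]
  have e₂ : (W.baseChange Qbar).a₂ = algebraMap ℚ Qbar W.a₂ := by
    simp [WeierstrassCurve.baseChange]
  have e₃ : (W.baseChange Qbar).a₃ = 0 := by
    simp [WeierstrassCurve.baseChange, hW.a₃]
  have e₄ : (W.baseChange Qbar).a₄ = algebraMap ℚ Qbar W.a₄ := by
    simp [WeierstrassCurve.baseChange]
  have e₆ : (W.baseChange Qbar).a₆ = 0 := by
    simp [WeierstrassCurve.baseChange, hW.a₆]
  refine H (W.baseChange Qbar) e₃ e₆ ρ (-ρ) hρA (A.neg_mem _ hρA) (by rw [e₁]; ring)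
    (by rw [e₂, ← hρ]; ring) ?_ (algebraMap ℚ Qbar π₀) (algebraMap ℚ Qbar u₀) hπ
    (by rw [Ne, map_eq_zero]; exact hπ0) hu n hodd (by rw [e₄, h4, map_mul, map_pow]) h hP hx
  have : ρ - -ρ = 2 * ρ := by ring
  rw [this, map_mul, hρv, mul_one]
  exact h2

/-- **(M), final form**: the local statement `hnodal` of `frey_unramified_of_local`, from the
statements of parts (II) and (IV-cor). -/
theorem h4_hnodal_of {q n : ℕ} (hq : q.Prime) (hq2 : q ≠ 2) (hn : n.Prime) (hn2 : n ≠ 2)
    (hqn : q ≠ n) (A : ValuationSubring Qbar) (W : WeierstrassCurve ℚ)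
    (hA : A.LiesOverPrime q) (hW : IsShortNodal A n W)
    (HII : h4_IIStatement A) (HIV : h4_IVcorStatement A) :
    InertiaFixesTorsion A W n := by
  have hAq : ((q : ℕ) : Qbar) ∈ A.nonunits := hA
  have h2 : IsUnitOf A (2 : Qbar) := two_isUnitOf hq hAq hq2
  have hnu : IsUnitOf A (n : Qbar) := prime_isUnitOf hq hAq hn hqn
  have hodd : Odd n := hn.odd_of_ne_two hn2
  obtain ⟨π₀, u₀, h4, hπ, hπ0, hu⟩ := hW.a₄
  have ha₄ : algebraMap ℚ Qbar W.a₄ ∈ A.nonunits := by
    rw [h4, map_mul, map_pow]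
    exact mem_mul_nonunit A (hu.mem A) (nonunit_pow A hπ hn.ne_zero)
  have e₁ : (W.baseChange Qbar).a₁ = 0 := by
    simp [WeierstrassCurve.baseChange, hW.a₁]
  have e₂ : (W.baseChange Qbar).a₂ = algebraMap ℚ Qbar W.a₂ := by
    simp [WeierstrassCurve.baseChange]
  have e₃ : (W.baseChange Qbar).a₃ = 0 := by
    simp [WeierstrassCurve.baseChange, hW.a₃]
  have e₄ : (W.baseChange Qbar).a₄ = algebraMap ℚ Qbar W.a₄ := by
    simp [WeierstrassCurve.baseChange]
  have e₆ : (W.baseChange Qbar).a₆ = 0 := by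
    simp [WeierstrassCurve.baseChange, hW.a₆]
  have hII : H86.KernelTorsionFree A (W.baseChange Qbar).toAffine n :=
    HII (W.baseChange Qbar).toAffine (by rw [e₁]; exact A.zero_mem)
      (by rw [e₂]; exact hW.a₂_unit.mem A) (by rw [e₃]; exact A.zero_mem)
      (by rw [e₄]; exact A.nonunits_le ha₄) (by rw [e₆]; exact A.zero_mem) n hnu
  exact h4_inertiaFixesTorsion_of_isShortNodal hn.ne_zero h2 hII
    (fun π₀ u₀ h4 hπ hπ0 hu => h4_nodeTorsionValuation_of_IVcor hodd h2 hW HIV π₀ u₀ h4 hπ hπ0 hu)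
    hW

/-- **S05 from the statements of parts (II) and (IV-cor).**  Once helper56's
`eq_zero_of_nsmul_eq_zero_of_inE1` and helper76's `torsion_node_valuation` are available, they
provide `HII` and `HIV` and this theorem is the frozen statement S05. -/
theorem h4_S05_of (P : FreyPackage) {q : ℕ} (hq : q.Prime) (hq2 : q ≠ 2) (hqp : q ≠ P.p)
    (HII : ∀ A : ValuationSubring Qbar, A.LiesOverPrime q → h4_IIStatement A)
    (HIV : ∀ A : ValuationSubring Qbar, A.LiesOverPrime q → h4_IVcorStatement A) :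
    P.GaloisRepUnramifiedAt q := by
  have hp2 : P.p ≠ 2 := by have := P.hp5; omega
  refine frey_unramified_of_local P hq hq2 hqp ?_ ?_
  · intro A W hA hW
    have hAq : ((q : ℕ) : Qbar) ∈ A.nonunits := hA
    have hnu : IsUnitOf A (P.p : Qbar) := prime_isUnitOf hq hAq P.pp hqp
    exact H86.inertiaFixesTorsion_of_isGoodModel
      (HII A hA (W.baseChange Qbar).toAffine
        (by simpa [WeierstrassCurve.baseChange] using hW.a₁)
        (by simpa [WeierstrassCurve.baseChange] using hW.a₂)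
        (by simpa [WeierstrassCurve.baseChange] using hW.a₃)
        (by simpa [WeierstrassCurve.baseChange] using hW.a₄)
        (by simpa [WeierstrassCurve.baseChange] using hW.a₆)
        P.p hnu) hW
  · intro A W hA hW
    exact h4_hnodal_of hq hq2 P.pp hp2 hqp A W hA hW (HII A hA) (HIV A hA)

end Glue

end Fermat.Agent.S05
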