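import Mathlib
import Fermat.Prelude.Def_FLTPrelim_Ramification
import Fermat.Agent.S05.VarChange
import Fermat.Agent.S05.FreyArith

/-!
# Reduction of S05 to two local statements on short models (helper81)
-/

set_option autoImplicit false
set_option linter.unusedSectionVars false

namespace Fermat.Agent.S05

open WeierstrassCurve WeierstrassCurve.Affine.Point

local notation "Qbar" => AlgebraicClosure ℚ

/-- The local statement: every element of the inertia group at `A` fixes every `n`-torsion point
of `W` over `Qbar`. -/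
def InertiaFixesTorsion (A : ValuationSubring Qbar) (W : WeierstrassCurve ℚ) (n : ℕ) : Prop :=
  ∀ σ ∈ A.inertiaSubgroupIn ℚ, ∀ Q : (W.baseChange Qbar).toAffine.Point,
    (n : ℤ) • Q = 0 → σ • Q = Q

lemma inertiaFixesTorsion_of_model {A : ValuationSubring Qbar} {W W'' : WeierstrassCurve ℚ}
    (C' : VariableChange ℚ) (hW : W = C' • W'') {n : ℕ} (h : InertiaFixesTorsion A W'' n) :
    InertiaFixesTorsion A W n := by
  intro σ hσ Q hQ
  exact map_eq_self_of_model C' hW σ.toAlgHom (n : ℤ) (fun Q' hQ' => h σ hσ Q' hQ') Q hQ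

/-- S05 follows from the two local statements (good short model / nodal short model). -/
theorem frey_unramified_of_local (P : FreyPackage) {q : ℕ} (hq : q.Prime) (hq2 : q ≠ 2)
    (_hqp : q ≠ P.p)
    (hgood : ∀ (A : ValuationSubring Qbar) (W : WeierstrassCurve ℚ), A.LiesOverPrime q →
      IsGoodModel A W → InertiaFixesTorsion A W P.p)
    (hnodal : ∀ (A : ValuationSubring Qbar) (W : WeierstrassCurve ℚ), A.LiesOverPrime q →
      IsShortNodal A P.p W → InertiaFixesTorsion A W P.p) :
    P.GaloisRepUnramifiedAt q := by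
  intro A hA σ hσ x
  have hAq : ((q : ℕ) : Qbar) ∈ A.nonunits := hA
  have key : InertiaFixesTorsion A P.freyCurve P.p := by
    by_cases ha : (q : ℤ) ∣ P.a
    · exact inertiaFixesTorsion_of_model freyVC (freyCurve_eq_smul_short P)
        (hnodal A _ hA (freyShort_isShortNodal_of_dvd_a P hq hAq ha))
    by_cases hb : (q : ℤ) ∣ P.b
    · exact inertiaFixesTorsion_of_model freyVC (freyCurve_eq_smul_short P)
        (hnodal A _ hA (freyShort_isShortNodal_of_dvd_b P hq hAq hb))
    by_cases hc : (q : ℤ) ∣ P.c
    · exact inertiaFixesTorsion_of_model (freyVCC P) (freyCurve_eq_smul_shortC P)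
        (hnodal A _ hA (freyShortC_isShortNodal_of_dvd_c P hq hAq hc))
    · exact inertiaFixesTorsion_of_model freyVC (freyCurve_eq_smul_short P)
        (hgood A _ hA (freyShort_isGoodModel P hq hAq hq2 ha hb hc))
  apply Subtype.ext
  have hx : (P.p : ℤ) • x.1 = 0 := by
    have := x.2
    rw [Submodule.mem_torsionBy_iff] at this
    exact this
  exact key σ hσ x.1 hx

end Fermat.Agent.S05
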