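import Fermat.Agent.S05.XIdentities
import Mathlib.RingTheory.Valuation.Basic
import Mathlib.RingTheory.Valuation.ValuationSubring

/-!
# S05 helper (helper5): the kernel of reduction has no torsion prime to the residue
characteristic -- `x`-only proof

For a Weierstrass curve `W` over a valued field with integral coefficients, and a point `P` with
`v (x P) > 1`, put `ζ P = 1 / x P` (and `ζ 0 = 0`).  The identities (I1), (I2), (I3) give
`D (ζ P) (ζ Q) * (ζ (P + Q) + ζ (P - Q)) = N (ζ P) (ζ Q)` with `N ≡ 2 (a + b)` and `D ≡ 1`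
modulo `a b`, so `ζ (k P) ≡ k² ζ P` modulo `(ζ P)²`.  Hence `n P = 0` forces `v n < 1`.
-/

set_option autoImplicit false
set_option linter.unusedSectionVars false

namespace Fermat.Agent.S05.H5

open WeierstrassCurve

variable {K : Type*} [Field K] {Γ₀ : Type*} [LinearOrderedCommGroupWithZero Γ₀]
  (v : Valuation K Γ₀) (W : WeierstrassCurve K)

/-- The numerator `2(a+b) + b₂ ab + b₄ ab(a+b) + b₆ (ab)²`. -/
def Nm (a b : K) : K := 2 * (a + b) + W.b₂ * (a * b) + W.b₄ * (a * b) * (a + b) + W.b₆ * (a * b) ^ 2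

/-- The denominator `1 - b₄ ab - b₆ ab(a+b) - b₈ (ab)²`. -/
def Dn (a b : K) : K := 1 - W.b₄ * (a * b) - W.b₆ * (a * b) * (a + b) - W.b₈ * (a * b) ^ 2

/-- The remainder `R` with `N - 2(a+b) D = ab R`. -/
def Rm (a b : K) : K :=
  W.b₂ + W.b₄ * (a + b) + W.b₆ * (a * b) +
    2 * (a + b) * (W.b₄ + W.b₆ * (a + b) + W.b₈ * (a * b))

lemma Nm_sub (a b : K) : Nm W a b - 2 * (a + b) * Dn W a b = a * b * Rm W a b := by
  simp only [Nm, Dn, Rm]; ring

lemma Nm_zero_left (b : K) : Nm W 0 b = 2 * b := by simp [Nm]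
lemma Nm_zero_right (a : K) : Nm W a 0 = 2 * a := by simp [Nm]
lemma Dn_zero_left (b : K) : Dn W 0 b = 1 := by simp [Dn]
lemma Dn_zero_right (a : K) : Dn W a 0 = 1 := by simp [Dn]

section Order

variable {Γ : Type*} [LinearOrderedCommGroupWithZero Γ]

lemma lt_one_mul_le {a b : Γ} (ha : a < 1) (hb : b ≤ 1) : a * b < 1 :=
  lt_of_le_of_lt (mul_le_of_le_one_right' hb) ha

lemma le_one_mul_lt {a b : Γ} (ha : a ≤ 1) (hb : b < 1) : a * b < 1 := by
  rw [mul_comm]; exact lt_one_mul_le hb ha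

lemma pow_lt_one_of_lt {a : Γ} (ha : a < 1) {n : ℕ} (hn : n ≠ 0) : a ^ n < 1 :=
  pow_lt_one₀ zero_le ha hn

end Order

section Val

variable {v W}

lemma v_two_le_one : v (2 : K) ≤ 1 := by
  have : (2 : K) = 1 + 1 := by norm_num
  rw [this]
  exact v.map_add_le (le_of_eq v.map_one) (le_of_eq v.map_one)

lemma v_natCast_le_one (n : ℕ) : v (n : K) ≤ 1 := by
  induction n with
  | zero => simp
  | succ k ih =>
    rw [Nat.cast_succ]
    exact v.map_add_le ih (le_of_eq v.map_one)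

lemma v_mul_le_one {x y : K} (hx : v x ≤ 1) (hy : v y ≤ 1) : v (x * y) ≤ 1 := by
  rw [v.map_mul]; exact mul_le_one' hx hy

lemma v_Rm_le_one (h₂ : v W.b₂ ≤ 1) (h₄ : v W.b₄ ≤ 1) (h₆ : v W.b₆ ≤ 1) (h₈ : v W.b₈ ≤ 1)
    {a b : K} (ha : v a ≤ 1) (hb : v b ≤ 1) : v (Rm W a b) ≤ 1 := by
  have hab : v (a + b) ≤ 1 := v.map_add_le ha hb
  have hm : v (a * b) ≤ 1 := v_mul_le_one ha hb
  unfold Rm
  refine v.map_add_le (v.map_add_le (v.map_add_le h₂ (v_mul_le_one h₄ hab))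
    (v_mul_le_one h₆ hm)) ?_
  refine v_mul_le_one (v_mul_le_one v_two_le_one hab) ?_
  exact v.map_add_le (v.map_add_le h₄ (v_mul_le_one h₆ hab)) (v_mul_le_one h₈ hm)

lemma v_Dn_eq_one (h₄ : v W.b₄ ≤ 1) (h₆ : v W.b₆ ≤ 1) (h₈ : v W.b₈ ≤ 1)
    {a b : K} (ha : v a < 1) (hb : v b ≤ 1) : v (Dn W a b) = 1 := by
  have hab : v (a + b) ≤ 1 := v.map_add_le ha.le hb
  have hm : v (a * b) < 1 := by
    rw [v.map_mul]; exact lt_one_mul_le ha hb
  have h1 : v (W.b₄ * (a * b)) < 1 := by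
    rw [v.map_mul]; exact le_one_mul_lt h₄ hm
  have h2 : v (W.b₆ * (a * b) * (a + b)) < 1 := by
    rw [v.map_mul, v.map_mul]
    exact lt_one_mul_le (le_one_mul_lt h₆ hm) hab
  have h3 : v (W.b₈ * (a * b) ^ 2) < 1 := by
    rw [v.map_mul, v.map_pow]
    exact le_one_mul_lt h₈ (pow_lt_one_of_lt hm two_ne_zero)
  have e : Dn W a b = 1 + (-(W.b₄ * (a * b)) - W.b₆ * (a * b) * (a + b) - W.b₈ * (a * b) ^ 2) := by
    unfold Dn; ring
  rw [e]
  apply v.map_one_add_of_lt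
  refine v.map_sub_lt (v.map_sub_lt ?_ h2) h3
  rwa [v.map_neg]

lemma both_gt_one {s t : K} (h1 : 1 < v (s * t)) (h2 : v (s + t) < v (s * t)) :
    1 < v s ∧ 1 < v t := by
  have key : ∀ {s t : K}, 1 < v (s * t) → v (s + t) < v (s * t) → 1 < v s := by
    intro s t h1 h2
    by_contra hs
    rw [not_lt] at hs
    have h3 : v (s * t) ≤ v t := by
      rw [v.map_mul]; exact mul_le_of_le_one_left' hs
    have h4 : v (s + t) < v t := lt_of_lt_of_le h2 h3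
    have h5 : v s = v t := by
      by_contra hne
      have := v.map_add_of_distinct_val hne
      rw [this] at h4
      exact absurd (le_max_right _ _) (not_le.mpr h4)
    have h6 : v (s * t) ≤ 1 := by
      rw [v.map_mul, ← h5]; exact mul_le_one' hs hs
    exact absurd h1 (not_lt.mpr h6)
  refine ⟨key h1 h2, ?_⟩
  rw [mul_comm] at h1 h2
  rw [add_comm] at h2
  exact key h1 h2

end Val

section Points

variable [DecidableEq K]

/-- `ζ P = 1 / x(P)`, with `ζ 0 = 0`. -/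
def zeta : W.toAffine.Point → K
  | .zero => 0
  | .some x _ _ => x⁻¹

/-- Membership in the kernel of reduction `E₁ = {0} ∪ {v x > 1}`. -/
def InKer : W.toAffine.Point → Prop
  | .zero => True
  | .some x _ _ => 1 < v x

@[simp] lemma zeta_zero : zeta W (0 : W.toAffine.Point) = 0 := rfl
@[simp] lemma zeta_some {x y : K} (h : W.toAffine.Nonsingular x y) :
    zeta W (Affine.Point.some x y h) = x⁻¹ := rfl
@[simp] lemma inKer_zero : InKer v W (0 : W.toAffine.Point) := trivial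
@[simp] lemma inKer_some {x y : K} (h : W.toAffine.Nonsingular x y) :
    InKer v W (Affine.Point.some x y h) ↔ 1 < v x := Iff.rfl

lemma zeta_neg (P : W.toAffine.Point) : zeta W (-P) = zeta W P := by
  rcases P with _ | ⟨x, y, h⟩
  · rfl
  · rw [Affine.Point.neg_some]; rfl

lemma inKer_neg (P : W.toAffine.Point) : InKer v W (-P) ↔ InKer v W P := by
  rcases P with _ | ⟨x, y, h⟩
  · rfl
  · rw [Affine.Point.neg_some]; rfl

/-- The statement of the pair lemma. -/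
def PairStmt (P Q : W.toAffine.Point) : Prop :=
  InKer v W (P + Q) ∧ InKer v W (P - Q) ∧
    Dn W (zeta W P) (zeta W Q) * (zeta W (P + Q) + zeta W (P - Q)) = Nm W (zeta W P) (zeta W Q)

lemma pairStmt_of_neg {P Q : W.toAffine.Point} (h : PairStmt v W P (-Q)) : PairStmt v W P Q := by
  obtain ⟨h1, h2, h3⟩ := h
  rw [zeta_neg] at h3
  rw [sub_neg_eq_add] at h2 h3
  rw [← sub_eq_add_neg] at h1 h3
  exact ⟨h2, h1, by rw [add_comm (zeta W (P + Q))]; exact h3⟩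

variable {v W}

/-- Generic case of the pair lemma: `x₁ ≠ x₂`. -/
lemma pairStmt_of_X_ne (h₂ : v W.b₂ ≤ 1) (h₄ : v W.b₄ ≤ 1) (h₆ : v W.b₆ ≤ 1) (h₈ : v W.b₈ ≤ 1)
    {x₁ y₁ x₂ y₂ : K} (hP : W.toAffine.Nonsingular x₁ y₁) (hQ : W.toAffine.Nonsingular x₂ y₂)
    (hx₁ : 1 < v x₁) (hx₂ : 1 < v x₂) (hx : x₁ ≠ x₂) :
    PairStmt v W (Affine.Point.some x₁ y₁ hP) (Affine.Point.some x₂ y₂ hQ) := by
  obtain ⟨xp, yp, xm, ym, hp, hm, hadd, hsub, hI1, hI2⟩ := XId.exists_add_sub W hP hQ hx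
  have hx₁0 : x₁ ≠ 0 := by rintro rfl; simp at hx₁
  have hx₂0 : x₂ ≠ 0 := by rintro rfl; simp at hx₂
  have hδ0 : x₁ - x₂ ≠ 0 := sub_ne_zero.mpr hx
  have hvδ0 : 0 < v (x₁ - x₂) := by
    rw [zero_lt_iff]; exact (v.ne_zero_iff).mpr hδ0
  -- M = max ρ₁ ρ₂
  set M := max (v x₁) (v x₂) with hM
  have hM1 : 1 < M := lt_of_lt_of_le hx₁ (le_max_left _ _)
  have hs : v (x₁ * x₂) = v x₁ * v x₂ := v.map_mul _ _
  have hMs : M < v (x₁ * x₂) := by
    rw [hs, hM]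
    rcases le_total (v x₁) (v x₂) with h | h
    · rw [max_eq_right h]
      calc v x₂ = 1 * v x₂ := (one_mul _).symm
        _ < v x₁ * v x₂ := by
          apply mul_lt_mul_of_pos_right hx₁
          exact lt_trans zero_lt_one hx₂
    · rw [max_eq_left h]
      calc v x₁ = v x₁ * 1 := (mul_one _).symm
        _ < v x₁ * v x₂ := by
          apply mul_lt_mul_of_pos_left hx₂
          exact lt_trans zero_lt_one hx₁
  have hs1 : 1 < v (x₁ * x₂) := lt_trans hM1 hMs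
  have hs0 : 0 < v (x₁ * x₂) := lt_trans zero_lt_one hs1
  have hsq : v (x₁ * x₂) < v ((x₁ * x₂) ^ 2) := by
    rw [v.map_pow, pow_two]
    calc v (x₁ * x₂) = v (x₁ * x₂) * 1 := (mul_one _).symm
      _ < v (x₁ * x₂) * v (x₁ * x₂) := mul_lt_mul_of_pos_left hs1 hs0
  have ht : v (x₁ + x₂) ≤ M := v.map_add_le (le_max_left _ _) (le_max_right _ _)
  have hδ : v (x₁ - x₂) ≤ M := v.map_sub_le (le_max_left _ _) (le_max_right _ _)
  -- valuation of Π'
  have hPi : v ((x₁ * x₂) ^ 2 - W.b₄ * (x₁ * x₂) - W.b₆ * (x₁ + x₂) - W.b₈) =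
      v ((x₁ * x₂) ^ 2) := by
    have e : (x₁ * x₂) ^ 2 - W.b₄ * (x₁ * x₂) - W.b₆ * (x₁ + x₂) - W.b₈ =
        (x₁ * x₂) ^ 2 + (-(W.b₄ * (x₁ * x₂)) - W.b₆ * (x₁ + x₂) - W.b₈) := by ring
    rw [e]
    apply v.map_add_eq_of_lt_left
    refine v.map_sub_lt (v.map_sub_lt ?_ ?_) ?_
    · rw [v.map_neg, v.map_mul]
      exact lt_of_le_of_lt (mul_le_of_le_one_left' h₄) hsq
    · rw [v.map_mul]
      exact lt_of_le_of_lt (mul_le_of_le_one_left' h₆) (lt_of_le_of_lt ht (lt_trans hMs hsq))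
    · exact lt_of_le_of_lt h₈ (lt_trans hs1 hsq)
  -- valuation of Σ'
  have hSg : v (2 * (x₁ + x₂) * (x₁ * x₂) + W.b₂ * (x₁ * x₂) + W.b₄ * (x₁ + x₂) + W.b₆) ≤
      M * v (x₁ * x₂) := by
    have hMge : (1 : Γ₀) ≤ M := hM1.le
    have hsge : (1 : Γ₀) ≤ v (x₁ * x₂) := hs1.le
    refine v.map_add_le (v.map_add_le (v.map_add_le ?_ ?_) ?_) ?_
    · rw [v.map_mul, v.map_mul]
      exact mul_le_mul' (le_trans (mul_le_of_le_one_left' v_two_le_one) ht) le_rfl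
    · rw [v.map_mul]
      exact mul_le_mul' (le_trans h₂ hMge) le_rfl
    · rw [v.map_mul]
      calc v W.b₄ * v (x₁ + x₂) ≤ 1 * M := mul_le_mul' h₄ ht
        _ = M * 1 := by rw [one_mul, mul_one]
        _ ≤ M * v (x₁ * x₂) := mul_le_mul' le_rfl hsge
    · calc v W.b₆ ≤ 1 * 1 := by rw [one_mul]; exact h₆
        _ ≤ M * v (x₁ * x₂) := mul_le_mul' hMge hsge
  have hδsq0 : 0 < v ((x₁ - x₂) ^ 2) := by
    rw [v.map_pow]; exact pow_pos hvδ0 2
  -- (i) 1 < v (xp * xm)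
  have hi : 1 < v (xp * xm) := by
    by_contra hcon
    rw [not_lt] at hcon
    have h1 : v (xp * xm * (x₁ - x₂) ^ 2) ≤ v ((x₁ - x₂) ^ 2) := by
      rw [v.map_mul]; exact mul_le_of_le_one_left' hcon
    rw [hI1, hPi] at h1
    have h2 : v ((x₁ - x₂) ^ 2) ≤ M ^ 2 := by
      rw [v.map_pow]; exact pow_le_pow_left' hδ 2
    have h3 : M ^ 2 < v ((x₁ * x₂) ^ 2) := by
      rw [v.map_pow]; exact pow_lt_pow_left₀ hMs zero_le two_ne_zero
    exact absurd (le_trans h1 h2) (not_le.mpr h3)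
  -- (ii) v (xp + xm) < v (xp * xm)
  have hii : v (xp + xm) < v (xp * xm) := by
    have h1 : v ((xp + xm) * (x₁ - x₂) ^ 2) < v (xp * xm * (x₁ - x₂) ^ 2) := by
      rw [hI1, hI2, hPi]
      refine lt_of_le_of_lt hSg ?_
      rw [v.map_pow, pow_two]
      exact mul_lt_mul_of_pos_right hMs hs0
    rw [v.map_mul, v.map_mul (xp * xm)] at h1
    exact lt_of_mul_lt_mul_right' h1
  obtain ⟨hxp, hxm⟩ := both_gt_one hi hii
  have hxp0 : xp ≠ 0 := by rintro rfl; simp at hxp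
  have hxm0 : xm ≠ 0 := by rintro rfl; simp at hxm
  refine ⟨?_, ?_, ?_⟩
  · rw [hadd]; exact hxp
  · rw [hsub]; exact hxm
  · rw [hadd, hsub]
    simp only [zeta_some]
    have hD : Dn W x₁⁻¹ x₂⁻¹ * (x₁ * x₂) ^ 2 =
        (x₁ * x₂) ^ 2 - W.b₄ * (x₁ * x₂) - W.b₆ * (x₁ + x₂) - W.b₈ := by
      unfold Dn; field_simp; ring
    have hN : Nm W x₁⁻¹ x₂⁻¹ * (x₁ * x₂) ^ 2 =
        2 * (x₁ + x₂) * (x₁ * x₂) + W.b₂ * (x₁ * x₂) + W.b₄ * (x₁ + x₂) + W.b₆ := by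
      unfold Nm; field_simp; ring
    have hne : (x₁ * x₂) ^ 2 * (xp * xm * (x₁ - x₂) ^ 2) ≠ 0 :=
      mul_ne_zero (pow_ne_zero 2 (mul_ne_zero hx₁0 hx₂0))
        (mul_ne_zero (mul_ne_zero hxp0 hxm0) (pow_ne_zero 2 hδ0))
    apply mul_right_cancel₀ hne
    have e1 : Dn W x₁⁻¹ x₂⁻¹ * (xp⁻¹ + xm⁻¹) * ((x₁ * x₂) ^ 2 * (xp * xm * (x₁ - x₂) ^ 2)) =
        (Dn W x₁⁻¹ x₂⁻¹ * (x₁ * x₂) ^ 2) * ((xp + xm) * (x₁ - x₂) ^ 2) := by
      field_simp; ring
    have e2 : Nm W x₁⁻¹ x₂⁻¹ * ((x₁ * x₂) ^ 2 * (xp * xm * (x₁ - x₂) ^ 2)) =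
        (Nm W x₁⁻¹ x₂⁻¹ * (x₁ * x₂) ^ 2) * (xp * xm * (x₁ - x₂) ^ 2) := by ring
    rw [e1, e2, hD, hN, hI1, hI2]
    ring

/-- Doubling case of the pair lemma. -/
lemma pairStmt_self (h₂ : v W.b₂ ≤ 1) (h₄ : v W.b₄ ≤ 1) (h₆ : v W.b₆ ≤ 1) (h₈ : v W.b₈ ≤ 1)
    {x y : K} (hP : W.toAffine.Nonsingular x y) (hx : 1 < v x) :
    PairStmt v W (Affine.Point.some x y hP) (Affine.Point.some x y hP) := by
  have hx0 : x ≠ 0 := by rintro rfl; simp at hx
  have hv0 : 0 < v x := lt_trans zero_lt_one hx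
  have hη := XId.twoY_sq W hP.1
  have hD : Dn W x⁻¹ x⁻¹ * x ^ 4 = x ^ 4 - W.b₄ * x ^ 2 - 2 * W.b₆ * x - W.b₈ := by
    unfold Dn; field_simp; ring
  have hN : Nm W x⁻¹ x⁻¹ * x ^ 4 = 4 * x ^ 3 + W.b₂ * x ^ 2 + 2 * W.b₄ * x + W.b₆ := by
    unfold Nm; field_simp; ring
  have hx4 : x ^ 4 ≠ 0 := pow_ne_zero 4 hx0
  by_cases hy : y = W.toAffine.negY x y
  · -- `2P = 0`
    have h2P : Affine.Point.some x y hP + Affine.Point.some x y hP = 0 :=
      Affine.Point.add_of_Y_eq rfl hy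
    have hη0 : 2 * y + W.a₁ * x + W.a₃ = 0 := by
      have : y - W.toAffine.negY x y = 0 := sub_eq_zero.mpr hy
      rw [Affine.negY] at this
      linear_combination this
    refine ⟨by rw [h2P]; trivial, by rw [sub_self]; trivial, ?_⟩
    rw [h2P, sub_self]
    simp only [zeta_zero, zeta_some, add_zero, mul_zero]
    apply mul_right_cancel₀ hx4
    rw [hN, zero_mul, ← hη, hη0]; ring
  · obtain ⟨xd, yd, hd, h2P, hI3⟩ := XId.exists_double W hP hy
    have hη0 : 2 * y + W.a₁ * x + W.a₃ ≠ 0 := by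
      intro h0
      apply hy
      have : y - W.toAffine.negY x y = 0 := by
        rw [Affine.negY]; linear_combination h0
      exact sub_eq_zero.mp this
    -- valuations
    have hx2 : v (x ^ 2) < v (x ^ 4) := by
      rw [v.map_pow, v.map_pow]
      exact pow_lt_pow_right₀ hx (by norm_num)
    have hx1 : v x < v (x ^ 4) := by
      rw [v.map_pow]
      calc v x = v x ^ 1 := (pow_one _).symm
        _ < v x ^ 4 := pow_lt_pow_right₀ hx (by norm_num)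
    have h14 : 1 < v (x ^ 4) := lt_trans hx hx1
    have hPhi : v (x ^ 4 - W.b₄ * x ^ 2 - 2 * W.b₆ * x - W.b₈) = v (x ^ 4) := by
      have e : x ^ 4 - W.b₄ * x ^ 2 - 2 * W.b₆ * x - W.b₈ =
          x ^ 4 + (-(W.b₄ * x ^ 2) - 2 * W.b₆ * x - W.b₈) := by ring
      rw [e]
      apply v.map_add_eq_of_lt_left
      refine v.map_sub_lt (v.map_sub_lt ?_ ?_) ?_
      · rw [v.map_neg, v.map_mul]
        exact lt_of_le_of_lt (mul_le_of_le_one_left' h₄) hx2
      · rw [v.map_mul, v.map_mul]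
        exact lt_of_le_of_lt (mul_le_of_le_one_left'
          (mul_le_one' v_two_le_one h₆)) hx1
      · exact lt_of_le_of_lt h₈ h14
    have hx3 : (1 : Γ₀) ≤ v x ^ 3 := one_le_pow₀ hx.le
    have hpsi : v (4 * x ^ 3 + W.b₂ * x ^ 2 + 2 * W.b₄ * x + W.b₆) ≤ v x ^ 3 := by
      have h4 : v (4 : K) ≤ 1 := by
        have : (4 : K) = ((4 : ℕ) : K) := by norm_num
        rw [this]; exact v_natCast_le_one 4
      refine v.map_add_le (v.map_add_le (v.map_add_le ?_ ?_) ?_) ?_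
      · rw [v.map_mul, v.map_pow]
        exact mul_le_of_le_one_left' h4
      · rw [v.map_mul, v.map_pow]
        refine le_trans (mul_le_of_le_one_left' h₂) ?_
        exact pow_le_pow_right₀ hx.le (by norm_num)
      · rw [v.map_mul, v.map_mul]
        refine le_trans (mul_le_of_le_one_left' (mul_le_one' v_two_le_one h₄)) ?_
        calc v x = v x ^ 1 := (pow_one _).symm
          _ ≤ v x ^ 3 := pow_le_pow_right₀ hx.le (by norm_num)
      · exact le_trans h₆ hx3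
    have hxd : 1 < v xd := by
      by_contra hcon
      rw [not_lt] at hcon
      have h1 : v (xd * (2 * y + W.a₁ * x + W.a₃) ^ 2) ≤ v x ^ 3 := by
        rw [v.map_mul, hη]
        exact le_trans (mul_le_of_le_one_left' hcon) hpsi
      rw [hI3, hPhi, v.map_pow] at h1
      exact absurd h1 (not_le.mpr (pow_lt_pow_right₀ hx (by norm_num)))
    have hxd0 : xd ≠ 0 := by rintro rfl; simp at hxd
    refine ⟨by rw [h2P]; exact hxd, by rw [sub_self]; trivial, ?_⟩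
    rw [h2P, sub_self]
    simp only [zeta_zero, zeta_some, add_zero]
    have hne : x ^ 4 * xd ≠ 0 := mul_ne_zero hx4 hxd0
    apply mul_right_cancel₀ hne
    have e1 : Dn W x⁻¹ x⁻¹ * xd⁻¹ * (x ^ 4 * xd) = Dn W x⁻¹ x⁻¹ * x ^ 4 := by
      field_simp
    have e2 : Nm W x⁻¹ x⁻¹ * (x ^ 4 * xd) = (Nm W x⁻¹ x⁻¹ * x ^ 4) * xd := by ring
    rw [e1, e2, hD, hN, ← hI3, hη]
    ring

/-- **Pair lemma** for the kernel of reduction. -/
theorem pairStmt (h₂ : v W.b₂ ≤ 1) (h₄ : v W.b₄ ≤ 1) (h₆ : v W.b₆ ≤ 1) (h₈ : v W.b₈ ≤ 1)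
    {P Q : W.toAffine.Point} (hP : InKer v W P) (hQ : InKer v W Q) : PairStmt v W P Q := by
  rcases P with _ | ⟨x₁, y₁, h₁⟩
  · -- P = 0
    have e0 : (Affine.Point.zero : W.toAffine.Point) = 0 := rfl
    rw [e0]
    refine ⟨by rw [zero_add]; exact hQ, by rw [zero_sub]; exact (inKer_neg v W Q).mpr hQ, ?_⟩
    rw [zero_add, zero_sub, zeta_neg, zeta_zero, Dn_zero_left, Nm_zero_left]
    ring
  rcases Q with _ | ⟨x₂, y₂, hq⟩
  · have e0 : (Affine.Point.zero : W.toAffine.Point) = 0 := rfl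
    rw [e0]
    refine ⟨by rw [add_zero]; exact hP, by rw [sub_zero]; exact hP, ?_⟩
    rw [add_zero, sub_zero, zeta_zero, Dn_zero_right, Nm_zero_right]
    ring
  have hx₁ : 1 < v x₁ := hP
  have hx₂ : 1 < v x₂ := hQ
  by_cases hx : x₁ = x₂
  · subst hx
    rcases Affine.Y_eq_of_X_eq h₁.1 hq.1 rfl with hy | hy
    · subst hy
      exact pairStmt_self h₂ h₄ h₆ h₈ h₁ hx₁
    · apply pairStmt_of_neg
      have : -(Affine.Point.some x₁ y₂ hq) = Affine.Point.some x₁ y₁ h₁ := by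
        rw [Affine.Point.neg_some]
        congr 1
        exact hy.symm
      rw [this]
      exact pairStmt_self h₂ h₄ h₆ h₈ h₁ hx₁
  · exact pairStmt_of_X_ne h₂ h₄ h₆ h₈ h₁ hq hx₁ hx₂ hx

/-- The induction statement: `k • P` is in the kernel and `ζ (k P) ≡ k² ζ P` modulo `(ζ P)²`. -/
def IndStmt (P : W.toAffine.Point) (k : ℕ) : Prop :=
  InKer v W (k • P) ∧ v (zeta W (k • P) - (k : K) ^ 2 * zeta W P) ≤ v (zeta W P) ^ 2

lemma v_zeta_lt_one {P : W.toAffine.Point} (hP : InKer v W P) : v (zeta W P) < 1 := by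
  rcases P with _ | ⟨x, y, h⟩
  · simp [zeta]
  · have hx : 1 < v x := hP
    simp only [zeta_some, map_inv₀]
    exact inv_lt_one_of_one_lt₀ hx

lemma indStmt_step (h₂ : v W.b₂ ≤ 1) (h₄ : v W.b₄ ≤ 1) (h₆ : v W.b₆ ≤ 1) (h₈ : v W.b₈ ≤ 1)
    {P : W.toAffine.Point} (hP : InKer v W P) {k : ℕ}
    (hk : IndStmt (v := v) P k) (hk1 : IndStmt (v := v) P (k + 1)) :
    IndStmt (v := v) P (k + 2) := by
  obtain ⟨-, hk'⟩ := hk
  obtain ⟨hker1, hk1'⟩ := hk1
  set a := zeta W P with ha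
  set b := zeta W ((k + 1) • P) with hb
  set c := zeta W (k • P) with hc
  have hρ : v a < 1 := v_zeta_lt_one hP
  have hρ2 : v a ^ 2 ≤ v a := by
    rw [pow_two]; exact mul_le_of_le_one_left' hρ.le
  -- v b ≤ v a
  have hvb : v b ≤ v a := by
    have e : b = (b - ((k + 1 : ℕ) : K) ^ 2 * a) + ((k + 1 : ℕ) : K) ^ 2 * a := by ring
    rw [e]
    refine v.map_add_le (le_trans hk1' hρ2) ?_
    rw [v.map_mul, v.map_pow]
    exact mul_le_of_le_one_left' (pow_le_one₀ zero_le (v_natCast_le_one _))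
  have hvb1 : v b < 1 := lt_of_le_of_lt hvb hρ
  obtain ⟨hadd, -, hid⟩ := pairStmt h₂ h₄ h₆ h₈ hker1 hP
  have e1 : (k + 1) • P + P = (k + 2) • P := by
    rw [← succ_nsmul]
  have e2 : (k + 1) • P - P = k • P := by
    rw [succ_nsmul, add_sub_cancel_right]
  rw [e1, e2] at hid
  rw [e1] at hadd
  refine ⟨hadd, ?_⟩
  set d := zeta W ((k + 2) • P) with hd
  have hDn : v (Dn W b a) = 1 := v_Dn_eq_one h₄ h₆ h₈ hvb1 hρ.le
  have hDn0 : Dn W b a ≠ 0 := by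
    intro h0; rw [h0] at hDn; simp at hDn
  have hR : v (Rm W b a) ≤ 1 := v_Rm_le_one h₂ h₄ h₆ h₈ hvb1.le hρ.le
  -- main congruence: d + c - 2(b + a) = b a R / D
  have hmain : v (d + c - 2 * (b + a)) ≤ v a ^ 2 := by
    have e : (d + c - 2 * (b + a)) * Dn W b a = b * a * Rm W b a := by
      rw [← Nm_sub, ← hid]; ring
    have hv : v (d + c - 2 * (b + a)) = v (b * a * Rm W b a) := by
      rw [← e, v.map_mul, hDn, mul_one]
    rw [hv, v.map_mul, v.map_mul, pow_two]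
    calc v b * v a * v (Rm W b a) ≤ v b * v a * 1 := mul_le_mul' le_rfl hR
      _ = v b * v a := mul_one _
      _ ≤ v a * v a := mul_le_mul' hvb le_rfl
  have e : d - ((k + 2 : ℕ) : K) ^ 2 * a =
      (d + c - 2 * (b + a)) - (c - (k : K) ^ 2 * a) +
        2 * (b - ((k + 1 : ℕ) : K) ^ 2 * a) := by
    push_cast; ring
  rw [e]
  refine v.map_add_le (v.map_sub_le hmain hk') ?_
  rw [v.map_mul]
  exact le_trans (mul_le_of_le_one_left' v_two_le_one) hk1'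

theorem indStmt_all (h₂ : v W.b₂ ≤ 1) (h₄ : v W.b₄ ≤ 1) (h₆ : v W.b₆ ≤ 1) (h₈ : v W.b₈ ≤ 1)
    {P : W.toAffine.Point} (hP : InKer v W P) (k : ℕ) :
    IndStmt (v := v) P k ∧ IndStmt (v := v) P (k + 1) := by
  induction k with
  | zero =>
    refine ⟨⟨?_, ?_⟩, ⟨?_, ?_⟩⟩
    · rw [zero_smul]; trivial
    · rw [zero_smul]; simp
    · rw [zero_add, one_smul]; exact hP
    · rw [zero_add, one_smul]; simp
  | succ k ih =>
    exact ⟨ih.2, indStmt_step h₂ h₄ h₆ h₈ hP ih.1 ih.2⟩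

/-- **Kernel of reduction is torsion free** (for `n` a unit of the valuation). -/
theorem eq_zero_of_inKer_of_nsmul (h₂ : v W.b₂ ≤ 1) (h₄ : v W.b₄ ≤ 1) (h₆ : v W.b₆ ≤ 1)
    (h₈ : v W.b₈ ≤ 1) {n : ℕ} (hn : v (n : K) = 1) {P : W.toAffine.Point}
    (hP : InKer v W P) (hnP : n • P = 0) : P = 0 := by
  rcases P with _ | ⟨x, y, h⟩
  · rfl
  exfalso
  have hx : 1 < v x := hP
  have hx0 : x ≠ 0 := by rintro rfl; simp at hx
  obtain ⟨-, hk⟩ := (indStmt_all h₂ h₄ h₆ h₈ hP n).1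
  rw [hnP] at hk
  simp only [zeta_zero, zeta_some, zero_sub, v.map_neg, v.map_mul, v.map_pow, hn, one_pow,
    one_mul] at hk
  have hρ : v x⁻¹ < 1 := by
    rw [map_inv₀]; exact inv_lt_one_of_one_lt₀ hx
  have hρ0 : 0 < v x⁻¹ := by
    rw [zero_lt_iff]; exact (v.ne_zero_iff).mpr (inv_ne_zero hx0)
  have : v x⁻¹ ^ 2 < v x⁻¹ := by
    rw [pow_two]
    calc v x⁻¹ * v x⁻¹ < v x⁻¹ * 1 := mul_lt_mul_of_pos_left hρ hρ0
      _ = v x⁻¹ := mul_one _
  exact absurd hk (not_le.mpr this)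

end Points

section Subring

variable [DecidableEq K]

/-- Final form, matching `H86.KernelTorsionFree`: for a valuation subring `A`, a Weierstrass curve
with coefficients in `A` and `n` a unit of `A`, the kernel of reduction has no `n`-torsion. -/
theorem kernelTorsionFree (A : ValuationSubring K) (W : Affine K)
    (ha₁ : W.a₁ ∈ A) (ha₂ : W.a₂ ∈ A) (ha₃ : W.a₃ ∈ A) (ha₄ : W.a₄ ∈ A) (ha₆ : W.a₆ ∈ A)
    {n : ℕ} (hn : A.valuation (n : K) = 1) :
    ∀ P : W.Point,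
      (P = 0 ∨ ∃ (x y : K) (h : W.Nonsingular x y), P = Affine.Point.some x y h ∧ x ∉ A) →
        n • P = 0 → P = 0 := by
  intro P hP hnP
  have h2A : (2 : K) ∈ A := by
    have : (2 : K) = 1 + 1 := by norm_num
    rw [this]; exact A.add_mem _ _ A.one_mem A.one_mem
  have h4A : (4 : K) ∈ A := by
    have : (4 : K) = 2 * 2 := by norm_num
    rw [this]; exact A.mul_mem _ _ h2A h2A
  have hb₂ : A.valuation W.b₂ ≤ 1 := by
    rw [A.valuation_le_one_iff]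
    simp only [WeierstrassCurve.b₂]
    exact A.add_mem _ _ (pow_mem ha₁ 2) (A.mul_mem _ _ h4A ha₂)
  have hb₄ : A.valuation W.b₄ ≤ 1 := by
    rw [A.valuation_le_one_iff]
    simp only [WeierstrassCurve.b₄]
    exact A.add_mem _ _ (A.mul_mem _ _ h2A ha₄) (A.mul_mem _ _ ha₁ ha₃)
  have hb₆ : A.valuation W.b₆ ≤ 1 := by
    rw [A.valuation_le_one_iff]
    simp only [WeierstrassCurve.b₆]
    exact A.add_mem _ _ (pow_mem ha₃ 2) (A.mul_mem _ _ h4A ha₆)
  have hb₈ : A.valuation W.b₈ ≤ 1 := by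
    rw [A.valuation_le_one_iff]
    simp only [WeierstrassCurve.b₈]
    refine sub_mem (A.add_mem _ _ (sub_mem (A.add_mem _ _ ?_ ?_) ?_) ?_) (pow_mem ha₄ 2)
    · exact A.mul_mem _ _ (pow_mem ha₁ 2) ha₆
    · exact A.mul_mem _ _ (A.mul_mem _ _ h4A ha₂) ha₆
    · exact A.mul_mem _ _ (A.mul_mem _ _ ha₁ ha₃) ha₄
    · exact A.mul_mem _ _ ha₂ (pow_mem ha₃ 2)
  apply eq_zero_of_inKer_of_nsmul (v := A.valuation) (W := W) hb₂ hb₄ hb₆ hb₈ hn _ hnP
  rcases hP with rfl | ⟨x, y, h, rfl, hx⟩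
  · trivial
  · show 1 < A.valuation x
    by_contra hcon
    rw [not_lt, A.valuation_le_one_iff] at hcon
    exact hx hcon

end Subring

end Fermat.Agent.S05.H5
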