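import Mathlib.RingTheory.Valuation.Basic
import Mathlib.Tactic

/-!
# Abstract valuation computations for the chord–tangent law on the nodal model
`(y - r₁ x)(y - r₂ x) = x³ + w x`

Everything here is about a field with a valuation; no elliptic-curve API is used.
-/

set_option autoImplicit false

namespace Fermat.Agent.S05.H76

variable {K : Type*} [Field K] {Γ₀ : Type*} [LinearOrderedCommGroupWithZero Γ₀]

/-- Abstract data of the line `y = ℓ x + ν` through `P₁ = (x₁,y₁)`, `P₂ = (x₂,y₂)` on the nodal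
model, with `(x₃,y₃) = P₁ + P₂`. -/
structure Line3 (r₁ r₂ w x₁ y₁ x₂ y₂ x₃ y₃ ℓ ν : K) : Prop where
  l1 : y₁ = ℓ * x₁ + ν
  l2 : y₂ = ℓ * x₂ + ν
  l3 : y₃ = (r₁ + r₂ - ℓ) * x₃ - ν
  e1 : x₁ + x₂ + x₃ = (ℓ - r₁) * (ℓ - r₂)
  e2 : x₁ * x₂ + x₃ * (x₁ + x₂) = w - (2 * ℓ - r₁ - r₂) * ν
  e3 : x₁ * x₂ * x₃ = ν ^ 2

namespace Line3

variable {r₁ r₂ w x₁ y₁ x₂ y₂ x₃ y₃ ℓ ν : K}

theorem symm (L : Line3 r₁ r₂ w x₁ y₁ x₂ y₂ x₃ y₃ ℓ ν) :
    Line3 r₁ r₂ w x₂ y₂ x₁ y₁ x₃ y₃ ℓ ν :=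
  ⟨L.l2, L.l1, L.l3, by linear_combination L.e1, by linear_combination L.e2,
    by linear_combination L.e3⟩

theorem swap (L : Line3 r₁ r₂ w x₁ y₁ x₂ y₂ x₃ y₃ ℓ ν) :
    Line3 r₂ r₁ w x₁ y₁ x₂ y₂ x₃ y₃ ℓ ν :=
  ⟨L.l1, L.l2, by linear_combination L.l3, by linear_combination L.e1,
    by linear_combination L.e2, L.e3⟩

theorem idD (L : Line3 r₁ r₂ w x₁ y₁ x₂ y₂ x₃ y₃ ℓ ν) :
    ν * (x₂ * (y₁ - r₁ * x₁) + x₁ * (y₂ - r₂ * x₂)) = x₁ * x₂ * (w - x₁ * x₂) := by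
  linear_combination (x₁ * x₂) * L.e2 - (x₁ + x₂) * L.e3 + ν * x₂ * L.l1 + ν * x₁ * L.l2

theorem idS (L : Line3 r₁ r₂ w x₁ y₁ x₂ y₂ x₃ y₃ ℓ ν) :
    ν * x₁ * x₂ * (y₃ - r₁ * x₃) =
      x₃ * (ν * x₁ * (y₂ - r₁ * x₂) + ν ^ 2 * x₂ - w * x₁ * x₂) := by
  linear_combination (w - (2 * ℓ - r₁ - r₂) * ν) * L.e3 - ν ^ 2 * L.e2
    + ν * x₁ * x₂ * L.l3 - x₃ * ν * x₁ * L.l2

theorem idS' (L : Line3 r₁ r₂ w x₁ y₁ x₂ y₂ x₃ y₃ ℓ ν) :
    ν * x₁ * x₂ * (y₃ - r₂ * x₃) =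
      x₃ * (-(x₁ * x₂) ^ 2 - ν * x₂ * (y₁ - r₁ * x₁) + ν ^ 2 * x₂) := by
  have h1 := L.idS
  have h2 := L.idD
  linear_combination h1 + x₃ * h2

end Line3

section Cores

variable (v : Valuation K Γ₀) {r₁ r₂ w x₁ y₁ x₂ y₂ x₃ y₃ ℓ ν : K}

/-- On the `r₁`-branch the other linear form has the valuation of `x`. -/
theorem v_other_branch (hr : v (r₁ - r₂) = 1) {x y : K} (ht : v (y - r₁ * x) < v x) :
    v (y - r₂ * x) = v x := by
  have h : y - r₂ * x = (r₁ - r₂) * x + (y - r₁ * x) := by ring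
  rw [h, v.map_add_eq_of_lt_left (by rwa [map_mul, hr, one_mul]), map_mul, hr, one_mul]

/-- The two branches are mutually exclusive. -/
theorem not_both_branches (hr : v (r₁ - r₂) = 1) {x y : K} (ht : v (y - r₁ * x) < v x)
    (ht' : v (y - r₂ * x) < v x) : False := by
  rw [v_other_branch v hr ht] at ht'
  exact lt_irrefl _ ht'

/-- A point in the middle range lies on exactly one branch. -/
theorem branch_cases (hc : (y₁ - r₁ * x₁) * (y₁ - r₂ * x₁) = x₁ ^ 3 + w * x₁)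
    (h1 : v x₁ < 1) (hw1 : v w < v x₁) :
    v (y₁ - r₁ * x₁) < v x₁ ∨ v (y₁ - r₂ * x₁) < v x₁ := by
  have hx0 : v x₁ ≠ 0 := fun h => by rw [h] at hw1; exact not_lt_zero hw1
  by_contra hcon
  push Not at hcon
  obtain ⟨ha, hb⟩ := hcon
  have h2 : v x₁ * v x₁ ≤ v (x₁ ^ 3 + w * x₁) := by
    rw [← hc, map_mul]; exact mul_le_mul' ha hb
  have h3 : v (x₁ ^ 3 + w * x₁) < v x₁ * v x₁ := by
    apply v.map_add_lt
    · rw [map_pow, pow_succ, pow_two]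
      exact mul_lt_of_lt_one_right (zero_lt_iff.mpr (mul_ne_zero hx0 hx0)) h1
    · rw [map_mul]
      exact mul_lt_mul_of_pos_right hw1 (zero_lt_iff.mpr hx0)
  exact lt_irrefl _ (lt_of_le_of_lt h2 h3)

/-- If `c * t = x * R` with `v R < v c` and `x ≠ 0`, then `v t < v x`. -/
theorem lt_of_mul_eq {c t x R : K} (h : c * t = x * R) (hx : v x ≠ 0) (hR : v R < v c) :
    v t < v x := by
  have h' := congrArg v h
  rw [map_mul, map_mul] at h'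
  have h2 : v c * v t < v c * v x := by
    rw [h', mul_comm (v c)]
    exact mul_lt_mul_of_pos_left hR (zero_lt_iff.mpr hx)
  exact lt_of_mul_lt_mul_left' h2

/-- Core case `(+,+)`: both points on the `r₁`-branch. -/
theorem core_pp (L : Line3 r₁ r₂ w x₁ y₁ x₂ y₂ x₃ y₃ ℓ ν) (hr : v (r₁ - r₂) = 1)
    (h2 : v x₂ < 1) (hw1 : v w < v x₁) (hw2 : v w < v x₂)
    (ht1 : v (y₁ - r₁ * x₁) < v x₁) (ht2 : v (y₂ - r₁ * x₂) < v x₂) :
    (v w < v x₁ * v x₂ → v x₃ = v x₁ * v x₂ ∧ v (y₃ - r₁ * x₃) < v x₃) ∧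
    (v w = v x₁ * v x₂ → v x₃ ≤ v w) ∧
    (v x₁ * v x₂ < v w → v x₃ * (v x₁ * v x₂) = v w ^ 2 ∧ v (y₃ - r₂ * x₃) < v x₃) := by
  have hV1 : v x₁ ≠ 0 := fun h => by rw [h] at hw1; exact not_lt_zero hw1
  have hV2 : v x₂ ≠ 0 := fun h => by rw [h] at hw2; exact not_lt_zero hw2
  have hV12 : v x₁ * v x₂ ≠ 0 := mul_ne_zero hV1 hV2
  have hp1 : 0 < v x₁ := zero_lt_iff.mpr hV1
  have hp2 : 0 < v x₂ := zero_lt_iff.mpr hV2
  have hp12 : 0 < v x₁ * v x₂ := zero_lt_iff.mpr hV12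
  have hD : v (x₂ * (y₁ - r₁ * x₁) + x₁ * (y₂ - r₂ * x₂)) = v x₁ * v x₂ := by
    have hb : v (x₁ * (y₂ - r₂ * x₂)) = v x₁ * v x₂ := by
      rw [map_mul, v_other_branch v hr ht2]
    have ha : v (x₂ * (y₁ - r₁ * x₁)) < v (x₁ * (y₂ - r₂ * x₂)) := by
      rw [hb, map_mul, mul_comm (v x₁)]
      exact mul_lt_mul_of_pos_left ht1 hp2
    rw [v.map_add_eq_of_lt_right ha, hb]
  have hν : v ν * (v x₁ * v x₂) = v x₁ * v x₂ * v (w - x₁ * x₂) := by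
    have := congrArg v L.idD
    rwa [map_mul, hD, map_mul, map_mul] at this
  have he3 : v x₁ * v x₂ * v x₃ = v ν ^ 2 := by
    have := congrArg v L.e3
    rwa [map_mul, map_mul, map_pow] at this
  refine ⟨fun hC => ?_, fun hDD => ?_, fun hE => ?_⟩
  · -- regime C
    have hwx : v (w - x₁ * x₂) = v x₁ * v x₂ := by
      rw [v.map_sub_eq_of_lt_right (by rwa [map_mul]), map_mul]
    rw [hwx] at hν
    have hνv : v ν = v x₁ * v x₂ := mul_right_cancel₀ hV12 hν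
    rw [hνv, pow_two] at he3
    have hx3 : v x₃ = v x₁ * v x₂ := mul_left_cancel₀ hV12 he3
    refine ⟨hx3, ?_⟩
    refine lt_of_mul_eq v L.idS (by rw [hx3]; exact hV12) ?_
    have hc : v (ν * x₁ * x₂) = v x₁ * v x₂ * (v x₁ * v x₂) := by
      rw [map_mul, map_mul, hνv, mul_assoc]
    rw [hc]
    apply v.map_sub_lt
    · apply v.map_add_lt
      · rw [map_mul, map_mul, hνv, mul_assoc]
        exact mul_lt_mul_of_pos_left (mul_lt_mul_of_pos_left ht2 hp1) hp12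
      · rw [map_mul, map_pow, hνv, pow_two, mul_assoc]
        exact mul_lt_mul_of_pos_left (mul_lt_of_lt_one_right hp12 h2) hp12
    · rw [map_mul, map_mul, mul_assoc]
      exact mul_lt_mul_of_pos_right hC hp12
  · -- regime D
    have hwx : v (w - x₁ * x₂) ≤ v w := by
      apply v.map_sub_le le_rfl
      rw [map_mul, hDD]
    have hνv : v ν ≤ v w := by
      have h3 : v ν * (v x₁ * v x₂) ≤ v w * (v x₁ * v x₂) := by
        rw [hν, mul_comm (v w)]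
        exact mul_le_mul_right hwx _
      exact le_of_mul_le_mul_right h3 hp12
    have h4 : v x₁ * v x₂ * v x₃ ≤ v x₁ * v x₂ * v w := by
      rw [he3, ← hDD, pow_two]
      exact mul_le_mul' hνv hνv
    exact le_of_mul_le_mul_left h4 hp12
  · -- regime E
    have hwx : v (w - x₁ * x₂) = v w := by
      rw [v.map_sub_eq_of_lt_left (by rwa [map_mul])]
    rw [hwx] at hν
    have hνv : v ν = v w := by
      rw [mul_comm (v x₁ * v x₂)] at hν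
      exact mul_right_cancel₀ hV12 hν
    have hw0 : v w ≠ 0 := fun h => by rw [h] at hE; exact not_lt_zero hE
    have hpw : 0 < v w := zero_lt_iff.mpr hw0
    rw [hνv] at he3
    have hx3 : v x₃ * (v x₁ * v x₂) = v w ^ 2 := by rw [← he3, mul_comm]
    have hx30 : v x₃ ≠ 0 := by
      intro h
      rw [h, zero_mul] at hx3
      exact pow_ne_zero 2 hw0 hx3.symm
    refine ⟨hx3, ?_⟩
    refine lt_of_mul_eq v L.idS' hx30 ?_
    have hc : v (ν * x₁ * x₂) = v w * (v x₁ * v x₂) := by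
      rw [map_mul, map_mul, hνv, mul_assoc]
    rw [hc]
    apply v.map_add_lt
    · apply v.map_sub_lt
      · rw [Valuation.map_neg, map_pow, map_mul, pow_two]
        exact mul_lt_mul_of_pos_right hE hp12
      · rw [map_mul, map_mul, hνv, mul_assoc, mul_comm (v x₁)]
        exact mul_lt_mul_of_pos_left (mul_lt_mul_of_pos_left ht1 hp2) hpw
    · rw [map_mul, map_pow, hνv, pow_two, mul_assoc]
      exact mul_lt_mul_of_pos_left (mul_lt_mul_of_pos_right hw1 hp2) hpw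

/-- For a point with `1 ≤ v x` on the curve, the linear form `y - r₂ x` has
`v (y - r₂ x) ^ 2 = v x ^ 3`. -/
theorem v_form_of_Z (hr : v (r₁ - r₂) = 1) (hw : v w < 1)
    (hc : (y₁ - r₁ * x₁) * (y₁ - r₂ * x₁) = x₁ ^ 3 + w * x₁) (h1 : 1 ≤ v x₁) :
    v (y₁ - r₂ * x₁) ^ 2 = v x₁ ^ 3 ∧ v (y₁ - r₁ * x₁) = v (y₁ - r₂ * x₁) := by
  have hp1 : 0 < v x₁ := lt_of_lt_of_le zero_lt_one h1
  have hV1 : v x₁ ≠ 0 := ne_of_gt hp1
  have hcube : v (x₁ ^ 3 + w * x₁) = v x₁ ^ 3 := by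
    have h3 : v (w * x₁) < v (x₁ ^ 3) := by
      rw [map_mul, map_pow]
      calc v w * v x₁ < 1 * v x₁ := mul_lt_mul_of_pos_right hw hp1
        _ = v x₁ := one_mul _
        _ ≤ v x₁ ^ 3 := le_self_pow₀ h1 (by norm_num)
    rw [v.map_add_eq_of_lt_left h3, map_pow]
  have hprod : v (y₁ - r₁ * x₁) * v (y₁ - r₂ * x₁) = v x₁ ^ 3 := by
    rw [← map_mul, hc, hcube]
  have hdiff : (y₁ - r₂ * x₁) - (y₁ - r₁ * x₁) = (r₁ - r₂) * x₁ := by ring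
  have hvd : v ((y₁ - r₂ * x₁) - (y₁ - r₁ * x₁)) = v x₁ := by
    rw [hdiff, map_mul, hr, one_mul]
  have hsq : v x₁ ^ 2 ≤ v x₁ ^ 3 := pow_le_pow_right₀ h1 (by norm_num)
  have heq : v (y₁ - r₁ * x₁) = v (y₁ - r₂ * x₁) := by
    rcases lt_trichotomy (v (y₁ - r₁ * x₁)) (v (y₁ - r₂ * x₁)) with h | h | h
    · exfalso
      rw [v.map_sub_eq_of_lt_left h] at hvd
      rw [hvd] at hprod h
      have : v (y₁ - r₁ * x₁) * v x₁ < v x₁ ^ 2 := by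
        rw [pow_two]; exact mul_lt_mul_of_pos_right h hp1
      rw [hprod] at this
      exact lt_irrefl _ (lt_of_le_of_lt hsq this)
    · exact h
    · exfalso
      rw [v.map_sub_eq_of_lt_right h] at hvd
      rw [hvd] at hprod h
      have : v x₁ * v (y₁ - r₂ * x₁) < v x₁ ^ 2 := by
        rw [pow_two]; exact mul_lt_mul_of_pos_left h hp1
      rw [hprod] at this
      exact lt_irrefl _ (lt_of_le_of_lt hsq this)
  refine ⟨?_, heq⟩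
  rw [heq] at hprod
  rw [pow_two, hprod]

/-- Core case `(Z,+)`: the first point has `1 ≤ v x₁`, the second is on the `r₁`-branch. -/
theorem core_Zp (L : Line3 r₁ r₂ w x₁ y₁ x₂ y₂ x₃ y₃ ℓ ν) (hr : v (r₁ - r₂) = 1)
    (hw : v w < 1) (hc : (y₁ - r₁ * x₁) * (y₁ - r₂ * x₁) = x₁ ^ 3 + w * x₁)
    (h1 : 1 ≤ v x₁) (h2 : v x₂ < 1) (hw2 : v w < v x₂)
    (ht2 : v (y₂ - r₁ * x₂) < v x₂) :
    v x₃ = v x₂ ∧ v (y₃ - r₁ * x₃) < v x₃ := by
  have hp1 : 0 < v x₁ := lt_of_lt_of_le zero_lt_one h1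
  have hV1 : v x₁ ≠ 0 := ne_of_gt hp1
  have hV2 : v x₂ ≠ 0 := fun h => by rw [h] at hw2; exact not_lt_zero hw2
  have hp2 : 0 < v x₂ := zero_lt_iff.mpr hV2
  have hV12 : v x₁ * v x₂ ≠ 0 := mul_ne_zero hV1 hV2
  have hp12 : 0 < v x₁ * v x₂ := zero_lt_iff.mpr hV12
  obtain ⟨hT2, -⟩ := v_form_of_Z v hr hw hc h1
  set T := v (y₁ - r₂ * x₁) with hT
  have hTge : v x₁ ≤ T := by
    have h3 : v x₁ ^ 2 ≤ T ^ 2 := by
      rw [hT2]; exact pow_le_pow_right₀ h1 (by norm_num)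
    exact (pow_le_pow_iff_left₀ zero_le zero_le (by norm_num)).mp h3
  have hpT : 0 < T := lt_of_lt_of_le hp1 hTge
  have hT0 : T ≠ 0 := ne_of_gt hpT
  -- valuation of the swapped `D̃`
  have hD : v (x₂ * (y₁ - r₂ * x₁) + x₁ * (y₂ - r₁ * x₂)) = v x₂ * T := by
    have ha : v (x₂ * (y₁ - r₂ * x₁)) = v x₂ * T := by rw [map_mul]
    have hb : v (x₁ * (y₂ - r₁ * x₂)) < v (x₂ * (y₁ - r₂ * x₁)) := by
      rw [ha, map_mul]
      calc v x₁ * v (y₂ - r₁ * x₂) < v x₁ * v x₂ := mul_lt_mul_of_pos_left ht2 hp1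
        _ = v x₂ * v x₁ := mul_comm _ _
        _ ≤ v x₂ * T := mul_le_mul_right hTge _
    rw [v.map_add_eq_of_lt_left hb, ha]
  have hwx : v (w - x₁ * x₂) = v x₁ * v x₂ := by
    have h3 : v w < v (x₁ * x₂) := by
      rw [map_mul]
      calc v w < v x₂ := hw2
        _ = 1 * v x₂ := (one_mul _).symm
        _ ≤ v x₁ * v x₂ := mul_le_mul_left h1 _
    rw [v.map_sub_eq_of_lt_right h3, map_mul]
  have hν : v ν * (v x₂ * T) = v x₁ * v x₂ * (v x₁ * v x₂) := by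
    have := congrArg v L.swap.idD
    rwa [map_mul, hD, map_mul, map_mul, hwx] at this
  have he3 : v x₁ * v x₂ * v x₃ = v ν ^ 2 := by
    have := congrArg v L.e3
    rwa [map_mul, map_mul, map_pow] at this
  -- `v ν ^ 2 = v x₁ * v x₂ ^ 2`
  have hν2 : v ν ^ 2 = v x₁ * v x₂ ^ 2 := by
    have h5 : v ν ^ 2 * (v x₂ ^ 2 * v x₁ ^ 3) = v x₁ * v x₂ ^ 2 * (v x₂ ^ 2 * v x₁ ^ 3) := by
      have h6 : (v ν * (v x₂ * T)) ^ 2 = (v x₁ * v x₂ * (v x₁ * v x₂)) ^ 2 := by rw [hν]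
      rw [mul_pow, mul_pow, hT2] at h6
      rw [h6]
      simp only [pow_succ, pow_zero, one_mul]
      ac_rfl
    exact mul_right_cancel₀ (mul_ne_zero (pow_ne_zero 2 hV2) (pow_ne_zero 3 hV1)) h5
  have hx3 : v x₃ = v x₂ := by
    rw [hν2, pow_two, ← mul_assoc] at he3
    exact mul_left_cancel₀ hV12 he3
  have hν0 : v ν ≠ 0 := by
    intro h
    rw [h] at hν2
    exact (mul_ne_zero hV1 (pow_ne_zero 2 hV2)) (by rw [← hν2]; simp)
  have hpν : 0 < v ν := zero_lt_iff.mpr hν0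
  have hνlt : v ν < v x₁ := by
    have h3 : v ν ^ 2 < v x₁ ^ 2 := by
      rw [hν2]
      calc v x₁ * v x₂ ^ 2 < v x₁ * 1 :=
            mul_lt_mul_of_pos_left (pow_lt_one₀ zero_le h2 (by norm_num)) hp1
        _ = v x₁ := mul_one _
        _ ≤ v x₁ ^ 2 := le_self_pow₀ h1 (by norm_num)
    exact lt_of_pow_lt_pow_left₀ 2 zero_le h3
  have hwlt : v w < v ν := by
    have h3 : v w ^ 2 < v ν ^ 2 := by
      rw [hν2]
      calc v w ^ 2 < v x₂ ^ 2 := pow_lt_pow_left₀ hw2 zero_le (by norm_num)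
        _ = 1 * v x₂ ^ 2 := (one_mul _).symm
        _ ≤ v x₁ * v x₂ ^ 2 := mul_le_mul_left h1 _
    exact lt_of_pow_lt_pow_left₀ 2 zero_le h3
  refine ⟨hx3, ?_⟩
  refine lt_of_mul_eq v L.idS (by rw [hx3]; exact hV2) ?_
  have hc' : v (ν * x₁ * x₂) = v ν * (v x₁ * v x₂) := by
    rw [map_mul, map_mul, mul_assoc]
  rw [hc']
  apply v.map_sub_lt
  · apply v.map_add_lt
    · rw [map_mul, map_mul, mul_assoc]
      exact mul_lt_mul_of_pos_left (mul_lt_mul_of_pos_left ht2 hp1) hpν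
    · rw [map_mul, map_pow, pow_two, mul_assoc]
      exact mul_lt_mul_of_pos_left (mul_lt_mul_of_pos_right hνlt hp2) hpν
  · rw [map_mul, map_mul, mul_assoc]
    exact mul_lt_mul_of_pos_right hwlt hp12

/-- Core case `(Z,Z)`: the points with `1 ≤ v x` are closed under addition. -/
theorem core_ZZ (L : Line3 r₁ r₂ w x₁ y₁ x₂ y₂ x₃ y₃ ℓ ν) (hr₁ : v r₁ ≤ 1) (hr₂ : v r₂ ≤ 1)
    (hw : v w < 1) (h1 : 1 ≤ v x₁) (h2 : 1 ≤ v x₂) : 1 ≤ v x₃ := by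
  by_contra h3
  push Not at h3
  have hp1 : 0 < v x₁ := lt_of_lt_of_le zero_lt_one h1
  have hp2 : 0 < v x₂ := lt_of_lt_of_le zero_lt_one h2
  have hV12 : v x₁ * v x₂ ≠ 0 := mul_ne_zero (ne_of_gt hp1) (ne_of_gt hp2)
  have hp12 : 0 < v x₁ * v x₂ := zero_lt_iff.mpr hV12
  have h12 : 1 ≤ v x₁ * v x₂ := by
    calc (1 : Γ₀) = 1 * 1 := (one_mul _).symm
      _ ≤ v x₁ * v x₂ := mul_le_mul' h1 h2
  have hx1le : v x₁ ≤ v x₁ * v x₂ := by
    calc v x₁ = v x₁ * 1 := (mul_one _).symm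
      _ ≤ v x₁ * v x₂ := mul_le_mul' le_rfl h2
  have hx2le : v x₂ ≤ v x₁ * v x₂ := by
    calc v x₂ = 1 * v x₂ := (one_mul _).symm
      _ ≤ v x₁ * v x₂ := mul_le_mul' h1 le_rfl
  have hs : v (x₁ + x₂) ≤ v x₁ * v x₂ := v.map_add_le hx1le hx2le
  have hb : v (x₃ * (x₁ + x₂)) < v x₁ * v x₂ := by
    rw [map_mul]
    calc v x₃ * v (x₁ + x₂) ≤ v x₃ * (v x₁ * v x₂) := mul_le_mul' le_rfl hs
      _ < 1 * (v x₁ * v x₂) := mul_lt_mul_of_pos_right h3 hp12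
      _ = v x₁ * v x₂ := one_mul _
  have he2 : v (x₁ * x₂ + x₃ * (x₁ + x₂)) = v x₁ * v x₂ := by
    have hb' : v (x₃ * (x₁ + x₂)) < v (x₁ * x₂) := by rwa [map_mul v x₁ x₂]
    rw [v.map_add_eq_of_lt_left hb', map_mul]
  have hΛν : v ((2 * ℓ - r₁ - r₂) * ν) = v x₁ * v x₂ := by
    have h4 : (2 * ℓ - r₁ - r₂) * ν = w - (x₁ * x₂ + x₃ * (x₁ + x₂)) := by
      linear_combination L.e2
    rw [h4, v.map_sub_eq_of_lt_right (by rw [he2]; exact lt_of_lt_of_le hw h12), he2]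
  have he3 : v x₁ * v x₂ * v x₃ = v ν ^ 2 := by
    have := congrArg v L.e3
    rwa [map_mul, map_mul, map_pow] at this
  have h5 : v (2 * ℓ - r₁ - r₂) ^ 2 * v x₃ = v x₁ * v x₂ := by
    have h6 : v (2 * ℓ - r₁ - r₂) ^ 2 * (v x₁ * v x₂ * v x₃) =
        (v x₁ * v x₂) * (v x₁ * v x₂) := by
      rw [he3, ← mul_pow, ← map_mul, hΛν, pow_two]
    have h7 : (v x₁ * v x₂) * (v (2 * ℓ - r₁ - r₂) ^ 2 * v x₃) =
        (v x₁ * v x₂) * (v x₁ * v x₂) := by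
      rw [← h6]; ac_rfl
    exact mul_left_cancel₀ hV12 h7
  have hΛ0 : v (2 * ℓ - r₁ - r₂) ≠ 0 := by
    intro h
    rw [h, pow_two, zero_mul, zero_mul] at h5
    exact hV12 h5.symm
  have hΛ2 : v x₁ * v x₂ < v (2 * ℓ - r₁ - r₂) ^ 2 := by
    rw [← h5]
    exact mul_lt_of_lt_one_right (zero_lt_iff.mpr (pow_ne_zero 2 hΛ0)) h3
  have hΛ1 : 1 < v (2 * ℓ - r₁ - r₂) := by
    have h8 : (1 : Γ₀) ^ 2 < v (2 * ℓ - r₁ - r₂) ^ 2 := by
      rw [one_pow]; exact lt_of_le_of_lt h12 hΛ2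
    exact lt_of_pow_lt_pow_left₀ 2 zero_le h8
  have hv2 : v (2 : K) ≤ 1 := by
    have h8 : (2 : K) = 1 + 1 := by norm_num
    rw [h8]
    exact v.map_add_le (le_of_eq (map_one v)) (le_of_eq (map_one v))
  have h2ℓ : v (2 * ℓ) = v (2 * ℓ - r₁ - r₂) := by
    have h8 : 2 * ℓ = (2 * ℓ - r₁ - r₂) + (r₁ + r₂) := by ring
    have h9 : v (r₁ + r₂) < v (2 * ℓ - r₁ - r₂) :=
      lt_of_le_of_lt (v.map_add_le hr₁ hr₂) hΛ1
    rw [h8, v.map_add_eq_of_lt_left h9]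
    congr 1
    ring
  have hℓ : v (2 * ℓ - r₁ - r₂) ≤ v ℓ := by
    rw [← h2ℓ, map_mul]
    calc v 2 * v ℓ ≤ 1 * v ℓ := mul_le_mul' hv2 le_rfl
      _ = v ℓ := one_mul _
  have hℓ1 : 1 < v ℓ := lt_of_lt_of_le hΛ1 hℓ
  have hℓr : ∀ r : K, v r ≤ 1 → v (ℓ - r) = v ℓ := fun r hr =>
    v.map_sub_eq_of_lt_left (lt_of_le_of_lt hr hℓ1)
  have he1 : v ((ℓ - r₁) * (ℓ - r₂)) = v ℓ ^ 2 := by
    rw [map_mul, hℓr r₁ hr₁, hℓr r₂ hr₂, pow_two]
  have h10 : v (x₁ + x₂ + x₃) ≤ v x₁ * v x₂ :=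
    v.map_add_le hs (le_of_lt (lt_of_lt_of_le h3 h12))
  rw [L.e1, he1] at h10
  have h11 : v (2 * ℓ - r₁ - r₂) ^ 2 ≤ v ℓ ^ 2 := pow_le_pow_left₀ zero_le hℓ 2
  exact lt_irrefl _ (lt_of_lt_of_le hΛ2 (le_trans h11 h10))

end Cores

end Fermat.Agent.S05.H76
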