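import Fermat.Agent.S05.H86Good

/-!
# S05 helper (helper86): torsion points with nonsingular reduction are fixed by inertia

* `inertia_smul_eq_of_nonsingular_reduction` : general model with integral coefficients; a point
  killed by `n` with integral `x`-coordinate whose reduction is a nonsingular point of the
  reduced curve is fixed by inertia (given part (II) for `n`).
* `partials_not_both_nonunits_of_nodal` : on a nodal model `a₃ = a₆ = 0`, `a₄ ∈ m`, `2` a unit,
  every point whose `x`-coordinate is a unit reduces to a nonsingular point.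
* `inertia_smul_eq_of_nodal_unit` : hence torsion points of a nodal model with unit
  `x`-coordinate are fixed by inertia.
-/

set_option autoImplicit false

namespace Fermat.Agent.S05.H86

open WeierstrassCurve

section Partials

variable {K : Type*} [Field K] {A : ValuationSubring K}

/-- On the nodal model `y² + a₁xy = x³ + a₂x² + a₄x` with `a₄` a nonunit and `2` a unit of `A`,
every integral point whose `x`-coordinate is a unit reduces to a nonsingular point. -/
theorem partials_not_both_nonunits_of_nodal {W : WeierstrassCurve K} (ha₁ : W.a₁ ∈ A)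
    (ha₂ : W.a₂ ∈ A) (h₃ : W.a₃ = 0) (h₆ : W.a₆ = 0) (h₄ : W.a₄ ∈ A.nonunits)
    (h2 : (2 : K) ∉ A.nonunits) {x y : K} (h : W.toAffine.Equation x y) (hx : x ∈ A)
    (hxu : x ∉ A.nonunits) :
    W.a₁ * y - (3 * x ^ 2 + 2 * W.a₂ * x + W.a₄) ∉ A.nonunits ∨
      2 * y + W.a₁ * x + W.a₃ ∉ A.nonunits := by
  by_contra hcon
  push Not at hcon
  obtain ⟨hX, hY⟩ := hcon
  have h2A : (2 : K) ∈ A := two_mem A
  have hy : y ∈ A := y_mem_of_x_mem (W := W.toAffine) ha₁ ha₂ (h₃ ▸ zero_mem A)
    (A.nonunits_subset h₄) (h₆ ▸ zero_mem A) h hx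
  have e := (Affine.equation_iff x y).1 h
  rw [h₃, h₆] at e
  rw [h₃] at hY
  set FX : K := W.a₁ * y - (3 * x ^ 2 + 2 * W.a₂ * x + W.a₄) with hFX
  set FY : K := 2 * y + W.a₁ * x + 0 with hFY
  have hFYA : FY ∈ A := A.nonunits_subset hY
  have key : 2 * x ^ 3 =
      x * (W.a₁ * FY + (-2) * FX + (-2) * W.a₄) + (-(FY * FY) + 4 * x * W.a₄) := by
    simp only [hFX, hFY]
    linear_combination (4 : K) * e
  have hm : 2 * x ^ 3 ∈ A.nonunits := by
    rw [key]
    have h4A : (4 : K) ∈ A := by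
      have : (4 : K) = 2 * 2 := by norm_num
      rw [this]; exact mul_mem h2A h2A
    refine add_mem (mul_mem_nonunits_of_mem A hx (add_mem (add_mem ?_ ?_) ?_))
      (add_mem (neg_mem ?_) ?_)
    · exact mul_mem_nonunits_of_mem A ha₁ hY
    · exact mul_mem_nonunits_of_mem A (neg_mem h2A) hX
    · exact mul_mem_nonunits_of_mem A (neg_mem h2A) h₄
    · exact mul_mem_nonunits_of_mem A hFYA hY
    · exact mul_mem_nonunits_of_mem A (mul_mem h4A hx) h₄
  have hv2 := valuation_eq_one_of_mem_of_not_mem_nonunits A h2A h2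
  have hvx := valuation_eq_one_of_mem_of_not_mem_nonunits A hx hxu
  rw [ValuationSubring.mem_nonunits_iff, map_mul, map_pow, hv2, hvx] at hm
  simp at hm

end Partials

section Inertia

open scoped WeierstrassCurve.Affine

variable {R : Type*} {S : Type*} {K : Type*} [CommRing R] [Field S] [Field K]
  [DecidableEq K] [Algebra R S] [Algebra R K] [Algebra S K] [IsScalarTower R S K]

/-- A point killed by `n` with integral `x`-coordinate whose reduction is a nonsingular point of
the reduced curve is fixed by inertia, as soon as the kernel of reduction has no `n`-torsion. -/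
theorem inertia_smul_eq_of_nonsingular_reduction (W' : Affine R) (A : ValuationSubring K)
    (ha₁ : (W'⁄K).a₁ ∈ A) (ha₂ : (W'⁄K).a₂ ∈ A) (ha₃ : (W'⁄K).a₃ ∈ A) (ha₄ : (W'⁄K).a₄ ∈ A)
    (ha₆ : (W'⁄K).a₆ ∈ A) (n : ℕ)
    (hII : ∀ P : (W'⁄K).Point,
      (P = 0 ∨ ∃ (x y : K) (h : (W'⁄K).Nonsingular x y),
        P = Affine.Point.some x y h ∧ x ∉ A) → n • P = 0 → P = 0)
    {σ : K ≃ₐ[S] K} (hσ : σ ∈ A.inertiaSubgroupIn S) {x y : K} (h : (W'⁄K).Nonsingular x y)
    (hx : x ∈ A)
    (hns : (W'⁄K).a₁ * y - (3 * x ^ 2 + 2 * (W'⁄K).a₂ * x + (W'⁄K).a₄) ∉ A.nonunits ∨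
      2 * y + (W'⁄K).a₁ * x + (W'⁄K).a₃ ∉ A.nonunits)
    (hP : n • (Affine.Point.some x y h : (W'⁄K).Point) = 0) :
    σ • (Affine.Point.some x y h : (W'⁄K).Point) = Affine.Point.some x y h := by
  have hy : y ∈ A := y_mem_of_x_mem ha₁ ha₂ ha₃ ha₄ ha₆ h.1 hx
  obtain ⟨hσx, hσx'⟩ := inertia_apply_mem A hσ hx
  obtain ⟨hσy, hσy'⟩ := inertia_apply_mem A hσ hy
  have hsmul : σ • (Affine.Point.some x y h : (W'⁄K).Point) =
      Affine.Point.map (W' := W') σ.toAlgHom (Affine.Point.some x y h) := rfl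
  have hmap := Affine.Point.map_some (W' := W') (f := σ.toAlgHom) h
  have hnsσ : (W'⁄K).Nonsingular (σ x) (σ y) := by
    have := (Affine.baseChange_nonsingular (W := W') σ.toAlgHom.injective x y).2 h
    simpa using this
  have hsmul' : σ • (Affine.Point.some x y h : (W'⁄K).Point) =
      Affine.Point.some (σ x) (σ y) hnsσ := by
    rw [hsmul, hmap]; rfl
  have hxm : x - σ x ∈ A.nonunits := by
    have := neg_mem hσx'
    simpa using this
  have hym : y - σ y ∈ A.nonunits := by
    have := neg_mem hσy'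
    simpa using this
  have hIII := sub_inE1_of_same_reduction (A := A) (W := W'⁄K) ha₁ ha₂ ha₃ ha₄ h hnsσ
    hx hy hσx hσy hxm hym hns
  have hn0 : n • (Affine.Point.some x y h - Affine.Point.some (σ x) (σ y) hnsσ :
      (W'⁄K).Point) = 0 := by
    rw [smul_sub, hP, ← hsmul', ← smul_comm, hP, smul_zero, sub_zero]
  have := hII _ hIII hn0
  rw [hsmul']
  exact (sub_eq_zero.1 this).symm

/-- On a nodal model (`a₃ = a₆ = 0`, `a₄` a nonunit, `2` a unit), a point killed by `n` whose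
`x`-coordinate is a unit of `A` is fixed by inertia, as soon as the kernel of reduction has no
`n`-torsion. -/
theorem inertia_smul_eq_of_nodal_unit (W' : Affine R) (A : ValuationSubring K)
    (ha₁ : (W'⁄K).a₁ ∈ A) (ha₂ : (W'⁄K).a₂ ∈ A) (h₃ : (W'⁄K).a₃ = 0)
    (h₄ : (W'⁄K).a₄ ∈ A.nonunits) (h₆ : (W'⁄K).a₆ = 0) (h2 : (2 : K) ∉ A.nonunits) (n : ℕ)
    (hII : ∀ P : (W'⁄K).Point,
      (P = 0 ∨ ∃ (x y : K) (h : (W'⁄K).Nonsingular x y),
        P = Affine.Point.some x y h ∧ x ∉ A) → n • P = 0 → P = 0)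
    {σ : K ≃ₐ[S] K} (hσ : σ ∈ A.inertiaSubgroupIn S) {x y : K} (h : (W'⁄K).Nonsingular x y)
    (hx : x ∈ A) (hxu : x ∉ A.nonunits)
    (hP : n • (Affine.Point.some x y h : (W'⁄K).Point) = 0) :
    σ • (Affine.Point.some x y h : (W'⁄K).Point) = Affine.Point.some x y h :=
  inertia_smul_eq_of_nonsingular_reduction W' A ha₁ ha₂ (h₃ ▸ zero_mem A)
    (A.nonunits_subset h₄) (h₆ ▸ zero_mem A) n hII hσ h hx
    (partials_not_both_nonunits_of_nodal (W := W'.baseChange K) ha₁ ha₂ h₃ h₆ h₄ h2 h.1 hx hxu) hP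

end Inertia

end Fermat.Agent.S05.H86
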