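import Fermat.Agent.S05.H86GoodGlue
import Fermat.Agent.S05.H86Nodal

/-!
# S05 helper (helper86): nodal short model, torsion points with unit `x`-coordinate

Case (b) of the nodal assembly (M*): on a short nodal model at `A`, a point killed by `n` whose
`x`-coordinate is a unit of `A` is fixed by the inertia group at `A` (given part (II) for `n`).
-/

set_option autoImplicit false

namespace Fermat.Agent.S05.H86

open WeierstrassCurve

local notation "Qbar" => AlgebraicClosure ℚ

/-- The coefficient `a₄` of a short nodal model is a nonunit. -/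
theorem isShortNodal_a₄_mem_nonunits {K : Type*} [Field K] [Algebra ℚ K] {A : ValuationSubring K}
    {p : ℕ} (hp : p ≠ 0) {W : WeierstrassCurve ℚ} (hW : IsShortNodal A p W) :
    algebraMap ℚ K W.a₄ ∈ A.nonunits := by
  obtain ⟨π, u, h4, hπ, -, hu⟩ := hW.a₄
  rw [h4, map_mul, map_pow]
  exact mem_mul_nonunit A (hu.mem A) (nonunit_pow A hπ hp)

/-- **(M*), case (b).** On a short nodal model, a point killed by `n` whose `x`-coordinate is a
unit of `A` is fixed by inertia, as soon as the kernel of reduction has no `n`-torsion. -/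
theorem inertia_smul_eq_of_isShortNodal_unit {A : ValuationSubring Qbar} {W : WeierstrassCurve ℚ}
    {p : ℕ} (hp : p ≠ 0) (hW : IsShortNodal A p W) (h2 : IsUnitOf A (2 : Qbar)) {n : ℕ}
    (hII : KernelTorsionFree A (W.baseChange Qbar).toAffine n)
    {σ : Qbar ≃ₐ[ℚ] Qbar} (hσ : σ ∈ A.inertiaSubgroupIn ℚ) {x y : Qbar}
    (h : (W.baseChange Qbar).toAffine.Nonsingular x y) (hx : x ∈ A) (hxu : x ∉ A.nonunits)
    (hP : n • (Affine.Point.some x y h : (W.baseChange Qbar).toAffine.Point) = 0) :
    σ • (Affine.Point.some x y h : (W.baseChange Qbar).toAffine.Point) =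
      Affine.Point.some x y h := by
  have ha₁ : ((W.baseChange Qbar).toAffine).a₁ ∈ A := by
    change algebraMap ℚ Qbar W.a₁ ∈ A
    rw [hW.a₁, map_zero]; exact zero_mem A
  have ha₂ : ((W.baseChange Qbar).toAffine).a₂ ∈ A := hW.a₂_unit.mem A
  have h₃ : ((W.baseChange Qbar).toAffine).a₃ = 0 := by
    change algebraMap ℚ Qbar W.a₃ = 0
    rw [hW.a₃, map_zero]
  have h₆ : ((W.baseChange Qbar).toAffine).a₆ = 0 := by
    change algebraMap ℚ Qbar W.a₆ = 0
    rw [hW.a₆, map_zero]
  have h₄ : ((W.baseChange Qbar).toAffine).a₄ ∈ A.nonunits := isShortNodal_a₄_mem_nonunits hp hW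
  exact inertia_smul_eq_of_nodal_unit (R := ℚ) (S := ℚ) (K := Qbar) W A ha₁ ha₂ h₃ h₄ h₆
    (h2.not_nonunit A) n hII hσ h hx hxu hP

end Fermat.Agent.S05.H86
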