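import Fermat.Agent.S05.NodalFormulas
import Mathlib.RingTheory.Valuation.ValuationSubring

/-!
# S05 helper (helper97, for helper76's component map): `E₀` is closed under addition

On the nodal-form model `y² + a₁xy = x³ + a₂x² + a₄x` over a field `K` with a valuation
subring `A` (`a₁, a₂ ∈ A`, `a₄ ∈ 𝔪`): the points with `x ∉ 𝔪` are closed under addition.
-/

set_option linter.unusedSectionVars false

namespace Fermat.Agent.S05.H97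

open WeierstrassCurve WeierstrassCurve.Affine
open Fermat.Agent.S05.NF

variable {K : Type*} [Field K] [DecidableEq K]

/-- Vieta (e2) on the nodal-form model: `x₁x₂ + x₃(x₁+x₂) = a₄ - (2ℓ + a₁) ν`. -/
theorem vieta_e2 (W : WeierstrassCurve K) (h₃ : W.a₃ = 0) (h₆ : W.a₆ = 0) {x₁ x₂ y₁ y₂ : K}
    (h₁ : W.toAffine.Equation x₁ y₁) (h₂ : W.toAffine.Equation x₂ y₂)
    (hxy : ¬(x₁ = x₂ ∧ y₁ = W.toAffine.negY x₂ y₂)) :
    x₁ * x₂ + W.toAffine.addX x₁ x₂ (W.toAffine.slope x₁ x₂ y₁ y₂) * (x₁ + x₂) =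
      W.a₄ - (2 * W.toAffine.slope x₁ x₂ y₁ y₂ + W.a₁) * nu W x₁ x₂ y₁ y₂ := by
  by_cases hx : x₁ = x₂
  · subst hx
    have hy : y₁ = y₂ := eq_of_not_and W h₃ h₆ h₁ h₂ hxy
    subst hy
    have hy' : y₁ ≠ W.toAffine.negY x₁ y₁ := fun h => hxy ⟨rfl, h⟩
    have hℓ := slope_mul_of_Y_ne W h₃ hy'
    rw [nu, Affine.addX]
    linear_combination hℓ
  · have hne : x₁ - x₂ ≠ 0 := sub_ne_zero.mpr hx
    have hℓ := slope_mul_of_X_ne W (y₁ := y₁) (y₂ := y₂) hx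
    rw [equation_iff_nf W h₃ h₆] at h₁ h₂
    rw [nu, Affine.addX]
    apply mul_left_cancel₀ hne
    linear_combination (W.toAffine.slope x₁ x₂ y₁ y₂ * (x₂ - x₁) + y₁ + y₂ + W.a₁ * x₂) * hℓ
      + h₁ - h₂

/-- If `P₁ + P₂ = (x₃, y₃)` is an affine point, then `P₁ ≠ -P₂` and `x₃ = addX`, `y₃ = addY`. -/
theorem add_eq_some_iff (W : WeierstrassCurve K) {x₁ y₁ x₂ y₂ x₃ y₃ : K}
    {hP₁ : W.toAffine.Nonsingular x₁ y₁} {hP₂ : W.toAffine.Nonsingular x₂ y₂}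
    {hP₃ : W.toAffine.Nonsingular x₃ y₃}
    (hadd : Affine.Point.some x₁ y₁ hP₁ + Affine.Point.some x₂ y₂ hP₂ = Affine.Point.some x₃ y₃ hP₃) :
    ¬(x₁ = x₂ ∧ y₁ = W.toAffine.negY x₂ y₂) ∧
      x₃ = W.toAffine.addX x₁ x₂ (W.toAffine.slope x₁ x₂ y₁ y₂) ∧
      y₃ = W.toAffine.addY x₁ x₂ y₁ (W.toAffine.slope x₁ x₂ y₁ y₂) := by
  by_cases hxy : x₁ = x₂ ∧ y₁ = W.toAffine.negY x₂ y₂
  · rw [Affine.Point.add_of_Y_eq hxy.1 hxy.2] at hadd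
    exact absurd hadd.symm (Affine.Point.some_ne_zero hP₃)
  · rw [Affine.Point.add_some hxy] at hadd
    have := Affine.Point.some.inj hadd
    exact ⟨hxy, this.1.symm, this.2.symm⟩

/-- **E₀ is closed under addition** on the nodal-form model
`y² + a₁xy = x³ + a₂x² + a₄x`, `a₁, a₂ ∈ A`, `a₄ ∈ 𝔪`: if `x(P₁), x(P₂) ∉ 𝔪` and
`P₁ + P₂ = (x₃, y₃)` is affine, then `x₃ ∉ 𝔪`. -/
theorem core_ZZ (A : ValuationSubring K) (W : WeierstrassCurve K)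
    (h3 : W.a₃ = 0) (h6 : W.a₆ = 0) (h1 : W.a₁ ∈ A) (h2 : W.a₂ ∈ A) (h4 : W.a₄ ∈ A.nonunits)
    {x₁ y₁ x₂ y₂ x₃ y₃ : K} (hP₁ : W.toAffine.Nonsingular x₁ y₁)
    (hP₂ : W.toAffine.Nonsingular x₂ y₂) (hP₃ : W.toAffine.Nonsingular x₃ y₃)
    (hx₁ : x₁ ∉ A.nonunits) (hx₂ : x₂ ∉ A.nonunits)
    (hadd : WeierstrassCurve.Affine.Point.some x₁ y₁ hP₁ + .some x₂ y₂ hP₂ = .some x₃ y₃ hP₃) :
    x₃ ∉ A.nonunits := by
  obtain ⟨hxy, hx₃, -⟩ := add_eq_some_iff W hadd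
  set ℓ := W.toAffine.slope x₁ x₂ y₁ y₂ with hℓ
  set ν := nu W x₁ x₂ y₁ y₂ with hν
  have e1 : x₁ + x₂ + x₃ = ℓ ^ 2 + W.a₁ * ℓ - W.a₂ := by
    rw [hx₃, Affine.addX]; ring
  have e2 : x₁ * x₂ + x₃ * (x₁ + x₂) = W.a₄ - (2 * ℓ + W.a₁) * ν := by
    rw [hx₃]; exact vieta_e2 W h3 h6 hP₁.1 hP₂.1 hxy
  have e3 : x₃ * x₁ * x₂ = ν ^ 2 := by
    rw [hx₃]; exact addX_mul_eq_nu_sq W h3 h6 hP₁.1 hP₂.1 hxy
  intro hx₃m
  -- valuations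
  set v := A.valuation with hv
  have V1 : 1 ≤ v x₁ := not_lt.mp (fun h => hx₁ (A.mem_nonunits_iff.mpr h))
  have V2 : 1 ≤ v x₂ := not_lt.mp (fun h => hx₂ (A.mem_nonunits_iff.mpr h))
  have V3 : v x₃ < 1 := A.mem_nonunits_iff.mp hx₃m
  have Va1 : v W.a₁ ≤ 1 := (A.valuation_le_one_iff _).mpr h1
  have Va2 : v W.a₂ ≤ 1 := (A.valuation_le_one_iff _).mpr h2
  have Va4 : v W.a₄ < 1 := A.mem_nonunits_iff.mp h4
  have V2' : v (2 : K) ≤ 1 := (A.valuation_le_one_iff _).mpr (by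
    have : (2 : K) = ((2 : ℕ) : K) := by norm_num
    rw [this]; exact natCast_mem A 2)
  have V12 : 1 ≤ v x₁ * v x₂ := one_le_mul_of_one_le_of_one_le V1 V2
  have V12pos : 0 < v x₁ * v x₂ := lt_of_lt_of_le zero_lt_one V12
  have hV1le : v x₁ ≤ v x₁ * v x₂ := le_mul_of_one_le_right zero_le V2
  have hV2le : v x₂ ≤ v x₁ * v x₂ := le_mul_of_one_le_left zero_le V1
  -- (1) v(x₃(x₁+x₂)) < V₁V₂
  have h12 : v (x₁ + x₂) ≤ v x₁ * v x₂ := Valuation.map_add_le v hV1le hV2le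
  have s1 : v (x₃ * (x₁ + x₂)) < v x₁ * v x₂ := by
    rw [map_mul]
    calc v x₃ * v (x₁ + x₂) ≤ v x₃ * (v x₁ * v x₂) := by gcongr
      _ < 1 * (v x₁ * v x₂) := by
          exact mul_lt_mul_of_pos_right V3 V12pos
      _ = v x₁ * v x₂ := one_mul _
  -- (2) v((2ℓ+a₁)ν) = V₁V₂
  have s2 : v ((2 * ℓ + W.a₁) * ν) = v x₁ * v x₂ := by
    have : (2 * ℓ + W.a₁) * ν = W.a₄ - x₃ * (x₁ + x₂) - x₁ * x₂ := by
      linear_combination e2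
    rw [this]
    have hsmall : v (W.a₄ - x₃ * (x₁ + x₂)) < v (x₁ * x₂) := by
      rw [map_mul]
      exact Valuation.map_sub_lt v (lt_of_lt_of_le Va4 V12) s1
    rw [Valuation.map_sub_eq_of_lt_right v hsmall, map_mul]
  -- (3)
  have s3 : v ν ^ 2 = v x₃ * v x₁ * v x₂ := by
    rw [← map_pow, ← e3, map_mul, map_mul]
  have s4 : v (2 * ℓ + W.a₁) ^ 2 * v x₃ = v x₁ * v x₂ := by
    have h : (v (2 * ℓ + W.a₁) * v ν) ^ 2 = (v x₁ * v x₂) ^ 2 := by rw [← map_mul, s2]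
    rw [mul_pow, s3] at h
    have hne : v x₁ * v x₂ ≠ 0 := ne_of_gt V12pos
    apply mul_right_cancel₀ hne
    rw [mul_assoc (v (2 * ℓ + W.a₁) ^ 2) (v x₃) (v x₁ * v x₂), ← mul_assoc (v x₃) (v x₁) (v x₂),
      h, sq]
  have hL0 : v (2 * ℓ + W.a₁) ^ 2 ≠ 0 := by
    intro h0
    rw [h0, zero_mul] at s4
    exact (ne_of_gt V12pos) s4.symm
  have hLpos : 0 < v (2 * ℓ + W.a₁) ^ 2 := lt_of_le_of_ne zero_le (Ne.symm hL0)
  have s5 : v x₁ * v x₂ < v (2 * ℓ + W.a₁) ^ 2 := by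
    calc v x₁ * v x₂ = v (2 * ℓ + W.a₁) ^ 2 * v x₃ := s4.symm
      _ < v (2 * ℓ + W.a₁) ^ 2 * 1 := mul_lt_mul_of_pos_left V3 hLpos
      _ = v (2 * ℓ + W.a₁) ^ 2 := mul_one _
  have s6 : 1 < v (2 * ℓ + W.a₁) := by
    by_contra hcon
    push Not at hcon
    have : v (2 * ℓ + W.a₁) ^ 2 ≤ 1 := pow_le_one₀ zero_le hcon
    exact absurd (lt_of_lt_of_le s5 this) (not_lt.mpr V12)
  have s7 : v (2 * ℓ) = v (2 * ℓ + W.a₁) := by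
    have h := Valuation.map_sub_eq_of_lt_left v (lt_of_le_of_lt Va1 s6)
    rwa [add_sub_cancel_right] at h
  have s8 : v (2 * ℓ + W.a₁) ≤ v ℓ := by
    rw [← s7, map_mul]
    calc v 2 * v ℓ ≤ 1 * v ℓ := by gcongr
      _ = v ℓ := one_mul _
  have s9 : 1 < v ℓ := lt_of_lt_of_le s6 s8
  have s10 : v x₁ * v x₂ < v ℓ ^ 2 := lt_of_lt_of_le s5 (pow_le_pow_left₀ zero_le s8 2)
  have hℓlt : v ℓ < v ℓ ^ 2 := by
    have hpos : 0 < v ℓ := lt_trans zero_lt_one s9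
    calc v ℓ = v ℓ * 1 := (mul_one _).symm
      _ < v ℓ * v ℓ := mul_lt_mul_of_pos_left s9 hpos
      _ = v ℓ ^ 2 := (sq _).symm
  -- (4)
  have s11 : v (ℓ ^ 2 + W.a₁ * ℓ - W.a₂) = v ℓ ^ 2 := by
    have h1' : v (W.a₁ * ℓ) < v (ℓ ^ 2) := by
      rw [map_mul, map_pow]
      calc v W.a₁ * v ℓ ≤ 1 * v ℓ := by gcongr
        _ = v ℓ := one_mul _
        _ < v ℓ ^ 2 := hℓlt
    have h2' : v (ℓ ^ 2 + W.a₁ * ℓ) = v (ℓ ^ 2) := Valuation.map_add_eq_of_lt_left v h1'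
    have h3' : v W.a₂ < v (ℓ ^ 2 + W.a₁ * ℓ) := by
      rw [h2', map_pow]
      exact lt_of_le_of_lt Va2 (lt_trans s9 hℓlt)
    rw [Valuation.map_sub_eq_of_lt_left v h3', h2', map_pow]
  -- (5)
  have s12 : v (x₁ + x₂ + x₃) ≤ v x₁ * v x₂ :=
    Valuation.map_add_le v h12 (le_trans V3.le V12)
  rw [e1, s11] at s12
  exact absurd s12 (not_le.mpr s10)

end Fermat.Agent.S05.H97
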