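import Fermat.Agent.S05.NodalFormulas
import Mathlib.RingTheory.Valuation.ValuationSubring

/-!
# S05 helper (helper97): part (II) for the short model

For the short model `y² = x³ + a₂x² + a₄x` over a field `K` with a valuation subring `A`
(`a₂, a₄ ∈ A`), the kernel of reduction `E₁ = {O} ∪ {x ∉ A}` is closed under addition, the
parameter `z = x/y` is additive on `E₁` up to third order terms, and hence `E₁` has no nonzero
point killed by a unit `n` of `A`  (`kernelTorsionFree_short`).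
-/

set_option linter.unusedSectionVars false

namespace Fermat.Agent.S05.H97

open WeierstrassCurve WeierstrassCurve.Affine
open Fermat.Agent.S05.NF

variable {K : Type*} [Field K]

/-- Pure algebra in the variables `s = y/x`. -/
theorem alg_aux {x₁ x₂ s₁ s₂ u w ν : K}
    (hs₁ : s₁ ^ 2 * x₁ = x₁ ^ 2 + u * x₁ + w)
    (hx₁ : x₁ ≠ 0) (hx₂ : x₂ ≠ 0) (hs₁0 : s₁ ≠ 0) (hs₂0 : s₂ ≠ 0)
    (hS : s₁ + s₂ ≠ 0) (hw : x₁ * x₂ - w ≠ 0)
    (hν : ν * (s₁ + s₂) = w - x₁ * x₂) :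
    (-s₂ + ν / x₂ - x₁ * x₂ / ν) * (1 / s₁ + 1 / s₂) =
      1 + (u + w / x₁ + w / x₂ + w * (s₁ + s₂) ^ 2 / (x₁ * x₂ - w)) * (1 / s₁ * (1 / s₂)) := by
  have hw' : w - x₁ * x₂ ≠ 0 := by
    intro h; apply hw; linear_combination -h
  have hν0 : ν ≠ 0 := by
    intro h0
    rw [h0, zero_mul] at hν
    exact hw' hν.symm
  have hνe : ν = (w - x₁ * x₂) / (s₁ + s₂) := by
    field_simp; linear_combination hν
  rw [hνe]
  field_simp
  linear_combination (-(s₁ + s₂) * (x₁ * x₂ - w) ^ 2 * x₂) * hs₁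

section Val

variable (A : ValuationSubring K)

theorem one_lt_val_of_not_mem {x : K} (hx : x ∉ A) : 1 < A.valuation x :=
  not_le.mp (fun h => hx ((A.valuation_le_one_iff x).mp h))

/-- For a point of the short model with `x ∉ A`: `v(y/x)² = v(x)`. -/
theorem val_s_sq {x y u w : K} (h : y ^ 2 = x ^ 3 + u * x ^ 2 + w * x) (hu : u ∈ A) (hw : w ∈ A)
    (hx : 1 < A.valuation x) : A.valuation (y / x) ^ 2 = A.valuation x := by
  set v := A.valuation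
  have hx0 : x ≠ 0 := by
    intro h0; rw [h0, map_zero] at hx; exact absurd hx (not_lt.mpr zero_le)
  have Vu : v u ≤ 1 := (A.valuation_le_one_iff _).mpr hu
  have Vw : v w ≤ 1 := (A.valuation_le_one_iff _).mpr hw
  have e : (y / x) ^ 2 = x + (u + w / x) := by
    field_simp; linear_combination h
  have hwx : v (w / x) < 1 := by
    rw [map_div₀]
    exact (div_lt_one₀ (lt_trans zero_lt_one hx)).mpr (lt_of_le_of_lt Vw hx)
  have h2 : v (u + w / x) ≤ 1 := Valuation.map_add_le v Vu hwx.le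
  rw [← map_pow, e]
  exact Valuation.map_add_eq_of_lt_left v (lt_of_le_of_lt h2 hx)

theorem one_lt_of_sq {Γ : Type*} [LinearOrderedCommGroupWithZero Γ] {a : Γ} (h : 1 < a ^ 2) :
    1 < a := by
  by_contra hcon
  push Not at hcon
  exact absurd h (not_lt.mpr (pow_le_one₀ zero_le hcon))


variable [DecidableEq K]

/-- **Key estimate** on the short model `y² = x³ + a₂x² + a₄x` (`a₂, a₄ ∈ A`): if `x₁, x₂ ∉ A`
and `P₁ ≠ -P₂`, then `x₃ = x(P₁+P₂) ∉ A`, `y₃ ≠ 0`, and for `z = x/y`: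
`v(z₃ - z₁ - z₂) ≤ v(z₁ + z₂) · v(z₁) · v(z₂)`. -/
theorem key_add (W : WeierstrassCurve K) (h1 : W.a₁ = 0) (h3 : W.a₃ = 0) (h6 : W.a₆ = 0)
    (h2 : W.a₂ ∈ A) (h4 : W.a₄ ∈ A) {x₁ x₂ y₁ y₂ : K}
    (hE₁ : W.toAffine.Equation x₁ y₁) (hE₂ : W.toAffine.Equation x₂ y₂)
    (hx₁ : 1 < A.valuation x₁) (hx₂ : 1 < A.valuation x₂)
    (hxy : ¬(x₁ = x₂ ∧ y₁ = W.toAffine.negY x₂ y₂)) :
    1 < A.valuation (W.toAffine.addX x₁ x₂ (W.toAffine.slope x₁ x₂ y₁ y₂)) ∧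
    A.valuation (W.toAffine.addX x₁ x₂ (W.toAffine.slope x₁ x₂ y₁ y₂) /
        W.toAffine.addY x₁ x₂ y₁ (W.toAffine.slope x₁ x₂ y₁ y₂) - x₁ / y₁ - x₂ / y₂) ≤
      A.valuation (x₁ / y₁ + x₂ / y₂) * (A.valuation (x₁ / y₁) * A.valuation (x₂ / y₂)) := by
  set v := A.valuation with hv
  set X₃ := W.toAffine.addX x₁ x₂ (W.toAffine.slope x₁ x₂ y₁ y₂) with hX₃def
  set Y₃ := W.toAffine.addY x₁ x₂ y₁ (W.toAffine.slope x₁ x₂ y₁ y₂) with hY₃def
  set ℓ := W.toAffine.slope x₁ x₂ y₁ y₂ with hℓdef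
  set ν := nu W x₁ x₂ y₁ y₂ with hνdef
  have Vu : v W.a₂ ≤ 1 := (A.valuation_le_one_iff _).mpr h2
  have Vw : v W.a₄ ≤ 1 := (A.valuation_le_one_iff _).mpr h4
  -- the curve equations
  have eq₁ : y₁ ^ 2 = x₁ ^ 3 + W.a₂ * x₁ ^ 2 + W.a₄ * x₁ := by
    have := (equation_iff_nf W h3 h6 x₁ y₁).mp hE₁
    rw [h1] at this; linear_combination this
  have eq₂ : y₂ ^ 2 = x₂ ^ 3 + W.a₂ * x₂ ^ 2 + W.a₄ * x₂ := by
    have := (equation_iff_nf W h3 h6 x₂ y₂).mp hE₂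
    rw [h1] at this; linear_combination this
  have hx₁0 : x₁ ≠ 0 := by
    intro h0; rw [h0, map_zero] at hx₁; exact absurd hx₁ (not_lt.mpr zero_le)
  have hx₂0 : x₂ ≠ 0 := by
    intro h0; rw [h0, map_zero] at hx₂; exact absurd hx₂ (not_lt.mpr zero_le)
  -- s-coordinates
  have hσ₁ : v (y₁ / x₁) ^ 2 = v x₁ := val_s_sq A eq₁ h2 h4 hx₁
  have hσ₂ : v (y₂ / x₂) ^ 2 = v x₂ := val_s_sq A eq₂ h2 h4 hx₂
  have hσ₁' : 1 < v (y₁ / x₁) := one_lt_of_sq (by rw [hσ₁]; exact hx₁)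
  have hσ₂' : 1 < v (y₂ / x₂) := one_lt_of_sq (by rw [hσ₂]; exact hx₂)
  have hs₁0 : y₁ / x₁ ≠ 0 := by
    intro h0; rw [h0, map_zero] at hσ₁'; exact absurd hσ₁' (not_lt.mpr zero_le)
  have hs₂0 : y₂ / x₂ ≠ 0 := by
    intro h0; rw [h0, map_zero] at hσ₂'; exact absurd hσ₂' (not_lt.mpr zero_le)
  have hy₁0 : y₁ ≠ 0 := fun h0 => hs₁0 (by rw [h0, zero_div])
  have hy₂0 : y₂ ≠ 0 := fun h0 => hs₂0 (by rw [h0, zero_div])
  have hs₁ : (y₁ / x₁) ^ 2 * x₁ = x₁ ^ 2 + W.a₂ * x₁ + W.a₄ := by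
    field_simp; linear_combination eq₁
  -- x₁x₂ - w
  have V12 : 1 < v x₁ * v x₂ := one_lt_mul_of_lt_of_le' hx₁ hx₂.le
  have hV12 : v (x₁ * x₂ - W.a₄) = v x₁ * v x₂ := by
    rw [← map_mul]
    apply Valuation.map_sub_eq_of_lt_left
    rw [map_mul]; exact lt_of_le_of_lt Vw V12
  have hw0 : x₁ * x₂ - W.a₄ ≠ 0 := by
    intro h0; rw [h0, map_zero] at hV12
    exact absurd hV12.symm (ne_of_gt (lt_trans zero_lt_one V12))
  -- M and S
  have hM : emm W x₁ x₂ y₁ y₂ = x₁ * x₂ * (y₁ / x₁ + y₂ / x₂) := by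
    rw [emm, h1]; field_simp; ring
  have hS0 : y₁ / x₁ + y₂ / x₂ ≠ 0 := by
    intro hS
    have hM0 : emm W x₁ x₂ y₁ y₂ = 0 := by rw [hM, hS, mul_zero]
    have hF3 := F3 W h3 h6 hE₁ hE₂
    rw [hM0, mul_zero] at hF3
    have hxx : x₁ = x₂ := by
      have := hF3.symm
      rcases mul_eq_zero.mp this with h | h
      · rcases mul_eq_zero.mp h with h | h
        · exact absurd h (mul_ne_zero hx₁0 hx₂0)
        · exact sub_eq_zero.mp h
      · exact absurd h hw0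
    apply hxy
    refine ⟨hxx, ?_⟩
    rw [Affine.negY, h1, h3]
    subst hxx
    have : (y₁ + y₂) / x₁ = 0 := by rw [add_div]; exact hS
    have : y₁ + y₂ = 0 := by
      rcases div_eq_zero_iff.mp this with h | h
      · exact h
      · exact absurd h hx₁0
    linear_combination this
  -- chord relations
  have ha : X₃ * x₁ * x₂ = ν ^ 2 := addX_mul_eq_nu_sq W h3 h6 hE₁ hE₂ hxy
  have hb : ν * emm W x₁ x₂ y₁ y₂ = x₁ * x₂ * (W.a₄ - x₁ * x₂) := nu_mul_emm W h3 h6 hE₁ hE₂ hxy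
  have hc : Y₃ = -ℓ * X₃ - ν := by
    have := addY_eq W h3 x₁ x₂ y₁ y₂
    rw [h1, add_zero] at this
    exact this
  have hd : ℓ * x₂ = y₂ - ν := slope_mul_x₂ W h3 h6 hE₁ hE₂ hxy
  have hνS : ν * (y₁ / x₁ + y₂ / x₂) = W.a₄ - x₁ * x₂ := by
    apply mul_left_cancel₀ (mul_ne_zero hx₁0 hx₂0)
    rw [hM] at hb
    linear_combination hb
  have hw0' : W.a₄ - x₁ * x₂ ≠ 0 := by
    intro h; apply hw0; linear_combination -h
  have hν0 : ν ≠ 0 := by
    intro h0; rw [h0, zero_mul] at hνS; exact hw0' hνS.symm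
  have hX₃0 : X₃ ≠ 0 := by
    intro h0; rw [h0, zero_mul, zero_mul] at ha
    exact hν0 (pow_eq_zero_iff two_ne_zero |>.mp ha.symm)
  have hs₃ : Y₃ / X₃ = -(y₂ / x₂) + ν / x₂ - x₁ * x₂ / ν := by
    rw [div_eq_iff hX₃0]
    field_simp
    linear_combination (x₂ * ν) * hc - (X₃ * ν) * hd + x₂ * ha
  have key := alg_aux hs₁ hx₁0 hx₂0 hs₁0 hs₂0 hS0 hw0 hνS
  rw [← hs₃] at key
  have hz₁ : 1 / (y₁ / x₁) = x₁ / y₁ := by rw [one_div, inv_div]
  have hz₂ : 1 / (y₂ / x₂) = x₂ / y₂ := by rw [one_div, inv_div]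
  rw [hz₁, hz₂] at key
  -- valuations of S
  have hSle : v (y₁ / x₁ + y₂ / x₂) < v (y₁ / x₁) * v (y₂ / x₂) := by
    have h1' : v (y₁ / x₁) < v (y₁ / x₁) * v (y₂ / x₂) :=
      lt_mul_of_one_lt_right (lt_trans zero_lt_one hσ₁') hσ₂'
    have h2' : v (y₂ / x₂) < v (y₁ / x₁) * v (y₂ / x₂) :=
      lt_mul_of_one_lt_left (lt_trans zero_lt_one hσ₂') hσ₁'
    exact Valuation.map_add_lt v h1' h2'
  have hSsq : v (y₁ / x₁ + y₂ / x₂) ^ 2 < v x₁ * v x₂ := by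
    rw [← hσ₁, ← hσ₂, ← mul_pow]
    exact pow_lt_pow_left₀ hSle zero_le two_ne_zero
  -- (i) v(X₃) > 1
  have hνval : v ν * v (y₁ / x₁ + y₂ / x₂) = v x₁ * v x₂ := by
    rw [← map_mul, hνS, ← hV12, Valuation.map_sub_swap]
  have hXS : v X₃ * v (y₁ / x₁ + y₂ / x₂) ^ 2 = v x₁ * v x₂ := by
    have h := congrArg (fun t => t ^ 2) hνval
    simp only [mul_pow] at h
    rw [← map_pow v ν, ← ha, map_mul, map_mul] at h
    have hne : v x₁ * v x₂ ≠ 0 := ne_of_gt (lt_trans zero_lt_one V12)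
    apply mul_right_cancel₀ hne
    rw [← mul_pow] at h
    calc v X₃ * v (y₁ / x₁ + y₂ / x₂) ^ 2 * (v x₁ * v x₂)
        = v X₃ * v x₁ * v x₂ * v (y₁ / x₁ + y₂ / x₂) ^ 2 := by
          simp only [mul_assoc, mul_comm, mul_left_comm]
      _ = (v x₁ * v x₂) ^ 2 := h
      _ = v x₁ * v x₂ * (v x₁ * v x₂) := sq _
  have hX₃gt : 1 < v X₃ := by
    by_contra hcon
    push Not at hcon
    have : v X₃ * v (y₁ / x₁ + y₂ / x₂) ^ 2 ≤ 1 * v (y₁ / x₁ + y₂ / x₂) ^ 2 := by gcongr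
    rw [one_mul, hXS] at this
    exact absurd hSsq (not_lt.mpr this)
  refine ⟨hX₃gt, ?_⟩
  -- (ii) the estimate
  have Vz₁ : v (x₁ / y₁) < 1 := by
    rw [← hz₁, map_div₀, map_one]
    exact (div_lt_one₀ (lt_trans zero_lt_one hσ₁')).mpr hσ₁'
  have Vz₂ : v (x₂ / y₂) < 1 := by
    rw [← hz₂, map_div₀, map_one]
    exact (div_lt_one₀ (lt_trans zero_lt_one hσ₂')).mpr hσ₂'
  have VN : v (W.a₂ + W.a₄ / x₁ + W.a₄ / x₂ +
      W.a₄ * (y₁ / x₁ + y₂ / x₂) ^ 2 / (x₁ * x₂ - W.a₄)) ≤ 1 := by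
    have t1 : v (W.a₄ / x₁) ≤ 1 := by
      rw [map_div₀]
      exact (div_le_one₀ (lt_trans zero_lt_one hx₁)).mpr (le_trans Vw hx₁.le)
    have t2 : v (W.a₄ / x₂) ≤ 1 := by
      rw [map_div₀]
      exact (div_le_one₀ (lt_trans zero_lt_one hx₂)).mpr (le_trans Vw hx₂.le)
    have t3 : v (W.a₄ * (y₁ / x₁ + y₂ / x₂) ^ 2 / (x₁ * x₂ - W.a₄)) ≤ 1 := by
      rw [map_div₀, map_mul, map_pow, hV12]
      rw [div_le_one₀ (lt_trans zero_lt_one V12)]
      calc v W.a₄ * v (y₁ / x₁ + y₂ / x₂) ^ 2 ≤ 1 * v (y₁ / x₁ + y₂ / x₂) ^ 2 := by gcongr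
        _ = v (y₁ / x₁ + y₂ / x₂) ^ 2 := one_mul _
        _ ≤ v x₁ * v x₂ := hSsq.le
    exact Valuation.map_add_le v (Valuation.map_add_le v (Valuation.map_add_le v Vu t1) t2) t3
  set η := (W.a₂ + W.a₄ / x₁ + W.a₄ / x₂ +
      W.a₄ * (y₁ / x₁ + y₂ / x₂) ^ 2 / (x₁ * x₂ - W.a₄)) * (x₁ / y₁ * (x₂ / y₂)) with hη
  have Vη : v η ≤ v (x₁ / y₁) * v (x₂ / y₂) := by
    rw [hη, map_mul, map_mul]
    calc _ ≤ 1 * (v (x₁ / y₁) * v (x₂ / y₂)) := by gcongr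
      _ = _ := one_mul _
  have Vη1 : v η < 1 := lt_of_le_of_lt Vη (by
    calc v (x₁ / y₁) * v (x₂ / y₂) ≤ 1 * v (x₂ / y₂) := by gcongr
      _ = v (x₂ / y₂) := one_mul _
      _ < 1 := Vz₂)
  have V1η : v (1 + η) = 1 := Valuation.map_one_add_of_lt v Vη1
  have h1η0 : 1 + η ≠ 0 := by
    intro h0; rw [h0, map_zero] at V1η; exact zero_ne_one V1η
  have hYX0 : Y₃ / X₃ ≠ 0 := by
    intro h0; rw [h0, zero_mul] at key; exact h1η0 key.symm
  have hY₃0 : Y₃ ≠ 0 := fun h0 => hYX0 (by rw [h0, zero_div])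
  have hdiff : X₃ / Y₃ - x₁ / y₁ - x₂ / y₂ = -((x₁ / y₁ + x₂ / y₂) * η) / (1 + η) := by
    rw [eq_div_iff h1η0]
    have hXY : X₃ / Y₃ * (Y₃ / X₃) = 1 := by field_simp
    linear_combination (x₁ / y₁ + x₂ / y₂) * hXY - (X₃ / Y₃) * key
  rw [hdiff, map_div₀, V1η, div_one, Valuation.map_neg, map_mul]
  gcongr


/-- For a point of the short model with `x ∉ A`: `0 < v(x/y) < 1`. -/
theorem val_z (W : WeierstrassCurve K) (h1 : W.a₁ = 0) (h3 : W.a₃ = 0) (h6 : W.a₆ = 0)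
    (h2 : W.a₂ ∈ A) (h4 : W.a₄ ∈ A) {x y : K} (hE : W.toAffine.Equation x y)
    (hx : 1 < A.valuation x) : 0 < A.valuation (x / y) ∧ A.valuation (x / y) < 1 := by
  set v := A.valuation
  have eq₁ : y ^ 2 = x ^ 3 + W.a₂ * x ^ 2 + W.a₄ * x := by
    have := (equation_iff_nf W h3 h6 x y).mp hE
    rw [h1] at this; linear_combination this
  have hσ : v (y / x) ^ 2 = v x := val_s_sq A eq₁ h2 h4 hx
  have hσ' : 1 < v (y / x) := one_lt_of_sq (by rw [hσ]; exact hx)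
  have hz : x / y = 1 / (y / x) := by rw [one_div, inv_div]
  rw [hz, map_div₀, map_one]
  have hpos : 0 < v (y / x) := lt_trans zero_lt_one hσ'
  exact ⟨div_pos zero_lt_one hpos, (div_lt_one₀ hpos).mpr hσ'⟩

/-- the parameter `z = x/y` of a point (`0` at the origin). -/
def zOf (W : WeierstrassCurve K) : W.toAffine.Point → K
  | .zero => 0
  | .some x y _ => x / y

theorem zOf_zero (W : WeierstrassCurve K) : zOf W (0 : W.toAffine.Point) = 0 := rfl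

theorem zOf_some (W : WeierstrassCurve K) {x y : K} (h : W.toAffine.Nonsingular x y) :
    zOf W (Affine.Point.some x y h) = x / y := rfl

/-- the kernel of reduction `E₁ = {O} ∪ {x ∉ A}`. -/
def InE1 (W : WeierstrassCurve K) (P : W.toAffine.Point) : Prop :=
  P = 0 ∨ ∃ (x y : K) (h : W.toAffine.Nonsingular x y), P = Affine.Point.some x y h ∧ x ∉ A

/-- `E₁` is closed under addition and `z` is additive up to third order terms. -/
theorem add_E1 (W : WeierstrassCurve K) (h1 : W.a₁ = 0) (h3 : W.a₃ = 0) (h6 : W.a₆ = 0)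
    (h2 : W.a₂ ∈ A) (h4 : W.a₄ ∈ A) {P₁ P₂ : W.toAffine.Point}
    (hP₁ : InE1 A W P₁) (hP₂ : InE1 A W P₂) :
    InE1 A W (P₁ + P₂) ∧
      A.valuation (zOf W (P₁ + P₂) - zOf W P₁ - zOf W P₂) ≤
        A.valuation (zOf W P₁ + zOf W P₂) * (A.valuation (zOf W P₁) * A.valuation (zOf W P₂)) := by
  rcases hP₁ with rfl | ⟨x₁, y₁, hn₁, rfl, hx₁⟩
  · refine ⟨by rw [zero_add]; exact hP₂, ?_⟩
    rw [zero_add, zOf_zero, sub_zero, sub_self, map_zero]
    exact zero_le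
  rcases hP₂ with rfl | ⟨x₂, y₂, hn₂, rfl, hx₂⟩
  · refine ⟨by rw [add_zero]; exact Or.inr ⟨x₁, y₁, hn₁, rfl, hx₁⟩, ?_⟩
    rw [add_zero, zOf_zero, sub_zero, sub_self, map_zero]
    exact zero_le
  have hx₁' := one_lt_val_of_not_mem A hx₁
  have hx₂' := one_lt_val_of_not_mem A hx₂
  by_cases hxy : x₁ = x₂ ∧ y₁ = W.toAffine.negY x₂ y₂
  · rw [Affine.Point.add_of_Y_eq hxy.1 hxy.2]
    refine ⟨Or.inl rfl, ?_⟩
    have hy : y₁ = -y₂ := by
      have := hxy.2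
      rw [Affine.negY, h1, h3] at this
      linear_combination this
    have : zOf W (0 : W.toAffine.Point) - zOf W (Affine.Point.some x₁ y₁ hn₁) -
        zOf W (Affine.Point.some x₂ y₂ hn₂) = 0 := by
      rw [zOf_zero, zOf_some, zOf_some, hxy.1, hy, div_neg]
      ring
    rw [this, map_zero]
    exact zero_le
  · obtain ⟨hX, hest⟩ := key_add A W h1 h3 h6 h2 h4 hn₁.1 hn₂.1 hx₁' hx₂' hxy
    rw [Affine.Point.add_some hxy]
    refine ⟨Or.inr ⟨_, _, _, rfl, ?_⟩, ?_⟩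
    · intro hmem
      exact absurd ((A.valuation_le_one_iff _).mpr hmem) (not_le.mpr hX)
    · simpa only [zOf_some] using hest

/-- Induction: `z(kP) ≡ k z(P)` modulo third order terms, for `P ∈ E₁`. -/
theorem nsmul_E1 (W : WeierstrassCurve K) (h1 : W.a₁ = 0) (h3 : W.a₃ = 0) (h6 : W.a₆ = 0)
    (h2 : W.a₂ ∈ A) (h4 : W.a₄ ∈ A) {x y : K} (h : W.toAffine.Nonsingular x y) (hx : x ∉ A)
    (k : ℕ) :
    InE1 A W (k • Affine.Point.some x y h) ∧
      A.valuation (zOf W (k • Affine.Point.some x y h) - (k : K) * (x / y)) ≤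
        A.valuation (x / y) ^ 3 := by
  set v := A.valuation
  have hx' := one_lt_val_of_not_mem A hx
  obtain ⟨hr0, hr1⟩ := val_z A W h1 h3 h6 h2 h4 h.1 hx'
  set r := v (x / y) with hr
  have hr3 : r ^ 3 ≤ r := by
    calc r ^ 3 = r * r ^ 2 := by rw [pow_succ' r 2]
      _ ≤ r * 1 := by gcongr; exact pow_le_one₀ zero_le hr1.le
      _ = r := mul_one r
  induction k with
  | zero =>
    refine ⟨Or.inl (zero_nsmul _), ?_⟩
    rw [zero_nsmul, zOf_zero, Nat.cast_zero, zero_mul, sub_zero, map_zero]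
    exact zero_le
  | succ k ih =>
    obtain ⟨ihE, ihz⟩ := ih
    have hP : InE1 A W (Affine.Point.some x y h) := Or.inr ⟨x, y, h, rfl, hx⟩
    obtain ⟨hE, hz⟩ := add_E1 A W h1 h3 h6 h2 h4 ihE hP
    rw [succ_nsmul]
    refine ⟨hE, ?_⟩
    set Q := k • Affine.Point.some x y h with hQ
    have Vk : v (k : K) ≤ 1 := (A.valuation_le_one_iff _).mpr (natCast_mem A k)
    have Vkz : v ((k : K) * (x / y)) ≤ r := by
      rw [map_mul]
      calc v (k : K) * v (x / y) ≤ 1 * v (x / y) := by gcongr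
        _ = r := one_mul _
    have VQ : v (zOf W Q) ≤ r := by
      have : zOf W Q = (zOf W Q - (k : K) * (x / y)) + (k : K) * (x / y) := by ring
      rw [this]
      exact Valuation.map_add_le v (le_trans ihz hr3) Vkz
    rw [zOf_some] at hz
    have Vsum : v (zOf W Q + x / y) ≤ r := Valuation.map_add_le v VQ le_rfl
    have hz' : v (zOf W (Q + Affine.Point.some x y h) - zOf W Q - x / y) ≤ r ^ 3 := by
      refine le_trans hz ?_
      calc v (zOf W Q + x / y) * (v (zOf W Q) * v (x / y)) ≤ r * (r * r) := by gcongr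
        _ = r ^ 3 := by rw [pow_succ' r 2, sq]
    have : zOf W (Q + Affine.Point.some x y h) - ((k + 1 : ℕ) : K) * (x / y) =
        (zOf W (Q + Affine.Point.some x y h) - zOf W Q - x / y) +
          (zOf W Q - (k : K) * (x / y)) := by
      push_cast; ring
    rw [this]
    exact Valuation.map_add_le v hz' ihz

/-- **(II) for the short model**: the kernel of reduction of `y² = x³ + a₂x² + a₄x`
(`a₂, a₄ ∈ A`) has no nonzero point killed by `n`, if `n` is a unit of `A`. -/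
theorem kernelTorsionFree_short (W : WeierstrassCurve K) (h1 : W.a₁ = 0) (h3 : W.a₃ = 0)
    (h6 : W.a₆ = 0) (h2 : W.a₂ ∈ A) (h4 : W.a₄ ∈ A) (n : ℕ) (hn : A.valuation (n : K) = 1) :
    ∀ P : W.toAffine.Point,
      (P = 0 ∨ ∃ (x y : K) (h : W.toAffine.Nonsingular x y),
        P = Affine.Point.some x y h ∧ x ∉ A) → n • P = 0 → P = 0 := by
  intro P hP hnP
  rcases hP with rfl | ⟨x, y, h, rfl, hx⟩
  · rfl
  exfalso
  have hx' := one_lt_val_of_not_mem A hx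
  obtain ⟨hr0, hr1⟩ := val_z A W h1 h3 h6 h2 h4 h.1 hx'
  obtain ⟨-, hz⟩ := nsmul_E1 A W h1 h3 h6 h2 h4 h hx n
  rw [hnP, zOf_zero, zero_sub, Valuation.map_neg, map_mul, hn, one_mul] at hz
  have : A.valuation (x / y) ^ 3 < A.valuation (x / y) := by
    calc A.valuation (x / y) ^ 3 = A.valuation (x / y) * A.valuation (x / y) ^ 2 := by
          rw [pow_succ' _ 2]
      _ < A.valuation (x / y) * 1 := by
          apply mul_lt_mul_of_pos_left _ hr0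
          exact pow_lt_one₀ zero_le hr1 two_ne_zero
      _ = A.valuation (x / y) := mul_one _
  exact absurd hz (not_le.mpr this)

end Val

end Fermat.Agent.S05.H97

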