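import Mathlib.AlgebraicGeometry.EllipticCurve.Affine.Point
import Mathlib.Tactic

/-!
# S05 helper: explicit group law on the nodal-form model `y² + a₁xy = x³ + a₂x² + a₄x`

(helper97) Pure field identities on a Weierstrass curve with `a₃ = a₆ = 0` (arbitrary `a₁`),
stated for Mathlib's `slope` / `addX` / `addY`, hence for `Affine.Point` addition via
`Affine.Point.add_some`. With `ℓ = slope`, `ν = y₁ - ℓ x₁`, `M = x₂y₁ + x₁y₂ + a₁x₁x₂`: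

* `addX_mul_eq_nu_sq` : `x₃ x₁ x₂ = ν²`
* `nu_mul_emm`        : `ν M = x₁x₂ (a₄ - x₁x₂)`
* `addX_mul_emm_sq`   : `x₃ M² = (x₁x₂ - a₄)² x₁x₂`  (covers doubling)
* `F3`                : `(x₂y₁ - x₁y₂) M = x₁x₂ (x₁ - x₂) (x₁x₂ - a₄)`
* `addY_eq`           : `y₃ = -(ℓ + a₁) x₃ - ν`
* `slope_mul_x₂`      : `ℓ x₂ = y₂ - ν`
-/

set_option linter.unusedSectionVars false

namespace Fermat.Agent.S05.NF

open WeierstrassCurve WeierstrassCurve.Affine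

variable {K : Type*} [Field K] (W : WeierstrassCurve K)

/-- The Weierstrass equation of a nodal-form curve `y² + a₁xy = x³ + a₂x² + a₄x`. -/
theorem equation_iff_nf (h₃ : W.a₃ = 0) (h₆ : W.a₆ = 0) (x y : K) :
    W.toAffine.Equation x y ↔ y ^ 2 + W.a₁ * x * y = x ^ 3 + W.a₂ * x ^ 2 + W.a₄ * x := by
  rw [Affine.equation_iff, h₃, h₆]
  constructor <;> intro h <;> linear_combination h

theorem y_eq_zero_of_x_eq_zero (h₃ : W.a₃ = 0) (h₆ : W.a₆ = 0) {x y : K}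
    (h : W.toAffine.Equation x y) (hx : x = 0) : y = 0 := by
  rw [equation_iff_nf W h₃ h₆, hx] at h
  have : y ^ 2 = 0 := by linear_combination h
  exact pow_eq_zero_iff (two_ne_zero) |>.mp this

/-- Two points with the same `x` have `y₁ = y₂` or `y₁ = negY x₂ y₂`. -/
theorem y_eq_or_eq_negY (h₃ : W.a₃ = 0) (h₆ : W.a₆ = 0) {x y₁ y₂ : K}
    (h₁ : W.toAffine.Equation x y₁) (h₂ : W.toAffine.Equation x y₂) :
    y₁ = y₂ ∨ y₁ = W.toAffine.negY x y₂ := by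
  rw [equation_iff_nf W h₃ h₆] at h₁ h₂
  have : (y₁ - y₂) * (y₁ - W.toAffine.negY x y₂) = 0 := by
    rw [Affine.negY, h₃]; linear_combination h₁ - h₂
  rcases mul_eq_zero.mp this with h | h
  · exact Or.inl (sub_eq_zero.mp h)
  · exact Or.inr (sub_eq_zero.mp h)

/-- `M = x₂y₁ + x₁y₂ + a₁x₁x₂ = x₁x₂(s₁ + s₂ + a₁)`. -/
def emm (x₁ x₂ y₁ y₂ : K) : K := x₂ * y₁ + x₁ * y₂ + W.a₁ * x₁ * x₂

/-- (F3), polynomial form. -/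
theorem F3 (h₃ : W.a₃ = 0) (h₆ : W.a₆ = 0) {x₁ x₂ y₁ y₂ : K}
    (h₁ : W.toAffine.Equation x₁ y₁) (h₂ : W.toAffine.Equation x₂ y₂) :
    (x₂ * y₁ - x₁ * y₂) * emm W x₁ x₂ y₁ y₂ = x₁ * x₂ * (x₁ - x₂) * (x₁ * x₂ - W.a₄) := by
  rw [equation_iff_nf W h₃ h₆] at h₁ h₂
  unfold emm
  linear_combination x₂ ^ 2 * h₁ - x₁ ^ 2 * h₂

variable [DecidableEq K]

/-- the intercept `ν = y₁ - ℓ x₁` of the line through `P₁, P₂`. -/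
noncomputable def nu (x₁ x₂ y₁ y₂ : K) : K := y₁ - W.toAffine.slope x₁ x₂ y₁ y₂ * x₁

/-- slope equation, secant case. -/
theorem slope_mul_of_X_ne {x₁ x₂ y₁ y₂ : K} (hx : x₁ ≠ x₂) :
    W.toAffine.slope x₁ x₂ y₁ y₂ * (x₁ - x₂) = y₁ - y₂ := by
  have hne : x₁ - x₂ ≠ 0 := sub_ne_zero.mpr hx
  rw [Affine.slope_of_X_ne hx]
  field_simp

/-- slope equation, tangent case. -/
theorem slope_mul_of_Y_ne (h₃ : W.a₃ = 0) {x y : K} (hy : y ≠ W.toAffine.negY x y) :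
    W.toAffine.slope x x y y * (2 * y + W.a₁ * x) = 3 * x ^ 2 + 2 * W.a₂ * x + W.a₄ - W.a₁ * y := by
  have hd : y - W.toAffine.negY x y ≠ 0 := sub_ne_zero.mpr hy
  have hd' : y - W.toAffine.negY x y = 2 * y + W.a₁ * x := by
    rw [Affine.negY, h₃]; ring
  rw [Affine.slope_of_Y_ne rfl hy, hd']
  rw [hd'] at hd
  exact div_mul_cancel₀ _ hd

/-- (P3) for `x₁ ≠ x₂`: `ν (x₁ - x₂) = x₁y₂ - x₂y₁`. -/
theorem nu_mul_of_X_ne {x₁ x₂ y₁ y₂ : K} (hx : x₁ ≠ x₂) :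
    nu W x₁ x₂ y₁ y₂ * (x₁ - x₂) = x₁ * y₂ - x₂ * y₁ := by
  have h := slope_mul_of_X_ne W (y₁ := y₁) (y₂ := y₂) hx
  rw [nu]
  linear_combination (-x₁) * h

theorem eq_of_not_and (h₃ : W.a₃ = 0) (h₆ : W.a₆ = 0) {x y₁ y₂ : K}
    (h₁ : W.toAffine.Equation x y₁) (h₂ : W.toAffine.Equation x y₂)
    (hxy : ¬(x = x ∧ y₁ = W.toAffine.negY x y₂)) : y₁ = y₂ := by
  rcases y_eq_or_eq_negY W h₃ h₆ h₁ h₂ with h | h
  · exact h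
  · exact absurd ⟨rfl, h⟩ hxy

/-- (P5) the line passes through `P₂`. -/
theorem slope_mul_x₂ (h₃ : W.a₃ = 0) (h₆ : W.a₆ = 0) {x₁ x₂ y₁ y₂ : K}
    (h₁ : W.toAffine.Equation x₁ y₁) (h₂ : W.toAffine.Equation x₂ y₂)
    (hxy : ¬(x₁ = x₂ ∧ y₁ = W.toAffine.negY x₂ y₂)) :
    W.toAffine.slope x₁ x₂ y₁ y₂ * x₂ = y₂ - nu W x₁ x₂ y₁ y₂ := by
  by_cases hx : x₁ = x₂
  · subst hx
    have hy : y₁ = y₂ := eq_of_not_and W h₃ h₆ h₁ h₂ hxy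
    subst hy
    rw [nu]; ring
  · have h := slope_mul_of_X_ne W (y₁ := y₁) (y₂ := y₂) hx
    rw [nu]
    linear_combination (-1) * h

/-- (P4): `ν · M = x₁x₂(a₄ - x₁x₂)`. -/
theorem nu_mul_emm (h₃ : W.a₃ = 0) (h₆ : W.a₆ = 0) {x₁ x₂ y₁ y₂ : K}
    (h₁ : W.toAffine.Equation x₁ y₁) (h₂ : W.toAffine.Equation x₂ y₂)
    (hxy : ¬(x₁ = x₂ ∧ y₁ = W.toAffine.negY x₂ y₂)) :
    nu W x₁ x₂ y₁ y₂ * emm W x₁ x₂ y₁ y₂ = x₁ * x₂ * (W.a₄ - x₁ * x₂) := by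
  by_cases hx : x₁ = x₂
  · subst hx
    have hy : y₁ = y₂ := eq_of_not_and W h₃ h₆ h₁ h₂ hxy
    subst hy
    have hy' : y₁ ≠ W.toAffine.negY x₁ y₁ := fun h => hxy ⟨rfl, h⟩
    have hℓ := slope_mul_of_Y_ne W h₃ hy'
    rw [equation_iff_nf W h₃ h₆] at h₁
    rw [nu, emm]
    linear_combination (-x₁ ^ 2) * hℓ + 2 * x₁ * h₁
  · have hne : x₁ - x₂ ≠ 0 := sub_ne_zero.mpr hx
    have h := F3 W h₃ h₆ h₁ h₂
    have hν := nu_mul_of_X_ne W (y₁ := y₁) (y₂ := y₂) hx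
    apply mul_left_cancel₀ hne
    linear_combination (emm W x₁ x₂ y₁ y₂) * hν - h

/-- (P1) Vieta: `x₃ x₁ x₂ = ν²`. -/
theorem addX_mul_eq_nu_sq (h₃ : W.a₃ = 0) (h₆ : W.a₆ = 0) {x₁ x₂ y₁ y₂ : K}
    (h₁ : W.toAffine.Equation x₁ y₁) (h₂ : W.toAffine.Equation x₂ y₂)
    (hxy : ¬(x₁ = x₂ ∧ y₁ = W.toAffine.negY x₂ y₂)) :
    W.toAffine.addX x₁ x₂ (W.toAffine.slope x₁ x₂ y₁ y₂) * x₁ * x₂ = nu W x₁ x₂ y₁ y₂ ^ 2 := by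
  by_cases hx : x₁ = x₂
  · subst hx
    have hy : y₁ = y₂ := eq_of_not_and W h₃ h₆ h₁ h₂ hxy
    subst hy
    have hy' : y₁ ≠ W.toAffine.negY x₁ y₁ := fun h => hxy ⟨rfl, h⟩
    have hℓ := slope_mul_of_Y_ne W h₃ hy'
    rw [equation_iff_nf W h₃ h₆] at h₁
    rw [nu, Affine.addX]
    linear_combination x₁ * hℓ - h₁
  · have hne : x₁ - x₂ ≠ 0 := sub_ne_zero.mpr hx
    rw [equation_iff_nf W h₃ h₆] at h₁ h₂
    rw [nu, Affine.slope_of_X_ne hx, Affine.addX]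
    field_simp
    linear_combination (x₁ - x₂) * x₂ * h₁ - (x₁ - x₂) * x₁ * h₂

/-- (P2) the `y`-coordinate of the sum: `y₃ = -(ℓ + a₁) x₃ - ν`. -/
theorem addY_eq (h₃ : W.a₃ = 0) (x₁ x₂ y₁ y₂ : K) :
    W.toAffine.addY x₁ x₂ y₁ (W.toAffine.slope x₁ x₂ y₁ y₂) =
      -(W.toAffine.slope x₁ x₂ y₁ y₂ + W.a₁) *
        W.toAffine.addX x₁ x₂ (W.toAffine.slope x₁ x₂ y₁ y₂) - nu W x₁ x₂ y₁ y₂ := by
  rw [Affine.addY, Affine.negAddY, Affine.negY, h₃, nu]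
  ring

/-- (F1'), polynomial form (covers doubling):
`x₃ · M² = (x₁x₂ - a₄)² · x₁x₂`. -/
theorem addX_mul_emm_sq (h₃ : W.a₃ = 0) (h₆ : W.a₆ = 0) {x₁ x₂ y₁ y₂ : K}
    (h₁ : W.toAffine.Equation x₁ y₁) (h₂ : W.toAffine.Equation x₂ y₂)
    (hxy : ¬(x₁ = x₂ ∧ y₁ = W.toAffine.negY x₂ y₂)) :
    W.toAffine.addX x₁ x₂ (W.toAffine.slope x₁ x₂ y₁ y₂) * emm W x₁ x₂ y₁ y₂ ^ 2 =
      (x₁ * x₂ - W.a₄) ^ 2 * (x₁ * x₂) := by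
  have hV := addX_mul_eq_nu_sq W h₃ h₆ h₁ h₂ hxy
  have hM := nu_mul_emm W h₃ h₆ h₁ h₂ hxy
  by_cases hx₁ : x₁ = 0
  · have hy₁ := y_eq_zero_of_x_eq_zero W h₃ h₆ h₁ hx₁
    rw [emm, hx₁, hy₁]; ring
  by_cases hx₂ : x₂ = 0
  · have hy₂ := y_eq_zero_of_x_eq_zero W h₃ h₆ h₂ hx₂
    rw [emm, hx₂, hy₂]; ring
  have hxx : x₁ * x₂ ≠ 0 := mul_ne_zero hx₁ hx₂
  apply mul_left_cancel₀ hxx
  linear_combination (emm W x₁ x₂ y₁ y₂ ^ 2) * hV +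
    (nu W x₁ x₂ y₁ y₂ * emm W x₁ x₂ y₁ y₂ + x₁ * x₂ * (W.a₄ - x₁ * x₂)) * hM

end Fermat.Agent.S05.NF
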