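import Fermat.Agent.S05.NodeVal

/-!
# Duplication near a node (abstract form)

If `ξd * (ξ * (4 ξ² + b ξ + 4 w)) = (ξ² - w)²` then `kap ξd = refl (2 * kap ξ)`.
-/

set_option autoImplicit false

namespace Fermat.Agent.S05

open RealOrd

variable {K : Type*} [Field K]

/-- Base hypotheses on the constants `2`, `b`, `w`. -/
structure NodeBase (v : RealOrd K) (b w : K) : Prop where
  two_ne : (2 : K) ≠ 0
  ord_two : v.ord 2 = 0
  b_ne : b ≠ 0
  ord_b : v.ord b = 0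
  w_ne : w ≠ 0
  ord_w_pos : 0 < v.ord w

namespace NodeBase

variable {v : RealOrd K} {b w : K}

lemma nodeHyp (B : NodeBase v b w) {ξ₁ ξ₂ ξp ξm : K} (hne : ξ₁ ≠ ξ₂)
    (I1 : ξp * ξm * (ξ₁ - ξ₂) ^ 2 = (ξ₁ * ξ₂ - w) ^ 2)
    (I2 : (ξp + ξm) * (ξ₁ - ξ₂) ^ 2 = 2 * (ξ₁ + ξ₂) * (ξ₁ * ξ₂ + w) + b * (ξ₁ * ξ₂)) :
    NodeHyp v b w ξ₁ ξ₂ ξp ξm :=
  ⟨B.two_ne, B.ord_two, B.b_ne, B.ord_b, B.w_ne, B.ord_w_pos, hne, I1, I2⟩

lemma four_ne (B : NodeBase v b w) : (4 : K) ≠ 0 := by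
  have : (4 : K) = 2 * 2 := by norm_num
  rw [this]
  exact mul_ne_zero B.two_ne B.two_ne

lemma ord_four (B : NodeBase v b w) : v.ord (4 : K) = 0 := by
  have : (4 : K) = 2 * 2 := by norm_num
  rw [this, v.ord_mul B.two_ne B.two_ne, B.ord_two]
  ring

/-- `4 ξ² + b ξ + 4 w` has exact order `ord ξ` when `0 < ord ξ < ω`. -/
lemma quad_eq_of_mid (B : NodeBase v b w) {ξ : K} (h0 : ξ ≠ 0) (hk0 : 0 < v.ord ξ)
    (hk : v.ord ξ < v.ord w) :
    4 * ξ ^ 2 + b * ξ + 4 * w ≠ 0 ∧ v.ord (4 * ξ ^ 2 + b * ξ + 4 * w) = v.ord ξ := by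
  have hbξ : b * ξ ≠ 0 := mul_ne_zero B.b_ne h0
  have obξ : v.ord (b * ξ) = v.ord ξ := by rw [v.ord_mul B.b_ne h0, B.ord_b, zero_add]
  have h1 : v.gt (v.ord (b * ξ)) (4 * ξ ^ 2) := by
    intro _
    rw [v.ord_mul B.four_ne (pow_ne_zero 2 h0), B.ord_four, v.ord_sq h0, obξ]
    linarith
  have h2 : v.gt (v.ord (b * ξ)) (4 * w) := by
    intro _
    rw [v.ord_mul B.four_ne B.w_ne, B.ord_four, obξ]
    linarith
  have e1 := add_eq_of_gt' hbξ h1
  have h2' : v.gt (v.ord (4 * ξ ^ 2 + b * ξ)) (4 * w) := by rw [e1.2]; exact h2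
  have e2 := add_eq_of_gt e1.1 h2'
  rw [e1.2, obξ] at e2
  exact e2

/-- If `2P = 0`, i.e. `ξ (4 ξ² + b ξ + 4 w) = 0`, then `kap ξ ∈ {0, ω}`. -/
lemma dup_zero (B : NodeBase v b w) {ξ : K} (h : ξ * (4 * ξ ^ 2 + b * ξ + 4 * w) = 0) :
    refl (v.ord w) (2 * kap v (v.ord w) ξ) = 0 := by
  have hω := B.ord_w_pos
  rcases mul_eq_zero.mp h with h0 | hQ
  · rw [kap_of_ge v hω.le (by rw [h0]; exact ge_zero _), refl_eq_right (by linarith)]
    ring
  · by_cases h0 : ξ = 0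
    · rw [kap_of_ge v hω.le (by rw [h0]; exact ge_zero _), refl_eq_right (by linarith)]
      ring
    rcases le_or_gt (v.ord ξ) 0 with hk | hk
    · rw [kap_of_le_zero v hω.le h0 hk, refl_eq_left (by linarith)]
      ring
    · rcases lt_or_ge (v.ord ξ) (v.ord w) with hk' | hk'
      · exact absurd hQ (B.quad_eq_of_mid h0 hk hk').1
      · rw [kap_of_ge v hω.le (ge_of_ord hk'), refl_eq_right (by linarith)]
        ring

/-- Duplication: `kap ξ(2P) = refl (2 kap ξ(P))`. -/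
lemma dup_concl (B : NodeBase v b w) {ξ ξd : K} (hY : ξ * (4 * ξ ^ 2 + b * ξ + 4 * w) ≠ 0)
    (I3 : ξd * (ξ * (4 * ξ ^ 2 + b * ξ + 4 * w)) = (ξ ^ 2 - w) ^ 2) :
    kap v (v.ord w) ξd = refl (v.ord w) (2 * kap v (v.ord w) ξ) := by
  have hω := B.ord_w_pos
  have h0 : ξ ≠ 0 := left_ne_zero_of_mul hY
  have hQ : 4 * ξ ^ 2 + b * ξ + 4 * w ≠ 0 := right_ne_zero_of_mul hY
  have hξ2 : ξ ^ 2 ≠ 0 := pow_ne_zero 2 h0
  have oξ2 : v.ord (ξ ^ 2) = 2 * v.ord ξ := v.ord_sq h0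
  have oY : v.ord (ξ * (4 * ξ ^ 2 + b * ξ + 4 * w)) =
      v.ord ξ + v.ord (4 * ξ ^ 2 + b * ξ + 4 * w) := v.ord_mul h0 hQ
  -- order of ξd in terms of the order of A' = ξ² - w
  have key : ξ ^ 2 - w ≠ 0 → ξd ≠ 0 ∧
      v.ord ξd = 2 * v.ord (ξ ^ 2 - w) - (v.ord ξ + v.ord (4 * ξ ^ 2 + b * ξ + 4 * w)) := by
    intro hA
    have hd : ξd ≠ 0 := by
      rintro rfl
      rw [zero_mul] at I3
      exact pow_ne_zero 2 hA I3.symm
    refine ⟨hd, ?_⟩
    have := congrArg v.ord I3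
    rw [v.ord_mul hd hY, oY, v.ord_sq hA] at this
    linarith
  have g4ξ2 : v.ge (2 * v.ord ξ) (4 * ξ ^ 2) := by
    intro _
    rw [v.ord_mul B.four_ne hξ2, B.ord_four, oξ2]
    linarith
  have gbξ : v.ge (v.ord ξ) (b * ξ) := by
    intro _
    rw [v.ord_mul B.b_ne h0, B.ord_b]
    linarith
  have g4w : v.ge (v.ord w) (4 * w) := by
    intro _
    rw [v.ord_mul B.four_ne B.w_ne, B.ord_four]
    linarith
  rcases le_or_gt (v.ord ξ) 0 with hk | hk
  · -- ord ξ ≤ 0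
    have hwgt : v.gt (v.ord (ξ ^ 2)) w := gt_of_ord (by rw [oξ2]; linarith)
    have hA := sub_eq_of_gt hξ2 hwgt
    obtain ⟨hd, od⟩ := key hA.1
    have gQ : v.ge (2 * v.ord ξ) (4 * ξ ^ 2 + b * ξ + 4 * w) :=
      (g4ξ2.add (gbξ.mono (by linarith))).add (g4w.mono (by linarith))
    have := gQ hQ
    rw [kap_of_le_zero v hω.le hd (by rw [od, hA.2, oξ2]; linarith),
      kap_of_le_zero v hω.le h0 hk, refl_eq_left (by linarith)]
    ring
  · rcases lt_or_ge (v.ord ξ) (v.ord w) with hk' | hk'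
    · -- 0 < ord ξ < ω
      have oQ := (B.quad_eq_of_mid h0 hk hk').2
      rw [kap_of_mem v h0 hk.le hk'.le]
      rcases lt_trichotomy (2 * v.ord ξ) (v.ord w) with hlt | heq | hgt
      · have hwgt : v.gt (v.ord (ξ ^ 2)) w := gt_of_ord (by rw [oξ2]; exact hlt)
        have hA := sub_eq_of_gt hξ2 hwgt
        obtain ⟨hd, od⟩ := key hA.1
        rw [hA.2, oξ2, oQ] at od
        rw [kap_of_mem v hd (by rw [od]; linarith) (by rw [od]; linarith), od,
          refl_eq_left hlt.le]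
        ring
      · have hge : v.ge (v.ord w) ξd := by
          intro hd
          have hA : ξ ^ 2 - w ≠ 0 := by
            intro hA
            rw [hA, zero_pow two_ne_zero] at I3
            rcases mul_eq_zero.mp I3 with h | h
            · exact hd h
            · exact hY h
          have od := (key hA).2
          have gA : v.ge (v.ord w) (ξ ^ 2 - w) :=
            (ge_of_ord (by rw [oξ2, heq]) : v.ge (v.ord w) (ξ ^ 2)).sub (ge_of_ord le_rfl)
          have := gA hA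
          rw [od, oQ]
          linarith
        rw [kap_of_ge v hω.le hge, refl_eq_left heq.le, heq]
      · have hξ2gt : v.gt (v.ord w) (ξ ^ 2) := gt_of_ord (by rw [oξ2]; exact hgt)
        have hA := sub_eq_of_gt' B.w_ne hξ2gt
        obtain ⟨hd, od⟩ := key hA.1
        rw [hA.2, oQ] at od
        rw [kap_of_mem v hd (by rw [od]; linarith) (by rw [od]; linarith), od,
          refl_eq_right hgt.le]
        ring
    · -- ord ξ ≥ ω
      have hξ2gt : v.gt (v.ord w) (ξ ^ 2) := gt_of_ord (by rw [oξ2]; linarith)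
      have hA := sub_eq_of_gt' B.w_ne hξ2gt
      obtain ⟨hd, od⟩ := key hA.1
      have gQ : v.ge (v.ord w) (4 * ξ ^ 2 + b * ξ + 4 * w) :=
        ((g4ξ2.mono (by linarith)).add (gbξ.mono hk')).add g4w
      have := gQ hQ
      rw [kap_of_le_zero v hω.le hd (by rw [od, hA.2]; linarith),
        kap_of_ge v hω.le (ge_of_ord hk'), refl_eq_right (by linarith)]
      ring

end NodeBase

end Fermat.Agent.S05
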