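import Fermat.Agent.S05.NodeInd

/-!
# Torsion points reducing to the node have rational valuation (x-only route, final corollary)

`torsion_node_valuation_x` : on a model `y² + a₁xy = x³ + a₂x² + a₄x` over a field `K` with a
valuation subring `A` whose valuation is computed by a real-valued additive valuation `v`
(`x ∈ A ↔ 0 ≤ ord x`), with `2` and `b₂` units and `a₄ = u π ^ n` (`u` a unit, `π` a non-unit),
a point killed by the odd number `n` whose `x`-coordinate is a non-unit has `x ≠ 0`,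
`a₄ / x` a non-unit, and the valuation of `x` is an integral power of the valuation of `π`.
-/

set_option autoImplicit false

namespace Fermat.Agent.S05

open RealOrd WeierstrassCurve

namespace RealOrd

variable {K : Type*} [Field K] (v : RealOrd K)

lemma ord_zpow {x : K} (hx : x ≠ 0) (j : ℤ) : v.ord (x ^ j) = j * v.ord x := by
  cases j with
  | ofNat n =>
    rw [Int.ofNat_eq_natCast, zpow_natCast, v.ord_pow hx, Int.cast_natCast]
  | negSucc n =>
    rw [zpow_negSucc, v.ord_inv (pow_ne_zero _ hx), v.ord_pow hx, Int.cast_negSucc]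
    push_cast
    ring

end RealOrd

section bridge

variable {K : Type*} [Field K] (A : ValuationSubring K) (v : RealOrd K)

/-- `v` computes the valuation subring `A`. -/
def OrdComputes : Prop := ∀ x : K, x ≠ 0 → (x ∈ A ↔ 0 ≤ v.ord x)

variable {A v}

lemma OrdComputes.valuation_eq_one_iff (hv : OrdComputes A v) {x : K} (hx : x ≠ 0) :
    A.valuation x = 1 ↔ v.ord x = 0 := by
  have h1 : A.valuation x ≤ 1 ↔ 0 ≤ v.ord x := by
    rw [A.valuation_le_one_iff, hv x hx]
  have h2 : 1 ≤ A.valuation x ↔ v.ord x ≤ 0 := by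
    have h3 : A.valuation x⁻¹ ≤ 1 ↔ 0 ≤ v.ord x⁻¹ := by
      rw [A.valuation_le_one_iff, hv _ (inv_ne_zero hx)]
    rw [map_inv₀, v.ord_inv hx] at h3
    have hne : A.valuation x ≠ 0 := (Valuation.ne_zero_iff _).mpr hx
    have h4 : (A.valuation x)⁻¹ ≤ 1 ↔ 1 ≤ A.valuation x := by
      constructor
      · intro h
        by_contra hlt
        rw [not_le] at hlt
        have : (1 : A.ValueGroup) < (A.valuation x)⁻¹ := by
          rw [← inv_one]
          exact (inv_lt_inv₀ (zero_lt_iff.mpr one_ne_zero) (zero_lt_iff.mpr hne)).mpr hlt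
        exact absurd h (not_le.mpr this)
      · intro h
        exact inv_le_one_of_one_le₀ h
    rw [← h4, h3]
    constructor <;> intro h <;> linarith
  constructor
  · intro h
    exact le_antisymm (h2.mp h.ge) (h1.mp h.le)
  · intro h
    exact le_antisymm (h1.mpr h.ge) (h2.mpr h.le)

lemma OrdComputes.mem_nonunits_iff (hv : OrdComputes A v) {x : K} (hx : x ≠ 0) :
    x ∈ A.nonunits ↔ 0 < v.ord x := by
  rw [ValuationSubring.mem_nonunits_iff_or]
  have h3 : x⁻¹ ∈ A ↔ 0 ≤ v.ord x⁻¹ := hv _ (inv_ne_zero hx)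
  rw [v.ord_inv hx] at h3
  constructor
  · rintro (h | h)
    · exact absurd h hx
    · rw [h3] at h
      rw [not_le] at h
      linarith
  · intro h
    right
    rw [h3, not_le]
    linarith

lemma OrdComputes.valuation_eq_zpow (hv : OrdComputes A v) {x π : K} (hx : x ≠ 0) (hπ : π ≠ 0)
    (j : ℤ) (h : v.ord x = j * v.ord π) : A.valuation x = A.valuation π ^ j := by
  have hne : x / π ^ j ≠ 0 := div_ne_zero hx (zpow_ne_zero j hπ)
  have h0 : v.ord (x / π ^ j) = 0 := by
    rw [v.ord_div hx (zpow_ne_zero j hπ), v.ord_zpow hπ, h]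
    ring
  have h1 := (hv.valuation_eq_one_iff hne).mpr h0
  rw [map_div₀, map_zpow₀] at h1
  have hπv : A.valuation π ^ j ≠ 0 := zpow_ne_zero j ((Valuation.ne_zero_iff _).mpr hπ)
  exact (div_eq_one_iff_eq hπv).mp h1

end bridge

section clsrel

lemma ClsRel.not_odd_mul {ω : ℝ} (hω : ω ≠ 0) {n : ℕ} (hn : Odd n) :
    ¬ ClsRel ω ((n : ℝ) * ω) 0 := by
  rintro ⟨m, h | h⟩
  · have h1 : ((n : ℝ) + 2 * m) * ω = 0 := by linarith
    rcases mul_eq_zero.mp h1 with h2 | h2
    · have h3 : ((n : ℤ) + 2 * m : ℤ) = 0 := by exact_mod_cast h2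
      obtain ⟨k, hk⟩ := hn
      omega
    · exact hω h2
  · have h1 : (-(n : ℝ) + 2 * m) * ω = 0 := by linarith
    rcases mul_eq_zero.mp h1 with h2 | h2
    · have h3 : (-(n : ℤ) + 2 * m : ℤ) = 0 := by exact_mod_cast h2
      obtain ⟨k, hk⟩ := hn
      omega
    · exact hω h2

lemma ClsRel.exists_int_mul {t k : ℝ} {n : ℕ} (hn : n ≠ 0)
    (h : ClsRel ((n : ℝ) * t) ((n : ℝ) * k) 0) : ∃ j : ℤ, k = j * t := by
  have hn' : (n : ℝ) ≠ 0 := Nat.cast_ne_zero.mpr hn
  obtain ⟨m, h | h⟩ := h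
  · refine ⟨-2 * m, ?_⟩
    have h1 : (n : ℝ) * (k + 2 * m * t) = 0 := by linarith
    rcases mul_eq_zero.mp h1 with h2 | h2
    · exact absurd h2 hn'
    · push_cast
      linarith
  · refine ⟨2 * m, ?_⟩
    have h1 : (n : ℝ) * (-k + 2 * m * t) = 0 := by linarith
    rcases mul_eq_zero.mp h1 with h2 | h2
    · exact absurd h2 hn'
    · push_cast
      linarith

end clsrel

variable {K : Type*} [Field K] [DecidableEq K]

/-- **(IV-cor), x-only route.** -/
theorem torsion_node_valuation_x (A : ValuationSubring K) (v : RealOrd K)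
    (hv : ∀ x : K, x ≠ 0 → (x ∈ A ↔ 0 ≤ v.ord x)) (W : WeierstrassCurve K)
    (h3 : W.a₃ = 0) (h6 : W.a₆ = 0) (h2 : A.valuation (2 : K) = 1)
    (hb₂ : A.valuation W.b₂ = 1) (π u : K) (hπ : π ∈ A.nonunits) (hπ0 : π ≠ 0)
    (hu : A.valuation u = 1) (n : ℕ) (hn : Odd n) (h4 : W.a₄ = u * π ^ n) {x y : K}
    (h : W.toAffine.Nonsingular x y)
    (hP : n • (Affine.Point.some x y h) = 0) (hx : x ∈ A.nonunits) :
    x ≠ 0 ∧ W.a₄ / x ∈ A.nonunits ∧ ∃ j : ℤ, A.valuation x = A.valuation π ^ j := by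
  have hv' : OrdComputes A v := hv
  have hn0 : n ≠ 0 := by
    rintro rfl
    exact absurd hn (by decide)
  have h2ne : (2 : K) ≠ 0 := by
    intro h0
    rw [h0, map_zero] at h2
    exact zero_ne_one h2
  have hbne : W.b₂ ≠ 0 := by
    intro h0
    rw [h0, map_zero] at hb₂
    exact zero_ne_one hb₂
  have hune : u ≠ 0 := by
    intro h0
    rw [h0, map_zero] at hu
    exact zero_ne_one hu
  have hordπ : 0 < v.ord π := (hv'.mem_nonunits_iff hπ0).mp hπ
  have hordu : v.ord u = 0 := (hv'.valuation_eq_one_iff hune).mp hu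
  have hwne : W.a₄ ≠ 0 := by
    rw [h4]
    exact mul_ne_zero hune (pow_ne_zero n hπ0)
  have hω : v.ord W.a₄ = (n : ℝ) * v.ord π := by
    rw [h4, v.ord_mul hune (pow_ne_zero n hπ0), hordu, v.ord_pow hπ0, zero_add]
  have hnpos : (0 : ℝ) < n := Nat.cast_pos.mpr (Nat.pos_of_ne_zero hn0)
  have hωpos : 0 < v.ord W.a₄ := by
    rw [hω]
    exact mul_pos hnpos hordπ
  have B : NodeBase v W.b₂ W.a₄ :=
    ⟨h2ne, (hv'.valuation_eq_one_iff h2ne).mp h2, hbne, (hv'.valuation_eq_one_iff hbne).mp hb₂,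
      hwne, hωpos⟩
  have hcls := Kpt_nsmul h3 h6 B (Affine.Point.some x y h) n
  rw [hP, Kpt_zero, Kpt_some] at hcls
  -- the component of `P` is not `ω`
  have hkne : kap v (v.ord W.a₄) x ≠ v.ord W.a₄ := by
    intro hk
    rw [hk] at hcls
    exact ClsRel.not_odd_mul hωpos.ne' hn hcls
  have hx0 : x ≠ 0 := by
    intro h0
    apply hkne
    rw [h0]
    exact kap_of_ge v hωpos.le (fun h => absurd rfl h)
  have hxpos : 0 < v.ord x := (hv'.mem_nonunits_iff hx0).mp hx
  have hxlt : v.ord x < v.ord W.a₄ := by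
    by_contra hge
    rw [not_lt] at hge
    exact hkne (kap_of_ge v hωpos.le (fun _ => hge))
  refine ⟨hx0, ?_, ?_⟩
  · rw [hv'.mem_nonunits_iff (div_ne_zero hwne hx0), v.ord_div hwne hx0]
    linarith
  · rw [kap_of_mem v hx0 hxpos.le hxlt.le, hω] at hcls
    obtain ⟨j, hj⟩ := ClsRel.exists_int_mul hn0 hcls
    exact ⟨j, hv'.valuation_eq_zpow hx0 hπ0 j hj⟩

end Fermat.Agent.S05
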