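import Fermat.Agent.S05.H4Nodal
import Fermat.Agent.S05.Kernel
import Fermat.Agent.S05.NodeTorsion

/-!
# S05: assembly through the x-only route for (IV-cor)

`S05_of_realOrd` : the frozen statement S05 follows from the landed pieces (Bridge81, H86 good
case, H4 nodal assembly, Kernel (II), NodeTorsion (IV-cor)) as soon as every valuation subring
of `Qbar` lying over the prime `q` is computed by a real-valued additive valuation.
-/

set_option autoImplicit false

namespace Fermat.Agent.S05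

open WeierstrassCurve

local notation "Qbar" => AlgebraicClosure ℚ

/-- A valuation subring of `Qbar` is computed by a real-valued additive valuation. -/
def HasRealOrd (A : ValuationSubring Qbar) : Prop :=
  ∃ v : RealOrd Qbar, ∀ x : Qbar, x ≠ 0 → (x ∈ A ↔ 0 ≤ v.ord x)

/-- Part (II) for a natural number which is a unit at `A`, from `Kernel.lean`. -/
theorem nodeGlue_II (A : ValuationSubring Qbar) (W : WeierstrassCurve.Affine Qbar)
    (ha₁ : W.a₁ ∈ A) (ha₂ : W.a₂ ∈ A) (ha₃ : W.a₃ ∈ A) (ha₄ : W.a₄ ∈ A) (ha₆ : W.a₆ ∈ A)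
    {n : ℕ} (hn : IsUnitOf A (n : Qbar)) : H86.KernelTorsionFree A W n := by
  refine kernelTorsionFree A ha₁ ha₂ ha₃ ha₄ ha₆ ?_
  intro hmem
  have h1 : A.valuation (n : Qbar) < 1 := A.mem_nonunits_iff.mp hmem
  have h2 : A.valuation (n : Qbar) = 1 := hn
  rw [h2] at h1
  exact lt_irrefl _ h1

/-- (IV-cor) in the shape needed by `h4_inertiaFixesTorsion_of_isShortNodal`, through the
x-only route. -/
theorem nodeGlue_IV {A : ValuationSubring Qbar} (hA : HasRealOrd A)
    {W : WeierstrassCurve ℚ} {n : ℕ} (hodd : Odd n) (h2 : IsUnitOf A (2 : Qbar))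
    (hW : IsShortNodal A n W)
    (π₀ u₀ : ℚ) (h4 : W.a₄ = u₀ * π₀ ^ n) (hπ : algebraMap ℚ Qbar π₀ ∈ A.nonunits)
    (hπ0 : π₀ ≠ 0) (hu : IsUnitOf A (algebraMap ℚ Qbar u₀)) :
    h4_NodeTorsionValuation A (W.baseChange Qbar).toAffine (algebraMap ℚ Qbar π₀) n := by
  obtain ⟨v, hv⟩ := hA
  intro x y h hP hx
  have e₁ : (W.baseChange Qbar).a₁ = 0 := by
    simp [WeierstrassCurve.baseChange, hW.a₁]
  have e₂ : (W.baseChange Qbar).a₂ = algebraMap ℚ Qbar W.a₂ := by
    simp [WeierstrassCurve.baseChange]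
  have e₃ : (W.baseChange Qbar).a₃ = 0 := by
    simp [WeierstrassCurve.baseChange, hW.a₃]
  have e₄ : (W.baseChange Qbar).a₄ = algebraMap ℚ Qbar W.a₄ := by
    simp [WeierstrassCurve.baseChange]
  have e₆ : (W.baseChange Qbar).a₆ = 0 := by
    simp [WeierstrassCurve.baseChange, hW.a₆]
  have h2' : A.valuation (2 : Qbar) = 1 := h2
  have hb₂ : A.valuation (W.baseChange Qbar).b₂ = 1 := by
    have hb : (W.baseChange Qbar).b₂ = 2 * 2 * algebraMap ℚ Qbar W.a₂ := by
      rw [WeierstrassCurve.b₂, e₁, e₂]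
      ring
    have ha₂ : A.valuation (algebraMap ℚ Qbar W.a₂) = 1 := hW.a₂_unit
    rw [hb, map_mul, map_mul, h2', ha₂]
    simp
  exact torsion_node_valuation_x A v hv (W.baseChange Qbar) e₃ e₆ h2' hb₂
    (algebraMap ℚ Qbar π₀) (algebraMap ℚ Qbar u₀) hπ (by rw [Ne, map_eq_zero]; exact hπ0) hu n
    hodd (by rw [e₄, h4, map_mul, map_pow]) h hP hx

/-- **(M)**: the local statement `hnodal` of `frey_unramified_of_local`. -/
theorem nodeGlue_hnodal {q n : ℕ} (hq : q.Prime) (hq2 : q ≠ 2) (hn : n.Prime) (hn2 : n ≠ 2)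
    (hqn : q ≠ n) (A : ValuationSubring Qbar) (W : WeierstrassCurve ℚ)
    (hA : A.LiesOverPrime q) (hW : IsShortNodal A n W) (hord : HasRealOrd A) :
    InertiaFixesTorsion A W n := by
  have hAq : ((q : ℕ) : Qbar) ∈ A.nonunits := hA
  have h2 : IsUnitOf A (2 : Qbar) := two_isUnitOf hq hAq hq2
  have hnu : IsUnitOf A (n : Qbar) := prime_isUnitOf hq hAq hn hqn
  have hodd : Odd n := hn.odd_of_ne_two hn2
  obtain ⟨π₀, u₀, h4, hπ, hπ0, hu⟩ := hW.a₄
  have ha₄ : algebraMap ℚ Qbar W.a₄ ∈ A.nonunits := by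
    rw [h4, map_mul, map_pow]
    exact mem_mul_nonunit A (hu.mem A) (nonunit_pow A hπ hn.ne_zero)
  have e₁ : (W.baseChange Qbar).a₁ = 0 := by
    simp [WeierstrassCurve.baseChange, hW.a₁]
  have e₂ : (W.baseChange Qbar).a₂ = algebraMap ℚ Qbar W.a₂ := by
    simp [WeierstrassCurve.baseChange]
  have e₃ : (W.baseChange Qbar).a₃ = 0 := by
    simp [WeierstrassCurve.baseChange, hW.a₃]
  have e₄ : (W.baseChange Qbar).a₄ = algebraMap ℚ Qbar W.a₄ := by
    simp [WeierstrassCurve.baseChange]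
  have e₆ : (W.baseChange Qbar).a₆ = 0 := by
    simp [WeierstrassCurve.baseChange, hW.a₆]
  have hII : H86.KernelTorsionFree A (W.baseChange Qbar).toAffine n :=
    nodeGlue_II A (W.baseChange Qbar).toAffine (by rw [e₁]; exact A.zero_mem)
      (by rw [e₂]; exact hW.a₂_unit.mem A) (by rw [e₃]; exact A.zero_mem)
      (by rw [e₄]; exact A.nonunits_le ha₄) (by rw [e₆]; exact A.zero_mem) hnu
  exact h4_inertiaFixesTorsion_of_isShortNodal hn.ne_zero h2 hII
    (fun π₀ u₀ h4 hπ hπ0 hu => nodeGlue_IV hord hodd h2 hW π₀ u₀ h4 hπ hπ0 hu) hW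

/-- **S05 from the existence of real-valued valuations.** -/
theorem S05_of_realOrd (P : FreyPackage) {q : ℕ} (hq : q.Prime) (hq2 : q ≠ 2) (hqp : q ≠ P.p)
    (HORD : ∀ A : ValuationSubring Qbar, A.LiesOverPrime q → HasRealOrd A) :
    P.GaloisRepUnramifiedAt q := by
  have hp2 : P.p ≠ 2 := by have := P.hp5; omega
  refine frey_unramified_of_local P hq hq2 hqp ?_ ?_
  · intro A W hA hW
    have hAq : ((q : ℕ) : Qbar) ∈ A.nonunits := hA
    have hnu : IsUnitOf A (P.p : Qbar) := prime_isUnitOf hq hAq P.pp hqp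
    exact H86.inertiaFixesTorsion_of_isGoodModel
      (nodeGlue_II A (W.baseChange Qbar).toAffine
        (by simpa [WeierstrassCurve.baseChange] using hW.a₁)
        (by simpa [WeierstrassCurve.baseChange] using hW.a₂)
        (by simpa [WeierstrassCurve.baseChange] using hW.a₃)
        (by simpa [WeierstrassCurve.baseChange] using hW.a₄)
        (by simpa [WeierstrassCurve.baseChange] using hW.a₆) hnu) hW
  · intro A W hA hW
    exact nodeGlue_hnodal hq hq2 P.pp hp2 hqp A W hA hW (HORD A hA)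

end Fermat.Agent.S05
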