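import Fermat.Agent.S05.NodeDup
import Fermat.Agent.S05.XIdentities

/-!
# Components of multiples of a point on a nodal model (x-only route)

`W` is a Weierstrass curve over a field `K` with `a₃ = a₆ = 0` (node at the origin when
`a₄` is in the maximal ideal), `v : RealOrd K`.
`Kpt P = clamp (ord x(P)) 0 ω` where `ω = ord a₄`.
Main results: `Kpt_add_sub` (claim (C) at the level of points), `Kpt_nsmul` (the class of
`Kpt (j • P)` modulo `±` and `2ω ℤ` is that of `j * Kpt P`).
-/

set_option autoImplicit false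

namespace Fermat.Agent.S05

open RealOrd WeierstrassCurve

variable {K : Type*} [Field K] [DecidableEq K]

/-- The (absolute) component of a point. -/
noncomputable def Kpt (v : RealOrd K) (W : WeierstrassCurve K) : W.toAffine.Point → ℝ
  | .zero => 0
  | .some x _ _ => kap v (v.ord W.a₄) x

/-- The conclusion of claim (C) for four real numbers. -/
def PairConcl (ω κ₁ κ₂ κp κm : ℝ) : Prop :=
  (κp = refl ω (κ₁ + κ₂) ∧ κm = |κ₁ - κ₂|) ∨ (κm = refl ω (κ₁ + κ₂) ∧ κp = |κ₁ - κ₂|)

section Kpt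

variable (v : RealOrd K) (W : WeierstrassCurve K)

@[simp] lemma Kpt_zero : Kpt v W (0 : W.toAffine.Point) = 0 := rfl

lemma Kpt_some {x y : K} (h : W.toAffine.Nonsingular x y) :
    Kpt v W (Affine.Point.some x y h) = kap v (v.ord W.a₄) x := rfl

lemma Kpt_neg (P : W.toAffine.Point) : Kpt v W (-P) = Kpt v W P := by
  cases P with
  | zero => rfl
  | some x y h => rw [Affine.Point.neg_some]; rfl

lemma Kpt_nonneg (hω : 0 ≤ v.ord W.a₄) (P : W.toAffine.Point) : 0 ≤ Kpt v W P := by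
  cases P with
  | zero => exact le_rfl
  | some x y h => exact kap_nonneg v hω x

lemma Kpt_le (hω : 0 ≤ v.ord W.a₄) (P : W.toAffine.Point) : Kpt v W P ≤ v.ord W.a₄ := by
  cases P with
  | zero => exact hω
  | some x y h => exact kap_le v hω x

end Kpt

section main

variable {v : RealOrd K} {W : WeierstrassCurve K}

lemma b₄_of_nodal (h3 : W.a₃ = 0) : W.b₄ = 2 * W.a₄ := by
  simp [WeierstrassCurve.b₄, h3]

lemma b₆_of_nodal (h3 : W.a₃ = 0) (h6 : W.a₆ = 0) : W.b₆ = 0 := by
  simp [WeierstrassCurve.b₆, h3, h6]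

lemma b₈_of_nodal (h3 : W.a₃ = 0) (h6 : W.a₆ = 0) : W.b₈ = -W.a₄ ^ 2 := by
  simp [WeierstrassCurve.b₈, h3, h6]

/-- duplication at the level of points -/
theorem Kpt_double (h3 : W.a₃ = 0) (h6 : W.a₆ = 0) (B : NodeBase v W.b₂ W.a₄)
    (P : W.toAffine.Point) :
    Kpt v W (P + P) = refl (v.ord W.a₄) (2 * Kpt v W P) := by
  have hω := B.ord_w_pos
  cases P with
  | zero =>
    have hz : (Affine.Point.zero : W.toAffine.Point) = 0 := rfl
    rw [hz, add_zero, Kpt_zero, mul_zero, refl_eq_left hω.le]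
  | some x y h =>
    have hY := XId.twoY_sq W h.1
    rw [b₄_of_nodal h3, b₆_of_nodal h3 h6] at hY
    have hY' : (2 * y + W.a₁ * x + W.a₃) ^ 2 = x * (4 * x ^ 2 + W.b₂ * x + 4 * W.a₄) := by
      rw [hY]; ring
    by_cases hy : y = W.toAffine.negY x y
    · rw [Affine.Point.add_self_of_Y_eq hy, Kpt_zero, Kpt_some]
      have h0 : 2 * y + W.a₁ * x + W.a₃ = 0 := by
        have : y - W.toAffine.negY x y = 0 := sub_eq_zero.mpr hy
        rw [Affine.negY] at this
        linear_combination this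
      rw [h0, zero_pow two_ne_zero] at hY'
      exact (B.dup_zero hY'.symm).symm
    · obtain ⟨xd, yd, hd, hadd, hI3⟩ := XId.exists_double W h hy
      rw [hadd, Kpt_some, Kpt_some]
      have h0 : 2 * y + W.a₁ * x + W.a₃ ≠ 0 := by
        intro h0
        apply hy
        have : y - W.toAffine.negY x y = 0 := by
          rw [Affine.negY]
          linear_combination h0
        exact sub_eq_zero.mp this
      have hne : x * (4 * x ^ 2 + W.b₂ * x + 4 * W.a₄) ≠ 0 := by
        rw [← hY']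
        exact pow_ne_zero 2 h0
      refine B.dup_concl hne ?_
      rw [← hY', hI3, b₄_of_nodal h3, b₆_of_nodal h3 h6, b₈_of_nodal h3 h6]
      ring

/-- **Claim (C)** at the level of points. -/
theorem Kpt_add_sub (h3 : W.a₃ = 0) (h6 : W.a₆ = 0) (B : NodeBase v W.b₂ W.a₄)
    (P Q : W.toAffine.Point) :
    PairConcl (v.ord W.a₄) (Kpt v W P) (Kpt v W Q) (Kpt v W (P + Q)) (Kpt v W (P - Q)) := by
  have hω := B.ord_w_pos
  have triv : ∀ R : W.toAffine.Point,
      PairConcl (v.ord W.a₄) (Kpt v W R) 0 (Kpt v W R) (Kpt v W R) := by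
    intro R
    have h1 := Kpt_nonneg v W hω.le R
    have h2 := Kpt_le v W hω.le R
    left
    rw [add_zero, sub_zero, refl_eq_left h2, abs_of_nonneg h1]
    exact ⟨rfl, rfl⟩
  have dbl : ∀ R : W.toAffine.Point,
      PairConcl (v.ord W.a₄) (Kpt v W R) (Kpt v W R) (Kpt v W (R + R)) 0 := by
    intro R
    left
    rw [sub_self, abs_zero, Kpt_double h3 h6 B R]
    exact ⟨by ring_nf, rfl⟩
  cases Q with
  | zero =>
    have hz : (Affine.Point.zero : W.toAffine.Point) = 0 := rfl
    rw [hz, add_zero, sub_zero, Kpt_zero]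
    exact triv P
  | some x₂ y₂ h₂ =>
    cases P with
    | zero =>
      have hz : (Affine.Point.zero : W.toAffine.Point) = 0 := rfl
      rw [hz, zero_add, zero_sub, Kpt_neg, Kpt_zero]
      have := triv (Affine.Point.some x₂ y₂ h₂)
      unfold PairConcl at this ⊢
      rw [zero_add, zero_sub, abs_neg]
      rw [add_zero, sub_zero] at this
      exact this
    | some x₁ y₁ h₁ =>
      by_cases hx : x₁ = x₂
      · rcases Affine.Y_eq_of_X_eq h₁.1 h₂.1 hx with hy | hy
        · -- P = Q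
          have hPQ : Affine.Point.some x₁ y₁ h₁ = Affine.Point.some x₂ y₂ h₂ := by
            subst hx; subst hy; rfl
          rw [hPQ, sub_self, Kpt_zero]
          exact dbl _
        · -- P = -Q
          have hPQ : Affine.Point.some x₁ y₁ h₁ = -Affine.Point.some x₂ y₂ h₂ := by
            rw [Affine.Point.neg_some]
            subst hx; subst hy; rfl
          have h1 : Affine.Point.some x₁ y₁ h₁ + Affine.Point.some x₂ y₂ h₂ = 0 := by
            rw [hPQ]; exact neg_add_cancel _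
          have h2 : Affine.Point.some x₁ y₁ h₁ - Affine.Point.some x₂ y₂ h₂ =
              Affine.Point.some x₁ y₁ h₁ + Affine.Point.some x₁ y₁ h₁ := by
            rw [sub_eq_add_neg, ← hPQ]
          have hK : Kpt v W (Affine.Point.some x₂ y₂ h₂) = Kpt v W (Affine.Point.some x₁ y₁ h₁) := by
            rw [hPQ, Kpt_neg]
          rw [h1, h2, hK, Kpt_zero]
          have := dbl (Affine.Point.some x₁ y₁ h₁)
          unfold PairConcl at this ⊢
          rcases this with ⟨a, b⟩ | ⟨a, b⟩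
          · exact Or.inr ⟨a, b⟩
          · exact Or.inl ⟨a, b⟩
      · obtain ⟨xp, yp, xm, ym, hp, hm, hadd, hsub, hI1, hI2⟩ := XId.exists_add_sub W h₁ h₂ hx
        rw [hadd, hsub]
        have H : NodeHyp v W.b₂ W.a₄ x₁ x₂ xp xm := by
          refine B.nodeHyp hx ?_ ?_
          · rw [hI1, b₄_of_nodal h3, b₆_of_nodal h3 h6, b₈_of_nodal h3 h6]; ring
          · rw [hI2, b₄_of_nodal h3, b₆_of_nodal h3 h6]; ring
        exact H.concl

end main

end Fermat.Agent.S05

namespace Fermat.Agent.S05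

open RealOrd WeierstrassCurve

/-- `b` is in the orbit of `a` under `x ↦ -x` and `x ↦ x + 2ω`. -/
def ClsRel (ω a b : ℝ) : Prop := ∃ n : ℤ, b = a + 2 * n * ω ∨ b = -a + 2 * n * ω

namespace ClsRel

variable {ω a b c : ℝ}

lemma refl' (ω a : ℝ) : ClsRel ω a a := ⟨0, Or.inl (by simp)⟩

lemma symm (h : ClsRel ω a b) : ClsRel ω b a := by
  obtain ⟨n, h | h⟩ := h
  · exact ⟨-n, Or.inl (by rw [h]; push_cast; ring)⟩
  · exact ⟨n, Or.inr (by rw [h]; ring)⟩

lemma trans (h₁ : ClsRel ω a b) (h₂ : ClsRel ω b c) : ClsRel ω a c := by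
  obtain ⟨n, h₁ | h₁⟩ := h₁ <;> obtain ⟨m, h₂ | h₂⟩ := h₂
  · exact ⟨n + m, Or.inl (by rw [h₂, h₁]; push_cast; ring)⟩
  · exact ⟨m - n, Or.inr (by rw [h₂, h₁]; push_cast; ring)⟩
  · exact ⟨n + m, Or.inr (by rw [h₂, h₁]; push_cast; ring)⟩
  · exact ⟨m - n, Or.inl (by rw [h₂, h₁]; push_cast; ring)⟩

lemma refl_fn (ω x : ℝ) : ClsRel ω x (refl ω x) := by
  unfold refl
  rcases min_choice x (2 * ω - x) with h | h
  · rw [h]; exact refl' _ _
  · rw [h]; exact ⟨1, Or.inr (by push_cast; ring)⟩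

lemma abs_fn (ω x : ℝ) : ClsRel ω x |x| := by
  rcases abs_choice x with h | h
  · rw [h]; exact refl' _ _
  · rw [h]; exact ⟨0, Or.inr (by simp)⟩

lemma add_sub (h : ClsRel ω a b) (k : ℝ) :
    (ClsRel ω (a + k) (b + k) ∧ ClsRel ω (a - k) (b - k)) ∨
      (ClsRel ω (a - k) (b + k) ∧ ClsRel ω (a + k) (b - k)) := by
  obtain ⟨n, h | h⟩ := h
  · left
    exact ⟨⟨n, Or.inl (by rw [h]; ring)⟩, ⟨n, Or.inl (by rw [h]; ring)⟩⟩
  · right
    exact ⟨⟨n, Or.inr (by rw [h]; ring)⟩, ⟨n, Or.inr (by rw [h]; ring)⟩⟩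

/-- The inductive step. -/
lemma step {k x a c e : ℝ} (ha : ClsRel ω x a) (hc : ClsRel ω (x - k) c)
    (hP : PairConcl ω a k e c) : ClsRel ω (x + k) e := by
  have r1 := refl_fn ω (a + k)
  have r2 := abs_fn ω (a - k)
  rcases ha.add_sub k with ⟨p1, p2⟩ | ⟨p1, p2⟩ <;> rcases hP with ⟨e1, e2⟩ | ⟨e1, e2⟩
  · rw [e1]; exact p1.trans r1
  · -- e ~ a - k ~ x - k ~ c ~ a + k ~ x + k
    rw [e1] at hc
    rw [e2]
    exact (p1.trans (r1.trans (hc.symm.trans (p2.trans r2))))
  · rw [e2] at hc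
    rw [e1]
    exact (p2.trans (r2.trans (hc.symm.trans (p1.trans r1))))
  · rw [e2]; exact p2.trans r2

end ClsRel

variable {K : Type*} [Field K] [DecidableEq K]

/-- The component of `j • P` is `± j * Kpt P` modulo `2ω`. -/
theorem Kpt_nsmul {v : RealOrd K} {W : WeierstrassCurve K} (h3 : W.a₃ = 0) (h6 : W.a₆ = 0)
    (B : NodeBase v W.b₂ W.a₄) (P : W.toAffine.Point) (j : ℕ) :
    ClsRel (v.ord W.a₄) (j * Kpt v W P) (Kpt v W (j • P)) := by
  have key : ∀ j : ℕ, ClsRel (v.ord W.a₄) (j * Kpt v W P) (Kpt v W (j • P)) ∧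
      ClsRel (v.ord W.a₄) ((j + 1 : ℕ) * Kpt v W P) (Kpt v W ((j + 1) • P)) := by
    intro j
    induction j with
    | zero =>
      refine ⟨?_, ?_⟩
      · rw [zero_smul, Kpt_zero, Nat.cast_zero, zero_mul]
        exact ClsRel.refl' _ _
      · rw [zero_add, one_smul, Nat.cast_one, one_mul]
        exact ClsRel.refl' _ _
    | succ j ih =>
      refine ⟨ih.2, ?_⟩
      have hP := Kpt_add_sub h3 h6 B ((j + 1) • P) P
      have e1 : (j + 1) • P + P = (j + 1 + 1) • P := (succ_nsmul P (j + 1)).symm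
      have e2 : (j + 1) • P - P = j • P := by
        rw [succ_nsmul, add_sub_cancel_right]
      rw [e1, e2] at hP
      have hc : ClsRel (v.ord W.a₄) (((j + 1 : ℕ) : ℝ) * Kpt v W P - Kpt v W P)
          (Kpt v W (j • P)) := by
        have : ((j + 1 : ℕ) : ℝ) * Kpt v W P - Kpt v W P = j * Kpt v W P := by
          push_cast; ring
        rw [this]
        exact ih.1
      have := ClsRel.step ih.2 hc hP
      have e3 : ((j + 1 : ℕ) : ℝ) * Kpt v W P + Kpt v W P = ((j + 1 + 1 : ℕ) : ℝ) * Kpt v W P := by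
        push_cast; ring
      rw [e3] at this
      exact this
  exact (key j).1

end Fermat.Agent.S05
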