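import Fermat.Agent.S05.Ord

/-!
# Valuations of `x(P ± Q)` near a node (abstract form)

Field elements `ξ₁ ξ₂ ξp ξm` with
`ξp * ξm * (ξ₁ - ξ₂)^2 = (ξ₁ ξ₂ - w)^2` and
`(ξp + ξm) * (ξ₁ - ξ₂)^2 = 2 (ξ₁ + ξ₂) (ξ₁ ξ₂ + w) + b ξ₁ ξ₂`,
where `ord 2 = ord b = 0`, `ord w = ω > 0`.
With `kap ξ = clamp (ord ξ) 0 ω` (and `kap 0 = ω`) we show
`{kap ξp, kap ξm} = {refl (kap ξ₁ + kap ξ₂), |kap ξ₁ - kap ξ₂|}`.
-/

set_option autoImplicit false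

namespace Fermat.Agent.S05

open RealOrd

variable {K : Type*} [Field K]

open Classical in
/-- clamped order: the "component" of a point with coordinate `ξ`. -/
noncomputable def kap (v : RealOrd K) (ω : ℝ) (ξ : K) : ℝ :=
  if ξ = 0 then ω else max 0 (min (v.ord ξ) ω)

/-- reflection of `[0, 2ω]` onto `[0, ω]`. -/
noncomputable def refl (ω x : ℝ) : ℝ := min x (2 * ω - x)

section kap

variable (v : RealOrd K) {ω : ℝ}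

lemma kap_nonneg (hω : 0 ≤ ω) (ξ : K) : 0 ≤ kap v ω ξ := by
  unfold kap
  split_ifs
  · exact hω
  · exact le_max_left _ _

lemma kap_le (hω : 0 ≤ ω) (ξ : K) : kap v ω ξ ≤ ω := by
  unfold kap
  split_ifs
  · exact le_rfl
  · exact max_le hω (min_le_right _ _)

lemma kap_of_le_zero (hω : 0 ≤ ω) {ξ : K} (h0 : ξ ≠ 0) (h : v.ord ξ ≤ 0) : kap v ω ξ = 0 := by
  unfold kap
  rw [if_neg h0]
  exact max_eq_left ((min_le_left _ _).trans h)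

lemma kap_of_ge (hω : 0 ≤ ω) {ξ : K} (h : v.ge ω ξ) : kap v ω ξ = ω := by
  unfold kap
  split_ifs with h0
  · rfl
  · rw [min_eq_right (h h0), max_eq_right hω]

lemma kap_of_mem {ξ : K} (h0 : ξ ≠ 0) (h1 : 0 ≤ v.ord ξ) (h2 : v.ord ξ ≤ ω) :
    kap v ω ξ = v.ord ξ := by
  unfold kap
  rw [if_neg h0, min_eq_left h2, max_eq_right h1]

end kap

end Fermat.Agent.S05

namespace Fermat.Agent.S05

open RealOrd

variable {K : Type*} [Field K]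

/-- Hypotheses: the two symmetric identities near a node. -/
structure NodeHyp (v : RealOrd K) (b w ξ₁ ξ₂ ξp ξm : K) : Prop where
  two_ne : (2 : K) ≠ 0
  ord_two : v.ord 2 = 0
  b_ne : b ≠ 0
  ord_b : v.ord b = 0
  w_ne : w ≠ 0
  ord_w_pos : 0 < v.ord w
  ne : ξ₁ ≠ ξ₂
  I1 : ξp * ξm * (ξ₁ - ξ₂) ^ 2 = (ξ₁ * ξ₂ - w) ^ 2
  I2 : (ξp + ξm) * (ξ₁ - ξ₂) ^ 2 = 2 * (ξ₁ + ξ₂) * (ξ₁ * ξ₂ + w) + b * (ξ₁ * ξ₂)

namespace NodeHyp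

variable {v : RealOrd K} {b w ξ₁ ξ₂ ξp ξm : K}

lemma symm (H : NodeHyp v b w ξ₁ ξ₂ ξp ξm) : NodeHyp v b w ξ₂ ξ₁ ξp ξm where
  two_ne := H.two_ne
  ord_two := H.ord_two
  b_ne := H.b_ne
  ord_b := H.ord_b
  w_ne := H.w_ne
  ord_w_pos := H.ord_w_pos
  ne := H.ne.symm
  I1 := by have := H.I1; linear_combination this
  I2 := by have := H.I2; linear_combination this

lemma D_ne (H : NodeHyp v b w ξ₁ ξ₂ ξp ξm) : ξ₁ - ξ₂ ≠ 0 := sub_ne_zero.mpr H.ne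

lemma D2_ne (H : NodeHyp v b w ξ₁ ξ₂ ξp ξm) : (ξ₁ - ξ₂) ^ 2 ≠ 0 := pow_ne_zero 2 H.D_ne

lemma ord_D2 (H : NodeHyp v b w ξ₁ ξ₂ ξp ξm) :
    v.ord ((ξ₁ - ξ₂) ^ 2) = 2 * v.ord (ξ₁ - ξ₂) := v.ord_sq H.D_ne

lemma Pi_eq (H : NodeHyp v b w ξ₁ ξ₂ ξp ξm) (hA : ξ₁ * ξ₂ - w ≠ 0) :
    ξp * ξm ≠ 0 ∧ v.ord (ξp * ξm) = 2 * v.ord (ξ₁ * ξ₂ - w) - 2 * v.ord (ξ₁ - ξ₂) := by
  have hne : ξp * ξm ≠ 0 := by
    intro h0
    have := H.I1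
    rw [h0, zero_mul] at this
    exact pow_ne_zero 2 hA this.symm
  refine ⟨hne, ?_⟩
  have h := congrArg v.ord H.I1
  rw [v.ord_mul hne H.D2_ne, H.ord_D2, v.ord_sq hA] at h
  linarith

lemma Pi_ge (H : NodeHyp v b w ξ₁ ξ₂ ξp ξm) {c : ℝ} (hA : v.ge c (ξ₁ * ξ₂ - w)) :
    v.ge (2 * c - 2 * v.ord (ξ₁ - ξ₂)) (ξp * ξm) := by
  intro hne
  have hA0 : ξ₁ * ξ₂ - w ≠ 0 := by
    intro h0
    have := H.I1
    rw [h0, zero_pow two_ne_zero] at this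
    rcases mul_eq_zero.mp this with h | h
    · exact hne h
    · exact H.D2_ne h
  rw [(H.Pi_eq hA0).2]
  have := hA hA0
  linarith

lemma S_eq (H : NodeHyp v b w ξ₁ ξ₂ ξp ξm)
    (hN : 2 * (ξ₁ + ξ₂) * (ξ₁ * ξ₂ + w) + b * (ξ₁ * ξ₂) ≠ 0) :
    ξp + ξm ≠ 0 ∧ v.ord (ξp + ξm) =
      v.ord (2 * (ξ₁ + ξ₂) * (ξ₁ * ξ₂ + w) + b * (ξ₁ * ξ₂)) - 2 * v.ord (ξ₁ - ξ₂) := by
  have hne : ξp + ξm ≠ 0 := by
    intro h0
    have := H.I2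
    rw [h0, zero_mul] at this
    exact hN this.symm
  refine ⟨hne, ?_⟩
  have h := congrArg v.ord H.I2
  rw [v.ord_mul hne H.D2_ne, H.ord_D2] at h
  linarith

lemma S_ge (H : NodeHyp v b w ξ₁ ξ₂ ξp ξm) {c : ℝ}
    (hN : v.ge c (2 * (ξ₁ + ξ₂) * (ξ₁ * ξ₂ + w) + b * (ξ₁ * ξ₂))) :
    v.ge (c - 2 * v.ord (ξ₁ - ξ₂)) (ξp + ξm) := by
  intro hne
  have hN0 : 2 * (ξ₁ + ξ₂) * (ξ₁ * ξ₂ + w) + b * (ξ₁ * ξ₂) ≠ 0 := by
    intro h0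
    have := H.I2
    rw [h0] at this
    rcases mul_eq_zero.mp this with h | h
    · exact hne h
    · exact H.D2_ne h
  rw [(H.S_eq hN0).2]
  have := hN hN0
  linarith

/-- `N ≥ c` from bounds on `t = ξ₁ + ξ₂`, `B = ξ₁ ξ₂ + w`, `s = ξ₁ ξ₂`. -/
lemma N_ge (H : NodeHyp v b w ξ₁ ξ₂ ξp ξm) {ct cB cs c : ℝ}
    (ht : v.ge ct (ξ₁ + ξ₂)) (hB : v.ge cB (ξ₁ * ξ₂ + w)) (hs : v.ge cs (ξ₁ * ξ₂))
    (h1 : c ≤ ct + cB) (h2 : c ≤ cs) :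
    v.ge c (2 * (ξ₁ + ξ₂) * (ξ₁ * ξ₂ + w) + b * (ξ₁ * ξ₂)) := by
  have e2 : v.ge 0 (2 : K) := ge_of_ord H.ord_two.ge
  have eb : v.ge 0 (b : K) := ge_of_ord H.ord_b.ge
  refine ge.add ?_ ?_
  · exact ((e2.mul ht).mul hB).mono (by linarith)
  · exact (eb.mul hs).mono (by linarith)

/-- `N` has exact order `ord s` if the first summand is strictly larger. -/
lemma N_eq (H : NodeHyp v b w ξ₁ ξ₂ ξp ξm) {ct cB : ℝ} (hs : ξ₁ * ξ₂ ≠ 0)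
    (ht : v.ge ct (ξ₁ + ξ₂)) (hB : v.gt cB (ξ₁ * ξ₂ + w))
    (h1 : v.ord (ξ₁ * ξ₂) ≤ ct + cB) :
    2 * (ξ₁ + ξ₂) * (ξ₁ * ξ₂ + w) + b * (ξ₁ * ξ₂) ≠ 0 ∧
      v.ord (2 * (ξ₁ + ξ₂) * (ξ₁ * ξ₂ + w) + b * (ξ₁ * ξ₂)) = v.ord (ξ₁ * ξ₂) := by
  have e2 : v.ge 0 (2 : K) := ge_of_ord H.ord_two.ge
  have hbs : b * (ξ₁ * ξ₂) ≠ 0 := mul_ne_zero H.b_ne hs
  have obs : v.ord (b * (ξ₁ * ξ₂)) = v.ord (ξ₁ * ξ₂) := by
    rw [v.ord_mul H.b_ne hs, H.ord_b, zero_add]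
  have hfirst : v.gt (v.ord (b * (ξ₁ * ξ₂))) (2 * (ξ₁ + ξ₂) * (ξ₁ * ξ₂ + w)) := by
    rw [obs]
    exact ((e2.mul ht).mul_gt hB).mono (by linarith)
  have := add_eq_of_gt' hbs hfirst
  rw [obs] at this
  exact this

end NodeHyp

end Fermat.Agent.S05

namespace Fermat.Agent.S05

open RealOrd

variable {K : Type*} [Field K]

lemma refl_eq_left {ω x : ℝ} (h : x ≤ ω) : refl ω x = x := by
  unfold refl
  exact min_eq_left (by linarith)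

lemma refl_eq_right {ω x : ℝ} (h : ω ≤ x) : refl ω x = 2 * ω - x := by
  unfold refl
  exact min_eq_right (by linarith)

/-- The conclusion of claim (C). -/
def NodeConcl (v : RealOrd K) (w ξ₁ ξ₂ ξp ξm : K) : Prop :=
  (kap v (v.ord w) ξp = refl (v.ord w) (kap v (v.ord w) ξ₁ + kap v (v.ord w) ξ₂) ∧
      kap v (v.ord w) ξm = |kap v (v.ord w) ξ₁ - kap v (v.ord w) ξ₂|) ∨
    (kap v (v.ord w) ξm = refl (v.ord w) (kap v (v.ord w) ξ₁ + kap v (v.ord w) ξ₂) ∧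
      kap v (v.ord w) ξp = |kap v (v.ord w) ξ₁ - kap v (v.ord w) ξ₂|)

lemma NodeConcl.symm {v : RealOrd K} {w ξ₁ ξ₂ ξp ξm : K} (h : NodeConcl v w ξ₂ ξ₁ ξp ξm) :
    NodeConcl v w ξ₁ ξ₂ ξp ξm := by
  unfold NodeConcl at h ⊢
  rw [add_comm (kap v (v.ord w) ξ₁), abs_sub_comm (kap v (v.ord w) ξ₁)]
  exact h

lemma nodeConcl_of_both {v : RealOrd K} {w ξ₁ ξ₂ ξp ξm : K} {κ₁ κ₂ c : ℝ}
    (h1 : kap v (v.ord w) ξ₁ = κ₁) (h2 : kap v (v.ord w) ξ₂ = κ₂)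
    (hp : kap v (v.ord w) ξp = c) (hm : kap v (v.ord w) ξm = c)
    (hr : refl (v.ord w) (κ₁ + κ₂) = c) (ha : |κ₁ - κ₂| = c) :
    NodeConcl v w ξ₁ ξ₂ ξp ξm := by
  left
  rw [h1, h2, hp, hm, hr, ha]
  exact ⟨rfl, rfl⟩

namespace NodeHyp

variable {v : RealOrd K} {b w ξ₁ ξ₂ ξp ξm : K}

/-- leaf (b-neg): `ord ξ₁ ≤ 0`, `ξ₂` has `ord ≥ ω` (or is zero). -/
lemma leaf_b_neg (H : NodeHyp v b w ξ₁ ξ₂ ξp ξm) (h1 : ξ₁ ≠ 0) (hk : v.ord ξ₁ ≤ 0)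
    (hb : v.ge (v.ord w) ξ₂) : NodeConcl v w ξ₁ ξ₂ ξp ξm := by
  have hω := H.ord_w_pos
  have hgt2 : v.gt (v.ord ξ₁) ξ₂ := hb.gt_of_lt (by linarith)
  have hD := sub_eq_of_gt h1 hgt2
  have hs : v.ge (v.ord ξ₁ + v.ord w) (ξ₁ * ξ₂) := (ge_of_ord le_rfl : v.ge _ ξ₁).mul hb
  have hwge : v.ge (v.ord ξ₁ + v.ord w) w := ge_of_ord (by linarith)
  have hA := hs.sub hwge
  have hB := hs.add hwge
  have ht : v.ge (v.ord ξ₁) (ξ₁ + ξ₂) := (ge_of_ord le_rfl : v.ge _ ξ₁).add hgt2.ge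
  have hPi : v.ge (2 * v.ord w) (ξp * ξm) := (H.Pi_ge hA).mono (by rw [hD.2]; linarith)
  have hN := H.N_ge (c := 2 * v.ord ξ₁ + v.ord w) ht hB hs (by linarith) (by linarith)
  have hS : v.ge (v.ord w) (ξp + ξm) := (H.S_ge hN).mono (by rw [hD.2]; linarith)
  obtain ⟨gp, gm⟩ := newton_ge hS hPi
  exact nodeConcl_of_both (kap_of_le_zero v hω.le h1 hk) (kap_of_ge v hω.le hb)
    (kap_of_ge v hω.le gp) (kap_of_ge v hω.le gm)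
    (by rw [refl_eq_right (by linarith)]; ring)
    (by rw [abs_of_nonpos (by linarith)]; ring)

/-- leaf (b-mid): `0 < ord ξ₁ < ω`, `ξ₂` has `ord ≥ ω` (or is zero). -/
lemma leaf_b_mid (H : NodeHyp v b w ξ₁ ξ₂ ξp ξm) (h1 : ξ₁ ≠ 0) (hk0 : 0 < v.ord ξ₁)
    (hk : v.ord ξ₁ < v.ord w) (hb : v.ge (v.ord w) ξ₂) : NodeConcl v w ξ₁ ξ₂ ξp ξm := by
  have hω := H.ord_w_pos
  have hgt2 : v.gt (v.ord ξ₁) ξ₂ := hb.gt_of_lt hk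
  have hD := sub_eq_of_gt h1 hgt2
  have hs : v.ge (v.ord ξ₁ + v.ord w) (ξ₁ * ξ₂) := (ge_of_ord le_rfl : v.ge _ ξ₁).mul hb
  have hsgt : v.gt (v.ord w) (ξ₁ * ξ₂) := hs.gt_of_lt (by linarith)
  have hA := sub_eq_of_gt' H.w_ne hsgt
  have hB : v.ge (v.ord w) (ξ₁ * ξ₂ + w) := hsgt.ge.add (ge_of_ord le_rfl)
  have ht : v.ge (v.ord ξ₁) (ξ₁ + ξ₂) := (ge_of_ord le_rfl : v.ge _ ξ₁).add hgt2.ge
  have hPi := H.Pi_eq hA.1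
  rw [hA.2, hD.2] at hPi
  have hN := H.N_ge (c := v.ord ξ₁ + v.ord w) ht hB hs (by linarith) (by linarith)
  have hS : v.ge (v.ord w - v.ord ξ₁) (ξp + ξm) := (H.S_ge hN).mono (by rw [hD.2]; linarith)
  obtain ⟨⟨p0, pe⟩, ⟨m0, me⟩⟩ := newton_eq hS hPi.1 (by rw [hPi.2]; ring)
  exact nodeConcl_of_both (kap_of_mem v h1 hk0.le hk.le) (kap_of_ge v hω.le hb)
    (by rw [kap_of_mem v p0 (by linarith) (by linarith), pe])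
    (by rw [kap_of_mem v m0 (by linarith) (by linarith), me])
    (by rw [refl_eq_right (by linarith)]; ring)
    (by rw [abs_of_nonpos (by linarith)]; ring)

/-- leaf (b-top): `ord ξ₁ ≥ ω`, `ξ₂` has `ord ≥ ω` (or is zero). -/
lemma leaf_b_top (H : NodeHyp v b w ξ₁ ξ₂ ξp ξm) (h1 : ξ₁ ≠ 0) (hk : v.ord w ≤ v.ord ξ₁)
    (hb : v.ge (v.ord w) ξ₂) : NodeConcl v w ξ₁ ξ₂ ξp ξm := by
  have hω := H.ord_w_pos
  have h1ge : v.ge (v.ord w) ξ₁ := ge_of_ord hk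
  have hD : v.ord w ≤ v.ord (ξ₁ - ξ₂) := (h1ge.sub hb) H.D_ne
  have hs : v.ge (v.ord w + v.ord w) (ξ₁ * ξ₂) := h1ge.mul hb
  have hsgt : v.gt (v.ord w) (ξ₁ * ξ₂) := hs.gt_of_lt (by linarith)
  have hA := sub_eq_of_gt' H.w_ne hsgt
  have hB : v.ge (v.ord w) (ξ₁ * ξ₂ + w) := hsgt.ge.add (ge_of_ord le_rfl)
  have ht : v.ge (v.ord w) (ξ₁ + ξ₂) := h1ge.add hb
  have hPi := H.Pi_eq hA.1
  rw [hA.2] at hPi
  have hN := H.N_ge (c := 2 * v.ord w) ht hB hs (by linarith) (by linarith)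
  have hS : v.ge (v.ord (ξp * ξm)) (ξp + ξm) := (H.S_ge hN).mono (by rw [hPi.2])
  obtain ⟨pe, me⟩ := newton_le_zero hPi.1 (by rw [hPi.2]; linarith) hS
  exact nodeConcl_of_both (kap_of_ge v hω.le h1ge) (kap_of_ge v hω.le hb)
    (kap_of_le_zero v hω.le (left_ne_zero_of_mul hPi.1) pe)
    (kap_of_le_zero v hω.le (right_ne_zero_of_mul hPi.1) me)
    (by rw [refl_eq_right (by linarith)]; ring)
    (by simp)

/-- leaf (a-neg): `ord ξ₁ ≤ ord ξ₂ ≤ 0`. -/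
lemma leaf_a_neg (H : NodeHyp v b w ξ₁ ξ₂ ξp ξm) (h1 : ξ₁ ≠ 0) (h2 : ξ₂ ≠ 0)
    (h12 : v.ord ξ₁ ≤ v.ord ξ₂) (hk : v.ord ξ₂ ≤ 0) : NodeConcl v w ξ₁ ξ₂ ξp ξm := by
  have hω := H.ord_w_pos
  have hD : v.ord ξ₁ ≤ v.ord (ξ₁ - ξ₂) :=
    ((ge_of_ord le_rfl : v.ge _ ξ₁).sub (ge_of_ord h12)) H.D_ne
  have hs0 : ξ₁ * ξ₂ ≠ 0 := mul_ne_zero h1 h2
  have hse : v.ord (ξ₁ * ξ₂) = v.ord ξ₁ + v.ord ξ₂ := v.ord_mul h1 h2
  have hwgt : v.gt (v.ord (ξ₁ * ξ₂)) w := gt_of_ord (by rw [hse]; linarith)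
  have hA := sub_eq_of_gt hs0 hwgt
  have hB : v.ge (v.ord ξ₁ + v.ord ξ₂) (ξ₁ * ξ₂ + w) := by
    have := (add_eq_of_gt hs0 hwgt).2
    exact ge_of_ord (by rw [this, hse])
  have hs : v.ge (v.ord ξ₁ + v.ord ξ₂) (ξ₁ * ξ₂) := ge_of_ord hse.ge
  have ht : v.ge (v.ord ξ₁) (ξ₁ + ξ₂) := (ge_of_ord le_rfl : v.ge _ ξ₁).add (ge_of_ord h12)
  have hPi := H.Pi_eq hA.1
  rw [hA.2, hse] at hPi
  have hN := H.N_ge (c := 2 * v.ord ξ₁ + v.ord ξ₂) ht hB hs (by linarith) (by linarith)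
  have hS : v.ge (v.ord (ξp * ξm)) (ξp + ξm) := (H.S_ge hN).mono (by rw [hPi.2]; linarith)
  obtain ⟨pe, me⟩ := newton_le_zero hPi.1 (by rw [hPi.2]; linarith) hS
  exact nodeConcl_of_both (kap_of_le_zero v hω.le h1 (by linarith)) (kap_of_le_zero v hω.le h2 hk)
    (kap_of_le_zero v hω.le (left_ne_zero_of_mul hPi.1) pe)
    (kap_of_le_zero v hω.le (right_ne_zero_of_mul hPi.1) me)
    (by rw [refl_eq_left (by linarith)]; ring)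
    (by simp)

/-- leaf (a-mid): `ord ξ₁ ≤ 0 < ord ξ₂ < ω`. -/
lemma leaf_a_mid (H : NodeHyp v b w ξ₁ ξ₂ ξp ξm) (h1 : ξ₁ ≠ 0) (h2 : ξ₂ ≠ 0)
    (hk1 : v.ord ξ₁ ≤ 0) (hk2 : 0 < v.ord ξ₂) (hk2' : v.ord ξ₂ < v.ord w) :
    NodeConcl v w ξ₁ ξ₂ ξp ξm := by
  have hω := H.ord_w_pos
  have hgt2 : v.gt (v.ord ξ₁) ξ₂ := gt_of_ord (by linarith)
  have hD := sub_eq_of_gt h1 hgt2
  have hs0 : ξ₁ * ξ₂ ≠ 0 := mul_ne_zero h1 h2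
  have hse : v.ord (ξ₁ * ξ₂) = v.ord ξ₁ + v.ord ξ₂ := v.ord_mul h1 h2
  have hwgt : v.gt (v.ord (ξ₁ * ξ₂)) w := gt_of_ord (by rw [hse]; linarith)
  have hA := sub_eq_of_gt hs0 hwgt
  have hB : v.ge (v.ord ξ₁ + v.ord ξ₂) (ξ₁ * ξ₂ + w) := by
    have := (add_eq_of_gt hs0 hwgt).2
    exact ge_of_ord (by rw [this, hse])
  have hs : v.ge (v.ord ξ₁ + v.ord ξ₂) (ξ₁ * ξ₂) := ge_of_ord hse.ge
  have ht : v.ge (v.ord ξ₁) (ξ₁ + ξ₂) := (ge_of_ord le_rfl : v.ge _ ξ₁).add hgt2.ge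
  have hPi := H.Pi_eq hA.1
  rw [hA.2, hse, hD.2] at hPi
  have hN := H.N_ge (c := 2 * v.ord ξ₁ + v.ord ξ₂) ht hB hs (by linarith) (by linarith)
  have hS : v.ge (v.ord ξ₂) (ξp + ξm) := (H.S_ge hN).mono (by rw [hD.2]; linarith)
  obtain ⟨⟨p0, pe⟩, ⟨m0, me⟩⟩ := newton_eq hS hPi.1 (by rw [hPi.2]; ring)
  exact nodeConcl_of_both (kap_of_le_zero v hω.le h1 hk1) (kap_of_mem v h2 hk2.le hk2'.le)
    (by rw [kap_of_mem v p0 (by linarith) (by linarith), pe])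
    (by rw [kap_of_mem v m0 (by linarith) (by linarith), me])
    (by rw [refl_eq_left (by linarith)]; ring)
    (by rw [abs_of_nonpos (by linarith)]; ring)

end NodeHyp

end Fermat.Agent.S05

namespace Fermat.Agent.S05

open RealOrd

variable {K : Type*} [Field K]

namespace NodeHyp

variable {v : RealOrd K} {b w ξ₁ ξ₂ ξp ξm : K}

/-- leaf (a-pos): `0 < ord ξ₁ ≤ ord ξ₂ < ω`. -/
lemma leaf_a_pos (H : NodeHyp v b w ξ₁ ξ₂ ξp ξm) (h1 : ξ₁ ≠ 0) (h2 : ξ₂ ≠ 0)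
    (hk1 : 0 < v.ord ξ₁) (h12 : v.ord ξ₁ ≤ v.ord ξ₂) (hk2 : v.ord ξ₂ < v.ord w) :
    NodeConcl v w ξ₁ ξ₂ ξp ξm := by
  have hω := H.ord_w_pos
  have hD : v.ord ξ₁ ≤ v.ord (ξ₁ - ξ₂) :=
    ((ge_of_ord le_rfl : v.ge _ ξ₁).sub (ge_of_ord h12)) H.D_ne
  have hs0 : ξ₁ * ξ₂ ≠ 0 := mul_ne_zero h1 h2
  have hse : v.ord (ξ₁ * ξ₂) = v.ord ξ₁ + v.ord ξ₂ := v.ord_mul h1 h2
  have hs : v.ge (v.ord ξ₁ + v.ord ξ₂) (ξ₁ * ξ₂) := ge_of_ord hse.ge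
  have hμ1 : min (v.ord ξ₁ + v.ord ξ₂) (v.ord w) ≤ v.ord ξ₁ + v.ord ξ₂ := min_le_left _ _
  have hμ2 : min (v.ord ξ₁ + v.ord ξ₂) (v.ord w) ≤ v.ord w := min_le_right _ _
  have hμ3 : v.ord ξ₂ < min (v.ord ξ₁ + v.ord ξ₂) (v.ord w) := lt_min (by linarith) hk2
  have hA : v.ge (min (v.ord ξ₁ + v.ord ξ₂) (v.ord w)) (ξ₁ * ξ₂ - w) :=
    (hs.mono hμ1).sub (ge_of_ord hμ2)
  have hB : v.ge (min (v.ord ξ₁ + v.ord ξ₂) (v.ord w)) (ξ₁ * ξ₂ + w) :=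
    (hs.mono hμ1).add (ge_of_ord hμ2)
  have ht : v.ge (v.ord ξ₁) (ξ₁ + ξ₂) := (ge_of_ord le_rfl : v.ge _ ξ₁).add (ge_of_ord h12)
  have hN := H.N_eq hs0 ht (hB.gt_of_lt hμ3) (by rw [hse])
  have hS := H.S_eq hN.1
  rw [hN.2, hse] at hS
  have hPi := H.Pi_ge hA
  have hPigt : v.gt (2 * v.ord (ξp + ξm)) (ξp * ξm) := hPi.gt_of_lt (by rw [hS.2]; linarith)
  -- the common analysis of the two roots
  have aux : ∀ z z' : K, z * z' = ξp * ξm → z ≠ 0 → v.ord z = v.ord (ξp + ξm) →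
      (z' ≠ 0 → v.ord z' = v.ord (ξp * ξm) - v.ord (ξp + ξm)) →
      kap v (v.ord w) z = v.ord ξ₂ - v.ord ξ₁ ∧
        kap v (v.ord w) z' = refl (v.ord w) (v.ord ξ₁ + v.ord ξ₂) := by
    intro z z' hprod hz hzo hz'
    constructor
    · rcases h12.lt_or_eq with hlt | heq
      · have hDe := (sub_eq_of_gt h1 (gt_of_ord hlt : v.gt (v.ord ξ₁) ξ₂)).2
        rw [kap_of_mem v hz (by rw [hzo, hS.2, hDe]; linarith) (by rw [hzo, hS.2, hDe]; linarith),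
          hzo, hS.2, hDe]
        ring
      · rw [kap_of_le_zero v hω.le hz (by rw [hzo, hS.2]; linarith)]
        linarith
    · rcases lt_trichotomy (v.ord ξ₁ + v.ord ξ₂) (v.ord w) with hlt | heq | hgt
      · have hwgt : v.gt (v.ord (ξ₁ * ξ₂)) w := gt_of_ord (by rw [hse]; exact hlt)
        have hAe := sub_eq_of_gt hs0 hwgt
        have hPie := H.Pi_eq hAe.1
        rw [hAe.2, hse] at hPie
        have hz'0 : z' ≠ 0 := right_ne_zero_of_mul (hprod ▸ hPie.1)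
        have hz'o := hz' hz'0
        rw [hPie.2, hS.2] at hz'o
        rw [kap_of_mem v hz'0 (by rw [hz'o]; linarith) (by rw [hz'o]; linarith), hz'o,
          refl_eq_left hlt.le]
        ring
      · have hge : v.ge (v.ord w) z' := by
          intro hz'0
          have hPi0 : ξp * ξm ≠ 0 := hprod ▸ mul_ne_zero hz hz'0
          have h3 := hPi hPi0
          rw [heq, min_self] at h3
          rw [hz' hz'0, hS.2]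
          linarith
        rw [kap_of_ge v hω.le hge, refl_eq_left heq.le, heq]
      · have hsgt : v.gt (v.ord w) (ξ₁ * ξ₂) := gt_of_ord (by rw [hse]; exact hgt)
        have hAe := sub_eq_of_gt' H.w_ne hsgt
        have hPie := H.Pi_eq hAe.1
        rw [hAe.2] at hPie
        have hz'0 : z' ≠ 0 := right_ne_zero_of_mul (hprod ▸ hPie.1)
        have hz'o := hz' hz'0
        rw [hPie.2, hS.2] at hz'o
        rw [kap_of_mem v hz'0 (by rw [hz'o]; linarith) (by rw [hz'o]; linarith), hz'o,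
          refl_eq_right hgt.le]
        ring
  have hκ1 : kap v (v.ord w) ξ₁ = v.ord ξ₁ := kap_of_mem v h1 hk1.le (by linarith)
  have hκ2 : kap v (v.ord w) ξ₂ = v.ord ξ₂ := kap_of_mem v h2 (by linarith) hk2.le
  have habs : |v.ord ξ₁ - v.ord ξ₂| = v.ord ξ₂ - v.ord ξ₁ := by
    rw [abs_of_nonpos (by linarith)]; ring
  unfold NodeConcl
  rw [hκ1, hκ2, habs]
  rcases newton_split hS.1 hPigt with ⟨⟨a0, ao⟩, a'⟩ | ⟨⟨a0, ao⟩, a'⟩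
  · right
    obtain ⟨e1, e2⟩ := aux ξp ξm rfl a0 ao a'
    exact ⟨e2, e1⟩
  · left
    obtain ⟨e1, e2⟩ := aux ξm ξp (mul_comm _ _) a0 ao a'
    exact ⟨e2, e1⟩

end NodeHyp

end Fermat.Agent.S05

namespace Fermat.Agent.S05

open RealOrd

variable {K : Type*} [Field K]

namespace NodeHyp

variable {v : RealOrd K} {b w ξ₁ ξ₂ ξp ξm : K}

lemma concl_aux (H : NodeHyp v b w ξ₁ ξ₂ ξp ξm) (h1 : ξ₁ ≠ 0) (hge : v.ge (v.ord ξ₁) ξ₂) :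
    NodeConcl v w ξ₁ ξ₂ ξp ξm := by
  by_cases hb : v.ge (v.ord w) ξ₂
  · rcases le_or_gt (v.ord ξ₁) 0 with hk | hk
    · exact H.leaf_b_neg h1 hk hb
    · rcases lt_or_ge (v.ord ξ₁) (v.ord w) with hk' | hk'
      · exact H.leaf_b_mid h1 hk hk' hb
      · exact H.leaf_b_top h1 hk' hb
  · have h2 : ξ₂ ≠ 0 := by
      rintro rfl
      exact hb (ge_zero _)
    have hk2 : v.ord ξ₂ < v.ord w := by
      by_contra h
      exact hb (ge_of_ord (not_lt.mp h))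
    have h12 := hge h2
    rcases le_or_gt (v.ord ξ₂) 0 with hk | hk
    · exact H.leaf_a_neg h1 h2 h12 hk
    · rcases le_or_gt (v.ord ξ₁) 0 with hk1 | hk1
      · exact H.leaf_a_mid h1 h2 hk1 hk hk2
      · exact H.leaf_a_pos h1 h2 hk1 h12 hk2

/-- **Claim (C)**: the clamped orders of `x(P ± Q)` are `refl (κ₁ + κ₂)` and `|κ₁ - κ₂|`. -/
theorem concl (H : NodeHyp v b w ξ₁ ξ₂ ξp ξm) : NodeConcl v w ξ₁ ξ₂ ξp ξm := by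
  by_cases h1 : ξ₁ = 0
  · have h2 : ξ₂ ≠ 0 := fun h => H.ne (h1.trans h.symm)
    refine NodeConcl.symm (H.symm.concl_aux h2 ?_)
    rw [h1]
    exact ge_zero _
  by_cases h2 : ξ₂ = 0
  · refine H.concl_aux h1 ?_
    rw [h2]
    exact ge_zero _
  rcases le_total (v.ord ξ₁) (v.ord ξ₂) with h | h
  · exact H.concl_aux h1 (ge_of_ord h)
  · exact NodeConcl.symm (H.symm.concl_aux h2 (ge_of_ord h))

end NodeHyp

end Fermat.Agent.S05
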